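/-
S41 / block [PD], part (a) (helper3; design: helper17, board #1239).

Pure algebra of a "dessin": a finite set `X` with two permutations `σ` (`σ ^ 2 = 1`) and
`τ` (`τ ^ 3 = 1`) such that every function invariant under both is constant
(for `X = Γ \ PSL₂(ℤ)` this is the right action of the standard generators).
`V := X → ℤ` with the standard form `⬝ᵥ`; a permutation `g` acts by `(op g v) x = v (g x)`.

* `W`    : `V^σ + V^τ`                      (coboundaries; saturated in `V`)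
* `Z`    : `(σ-1)V ∩ (τ-1)V`                ("homology" of the spine)
* `Npar` : `{v | (τ-1)v ∈ (τσ-1)V}`          (parabolic classes, `= Ann (σ-1)V^{στ}`)
* `B`    : the Poincaré pairing on `Npar`, trivial on `W`, antisymmetric,
           non-degenerate modulo every `n`, natural for equivariant maps.

Mathlib only.
-/
import Mathlib

set_option autoImplicit false
set_option linter.unusedSectionVars false
set_option linter.unusedVariables false

open Finset BigOperators Matrix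

namespace Fermat.Agent.S41.PD.Dessin

variable {X : Type*} [Fintype X]

/-! ### Permutation operators -/

/-- `(op g v) x = v (g x)`. -/
def op (g : Equiv.Perm X) : (X → ℤ) →ₗ[ℤ] (X → ℤ) := LinearMap.funLeft ℤ ℤ g

@[simp] theorem op_apply (g : Equiv.Perm X) (v : X → ℤ) (x : X) : op g v x = v (g x) := rfl

@[simp] theorem op_one (v : X → ℤ) : op (1 : Equiv.Perm X) v = v := rfl

theorem op_op (g h : Equiv.Perm X) (v : X → ℤ) : op g (op h v) = op (h * g) v := rfl

@[simp] theorem op_inv_op (g : Equiv.Perm X) (v : X → ℤ) : op g⁻¹ (op g v) = v := by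
  ext x; simp

@[simp] theorem op_op_inv (g : Equiv.Perm X) (v : X → ℤ) : op g (op g⁻¹ v) = v := by
  ext x; simp

theorem op_pow (g : Equiv.Perm X) (j : ℕ) (v : X → ℤ) : op (g ^ j) v = ((op g) ^ j) v := by
  induction j generalizing v with
  | zero => simp
  | succ j ih =>
    rw [pow_succ, pow_succ, Module.End.mul_apply, ← ih, op_op]
    congr 1
    exact (pow_mul_comm' g j).symm ▸ rfl

theorem dot_op_op (g : Equiv.Perm X) (v w : X → ℤ) : op g v ⬝ᵥ op g w = v ⬝ᵥ w := by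
  unfold dotProduct
  exact Equiv.sum_comp g (fun x => v x * w x)

theorem dot_op_left (g : Equiv.Perm X) (v w : X → ℤ) : op g v ⬝ᵥ w = v ⬝ᵥ op g⁻¹ w := by
  rw [← dot_op_op g⁻¹ (op g v) w, op_inv_op]

theorem dot_op_right (g : Equiv.Perm X) (v w : X → ℤ) : v ⬝ᵥ op g w = op g⁻¹ v ⬝ᵥ w := by
  rw [dot_op_left, inv_inv]

theorem eq_zero_of_dot_eq_zero [DecidableEq X] (v : X → ℤ) (h : ∀ e : X → ℤ, v ⬝ᵥ e = 0) :
    v = 0 := by
  ext x
  have := h (Pi.single x 1)
  simpa using this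


/-! ### (C): `(V^g)^⊥ = (g-1)V` for every permutation `g` -/

theorem op_norm_invariant (g : Equiv.Perm X) (n : ℕ) (hgn : g ^ n = 1) (e' : X → ℤ) :
    op g (∑ j ∈ range n, op (g ^ j) e') = ∑ j ∈ range n, op (g ^ j) e' := by
  rw [map_sum]
  have h1 : ∀ j, op g (op (g ^ j) e') = op (g ^ (j + 1)) e' := fun j => by
    rw [op_op, pow_succ]
  simp only [h1]
  have h2 := Finset.sum_range_succ (fun j => op (g ^ j) e') n
  have h3 := Finset.sum_range_succ' (fun j => op (g ^ j) e') n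
  simp only [hgn, pow_zero] at h2 h3
  rw [h2] at h3
  exact (add_right_cancel h3).symm

theorem exists_eq_op_sub [DecidableEq X] (g : Equiv.Perm X) (z : X → ℤ)
    (hz : ∀ e : X → ℤ, op g e = e → z ⬝ᵥ e = 0) : ∃ y : X → ℤ, z = op g y - y := by
  classical
  set n := orderOf g with hn
  have hnpos : 0 < n := orderOf_pos g
  have hgn : g ^ n = 1 := pow_orderOf_eq_one g
  have hkn : g⁻¹ ^ n = 1 := by rw [inv_pow, hgn, inv_one]
  -- the norm of `z` vanishes
  have hM : ∑ j ∈ range n, op (g ^ j) z = 0 := by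
    apply eq_zero_of_dot_eq_zero
    intro e'
    have hinv : op g (∑ j ∈ range n, op (g⁻¹ ^ j) e') = ∑ j ∈ range n, op (g⁻¹ ^ j) e' := by
      have := op_norm_invariant g⁻¹ n hkn e'
      have h2 := congrArg (op g) this
      rw [show op g (op g⁻¹ (∑ j ∈ range n, op (g⁻¹ ^ j) e')) = ∑ j ∈ range n, op (g⁻¹ ^ j) e' from
        op_op_inv g _] at h2
      exact h2.symm
    have h0 := hz _ hinv
    rw [dotProduct_sum] at h0
    rw [sum_dotProduct]
    rw [← h0]
    refine Finset.sum_congr rfl fun j _ => ?_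
    rw [dot_op_right, inv_pow, inv_inv]
  -- partial sums
  have hA : ∀ j : ℕ, op (g ^ j) z - z
      = op g (∑ i ∈ range j, op (g ^ i) z) - ∑ i ∈ range j, op (g ^ i) z := by
    intro j
    induction j with
    | zero => simp
    | succ j ih =>
      rw [Finset.sum_range_succ, map_add, op_op, ← pow_succ]
      have : op (g ^ (j + 1)) z - z = (op (g ^ j) z - z) + (op (g ^ (j + 1)) z - op (g ^ j) z) := by
        abel
      rw [this, ih]; abel
  set y₀ : X → ℤ := ∑ j ∈ range n, ∑ i ∈ range j, op (g ^ i) z with hy₀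
  have hy : op g y₀ - y₀ = -((n : ℤ) • z) := by
    have : op g y₀ - y₀ = ∑ j ∈ range n, (op (g ^ j) z - z) := by
      rw [hy₀, map_sum, ← Finset.sum_sub_distrib]
      exact Finset.sum_congr rfl fun j _ => (hA j).symm
    rw [this, Finset.sum_sub_distrib, hM, Finset.sum_const, Finset.card_range, zero_sub]
    simp
  -- divide by `n`
  have hnZ : (n : ℤ) ≠ 0 := by exact_mod_cast hnpos.ne'
  have hpt : ∀ x, y₀ (g x) - y₀ x = -((n : ℤ) * z x) := by
    intro x
    have := congrFun hy x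
    simpa using this
  have hres : ∀ x, y₀ (g x) % (n : ℤ) = y₀ x % (n : ℤ) := by
    intro x
    exact Int.emod_eq_emod_iff_emod_sub_eq_zero.2 (by
      rw [hpt x]; simp)
  refine ⟨fun x => -(y₀ x / (n : ℤ)), ?_⟩
  ext x
  simp only [Pi.sub_apply, op_apply]
  have h1 := Int.emod_add_mul_ediv (y₀ (g x)) (n : ℤ)
  have h2 := Int.emod_add_mul_ediv (y₀ x) (n : ℤ)
  have h3 := hpt x
  have h4 := hres x
  have : (n : ℤ) * (z x) = (n : ℤ) * (-(y₀ (g x) / (n : ℤ)) - -(y₀ x / (n : ℤ))) := by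
    linarith
  exact mul_left_cancel₀ hnZ this


/-! ### Dessins -/

section Main

variable [DecidableEq X] (σ τ : Equiv.Perm X)

/-- The axioms: `σ² = 1`, `τ³ = 1`, and `⟨σ, τ⟩` is transitive (in functional form). -/
structure IsDessin : Prop where
  sq : σ * σ = 1
  cube : τ * τ * τ = 1
  trans : ∀ f : X → ℤ, (∀ x, f (σ x) = f x) → (∀ x, f (τ x) = f x) → ∀ x y, f x = f y

/-- `V^σ + V^τ`. -/
def W : Submodule ℤ (X → ℤ) :=
  LinearMap.ker (op σ - LinearMap.id) ⊔ LinearMap.ker (op τ - LinearMap.id)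

theorem mem_W {v : X → ℤ} :
    v ∈ W σ τ ↔ ∃ a b : X → ℤ, op σ a = a ∧ op τ b = b ∧ v = a + b := by
  unfold W
  rw [Submodule.mem_sup]
  constructor
  · rintro ⟨a, ha, b, hb, rfl⟩
    refine ⟨a, b, ?_, ?_, rfl⟩
    · simpa [sub_eq_zero] using ha
    · simpa [sub_eq_zero] using hb
  · rintro ⟨a, b, ha, hb, rfl⟩
    exact ⟨a, by simp [ha], b, by simp [hb], rfl⟩

/-- `(σ-1)V ∩ (τ-1)V`. -/
def Z : Submodule ℤ (X → ℤ) :=
  LinearMap.range (op σ - LinearMap.id) ⊓ LinearMap.range (op τ - LinearMap.id)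

theorem mem_Z {z : X → ℤ} :
    z ∈ Z σ τ ↔ (∃ y' : X → ℤ, z = op σ y' - y') ∧ ∃ y : X → ℤ, z = op τ y - y := by
  unfold Z
  rw [Submodule.mem_inf, LinearMap.mem_range, LinearMap.mem_range]
  constructor
  · rintro ⟨⟨y', hy'⟩, ⟨y, hy⟩⟩
    exact ⟨⟨y', by simpa using hy'.symm⟩, ⟨y, by simpa using hy.symm⟩⟩
  · rintro ⟨⟨y', hy'⟩, ⟨y, hy⟩⟩
    exact ⟨⟨y', by simpa using hy'.symm⟩, ⟨y, by simpa using hy.symm⟩⟩

/-- The parabolic classes: `(τ-1)v ∈ (τσ-1)V`. -/
def Npar : Submodule ℤ (X → ℤ) where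
  carrier := {v | ∃ w : X → ℤ, op τ v - v = op τ (op σ w) - w}
  add_mem' := by
    rintro v₁ v₂ ⟨w₁, h₁⟩ ⟨w₂, h₂⟩
    refine ⟨w₁ + w₂, ?_⟩
    simp only [map_add]
    rw [add_sub_add_comm, h₁, h₂]; abel
  zero_mem' := ⟨0, by simp⟩
  smul_mem' := by
    rintro c v ⟨w, h⟩
    refine ⟨c • w, ?_⟩
    simp only [map_smul]
    rw [← smul_sub, h, smul_sub]

theorem mem_Npar {v : X → ℤ} :
    v ∈ Npar σ τ ↔ ∃ w : X → ℤ, op τ v - v = op τ (op σ w) - w := Iff.rfl

variable {σ τ}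

namespace IsDessin

variable (h : IsDessin σ τ)
include h

theorem S_S (v : X → ℤ) : op σ (op σ v) = v := by rw [op_op, h.sq, op_one]

theorem U_U_U (v : X → ℤ) : op τ (op τ (op τ v)) = v := by
  rw [op_op, op_op, ← mul_assoc, h.cube, op_one]

theorem inv_sigma : σ⁻¹ = σ := inv_eq_of_mul_eq_one_left h.sq

theorem inv_tau : τ⁻¹ = τ * τ := inv_eq_of_mul_eq_one_left h.cube

theorem dot_S (v w : X → ℤ) : op σ v ⬝ᵥ w = v ⬝ᵥ op σ w := by
  rw [dot_op_left, h.inv_sigma]

theorem dot_U (v w : X → ℤ) : op τ v ⬝ᵥ w = v ⬝ᵥ op τ (op τ w) := by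
  rw [dot_op_left, h.inv_tau, ← op_op]

/-- (K2) -/
theorem exists_S_sub (z : X → ℤ) (hz : op σ z + z = 0) : ∃ y' : X → ℤ, z = op σ y' - y' := by
  apply exists_eq_op_sub
  intro e he
  have h1 : (op σ z + z) ⬝ᵥ e = 0 := by rw [hz, zero_dotProduct]
  rw [add_dotProduct, h.dot_S, he] at h1
  linarith

/-- (K3) -/
theorem exists_U_sub (z : X → ℤ) (hz : op τ (op τ z) + op τ z + z = 0) :
    ∃ y : X → ℤ, z = op τ y - y := by
  apply exists_eq_op_sub
  intro e he
  have h1 : (op τ (op τ z) + op τ z + z) ⬝ᵥ e = 0 := by rw [hz, zero_dotProduct]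
  have he2 : op τ (op τ e) = e := by rw [he, he]
  have h2 : op τ z ⬝ᵥ e = z ⬝ᵥ e := by rw [h.dot_U, he2]
  have h3 : op τ (op τ z) ⬝ᵥ e = z ⬝ᵥ e := by rw [h.dot_U, he2, h2]
  rw [add_dotProduct, add_dotProduct, h3, h2] at h1
  linarith

/-- `V^σ + V^τ` is saturated. -/
theorem W_saturated (n : ℤ) (hn : n ≠ 0) (v : X → ℤ) (hv : n • v ∈ W σ τ) : v ∈ W σ τ := by
  rw [mem_W] at hv ⊢
  obtain ⟨a, b, ha, hb, hab⟩ := hv
  have hab' : ∀ x, n * v x = a x + b x := fun x => by simpa using congrFun hab x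
  have ha' : ∀ x, a (σ x) = a x := fun x => by simpa using congrFun ha x
  have hb' : ∀ x, b (τ x) = b x := fun x => by simpa using congrFun hb x
  -- the residue of `a` is invariant
  have hr1 : ∀ x, a (σ x) % n = a x % n := fun x => by rw [ha']
  have hr2 : ∀ x, a (τ x) % n = a x % n := fun x => by
    apply Int.emod_eq_emod_iff_emod_sub_eq_zero.2
    have : a (τ x) - a x = n * (v (τ x) - v x) := by
      have h1 := hab' (τ x); have h2 := hab' x; rw [hb'] at h1; linarith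
    rw [this]; simp
  have hconst := h.trans (fun x => a x % n) hr1 hr2
  by_cases hX : Nonempty X
  · obtain ⟨x₀⟩ := hX
    set c : ℤ := a x₀ % n with hc
    have hdiv : ∀ x, n ∣ a x - c := fun x => by
      have : a x % n = c := hconst x x₀
      rw [← this]
      exact Int.dvd_self_sub_emod
    refine ⟨fun x => (a x - c) / n, fun x => v x - (a x - c) / n, ?_, ?_, ?_⟩
    · ext x; simp only [op_apply]; rw [ha']
    · ext x
      simp only [op_apply]
      have h1 := Int.ediv_mul_cancel (hdiv (τ x))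
      have h2 := Int.ediv_mul_cancel (hdiv x)
      have h3 := hab' (τ x); have h4 := hab' x; rw [hb'] at h3
      have : n * (v (τ x) - (a (τ x) - c) / n) = n * (v x - (a x - c) / n) := by
        rw [mul_sub, mul_sub, mul_comm n ((a (τ x) - c) / n), mul_comm n ((a x - c) / n), h1, h2]
        linarith
      exact mul_left_cancel₀ hn this
    · ext x; simp
  · refine ⟨0, 0, by simp, by simp, ?_⟩
    ext x; exact absurd ⟨x⟩ hX

theorem W_le_Npar : W σ τ ≤ Npar σ τ := by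
  intro v hv
  obtain ⟨a, b, ha, hb, rfl⟩ := (mem_W σ τ).1 hv
  refine ⟨a, ?_⟩
  rw [map_add, ha, hb]; abel

/-- (L1, ⇒) parabolic classes annihilate `(σ-1)V^{στ}`. -/
theorem dot_eq_zero_of_mem_Npar {u : X → ℤ} (hu : u ∈ Npar σ τ) (e : X → ℤ)
    (he : op σ (op τ e) = e) : (op σ u - u) ⬝ᵥ e = 0 := by
  obtain ⟨w, hw⟩ := hu
  -- `q = u - S w`, `S U q - q = S u - u`
  set q := u - op σ w with hq
  have hUq : op τ q = u - w := by
    rw [hq, map_sub]
    have : op τ u - op τ (op σ w) = u - w := by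
      have h1 : op τ u - op τ (op σ w) - (u - w) = (op τ u - u) - (op τ (op σ w) - w) := by abel
      exact sub_eq_zero.1 (by rw [h1, hw, sub_self])
    exact this
  have hkey : op σ u - u = op σ (op τ q) - q := by
    rw [hUq, hq, map_sub]; abel
  have hUe : op τ e = op σ e := by
    have := congrArg (op σ) he
    rw [h.S_S] at this; exact this
  rw [hkey, sub_dotProduct, h.dot_S, h.dot_U, ← hUe]
  have : op τ (op τ (op τ e)) = e := h.U_U_U e
  rw [this, sub_self]

/-- (L1, ⇐) -/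
theorem mem_Npar_of_dot_eq_zero {v : X → ℤ}
    (hv : ∀ e : X → ℤ, op σ (op τ e) = e → (op σ v - v) ⬝ᵥ e = 0) : v ∈ Npar σ τ := by
  obtain ⟨q, hq⟩ := exists_eq_op_sub (τ * σ) (op σ v - v) (fun e he => hv e (by rw [op_op]; exact he))
  rw [← op_op] at hq
  -- witness `w = S (v - q)`
  refine ⟨op σ (v - q), ?_⟩
  rw [h.S_S]
  -- from `S v - v = S U q - q`, apply `S`
  have h1 := congrArg (op σ) hq
  simp only [map_sub, h.S_S] at h1
  -- h1 : v - S v = U q - S q
  simp only [map_sub]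
  have h2 : op τ v - v - (op τ v - op τ q - (op σ v - op σ q)) = 0 := by
    have : op τ v - v - (op τ v - op τ q - (op σ v - op σ q)) = (op τ q - op σ q) - (v - op σ v) := by
      abel
    rw [this, h1, sub_self]
  exact sub_eq_zero.1 h2

theorem Npar_saturated (n : ℤ) (hn : n ≠ 0) (v : X → ℤ) (hv : n • v ∈ Npar σ τ) :
    v ∈ Npar σ τ := by
  apply h.mem_Npar_of_dot_eq_zero
  intro e he
  have := h.dot_eq_zero_of_mem_Npar hv e he
  rw [map_smul, ← smul_sub, smul_dotProduct, smul_eq_mul] at this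
  exact (mul_eq_zero.1 this).resolve_left hn

end IsDessin

end Main


/-! ### The Poincaré pairing -/

section Pairing

variable [DecidableEq X] {σ τ : Equiv.Perm X}

/-- `dS σ u = σ u - u` -/
def dS (σ : Equiv.Perm X) : (X → ℤ) →ₗ[ℤ] (X → ℤ) := op σ - LinearMap.id

@[simp] theorem dS_apply (σ : Equiv.Perm X) (u : X → ℤ) : dS σ u = op σ u - u := rfl

/-- a chosen witness `w` with `(τ-1)v = (τσ-1)w` -/
noncomputable def wit (v : Npar σ τ) : X → ℤ := Classical.choose v.2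

theorem wit_spec (v : Npar σ τ) :
    dS τ v = op τ (op σ (wit v)) - wit v := Classical.choose_spec v.2

/-- the pairing on representatives: `B(v,u) = ⟨(σ-1)u, w_v⟩` -/
noncomputable def pair (v u : Npar σ τ) : ℤ := dS σ u ⬝ᵥ wit v

namespace IsDessin

variable (h : IsDessin σ τ)
include h

/-- independence of the witness -/
theorem pair_eq (v u : Npar σ τ) (w : X → ℤ)
    (hw : dS τ v = op τ (op σ w) - w) :
    pair v u = dS σ u ⬝ᵥ w := by
  unfold pair
  set d := wit v - w with hd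
  have hdT : op τ (op σ d) = d := by
    have h1 := wit_spec v
    rw [hw] at h1
    rw [hd, map_sub, map_sub]
    have : op τ (op σ (wit v)) - op τ (op σ w) - (wit v - w)
        = (op τ (op σ (wit v)) - wit v) - (op τ (op σ w) - w) := by abel
    exact sub_eq_zero.1 (by rw [this, h1, sub_self])
  -- `e = S d` is `S U`-invariant
  have he : op σ (op τ (op σ d)) = op σ d := by rw [hdT]
  have h0 := h.dot_eq_zero_of_mem_Npar u.2 (op σ d) he
  have h1 : dS σ u ⬝ᵥ d = -(dS σ u ⬝ᵥ op σ d) := by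
    conv_lhs => rw [← h.S_S d]
    rw [← h.dot_S, dS_apply, map_sub, h.S_S, ← neg_sub, neg_dotProduct]
  have h2 : dS σ u ⬝ᵥ wit v = dS σ u ⬝ᵥ w + dS σ u ⬝ᵥ d := by
    rw [← dotProduct_add, hd]; congr 1; abel
  rw [h2, h1]
  rw [dS_apply, h0]; simp

theorem pair_add_left (v₁ v₂ u : Npar σ τ) : pair (v₁ + v₂) u = pair v₁ u + pair v₂ u := by
  rw [h.pair_eq (v₁ + v₂) u (wit v₁ + wit v₂), dotProduct_add]; rfl
  simp only [Submodule.coe_add, map_add]
  rw [wit_spec v₁, wit_spec v₂]; abel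

theorem pair_smul_left (c : ℤ) (v u : Npar σ τ) : pair (c • v) u = c * pair v u := by
  rw [h.pair_eq (c • v) u (c • wit v), dotProduct_smul]; rfl
  simp only [Submodule.coe_smul, map_smul]
  rw [wit_spec v, smul_sub]

theorem pair_add_right (v u₁ u₂ : Npar σ τ) : pair v (u₁ + u₂) = pair v u₁ + pair v u₂ := by
  unfold pair
  rw [← add_dotProduct]
  congr 1
  simp only [Submodule.coe_add, map_add]

theorem pair_smul_right (c : ℤ) (v u : Npar σ τ) : pair v (c • u) = c * pair v u := by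
  unfold pair
  simp only [Submodule.coe_smul, map_smul]
  rw [smul_dotProduct, smul_eq_mul]

/-- the bilinear form -/
noncomputable def B : Npar σ τ →ₗ[ℤ] Npar σ τ →ₗ[ℤ] ℤ :=
  LinearMap.mk₂ ℤ pair h.pair_add_left (fun c v u => by rw [h.pair_smul_left, smul_eq_mul])
    h.pair_add_right (fun c v u => by rw [h.pair_smul_right, smul_eq_mul])

@[simp] theorem B_apply (v u : Npar σ τ) : h.B v u = pair v u := rfl

/-- antisymmetry -/
theorem pair_antisymm (v u : Npar σ τ) : pair v u = -pair u v := by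
  unfold pair
  set w := wit v
  set w' := wit u
  have hv := wit_spec v
  have hu := wit_spec u
  set v₀ : X → ℤ := (v : X → ℤ)
  set u₀ : X → ℤ := (u : X → ℤ)
  simp only [dS_apply] at hv hu ⊢
  -- `U (v - S w) = v - w`, `U (u - S w') = u - w'`
  have hb : op τ (v₀ - op σ w) = v₀ - w := by
    rw [map_sub]
    have : op τ v₀ - op τ (op σ w) - (v₀ - w) = (op τ v₀ - v₀) - (op τ (op σ w) - w) := by abel
    exact sub_eq_zero.1 (by rw [this, hv, sub_self])
  have hb' : op τ (u₀ - op σ w') = u₀ - w' := by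
    rw [map_sub]
    have : op τ u₀ - op τ (op σ w') - (u₀ - w') = (op τ u₀ - u₀) - (op τ (op σ w') - w') := by abel
    exact sub_eq_zero.1 (by rw [this, hu, sub_self])
  have key := dot_op_op τ (u₀ - op σ w') (v₀ - op σ w)
  rw [hb, hb'] at key
  simp only [sub_dotProduct, dotProduct_sub] at key ⊢
  have e1 : op σ w' ⬝ᵥ op σ w = w' ⬝ᵥ w := dot_op_op σ w' w
  have e2 : u₀ ⬝ᵥ op σ w = op σ u₀ ⬝ᵥ w := (h.dot_S _ _).symm
  have e3 : op σ w' ⬝ᵥ v₀ = w' ⬝ᵥ op σ v₀ := h.dot_S _ _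
  have e4 : op σ v₀ ⬝ᵥ w' = w' ⬝ᵥ op σ v₀ := dotProduct_comm _ _
  have e5 : v₀ ⬝ᵥ w' = w' ⬝ᵥ v₀ := dotProduct_comm _ _
  rw [e1, e2, e3] at key
  rw [e4, e5]
  linarith

/-- `B(v,u) = 0` for `v ∈ W`. -/
theorem pair_eq_zero_of_left_mem_W (v u : Npar σ τ) (hv : (v : X → ℤ) ∈ W σ τ) : pair v u = 0 := by
  obtain ⟨a, b, ha, hb, hab⟩ := (mem_W σ τ).1 hv
  rw [h.pair_eq v u a (by rw [dS_apply, hab, map_add, ha, hb]; abel)]
  rw [dS_apply, sub_dotProduct, h.dot_S, ha, sub_self]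

theorem pair_eq_zero_of_right_mem_W (v u : Npar σ τ) (hu : (u : X → ℤ) ∈ W σ τ) : pair v u = 0 := by
  rw [h.pair_antisymm, h.pair_eq_zero_of_left_mem_W u v hu, neg_zero]

/-- (D) the class `y - y'` attached to `z = (τ-1)y = (σ-1)y' ∈ Z`. -/
theorem sub_mem_Npar (y y' : X → ℤ) (hz : op τ y - y = op σ y' - y') : y - y' ∈ Npar σ τ := by
  refine ⟨-op σ y', ?_⟩
  rw [map_neg, map_neg, h.S_S, map_sub]
  have : op τ y - op τ y' - (y - y') = (op τ y - y) - (op τ y' - y') := by abel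
  rw [this, hz]; abel

/-- (F1) `B(v, D z) = -⟨z, v⟩`. -/
theorem pair_D (v : Npar σ τ) (y y' : X → ℤ) (hz : op τ y - y = op σ y' - y') :
    pair v ⟨y - y', h.sub_mem_Npar y y' hz⟩ = -((op σ y' - y') ⬝ᵥ (v : X → ℤ)) := by
  rw [h.pair_antisymm]
  rw [h.pair_eq ⟨y - y', h.sub_mem_Npar y y' hz⟩ v (-op σ y') (by
    show op τ (y - y') - (y - y') = _
    rw [map_neg, map_neg, h.S_S, map_sub]
    have : op τ y - op τ y' - (y - y') = (op τ y - y) - (op τ y' - y') := by abel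
    rw [this, hz]; abel)]
  set v₀ : X → ℤ := (v : X → ℤ)
  rw [dS_apply, dotProduct_neg, neg_neg, sub_dotProduct, sub_dotProduct, dot_op_op, h.dot_S]
  rw [dotProduct_comm v₀ y', dotProduct_comm v₀ (op σ y'), h.dot_S]
  ring

/-- (F2) perfectness of `V/W × Z → ℤ`, in the form used below. -/
theorem exists_sub_smul_mem_W (n : ℤ) (hn : n ≠ 0) (v : X → ℤ)
    (hv : ∀ z ∈ Z σ τ, n ∣ z ⬝ᵥ v) : ∃ v'' : X → ℤ, v - n • v'' ∈ W σ τ := by
  classical
  have : Module.IsTorsionFree ℤ ((X → ℤ) ⧸ W σ τ) := by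
    apply Module.IsTorsionFree.of_smul_eq_zero
    intro r m hrm
    by_cases hr : r = 0
    · exact Or.inl hr
    · right
      obtain ⟨v', rfl⟩ := Submodule.Quotient.mk_surjective _ m
      rw [← Submodule.Quotient.mk_smul, Submodule.Quotient.mk_eq_zero] at hrm
      exact (Submodule.Quotient.mk_eq_zero _).2 (h.W_saturated r hr v' hrm)
  obtain ⟨k, b⟩ := Module.basisOfFiniteTypeTorsionFree' (R := ℤ) (M := (X → ℤ) ⧸ W σ τ)
  set f : Fin k → ((X → ℤ) →ₗ[ℤ] ℤ) := fun i => (b.coord i) ∘ₗ (W σ τ).mkQ with hf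
  set z : Fin k → X → ℤ := fun i x => f i (fun j => if x = j then 1 else 0) with hz
  have hfz : ∀ i u, f i u = u ⬝ᵥ z i := by
    intro i u
    rw [LinearMap.pi_apply_eq_sum_univ (f i) u]
    rfl
  have hfW : ∀ i, ∀ e ∈ W σ τ, f i e = 0 := by
    intro i e he
    simp only [hf, LinearMap.comp_apply, Submodule.mkQ_apply]
    rw [(Submodule.Quotient.mk_eq_zero _).2 he, map_zero]
  have hzZ : ∀ i, z i ∈ Z σ τ := by
    intro i
    rw [mem_Z]
    constructor
    · apply exists_eq_op_sub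
      intro e he
      rw [dotProduct_comm, ← hfz]
      exact hfW i e ((mem_W σ τ).2 ⟨e, 0, he, by simp, by simp⟩)
    · apply exists_eq_op_sub
      intro e he
      rw [dotProduct_comm, ← hfz]
      exact hfW i e ((mem_W σ τ).2 ⟨0, e, by simp, he, by simp⟩)
  have hdiv : ∀ i, n ∣ f i v := fun i => by
    rw [hfz, dotProduct_comm]; exact hv _ (hzZ i)
  choose c hc using hdiv
  obtain ⟨v'', hv''⟩ := Submodule.Quotient.mk_surjective (W σ τ) (∑ i, c i • b i)
  refine ⟨v'', ?_⟩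
  rw [← Submodule.Quotient.mk_eq_zero, Submodule.Quotient.mk_sub, Submodule.Quotient.mk_smul,
    hv'', sub_eq_zero]
  rw [← b.sum_repr (Submodule.Quotient.mk v), Finset.smul_sum]
  refine Finset.sum_congr rfl fun i _ => ?_
  have : b.repr (Submodule.Quotient.mk v) i = f i v := rfl
  rw [this, hc i, mul_smul]

/-- **Non-degeneracy modulo `n`** of the Poincaré pairing on `Npar / W`. -/
theorem nondeg (n : ℤ) (hn : n ≠ 0) (v : Npar σ τ) (hv : ∀ u : Npar σ τ, n ∣ pair v u) :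
    ∃ v' : Npar σ τ, (v : X → ℤ) - n • (v' : X → ℤ) ∈ W σ τ := by
  have h1 : ∀ z ∈ Z σ τ, n ∣ z ⬝ᵥ (v : X → ℤ) := by
    intro z hz
    obtain ⟨⟨y', hy'⟩, ⟨y, hy⟩⟩ := (mem_Z σ τ).1 hz
    have hyy : op τ y - y = op σ y' - y' := by rw [← hy, ← hy']
    have := hv ⟨y - y', h.sub_mem_Npar y y' hyy⟩
    rw [h.pair_D v y y' hyy, ← hy', dvd_neg] at this
    exact this
  obtain ⟨v'', hv''⟩ := h.exists_sub_smul_mem_W n hn v h1
  have h2 : n • v'' ∈ Npar σ τ := by
    have : n • v'' = (v : X → ℤ) - ((v : X → ℤ) - n • v'') := by abel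
    rw [this]
    exact (Npar σ τ).sub_mem v.2 (h.W_le_Npar hv'')
  exact ⟨⟨v'', h.Npar_saturated n hn v'' h2⟩, hv''⟩

end IsDessin

end Pairing

/-! ### Functoriality for equivariant maps -/

section Functoriality

variable [DecidableEq X] {X' : Type*} [Fintype X'] [DecidableEq X']
  {σ τ : Equiv.Perm X} {σ' τ' : Equiv.Perm X'}

/-- pull-back of functions along `pr : X' → X` -/
def pull (pr : X' → X) : (X → ℤ) →ₗ[ℤ] (X' → ℤ) := LinearMap.funLeft ℤ ℤ pr

@[simp] theorem pull_apply (pr : X' → X) (v : X → ℤ) (x' : X') : pull pr v x' = v (pr x') := rfl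

/-- push-forward (sum over the fibres) -/
def push (pr : X' → X) : (X' → ℤ) →ₗ[ℤ] (X → ℤ) where
  toFun v' x := ∑ x', if pr x' = x then v' x' else 0
  map_add' v₁ v₂ := by
    ext x
    simp only [Pi.add_apply]
    rw [← Finset.sum_add_distrib]
    refine Finset.sum_congr rfl fun x' _ => ?_
    split_ifs <;> simp
  map_smul' c v := by
    ext x
    simp only [Pi.smul_apply, smul_eq_mul, RingHom.id_apply, Finset.mul_sum]
    refine Finset.sum_congr rfl fun x' _ => ?_
    split_ifs <;> simp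

theorem push_apply (pr : X' → X) (v' : X' → ℤ) (x : X) :
    push pr v' x = ∑ x', if pr x' = x then v' x' else 0 := rfl

theorem pull_dot (pr : X' → X) (v : X → ℤ) (u' : X' → ℤ) :
    pull pr v ⬝ᵥ u' = v ⬝ᵥ push pr u' := by
  unfold dotProduct
  simp only [pull_apply, push_apply, Finset.mul_sum]
  rw [Finset.sum_comm]
  refine Finset.sum_congr rfl fun x' _ => ?_
  simp

theorem op_pull (pr : X' → X) (g : Equiv.Perm X) (g' : Equiv.Perm X')
    (hpr : ∀ x', pr (g' x') = g (pr x')) (v : X → ℤ) : op g' (pull pr v) = pull pr (op g v) := by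
  ext x'; simp [hpr]

theorem op_push (pr : X' → X) (g : Equiv.Perm X) (g' : Equiv.Perm X')
    (hpr : ∀ x', pr (g' x') = g (pr x')) (v' : X' → ℤ) :
    op g (push pr v') = push pr (op g' v') := by
  ext x
  simp only [op_apply, push_apply]
  rw [← Equiv.sum_comp g' (fun x' => if pr x' = g x then v' x' else 0)]
  refine Finset.sum_congr rfl fun x' _ => ?_
  rw [hpr]
  simp [g.injective.eq_iff]

theorem pull_mem_Npar (pr : X' → X) (hσ : ∀ x', pr (σ' x') = σ (pr x'))
    (hτ : ∀ x', pr (τ' x') = τ (pr x')) {v : X → ℤ} (hv : v ∈ Npar σ τ) :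
    pull pr v ∈ Npar σ' τ' := by
  obtain ⟨w, hw⟩ := hv
  refine ⟨pull pr w, ?_⟩
  rw [op_pull pr τ τ' hτ, op_pull pr σ σ' hσ, op_pull pr τ τ' hτ, ← map_sub, ← map_sub, hw]

theorem push_mem_Npar (pr : X' → X) (hσ : ∀ x', pr (σ' x') = σ (pr x'))
    (hτ : ∀ x', pr (τ' x') = τ (pr x')) {v' : X' → ℤ} (hv : v' ∈ Npar σ' τ') :
    push pr v' ∈ Npar σ τ := by
  obtain ⟨w, hw⟩ := hv
  refine ⟨push pr w, ?_⟩
  rw [op_push pr τ τ' hτ, op_push pr σ σ' hσ, op_push pr τ τ' hτ, ← map_sub, ← map_sub, hw]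

theorem pull_mem_W (pr : X' → X) (hσ : ∀ x', pr (σ' x') = σ (pr x'))
    (hτ : ∀ x', pr (τ' x') = τ (pr x')) {v : X → ℤ} (hv : v ∈ W σ τ) :
    pull pr v ∈ W σ' τ' := by
  obtain ⟨a, b, ha, hb, rfl⟩ := (mem_W σ τ).1 hv
  exact (mem_W σ' τ').2 ⟨pull pr a, pull pr b, by rw [op_pull pr σ σ' hσ, ha],
    by rw [op_pull pr τ τ' hτ, hb], map_add _ _ _⟩

theorem push_mem_W (pr : X' → X) (hσ : ∀ x', pr (σ' x') = σ (pr x'))
    (hτ : ∀ x', pr (τ' x') = τ (pr x')) {v' : X' → ℤ} (hv : v' ∈ W σ' τ') :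
    push pr v' ∈ W σ τ := by
  obtain ⟨a, b, ha, hb, rfl⟩ := (mem_W σ' τ').1 hv
  exact (mem_W σ τ).2 ⟨push pr a, push pr b, by rw [op_push pr σ σ' hσ, ha],
    by rw [op_push pr τ τ' hτ, hb], map_add _ _ _⟩

/-- **Adjointness** of pull-back and push-forward for the Poincaré pairings. -/
theorem pair_pull (h : IsDessin σ τ) (h' : IsDessin σ' τ') (pr : X' → X)
    (hσ : ∀ x', pr (σ' x') = σ (pr x')) (hτ : ∀ x', pr (τ' x') = τ (pr x'))
    (v : Npar σ τ) (u' : Npar σ' τ') :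
    pair ⟨pull pr v, pull_mem_Npar pr hσ hτ v.2⟩ u'
      = pair v ⟨push pr u', push_mem_Npar pr hσ hτ u'.2⟩ := by
  rw [h'.pair_eq ⟨pull pr v, pull_mem_Npar pr hσ hτ v.2⟩ u' (pull pr (wit v)) (by
    show op τ' (pull pr v) - pull pr v = _
    rw [op_pull pr τ τ' hτ, op_pull pr σ σ' hσ, op_pull pr τ τ' hτ, ← map_sub, ← map_sub]
    exact congrArg (pull pr) (wit_spec v))]
  unfold pair
  rw [dotProduct_comm, pull_dot, dotProduct_comm]
  congr 1
  show push pr (op σ' (u' : X' → ℤ) - u') = op σ (push pr u') - push pr u'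
  rw [map_sub, op_push pr σ σ' hσ]

end Functoriality

end Fermat.Agent.S41.PD.Dessin
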