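/-
S41 / block [PD], leaf PD-c4 (helper11): **restriction and corestriction are adjoint for the
Poincaré pairing of the dessin model** (`(P2)` of the [PD] blueprint).

Everything is stated for abstract *Shapiro systems*: a two-group coset system
`S : CosetSys₂ jG jΓ X` (helper2's `Transfer2`) in which the big group `G` (`= SL₂(ℤ)`) acts on the
index set `X` (`= Γ \ G`) and `S.coc g x = γ_{x,g} ∈ Γ`.  For `φ : Γ → ℤ` the Shapiro cochain is
`shp S φ g x = φ (γ_{x,g})`; a function `v : X → ℤ` *represents* `φ` (`IsRep`) if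
`v ≡ y - y'` modulo `W = V^σ + V^τ` with `(τ-1) y = shp φ τ`, `(σ-1) y' = shp φ σ`
(this is `Θ φ = [y - y']` of the blueprint, in relational form).

* `coc_of_rep_eq` : comparison of the cocycles of two coset systems whose representatives are
  related (`T.rep y = jΓ (d y) * S.rep (pr y)`);
* `IsRep.pull` : representatives pull back along such a comparison (restriction, change of
  transversal);
* `IsRep.push_comp` : representatives push forward along `X × ι → X` for the composite system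
  `S.comp Sc` (corestriction);
* `IsRep.sub_mem_W` : uniqueness of representatives modulo `W`;
* `pair_res_cores` : **`B_{X'}(Θ'(res φ), Θ' ψ) = B_X(Θ φ, Θ (cores ψ))`**.
-/
import Mathlib
import Fermat.Agent.P3LR.A.Transfer2
import Fermat.Agent.S41.PD.Dessin

set_option autoImplicit false

open Matrix

namespace Fermat.Agent.S41.PD.Adjoint

open Fermat.Agent.P3LR.A.Transfer2 Fermat.Agent.S41.PD.Dessin

variable {Amb G Gam Del : Type*} [Group Amb] [Group G] [Group Gam] [Group Del]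
variable {jG : G →* Amb} {jΓ : Gam →* Amb} {jΔ : Del →* Amb}
variable {X X' Y ι : Type*}

/-! ### Comparison of cocycles -/

/-- If the representatives of `T` (for `Del`) are `Gam`-multiples of those of `S` (for `Gam`),
`T.rep y = jΓ (d y) * S.rep (pr y)`, then `pr` is equivariant and the cocycles are related by
`f (T.coc g y) = d y * S.coc g (pr y) * (d (T.perm g y))⁻¹`. -/
theorem coc_of_rep_eq (S : CosetSys₂ jG jΓ X) (hS : S.IsInj) (hΓ : Function.Injective jΓ)
    (T : CosetSys₂ jG jΔ Y) (f : Del →* Gam) (hf : ∀ δ : Del, jΓ (f δ) = jΔ δ)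
    (pr : Y → X) (d : Y → Gam) (hrep : ∀ y, T.rep y = jΓ (d y) * S.rep (pr y)) (g : G) (y : Y) :
    S.perm g (pr y) = pr (T.perm g y) ∧
      S.coc g (pr y) = (d y)⁻¹ * f (T.coc g y) * d (T.perm g y) := by
  have key : S.rep (pr y) * jG g =
      jΓ ((d y)⁻¹ * f (T.coc g y) * d (T.perm g y)) * S.rep (pr (T.perm g y)) := by
    have h1 := T.rep_mul g y
    rw [hrep y, hrep (T.perm g y), ← hf] at h1
    have h2 : S.rep (pr y) * jG g = (jΓ (d y))⁻¹ * (jΓ (d y) * S.rep (pr y) * jG g) := by group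
    rw [h2, h1, map_mul, map_mul, map_inv]
    group
  exact ⟨S.perm_eq_of_eq hS key, S.coc_eq_of_eq hS hΓ key⟩

/-! ### Shapiro cochains and representatives -/

section Rep

variable [Fintype X] [DecidableEq X]

/-- the Shapiro cochain `shp S φ g x = φ (γ_{x,g})` -/
def shp (S : CosetSys₂ jG jΓ X) (φ : Additive Gam →+ ℤ) (g : G) : X → ℤ :=
  fun x => φ (Additive.ofMul (S.coc g x))

@[simp] theorem shp_apply (S : CosetSys₂ jG jΓ X) (φ : Additive Gam →+ ℤ) (g : G) (x : X) :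
    shp S φ g x = φ (Additive.ofMul (S.coc g x)) := rfl

/-- `v : X → ℤ` **represents** `φ : Γ → ℤ` in the dessin model attached to the Shapiro system `S`
and the two generators `sg`, `tg` of `G`: `v ≡ y - y'` modulo `W = V^σ + V^τ`, where
`(τ - 1) y = shp φ tg` and `(σ - 1) y' = shp φ sg`. -/
def IsRep (S : CosetSys₂ jG jΓ X) (sg tg : G) (φ : Additive Gam →+ ℤ) (v : X → ℤ) : Prop :=
  ∃ y y' : X → ℤ, op (S.permEquiv tg) y - y = shp S φ tg ∧
    op (S.permEquiv sg) y' - y' = shp S φ sg ∧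
    v - (y - y') ∈ W (S.permEquiv sg) (S.permEquiv tg)

theorem mem_W_of_op_left {σ τ : Equiv.Perm X} {a : X → ℤ} (ha : op σ a = a) : a ∈ W σ τ :=
  (mem_W σ τ).2 ⟨a, 0, ha, by simp, by simp⟩

theorem mem_W_of_op_right {σ τ : Equiv.Perm X} {b : X → ℤ} (hb : op τ b = b) : b ∈ W σ τ :=
  (mem_W σ τ).2 ⟨0, b, by simp, hb, by simp⟩

/-- representatives are unique modulo `W` -/
theorem IsRep.sub_mem_W {S : CosetSys₂ jG jΓ X} {sg tg : G} {φ : Additive Gam →+ ℤ}
    {v₁ v₂ : X → ℤ} (h₁ : IsRep S sg tg φ v₁) (h₂ : IsRep S sg tg φ v₂) :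
    v₁ - v₂ ∈ W (S.permEquiv sg) (S.permEquiv tg) := by
  obtain ⟨y₁, y₁', hy₁, hy₁', hw₁⟩ := h₁
  obtain ⟨y₂, y₂', hy₂, hy₂', hw₂⟩ := h₂
  have ht : op (S.permEquiv tg) (y₁ - y₂) = y₁ - y₂ := by
    rw [map_sub]
    have : op (S.permEquiv tg) y₁ - op (S.permEquiv tg) y₂ - (y₁ - y₂) =
        (op (S.permEquiv tg) y₁ - y₁) - (op (S.permEquiv tg) y₂ - y₂) := by abel
    exact sub_eq_zero.1 (by rw [this, hy₁, hy₂, sub_self])
  have hs : op (S.permEquiv sg) (y₁' - y₂') = y₁' - y₂' := by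
    rw [map_sub]
    have : op (S.permEquiv sg) y₁' - op (S.permEquiv sg) y₂' - (y₁' - y₂') =
        (op (S.permEquiv sg) y₁' - y₁') - (op (S.permEquiv sg) y₂' - y₂') := by abel
    exact sub_eq_zero.1 (by rw [this, hy₁', hy₂', sub_self])
  have e : v₁ - v₂ = (v₁ - (y₁ - y₁')) - (v₂ - (y₂ - y₂')) + ((y₁ - y₂) - (y₁' - y₂')) := by abel
  rw [e]
  exact Submodule.add_mem _ (Submodule.sub_mem _ hw₁ hw₂)
    (Submodule.sub_mem _ (mem_W_of_op_right ht) (mem_W_of_op_left hs))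

/-- a representative may be changed by an element of `W` -/
theorem IsRep.of_sub_mem_W {S : CosetSys₂ jG jΓ X} {sg tg : G} {φ : Additive Gam →+ ℤ}
    {v₁ v₂ : X → ℤ} (h₁ : IsRep S sg tg φ v₁)
    (h : v₂ - v₁ ∈ W (S.permEquiv sg) (S.permEquiv tg)) : IsRep S sg tg φ v₂ := by
  obtain ⟨y, y', hy, hy', hw⟩ := h₁
  refine ⟨y, y', hy, hy', ?_⟩
  have e : v₂ - (y - y') = (v₂ - v₁) + (v₁ - (y - y')) := by abel
  rw [e]
  exact Submodule.add_mem _ h hw

end Rep

/-! ### Pull-back of representatives (restriction, change of transversal) -/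

section Pull

variable [Fintype X] [DecidableEq X] [Fintype Y] [DecidableEq Y]

/-- the Shapiro cochain of `φ ∘ f` for `T` in terms of the one of `φ` for `S` -/
theorem shp_comp_eq (S : CosetSys₂ jG jΓ X) (hS : S.IsInj) (hΓ : Function.Injective jΓ)
    (T : CosetSys₂ jG jΔ Y) (f : Del →* Gam) (hf : ∀ δ : Del, jΓ (f δ) = jΔ δ)
    (pr : Y → X) (d : Y → Gam) (hrep : ∀ y, T.rep y = jΓ (d y) * S.rep (pr y))
    (φ : Additive Gam →+ ℤ) (g : G) :
    shp T (φ.comp (MonoidHom.toAdditive f)) g =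
      pull pr (shp S φ g) -
        (op (T.permEquiv g) (fun y => φ (Additive.ofMul (d y))) -
          fun y => φ (Additive.ofMul (d y))) := by
  funext y
  obtain ⟨_, h2⟩ := coc_of_rep_eq S hS hΓ T f hf pr d hrep g y
  simp only [shp_apply, AddMonoidHom.comp_apply, MonoidHom.toAdditive_apply_apply, toMul_ofMul,
    Pi.sub_apply, pull_apply, op_apply, CosetSys₂.permEquiv_apply]
  rw [h2, ofMul_mul, ofMul_mul, ofMul_inv, map_add, map_add, map_neg]
  ring

/-- **Representatives pull back**: if `T.rep y = jΓ (d y) * S.rep (pr y)` and `v` represents `φ`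
for `S`, then `v ∘ pr` represents `φ ∘ f` for `T`. -/
theorem IsRep.pull {S : CosetSys₂ jG jΓ X} (hS : S.IsInj) (hΓ : Function.Injective jΓ)
    (T : CosetSys₂ jG jΔ Y) (f : Del →* Gam) (hf : ∀ δ : Del, jΓ (f δ) = jΔ δ)
    (pr : Y → X) (d : Y → Gam) (hrep : ∀ y, T.rep y = jΓ (d y) * S.rep (pr y))
    {sg tg : G} {φ : Additive Gam →+ ℤ} {v : X → ℤ} (hv : IsRep S sg tg φ v) :
    IsRep T sg tg (φ.comp (MonoidHom.toAdditive f)) (Dessin.pull pr v) := by
  obtain ⟨y, y', hy, hy', hw⟩ := hv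
  have hpr : ∀ (g : G) (y₀ : Y), pr (T.permEquiv g y₀) = S.permEquiv g (pr y₀) := fun g y₀ =>
    (coc_of_rep_eq S hS hΓ T f hf pr d hrep g y₀).1.symm
  set w : Y → ℤ := fun y => φ (Additive.ofMul (d y)) with hw_def
  refine ⟨Dessin.pull pr y - w, Dessin.pull pr y' - w, ?_, ?_, ?_⟩
  · rw [shp_comp_eq S hS hΓ T f hf pr d hrep φ tg, ← hy, map_sub, map_sub,
      op_pull pr (S.permEquiv tg) (T.permEquiv tg) (hpr tg)]
    abel
  · rw [shp_comp_eq S hS hΓ T f hf pr d hrep φ sg, ← hy', map_sub, map_sub,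
      op_pull pr (S.permEquiv sg) (T.permEquiv sg) (hpr sg)]
    abel
  · have e : Dessin.pull pr v - (Dessin.pull pr y - w - (Dessin.pull pr y' - w)) =
        Dessin.pull pr (v - (y - y')) := by
      rw [map_sub, map_sub]; abel
    rw [e]
    exact pull_mem_W pr (hpr sg) (hpr tg) hw

end Pull

/-! ### Push-forward of representatives along a composite system (corestriction) -/

section Push

variable [Fintype X] [DecidableEq X] [Fintype ι] [DecidableEq ι]

theorem push_fst_apply (v : X × ι → ℤ) (x : X) :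
    Dessin.push (Prod.fst : X × ι → X) v x = ∑ i, v (x, i) := by
  rw [push_apply, Fintype.sum_prod_type]
  rw [Finset.sum_eq_single x]
  · simp
  · intro x₁ _ hx₁
    simp [hx₁]
  · intro hx; exact absurd (Finset.mem_univ x) hx

/-- **Representatives push forward**: if `u` represents `ψ : Δ → ℤ` for the composite system
`S.comp Sc` on `X × ι`, then its fibre sum represents the transfer `cψ` of `ψ` along `Sc`. -/
theorem IsRep.push_comp {S : CosetSys₂ jG jΓ X} (Sc : CosetSys₂ jΓ jΔ ι)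
    {ψ : Additive Del →+ ℤ} {cψ : Additive Gam →+ ℤ}
    (hc : ∀ γ : Gam, cψ (Additive.ofMul γ) = ∑ i, ψ (Additive.ofMul (Sc.coc γ i)))
    {sg tg : G} {u : X × ι → ℤ} (hu : IsRep (S.comp Sc) sg tg ψ u) :
    IsRep S sg tg cψ (Dessin.push Prod.fst u) := by
  obtain ⟨y, y', hy, hy', hw⟩ := hu
  have hpr : ∀ (g : G) (z : X × ι),
      Prod.fst ((S.comp Sc).permEquiv g z) = S.permEquiv g (Prod.fst z) := fun g z => rfl
  have hsh : ∀ g : G, shp S cψ g = Dessin.push Prod.fst (shp (S.comp Sc) ψ g) := by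
    intro g
    funext x
    rw [push_fst_apply, shp_apply, hc]
    rfl
  refine ⟨Dessin.push Prod.fst y, Dessin.push Prod.fst y', ?_, ?_, ?_⟩
  · rw [hsh, ← hy, map_sub,
      op_push Prod.fst (S.permEquiv tg) ((S.comp Sc).permEquiv tg) (hpr tg)]
  · rw [hsh, ← hy', map_sub,
      op_push Prod.fst (S.permEquiv sg) ((S.comp Sc).permEquiv sg) (hpr sg)]
  · have e : Dessin.push Prod.fst u - (Dessin.push Prod.fst y - Dessin.push Prod.fst y') =
        Dessin.push (Prod.fst : X × ι → X) (u - (y - y')) := by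
      rw [map_sub, map_sub]
    rw [e]
    exact push_mem_W Prod.fst (hpr sg) (hpr tg) hw

end Push

/-! ### The adjunction `(P2)` -/

section Main

variable [Fintype X] [DecidableEq X] [Fintype X'] [DecidableEq X']

theorem push_pull_equiv [Fintype Y] [DecidableEq Y] (e : Y ≃ X') (pr₁ : Y → X) (u' : X' → ℤ) :
    Dessin.push pr₁ (Dessin.pull e u') = Dessin.push (pr₁ ∘ e.symm) u' := by
  funext x
  rw [push_apply, push_apply,
    ← Equiv.sum_comp e (fun x' => if (pr₁ ∘ e.symm) x' = x then u' x' else 0)]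
  simp

theorem pair_congr_left {σ τ : Equiv.Perm X} (h : IsDessin σ τ) (v₁ v₂ u : Npar σ τ)
    (hW : (v₁ : X → ℤ) - v₂ ∈ W σ τ) : pair v₁ u = pair v₂ u := by
  have e : v₁ = v₂ + (v₁ - v₂) := by abel
  rw [e, h.pair_add_left, h.pair_eq_zero_of_left_mem_W (v₁ - v₂) u hW, add_zero]

theorem pair_congr_right {σ τ : Equiv.Perm X} (h : IsDessin σ τ) (v u₁ u₂ : Npar σ τ)
    (hW : (u₁ : X → ℤ) - u₂ ∈ W σ τ) : pair v u₁ = pair v u₂ := by
  have e : u₁ = u₂ + (u₁ - u₂) := by abel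
  rw [e, h.pair_add_right, h.pair_eq_zero_of_right_mem_W v (u₁ - u₂) hW, add_zero]

variable [Fintype ι] [DecidableEq ι]

/-- **Restriction and corestriction are adjoint for the Poincaré pairing.**

`S`, `S'` are Shapiro systems for `Γ`, `Δ` in `G` (index sets `X`, `X'`), `Sc` is a transversal
system of `Δ` in `Γ` with representatives `ρ i ∈ Γ`, and `e : X × ι ≃ X'`, `d` identify the
composite transversal `ρ i * s x` with the transversal `s'` of `S'`.  If `v`, `u` represent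
`φ : Γ → ℤ` and the transfer `cψ` of `ψ : Δ → ℤ`, and `v'`, `u'` represent `φ ∘ f` (the
restriction of `φ`) and `ψ`, then `B_{X'}(v', u') = B_X(v, u)`. -/
theorem pair_res_cores
    (S : CosetSys₂ jG jΓ X) (S' : CosetSys₂ jG jΔ X') (Sc : CosetSys₂ jΓ jΔ ι)
    (hS : S.IsInj) (hS' : S'.IsInj) (hΓ : Function.Injective jΓ) (hΔ : Function.Injective jΔ)
    (f : Del →* Gam) (hf : ∀ δ : Del, jΓ (f δ) = jΔ δ)
    (ρ : ι → Gam) (hρ : ∀ i, Sc.rep i = jΓ (ρ i))
    (e : X × ι ≃ X') (d : X × ι → Del)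
    (hrep : ∀ z : X × ι, Sc.rep z.2 * S.rep z.1 = jΔ (d z) * S'.rep (e z))
    (sg tg : G) (hD : IsDessin (S.permEquiv sg) (S.permEquiv tg))
    (hD' : IsDessin (S'.permEquiv sg) (S'.permEquiv tg))
    {φ : Additive Gam →+ ℤ} {ψ : Additive Del →+ ℤ} {cψ : Additive Gam →+ ℤ}
    (hc : ∀ γ : Gam, cψ (Additive.ofMul γ) = ∑ i, ψ (Additive.ofMul (Sc.coc γ i)))
    (v u : Npar (S.permEquiv sg) (S.permEquiv tg))
    (v' u' : Npar (S'.permEquiv sg) (S'.permEquiv tg))
    (hv : IsRep S sg tg φ v) (hu : IsRep S sg tg cψ u)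
    (hv' : IsRep S' sg tg (φ.comp (MonoidHom.toAdditive f)) v') (hu' : IsRep S' sg tg ψ u') :
    pair v' u' = pair v u := by
  set pr : X' → X := Prod.fst ∘ e.symm with hpr_def
  set dres : X' → Gam := fun x' => (f (d (e.symm x')))⁻¹ * ρ (e.symm x').2 with hdres
  have hrepA : ∀ x', S'.rep x' = jΓ (dres x') * S.rep (pr x') := by
    intro x'
    have h1 := hrep (e.symm x')
    rw [Equiv.apply_symm_apply, hρ, ← hf] at h1
    rw [hdres, hpr_def, map_mul, map_inv, mul_assoc, Function.comp_apply, h1]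
    group
  have hpr : ∀ (g : G) (x' : X'), pr (S'.permEquiv g x') = S.permEquiv g (pr x') := fun g x' =>
    (coc_of_rep_eq S hS hΓ S' f hf pr dres hrepA g x').1.symm
  -- (A) the pull-back of `v` represents the restriction
  have hA : IsRep S' sg tg (φ.comp (MonoidHom.toAdditive f)) (Dessin.pull pr v) :=
    IsRep.pull hS hΓ S' f hf pr dres hrepA hv
  -- (B) the push-forward of `u'` represents the corestriction
  have hB0 : IsRep (S.comp Sc) sg tg (ψ.comp (MonoidHom.toAdditive (MonoidHom.id Del)))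
      (Dessin.pull e u') :=
    IsRep.pull hS' hΔ (S.comp Sc) (MonoidHom.id Del) (fun _ => rfl) e d
      (fun z => by rw [CosetSys₂.comp_rep]; exact hrep z) hu'
  have hψ : ψ.comp (MonoidHom.toAdditive (MonoidHom.id Del)) = ψ := by
    ext x; rfl
  rw [hψ] at hB0
  have hB : IsRep S sg tg cψ (Dessin.push pr u') := by
    have := IsRep.push_comp Sc hc hB0
    rwa [push_pull_equiv e Prod.fst (u' : X' → ℤ)] at this
  calc pair v' u'
      = pair ⟨Dessin.pull pr v, pull_mem_Npar pr (hpr sg) (hpr tg) v.2⟩ u' :=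
        pair_congr_left hD' _ _ _ (hv'.sub_mem_W hA)
    _ = pair v ⟨Dessin.push pr u', push_mem_Npar pr (hpr sg) (hpr tg) u'.2⟩ :=
        pair_pull hD hD' pr (hpr sg) (hpr tg) v u'
    _ = pair v u := pair_congr_right hD _ _ _ (hB.sub_mem_W hu)

/-- Existence of the identification `X × ι ≃ X'` of the composite transversal with `S'`, from the
covering properties of the three systems. -/
theorem exists_equiv_of_cover
    (S : CosetSys₂ jG jΓ X) (S' : CosetSys₂ jG jΔ X') (Sc : CosetSys₂ jΓ jΔ ι)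
    (hS : S.IsInj) (hS' : S'.IsInj) (hSc : Sc.IsInj)
    (f : Del →* Gam) (hf : ∀ δ : Del, jΓ (f δ) = jΔ δ)
    (incl : Gam →* G) (hincl : ∀ γ : Gam, jG (incl γ) = jΓ γ)
    (t : X → G) (ht : ∀ x, S.rep x = jG (t x)) (t' : X' → G) (ht' : ∀ x', S'.rep x' = jG (t' x'))
    (ρ : ι → Gam) (hρ : ∀ i, Sc.rep i = jΓ (ρ i))
    (hcov : ∀ g : G, ∃ (x : X) (γ : Gam), jG g = jΓ γ * S.rep x)
    (hcov' : ∀ g : G, ∃ (x' : X') (δ : Del), jG g = jΔ δ * S'.rep x')
    (hcovc : ∀ γ : Gam, ∃ (i : ι) (δ : Del), jΓ γ = jΔ δ * Sc.rep i) :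
    ∃ (e : X × ι ≃ X') (d : X × ι → Del),
      ∀ z : X × ι, Sc.rep z.2 * S.rep z.1 = jΔ (d z) * S'.rep (e z) := by
  classical
  have h0 : ∀ z : X × ι, ∃ (x' : X') (δ : Del), Sc.rep z.2 * S.rep z.1 = jΔ δ * S'.rep x' := by
    intro z
    obtain ⟨x', δ, h⟩ := hcov' (incl (ρ z.2) * t z.1)
    exact ⟨x', δ, by rw [hρ, ht, ← hincl, ← map_mul, h]⟩
  choose e₀ d he using h0
  have hinj : Function.Injective e₀ := by
    rintro ⟨x, i⟩ ⟨x₁, i₁⟩ hz
    have h1 := he (x, i)
    have h2 := he (x₁, i₁)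
    rw [hz] at h1
    simp only at h1 h2
    -- `S'.rep (e₀ (x₁,i₁))` eliminated
    have h3 : S'.rep (e₀ (x₁, i₁)) = (jΔ (d (x₁, i₁)))⁻¹ * (Sc.rep i₁ * S.rep x₁) := by
      rw [h2]; group
    rw [h3] at h1
    have hx : x = x₁ := by
      refine hS x x₁ ((ρ i)⁻¹ * f (d (x, i)) * (f (d (x₁, i₁)))⁻¹ * ρ i₁) ?_
      rw [map_mul, map_mul, map_mul, map_inv, map_inv, hf, hf, ← hρ, ← hρ]
      have : S.rep x = (Sc.rep i)⁻¹ * (Sc.rep i * S.rep x) := by group
      rw [this, h1]; group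
    subst hx
    have hi : i = i₁ := by
      refine hSc i i₁ (d (x, i) * (d (x, i₁))⁻¹) ?_
      have : Sc.rep i = (Sc.rep i * S.rep x) * (S.rep x)⁻¹ := by group
      rw [this, h1, map_mul, map_inv]; group
    rw [hi]
  have hsurj : Function.Surjective e₀ := by
    intro x'
    obtain ⟨x, γ, h1⟩ := hcov (t' x')
    obtain ⟨i, δ, h2⟩ := hcovc γ
    refine ⟨(x, i), ?_⟩
    have h3 := he (x, i)
    simp only at h3
    refine (hS' x' (e₀ (x, i)) (δ * d (x, i)) ?_).symm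
    rw [ht' x', h1, h2, map_mul, mul_assoc, mul_assoc, ← h3]
  exact ⟨Equiv.ofBijective e₀ ⟨hinj, hsurj⟩, d, fun z => he z⟩

/-- `pair_res_cores` with the identification `X × ι ≃ X'` produced from the covering properties
of the three transversal systems (the form used for `Γ₀(Nq) ≤ Γ₀(N) ≤ SL₂(ℤ)`). -/
theorem pair_res_cores_of_cover
    (S : CosetSys₂ jG jΓ X) (S' : CosetSys₂ jG jΔ X') (Sc : CosetSys₂ jΓ jΔ ι)
    (hS : S.IsInj) (hS' : S'.IsInj) (hSc : Sc.IsInj)
    (hΓ : Function.Injective jΓ) (hΔ : Function.Injective jΔ)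
    (f : Del →* Gam) (hf : ∀ δ : Del, jΓ (f δ) = jΔ δ)
    (incl : Gam →* G) (hincl : ∀ γ : Gam, jG (incl γ) = jΓ γ)
    (t : X → G) (ht : ∀ x, S.rep x = jG (t x)) (t' : X' → G) (ht' : ∀ x', S'.rep x' = jG (t' x'))
    (ρ : ι → Gam) (hρ : ∀ i, Sc.rep i = jΓ (ρ i))
    (hcov : ∀ g : G, ∃ (x : X) (γ : Gam), jG g = jΓ γ * S.rep x)
    (hcov' : ∀ g : G, ∃ (x' : X') (δ : Del), jG g = jΔ δ * S'.rep x')
    (hcovc : ∀ γ : Gam, ∃ (i : ι) (δ : Del), jΓ γ = jΔ δ * Sc.rep i)
    (sg tg : G) (hD : IsDessin (S.permEquiv sg) (S.permEquiv tg))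
    (hD' : IsDessin (S'.permEquiv sg) (S'.permEquiv tg))
    {φ : Additive Gam →+ ℤ} {ψ : Additive Del →+ ℤ} {cψ : Additive Gam →+ ℤ}
    (hc : ∀ γ : Gam, cψ (Additive.ofMul γ) = ∑ i, ψ (Additive.ofMul (Sc.coc γ i)))
    (v u : Npar (S.permEquiv sg) (S.permEquiv tg))
    (v' u' : Npar (S'.permEquiv sg) (S'.permEquiv tg))
    (hv : IsRep S sg tg φ v) (hu : IsRep S sg tg cψ u)
    (hv' : IsRep S' sg tg (φ.comp (MonoidHom.toAdditive f)) v') (hu' : IsRep S' sg tg ψ u') :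
    pair v' u' = pair v u := by
  obtain ⟨e, d, hrep⟩ := exists_equiv_of_cover S S' Sc hS hS' hSc f hf incl hincl t ht t' ht' ρ hρ
    hcov hcov' hcovc
  exact pair_res_cores S S' Sc hS hS' hΓ hΔ f hf ρ hρ e d hrep sg tg hD hD' hc v u v' u'
    hv hu hv' hu'

end Main

end Fermat.Agent.S41.PD.Adjoint
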