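/-
S41 / block [PD], part (a'), helper3: the quotient `LamQ = Npar / W` of the dessin model
(`PD/Dessin.lean`), the induced Poincaré pairing `Bq`, its non-degeneracy modulo every `n`,
antisymmetry, and the adjoint pair `pullQ`, `pushQ` for equivariant maps.
-/
import Fermat.Agent.S41.PD.Dessin

set_option autoImplicit false
set_option linter.unusedSectionVars false
set_option linter.unusedVariables false

open Matrix

namespace Fermat.Agent.S41.PD.Dessin

variable {X : Type*} [Fintype X] [DecidableEq X]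

/-- `W` as a submodule of `Npar`. -/
def WN (σ τ : Equiv.Perm X) : Submodule ℤ (Npar σ τ) := (W σ τ).comap (Npar σ τ).subtype

theorem mem_WN {σ τ : Equiv.Perm X} {v : Npar σ τ} : v ∈ WN σ τ ↔ (v : X → ℤ) ∈ W σ τ := Iff.rfl

/-- The parabolic classes `Λ' = Npar / W` (`≅ Hom_par(Γ, ℤ)` for `X = Γ \ SL₂(ℤ)`). -/
abbrev LamQ (σ τ : Equiv.Perm X) := Npar σ τ ⧸ WN σ τ

variable {σ τ : Equiv.Perm X}

namespace IsDessin

variable (h : IsDessin σ τ)
include h

/-- `B(v, ·)` on the quotient -/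
noncomputable def Bq₁ (v : Npar σ τ) : LamQ σ τ →ₗ[ℤ] ℤ :=
  (WN σ τ).liftQ (h.B v) (fun u hu => by
    rw [LinearMap.mem_ker, h.B_apply]
    exact h.pair_eq_zero_of_right_mem_W v u (mem_WN.1 hu))

theorem Bq₁_mk (v u : Npar σ τ) : h.Bq₁ v (Submodule.Quotient.mk u) = pair v u := rfl

/-- The Poincaré pairing on `LamQ`. -/
noncomputable def Bq : LamQ σ τ →ₗ[ℤ] LamQ σ τ →ₗ[ℤ] ℤ :=
  (WN σ τ).liftQ
    { toFun := h.Bq₁
      map_add' := fun v v' => by
        apply Submodule.linearMap_qext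
        ext u
        simp only [LinearMap.comp_apply, Submodule.mkQ_apply, LinearMap.add_apply, Bq₁_mk]
        exact h.pair_add_left v v' u
      map_smul' := fun c v => by
        apply Submodule.linearMap_qext
        ext u
        simp only [LinearMap.comp_apply, Submodule.mkQ_apply, LinearMap.smul_apply, Bq₁_mk,
          RingHom.id_apply, smul_eq_mul]
        exact h.pair_smul_left c v u }
    (fun v hv => by
      rw [LinearMap.mem_ker]
      apply Submodule.linearMap_qext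
      ext u
      simp only [LinearMap.comp_apply, Submodule.mkQ_apply, LinearMap.zero_apply]
      exact h.pair_eq_zero_of_left_mem_W v u (mem_WN.1 hv))

@[simp] theorem Bq_mk (v u : Npar σ τ) :
    h.Bq (Submodule.Quotient.mk v) (Submodule.Quotient.mk u) = pair v u := rfl

theorem Bq_antisymm (a b : LamQ σ τ) : h.Bq a b = -h.Bq b a := by
  obtain ⟨v, rfl⟩ := Submodule.Quotient.mk_surjective _ a
  obtain ⟨u, rfl⟩ := Submodule.Quotient.mk_surjective _ b
  rw [Bq_mk, Bq_mk]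
  exact h.pair_antisymm v u

theorem Bq_self (a : LamQ σ τ) : h.Bq a a = 0 := by
  have := h.Bq_antisymm a a
  omega

/-- **Perfectness modulo `n`.** -/
theorem Bq_nondeg (n : ℤ) (hn : n ≠ 0) (a : LamQ σ τ) (ha : ∀ b : LamQ σ τ, n ∣ h.Bq a b) :
    ∃ a' : LamQ σ τ, a = n • a' := by
  obtain ⟨v, rfl⟩ := Submodule.Quotient.mk_surjective _ a
  obtain ⟨v', hv'⟩ := h.nondeg n hn v (fun u => by simpa using ha (Submodule.Quotient.mk u))
  refine ⟨Submodule.Quotient.mk v', ?_⟩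
  rw [← Submodule.Quotient.mk_smul, ← sub_eq_zero, ← Submodule.Quotient.mk_sub,
    Submodule.Quotient.mk_eq_zero]
  exact mem_WN.2 (by simpa using hv')

/-- right non-degeneracy (by antisymmetry) -/
theorem Bq_nondeg_right (n : ℤ) (hn : n ≠ 0) (b : LamQ σ τ) (hb : ∀ a : LamQ σ τ, n ∣ h.Bq a b) :
    ∃ b' : LamQ σ τ, b = n • b' :=
  h.Bq_nondeg n hn b (fun a => by rw [h.Bq_antisymm, dvd_neg]; exact hb a)

end IsDessin

/-! ### Functoriality -/

section Functoriality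

variable {X' : Type*} [Fintype X'] [DecidableEq X'] {σ' τ' : Equiv.Perm X'}

/-- pull-back on parabolic representatives -/
def pullN (pr : X' → X) (hσ : ∀ x', pr (σ' x') = σ (pr x')) (hτ : ∀ x', pr (τ' x') = τ (pr x')) :
    Npar σ τ →ₗ[ℤ] Npar σ' τ' :=
  ((pull pr).comp (Npar σ τ).subtype).codRestrict (Npar σ' τ')
    (fun v => pull_mem_Npar pr hσ hτ v.2)

/-- push-forward on parabolic representatives -/
def pushN (pr : X' → X) (hσ : ∀ x', pr (σ' x') = σ (pr x')) (hτ : ∀ x', pr (τ' x') = τ (pr x')) :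
    Npar σ' τ' →ₗ[ℤ] Npar σ τ :=
  ((push pr).comp (Npar σ' τ').subtype).codRestrict (Npar σ τ)
    (fun v => push_mem_Npar pr hσ hτ v.2)

@[simp] theorem coe_pullN (pr : X' → X) (hσ : ∀ x', pr (σ' x') = σ (pr x'))
    (hτ : ∀ x', pr (τ' x') = τ (pr x')) (v : Npar σ τ) :
    ((pullN pr hσ hτ v : Npar σ' τ') : X' → ℤ) = pull pr v := rfl

@[simp] theorem coe_pushN (pr : X' → X) (hσ : ∀ x', pr (σ' x') = σ (pr x'))
    (hτ : ∀ x', pr (τ' x') = τ (pr x')) (v : Npar σ' τ') :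
    ((pushN pr hσ hτ v : Npar σ τ) : X → ℤ) = push pr v := rfl

/-- pull-back on classes -/
def pullQ (pr : X' → X) (hσ : ∀ x', pr (σ' x') = σ (pr x')) (hτ : ∀ x', pr (τ' x') = τ (pr x')) :
    LamQ σ τ →ₗ[ℤ] LamQ σ' τ' :=
  (WN σ τ).mapQ (WN σ' τ') (pullN pr hσ hτ) (fun v hv => by
    rw [Submodule.mem_comap, mem_WN, coe_pullN]
    exact pull_mem_W pr hσ hτ (mem_WN.1 hv))

/-- push-forward on classes -/
def pushQ (pr : X' → X) (hσ : ∀ x', pr (σ' x') = σ (pr x')) (hτ : ∀ x', pr (τ' x') = τ (pr x')) :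
    LamQ σ' τ' →ₗ[ℤ] LamQ σ τ :=
  (WN σ' τ').mapQ (WN σ τ) (pushN pr hσ hτ) (fun v hv => by
    rw [Submodule.mem_comap, mem_WN, coe_pushN]
    exact push_mem_W pr hσ hτ (mem_WN.1 hv))

@[simp] theorem pullQ_mk (pr : X' → X) (hσ : ∀ x', pr (σ' x') = σ (pr x'))
    (hτ : ∀ x', pr (τ' x') = τ (pr x')) (v : Npar σ τ) :
    pullQ pr hσ hτ (Submodule.Quotient.mk v) = Submodule.Quotient.mk (pullN pr hσ hτ v) := rfl

@[simp] theorem pushQ_mk (pr : X' → X) (hσ : ∀ x', pr (σ' x') = σ (pr x'))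
    (hτ : ∀ x', pr (τ' x') = τ (pr x')) (v : Npar σ' τ') :
    pushQ pr hσ hτ (Submodule.Quotient.mk v) = Submodule.Quotient.mk (pushN pr hσ hτ v) := rfl

/-- **Adjointness** `B'(pr^* a, b) = B(a, pr_* b)` on classes. -/
theorem Bq_pullQ (h : IsDessin σ τ) (h' : IsDessin σ' τ') (pr : X' → X)
    (hσ : ∀ x', pr (σ' x') = σ (pr x')) (hτ : ∀ x', pr (τ' x') = τ (pr x'))
    (a : LamQ σ τ) (b : LamQ σ' τ') :
    h'.Bq (pullQ pr hσ hτ a) b = h.Bq a (pushQ pr hσ hτ b) := by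
  obtain ⟨v, rfl⟩ := Submodule.Quotient.mk_surjective _ a
  obtain ⟨u, rfl⟩ := Submodule.Quotient.mk_surjective _ b
  rw [pullQ_mk, pushQ_mk, IsDessin.Bq_mk, IsDessin.Bq_mk]
  exact pair_pull h h' pr hσ hτ v u

/-- adjointness in the other slot -/
theorem Bq_pushQ (h : IsDessin σ τ) (h' : IsDessin σ' τ') (pr : X' → X)
    (hσ : ∀ x', pr (σ' x') = σ (pr x')) (hτ : ∀ x', pr (τ' x') = τ (pr x'))
    (a : LamQ σ τ) (b : LamQ σ' τ') :
    h'.Bq b (pullQ pr hσ hτ a) = h.Bq (pushQ pr hσ hτ b) a := by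
  rw [h'.Bq_antisymm, Bq_pullQ h h' pr hσ hτ, ← h.Bq_antisymm]

end Functoriality

end Fermat.Agent.S41.PD.Dessin
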