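/-
S41 (level raising), block [PD], slice PD-c1 (helper29): **explicit degree-one Shapiro on a two-group
coset system** (`P3LR/A/Transfer2.CosetSys₂`), model-free.

A coset system `S : CosetSys₂ (jΓ : Gam →* G) (jΔ : Del →* G) ι` (`rep i * jΓ g = jΔ (coc g i) *
rep (perm g i)`) with `Gam` the big group (`SL(2, ℤ)`), `Del` a subgroup (`Γ₀(M)`) and `ι` the set of
right cosets `Del \ Gam` is exactly the datum of Shapiro's lemma: `Gam` acts on `V := ι → A` by
`act g v = v ∘ perm g` (a LEFT action), and for `ψ : Additive Del →+ A`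

  `sh ψ g i := ψ (coc g i)`

is a 1-cocycle `Gam → V` (`sh_mul`), whose sum over `ι` is the transfer (`sum_sh`).

For a FULL system (`IsFull`: pairwise distinct cosets, a base point with `rep i₀ = 1`, `Del → Gam`
compatible with the embeddings, all representatives in the image of `Gam`):

* `sh_apply_base`      : `sh ψ (f d) i₀ = ψ d`;
* `exists_eq_sh_add_cob` : every cocycle is `sh ψ + cob w`;
* `eq_zero_of_sh_eq_cob` : `sh ψ = cob w → ψ = 0`,

i.e. `Hom(Del, A) ≅ H¹(Gam, A[Del \ Gam])`, with no choice of a presentation.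

Towers `Eps ≤ Del ≤ Gam` (`S : Gam ⟶ Del`, `S' : Del ⟶ Eps`, `S.comp S' : Gam ⟶ Eps` indexed by
`ι × ι'`): restriction is `pr^*` up to an explicit coboundary (`sh_comp_res`), corestriction
(= transfer along `S'`) is `pr_*` on the nose (`sum_sh_comp`).
-/
import Mathlib
import Fermat.Agent.P3LR.A.Transfer2

set_option autoImplicit false

namespace Fermat.Agent.S41.PD.ShapiroGen

open Fermat.Agent.P3LR.A.Transfer2

variable {G Gam Del Eps : Type*} [Group G] [Group Gam] [Group Del] [Group Eps]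
variable {jΓ : Gam →* G} {jΔ : Del →* G} {jΕ : Eps →* G} {ι ι' : Type*}
variable {A : Type*} [AddCommGroup A]

/-! ### The module `V = ι → A` and cocycles -/

section Module

variable (S : CosetSys₂ jΓ jΔ ι)

/-- The left action of `Gam` on `V = ι → A`: `(g • v) i = v (perm g i)`. -/
def act (g : Gam) : (ι → A) →+ (ι → A) where
  toFun v := fun i => v (S.perm g i)
  map_zero' := rfl
  map_add' _ _ := rfl

@[simp] theorem act_apply (g : Gam) (v : ι → A) (i : ι) : act S g v i = v (S.perm g i) := rfl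

theorem act_one (v : ι → A) : act S 1 v = v := by
  funext i
  rw [act_apply, S.perm_one]

theorem act_mul (g h : Gam) (v : ι → A) : act S (g * h) v = act S g (act S h v) := by
  funext i
  rw [act_apply, act_apply, act_apply, S.perm_mul]

theorem act_inv_act (g : Gam) (v : ι → A) : act S g⁻¹ (act S g v) = v := by
  rw [← act_mul, inv_mul_cancel, act_one]

theorem act_act_inv (g : Gam) (v : ι → A) : act S g (act S g⁻¹ v) = v := by
  rw [← act_mul, mul_inv_cancel, act_one]

theorem act_pow (g : Gam) (n : ℕ) (v : ι → A) (i : ι) :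
    act S (g ^ n) v i = v (((S.permEquiv g) ^ n) i) := by
  rw [act_apply, S.perm_pow]

/-- the sum over `ι` is invariant -/
theorem sum_act [Fintype ι] (g : Gam) (v : ι → A) : ∑ i, act S g v i = ∑ i, v i :=
  Equiv.sum_comp (S.permEquiv g) v

/-- A 1-cocycle `Gam → V`. -/
def IsCocycle (c : Gam → ι → A) : Prop := ∀ g h : Gam, c (g * h) = c g + act S g (c h)

/-- The coboundary of `w : V`. -/
def cob (w : ι → A) (g : Gam) : ι → A := act S g w - w

@[simp] theorem cob_apply (w : ι → A) (g : Gam) (i : ι) : cob S w g i = w (S.perm g i) - w i := rfl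

theorem isCocycle_cob (w : ι → A) : IsCocycle S (cob S w) := by
  intro g h
  funext i
  simp only [cob_apply, Pi.add_apply, act_apply, S.perm_mul]
  abel

variable {S}

theorem IsCocycle.map_one {c : Gam → ι → A} (hc : IsCocycle S c) : c 1 = 0 := by
  have h := hc 1 1
  rw [mul_one, act_one] at h
  exact left_eq_add.mp h

theorem IsCocycle.map_inv {c : Gam → ι → A} (hc : IsCocycle S c) (g : Gam) :
    c g⁻¹ = - act S g⁻¹ (c g) := by
  have h := hc g⁻¹ g
  rw [inv_mul_cancel, hc.map_one] at h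
  exact eq_neg_of_add_eq_zero_left h.symm

theorem IsCocycle.add {c c' : Gam → ι → A} (hc : IsCocycle S c) (hc' : IsCocycle S c') :
    IsCocycle S (c + c') := by
  intro g h
  rw [Pi.add_apply, Pi.add_apply, Pi.add_apply, hc g h, hc' g h, map_add]
  abel

theorem IsCocycle.neg {c : Gam → ι → A} (hc : IsCocycle S c) : IsCocycle S (-c) := by
  intro g h
  rw [Pi.neg_apply, Pi.neg_apply, Pi.neg_apply, hc g h, map_neg]
  abel

theorem IsCocycle.sub {c c' : Gam → ι → A} (hc : IsCocycle S c) (hc' : IsCocycle S c') :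
    IsCocycle S (c - c') := by
  rw [sub_eq_add_neg]
  exact hc.add hc'.neg

/-- **Norm identity**: `c (g ^ n) = ∑_{k < n} g ^ k • c g`. -/
theorem IsCocycle.map_pow {c : Gam → ι → A} (hc : IsCocycle S c) (g : Gam) (n : ℕ) :
    c (g ^ n) = ∑ k ∈ Finset.range n, act S (g ^ k) (c g) := by
  induction n with
  | zero => rw [pow_zero, hc.map_one, Finset.range_zero, Finset.sum_empty]
  | succ n ih => rw [pow_succ, hc (g ^ n) g, ih, Finset.sum_range_succ]

/-- Pointwise form of the norm identity: the sum of `c g` along the `g`-orbit segment of `i`. -/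
theorem IsCocycle.map_pow_apply {c : Gam → ι → A} (hc : IsCocycle S c) (g : Gam) (n : ℕ) (i : ι) :
    c (g ^ n) i = ∑ k ∈ Finset.range n, c g (((S.permEquiv g) ^ k) i) := by
  rw [hc.map_pow, Finset.sum_apply]
  exact Finset.sum_congr rfl fun k _ => act_pow S g k (c g) i

/-- If `g ^ n` acts trivially on `ι` and `c (g ^ n) = 0`, all orbit sums of `c g` vanish. -/
theorem IsCocycle.orbit_sum_eq_zero {c : Gam → ι → A} (hc : IsCocycle S c) (g : Gam) (n : ℕ)
    (h0 : c (g ^ n) = 0) (i : ι) :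
    ∑ k ∈ Finset.range n, c g (((S.permEquiv g) ^ k) i) = 0 := by
  rw [← hc.map_pow_apply, h0]
  rfl

end Module

/-! ### The Shapiro cocycle -/

section Shapiro

variable (S : CosetSys₂ jΓ jΔ ι)

/-- **The Shapiro cochain** of `ψ : Del → A`: `sh ψ g i = ψ (coc g i)`. -/
def sh (ψ : Additive Del →+ A) (g : Gam) : ι → A := fun i => ψ (Additive.ofMul (S.coc g i))

@[simp] theorem sh_apply (ψ : Additive Del →+ A) (g : Gam) (i : ι) :
    sh S ψ g i = ψ (Additive.ofMul (S.coc g i)) := rfl

/-- **The Shapiro cochain is a cocycle.** -/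
theorem sh_mul (ψ : Additive Del →+ A) (g h : Gam) :
    sh S ψ (g * h) = sh S ψ g + act S g (sh S ψ h) := by
  funext i
  rw [Pi.add_apply, act_apply, sh_apply, sh_apply, sh_apply, S.coc_mul, ofMul_mul, map_add]

theorem isCocycle_sh (ψ : Additive Del →+ A) : IsCocycle S (sh S ψ) := sh_mul S ψ

theorem sh_add (ψ ψ' : Additive Del →+ A) (g : Gam) : sh S (ψ + ψ') g = sh S ψ g + sh S ψ' g := rfl

theorem sh_zero (g : Gam) : sh S (0 : Additive Del →+ A) g = 0 := rfl

theorem sh_neg (ψ : Additive Del →+ A) (g : Gam) : sh S (-ψ) g = - sh S ψ g := rfl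

theorem sh_comp {B : Type*} [AddCommGroup B] (f : A →+ B) (ψ : Additive Del →+ A) (g : Gam)
    (i : ι) : sh S (f.comp ψ) g i = f (sh S ψ g i) := rfl

/-- The additive transfer along a coset system: `(transferAdd ψ) g = ∑ i, ψ (coc g i)`. -/
def transferAdd [Fintype ι] : (Additive Del →+ A) →+ (Additive Gam →+ A) where
  toFun ψ :=
    { toFun := fun g => ∑ i, sh S ψ g.toMul i
      map_zero' := by
        show ∑ i, sh S ψ 1 i = 0
        rw [(isCocycle_sh S ψ).map_one]
        simp
      map_add' := fun g h => by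
        show ∑ i, sh S ψ (g.toMul * h.toMul) i = _
        rw [sh_mul]
        simp only [Pi.add_apply]
        rw [Finset.sum_add_distrib, sum_act] }
  map_zero' := by
    refine AddMonoidHom.ext fun g => ?_
    show ∑ i, sh S (0 : Additive Del →+ A) g.toMul i = 0
    simp
  map_add' ψ ψ' := by
    refine AddMonoidHom.ext fun g => ?_
    show ∑ i, sh S (ψ + ψ') g.toMul i = ∑ i, sh S ψ g.toMul i + ∑ i, sh S ψ' g.toMul i
    rw [sh_add]
    simp only [Pi.add_apply]
    rw [Finset.sum_add_distrib]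

/-- **Transfer = Shapiro, then sum over the cosets.** -/
theorem transferAdd_apply [Fintype ι] (ψ : Additive Del →+ A) (g : Gam) :
    transferAdd S ψ (Additive.ofMul g) = ∑ i, ψ (Additive.ofMul (S.coc g i)) := rfl

theorem sum_sh [Fintype ι] (ψ : Additive Del →+ A) (g : Gam) :
    ∑ i, sh S ψ g i = transferAdd S ψ (Additive.ofMul g) := rfl

/-- Comparison with the multiplicative transfer of `Transfer2`. -/
theorem transferAdd_eq [Fintype ι] (ψ : Additive Del →+ A) (g : Gam) :
    transferAdd S ψ (Additive.ofMul g) =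
      Multiplicative.toAdd (S.transfer (AddMonoidHom.toMultiplicativeRight ψ) g) := by
  rw [transferAdd_apply, CosetSys₂.transfer_apply, toAdd_prod]
  rfl

end Shapiro

/-! ### Full systems: `Hom(Del, A) ≅ H¹(Gam, ι → A)` -/

section Full

/-- A **full** system: `ι` is the set of ALL right cosets `Del \ Gam`, with chosen representatives
`t i ∈ Gam` and the trivial coset represented by `1`. -/
structure IsFull (S : CosetSys₂ jΓ jΔ ι) (f : Del →* Gam) (t : ι → Gam) (i₀ : ι) : Prop where
  inj : S.IsInj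
  hΓ : Function.Injective jΓ
  hΔ : Function.Injective jΔ
  hf : ∀ d : Del, jΓ (f d) = jΔ d
  ht : ∀ i : ι, jΓ (t i) = S.rep i
  h0 : S.rep i₀ = 1

variable {S : CosetSys₂ jΓ jΔ ι} {f : Del →* Gam} {t : ι → Gam} {i₀ : ι}

theorem IsFull.rep_mul_f (H : IsFull S f t i₀) (d : Del) :
    S.rep i₀ * jΓ (f d) = jΔ d * S.rep i₀ := by
  rw [H.h0, one_mul, mul_one, H.hf]

theorem IsFull.perm_f (H : IsFull S f t i₀) (d : Del) : S.perm (f d) i₀ = i₀ :=
  S.perm_eq_of_eq H.inj (H.rep_mul_f d)

theorem IsFull.coc_f (H : IsFull S f t i₀) (d : Del) : S.coc (f d) i₀ = d :=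
  S.coc_eq_of_eq H.inj H.hΔ (H.rep_mul_f d)

theorem IsFull.rep_mul_t (H : IsFull S f t i₀) (i : ι) :
    S.rep i₀ * jΓ (t i) = jΔ 1 * S.rep i := by
  rw [H.h0, one_mul, map_one, one_mul, H.ht]

theorem IsFull.perm_t (H : IsFull S f t i₀) (i : ι) : S.perm (t i) i₀ = i :=
  S.perm_eq_of_eq H.inj (H.rep_mul_t i)

theorem IsFull.coc_t (H : IsFull S f t i₀) (i : ι) : S.coc (t i) i₀ = 1 :=
  S.coc_eq_of_eq H.inj H.hΔ (H.rep_mul_t i)

/-- `t i * g = f (coc g i) * t (perm g i)` in `Gam`. -/
theorem IsFull.t_mul (H : IsFull S f t i₀) (g : Gam) (i : ι) :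
    t i * g = f (S.coc g i) * t (S.perm g i) := by
  apply H.hΓ
  rw [map_mul, map_mul, H.ht, H.hf, H.ht, S.rep_mul]

/-- the action of `Gam` on `ι` is transitive -/
theorem IsFull.exists_perm_eq (H : IsFull S f t i₀) (i i' : ι) : ∃ g : Gam, S.perm g i = i' := by
  refine ⟨(t i)⁻¹ * t i', ?_⟩
  have h1 : S.perm (t i)⁻¹ i = i₀ := by
    have h2 : S.perm (t i)⁻¹ (S.perm (t i) i₀) = i₀ := by
      rw [← S.perm_mul, mul_inv_cancel, S.perm_one]
    rwa [H.perm_t] at h2
  rw [S.perm_mul, h1, H.perm_t]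

/-- **(S2)** the Shapiro cocycle recovers `ψ` at the base point. -/
theorem IsFull.sh_apply_base (H : IsFull S f t i₀) (ψ : Additive Del →+ A) (d : Del) :
    sh S ψ (f d) i₀ = ψ (Additive.ofMul d) := by
  rw [sh_apply, H.coc_f]

/-- The homomorphism `Del → A` attached to a cocycle: `d ↦ c (f d) i₀`. -/
def IsFull.homOfCocycle (H : IsFull S f t i₀) (c : Gam → ι → A) (hc : IsCocycle S c) :
    Additive Del →+ A :=
  AddMonoidHom.mk' (fun d => c (f d.toMul) i₀) (fun d d' => by
    show c (f (d.toMul * d'.toMul)) i₀ = c (f d.toMul) i₀ + c (f d'.toMul) i₀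
    rw [map_mul, hc, Pi.add_apply, act_apply, H.perm_f])

@[simp] theorem IsFull.homOfCocycle_apply (H : IsFull S f t i₀) (c : Gam → ι → A)
    (hc : IsCocycle S c) (d : Del) :
    H.homOfCocycle c hc (Additive.ofMul d) = c (f d) i₀ := rfl

/-- **(S3)** every cocycle is a Shapiro cocycle plus an explicit coboundary. -/
theorem IsFull.eq_sh_add_cob (H : IsFull S f t i₀) {c : Gam → ι → A} (hc : IsCocycle S c)
    (g : Gam) :
    c g = sh S (H.homOfCocycle c hc) g + cob S (fun i => c (t i) i₀) g := by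
  funext i
  have h1 : c (t i * g) i₀ = c (t i) i₀ + c g i := by
    rw [hc, Pi.add_apply, act_apply, H.perm_t]
  have h2 : c (f (S.coc g i) * t (S.perm g i)) i₀ =
      c (f (S.coc g i)) i₀ + c (t (S.perm g i)) i₀ := by
    rw [hc, Pi.add_apply, act_apply, H.perm_f]
  rw [H.t_mul g i, h2] at h1
  rw [Pi.add_apply, sh_apply, H.homOfCocycle_apply, cob_apply]
  have h3 : c g i = c (f (S.coc g i)) i₀ + c (t (S.perm g i)) i₀ - c (t i) i₀ := by
    rw [h1]; abel
  rw [h3]; abel

theorem IsFull.exists_eq_sh_add_cob (H : IsFull S f t i₀) {c : Gam → ι → A} (hc : IsCocycle S c) :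
    ∃ (ψ : Additive Del →+ A) (w : ι → A), ∀ g, c g = sh S ψ g + cob S w g :=
  ⟨H.homOfCocycle c hc, fun i => c (t i) i₀, H.eq_sh_add_cob hc⟩

/-- **(S4)** a Shapiro cocycle which is a coboundary comes from `ψ = 0`. -/
theorem IsFull.eq_zero_of_sh_eq_cob (H : IsFull S f t i₀) {ψ : Additive Del →+ A} {w : ι → A}
    (h : ∀ g, sh S ψ g = cob S w g) : ψ = 0 := by
  refine AddMonoidHom.ext fun d => ?_
  obtain ⟨d, rfl⟩ := Additive.ofMul.surjective d
  rw [← H.sh_apply_base ψ d, h, cob_apply, H.perm_f, sub_self]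
  rfl

/-- Uniqueness of `ψ` in **(S3)**. -/
theorem IsFull.eq_of_sh_add_cob_eq (H : IsFull S f t i₀) {ψ ψ' : Additive Del →+ A}
    {w w' : ι → A} (h : ∀ g, sh S ψ g + cob S w g = sh S ψ' g + cob S w' g) : ψ = ψ' := by
  have h1 : ψ - ψ' = 0 := by
    refine H.eq_zero_of_sh_eq_cob (w := w' - w) fun g => ?_
    funext i
    have h2 := congrFun (h g) i
    simp only [Pi.add_apply, sh_apply, cob_apply] at h2
    simp only [sh_apply, cob_apply, AddMonoidHom.sub_apply, Pi.sub_apply]
    rw [sub_eq_iff_eq_add]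
    rw [← sub_eq_iff_eq_add] at h2
    rw [← h2]; abel
  exact sub_eq_zero.mp h1

end Full

/-! ### Towers `Eps ≤ Del ≤ Gam` -/

section Tower

variable (S : CosetSys₂ jΓ jΔ ι) (S' : CosetSys₂ jΔ jΕ ι')

/-- On the composite system, the Shapiro cocycle is computed fibrewise. -/
theorem sh_comp_apply (ψ' : Additive Eps →+ A) (g : Gam) (i : ι) (i' : ι') :
    sh (S.comp S') ψ' g (i, i') = sh S' ψ' (S.coc g i) i' := rfl

/-- **Corestriction is `pr_*`**: summing the Shapiro cocycle of `ψ'` (for `Eps ≤ Gam`) over the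
fibres of `pr : ι × ι' → ι` gives the Shapiro cocycle (for `Del ≤ Gam`) of the transfer of `ψ'`. -/
theorem sum_sh_comp [Fintype ι'] (ψ' : Additive Eps →+ A) (g : Gam) (i : ι) :
    ∑ i', sh (S.comp S') ψ' g (i, i') = sh S (transferAdd S' ψ') g i := rfl

/-- **Restriction is `pr^*` up to an explicit coboundary**: if the representatives of `S'` come
from `Del` (`S'.rep i' = jΔ (ρ i')`) and `f' : Eps →* Del` is compatible with the embeddings, then
`sh (ψ ∘ f') = pr^* (sh ψ) - cob (ψ ∘ ρ ∘ pr₂)`. -/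
theorem sh_comp_res (hΔ : Function.Injective jΔ) (f' : Eps →* Del) (hf' : ∀ e, jΔ (f' e) = jΕ e)
    (ρ : ι' → Del) (hρ : ∀ i', S'.rep i' = jΔ (ρ i')) (ψ : Additive Del →+ A) (g : Gam) :
    sh (S.comp S') (ψ.comp (MonoidHom.toAdditive f')) g =
      (fun x => sh S ψ g x.1) - cob (S.comp S') (fun x => ψ (Additive.ofMul (ρ x.2))) g := by
  funext x
  obtain ⟨i, i'⟩ := x
  have h := S'.rep_mul (S.coc g i) i'
  rw [hρ, hρ, ← hf', ← map_mul, ← map_mul] at h
  have h1 := hΔ h
  have h2 : ψ (Additive.ofMul (ρ i' * S.coc g i)) =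
      ψ (Additive.ofMul (f' (S'.coc (S.coc g i) i') * ρ (S'.perm (S.coc g i) i'))) := by rw [h1]
  rw [ofMul_mul, map_add, ofMul_mul, map_add] at h2
  simp only [Pi.sub_apply, sh_apply, cob_apply, CosetSys₂.comp_coc, CosetSys₂.comp_perm,
    AddMonoidHom.comp_apply]
  show ψ (Additive.ofMul (f' (S'.coc (S.coc g i) i'))) = _
  rw [eq_sub_iff_add_eq] at *
  rw [← sub_eq_iff_eq_add] at h2
  rw [← h2]; abel

end Tower

/-! ### Composite systems: injectivity, covering, `pr_*` of coboundaries -/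

section CompMore

variable (S : CosetSys₂ jΓ jΔ ι) (S' : CosetSys₂ jΔ jΕ ι')

/-- `pr_*` of a coboundary on the composite system is the coboundary of `pr_*`. -/
theorem sum_cob_comp [Fintype ι'] (w : ι × ι' → A) (g : Gam) (i : ι) :
    ∑ i', cob (S.comp S') w g (i, i') = cob S (fun i => ∑ i', w (i, i')) g i := by
  simp only [cob_apply, CosetSys₂.comp_perm, Finset.sum_sub_distrib]
  congr 1
  exact Equiv.sum_comp (S'.permEquiv (S.coc g i)) (fun i' => w (S.perm g i, i'))

/-- `pr^*` of a coboundary is a coboundary on the composite system. -/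
theorem cob_comp_fst (w : ι → A) (g : Gam) (x : ι × ι') :
    cob (S.comp S') (fun x => w x.1) g x = cob S w g x.1 := rfl

/-- the composite of two systems of pairwise distinct cosets is one, as soon as the
representatives of the second come from `Del`. -/
theorem isInj_comp (hS : S.IsInj) (hS' : S'.IsInj) (f' : Eps →* Del)
    (hf' : ∀ e, jΔ (f' e) = jΕ e) (ρ : ι' → Del) (hρ : ∀ i', S'.rep i' = jΔ (ρ i')) :
    (S.comp S').IsInj := by
  intro x y e h
  obtain ⟨i, i'⟩ := x
  obtain ⟨k, k'⟩ := y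
  simp only [CosetSys₂.comp_rep] at h
  have h1 : S.rep i = jΔ ((ρ i')⁻¹ * f' e * ρ k') * S.rep k := by
    rw [map_mul, map_mul, map_inv, hf', ← hρ, ← hρ, mul_assoc, mul_assoc, ← h,
      inv_mul_cancel_left]
  have hik : i = k := hS i k _ h1
  subst hik
  have h2 : S'.rep i' = jΕ e * S'.rep k' := by
    rw [← mul_assoc] at h
    exact mul_right_cancel h
  have hik' : i' = k' := hS' i' k' e h2
  rw [hik']

/-- A system is **covering** if every element of `Gam` lies in one of its cosets. -/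
def IsCover (S : CosetSys₂ jΓ jΔ ι) : Prop := ∀ g : Gam, ∃ (i : ι) (d : Del), jΓ g = jΔ d * S.rep i

theorem isCover_comp (hS : IsCover S) (hS' : IsCover S') : IsCover (S.comp S') := by
  intro g
  obtain ⟨i, d, h⟩ := hS g
  obtain ⟨i', e, h'⟩ := hS' d
  exact ⟨(i, i'), e, by rw [h, h', mul_assoc]; rfl⟩

theorem IsFull.isCover {S : CosetSys₂ jΓ jΔ ι} {f : Del →* Gam} {t : ι → Gam} {i₀ : ι}
    (H : IsFull S f t i₀) : IsCover S := by
  intro g
  refine ⟨S.perm g i₀, S.coc g i₀, ?_⟩
  have h := S.rep_mul g i₀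
  rwa [H.h0, one_mul] at h

end CompMore

/-! ### Change of transversal, at the level of cocycles -/

section Equivalence

variable (S : CosetSys₂ jΓ jΔ ι) (S' : CosetSys₂ jΓ jΔ ι')

/-- Cocycle-level form of `CosetSys₂.transfer_eq_of_equiv`: a change of representatives
`rep' i' = jΔ (d i') * rep (σ i')` changes the Shapiro cocycle by `σ^*` and the explicit
coboundary of `ψ ∘ d`. (`σ` need not be bijective.) -/
theorem sh_eq_of_equiv (σ : ι' → ι) (d : ι' → Del)
    (hcoc : ∀ (g : Gam) (i' : ι'),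
      S'.coc g i' * d (S'.perm g i') = d i' * S.coc g (σ i'))
    (ψ : Additive Del →+ A) (g : Gam) :
    sh S' ψ g =
      (fun i' => sh S ψ g (σ i')) - cob S' (fun i' => ψ (Additive.ofMul (d i'))) g := by
  funext i'
  have h : ψ (Additive.ofMul (S'.coc g i' * d (S'.perm g i'))) =
      ψ (Additive.ofMul (d i' * S.coc g (σ i'))) := by rw [hcoc]
  rw [ofMul_mul, map_add, ofMul_mul, map_add] at h
  simp only [Pi.sub_apply, sh_apply, cob_apply]
  rw [eq_sub_of_add_eq h]
  abel

theorem rep_mul_of_rep_eq (σ : ι' → ι) (d : ι' → Del)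
    (hrep : ∀ i' : ι', S'.rep i' = jΔ (d i') * S.rep (σ i')) (g : Gam) (i' : ι') :
    S.rep (σ i') * jΓ g =
      jΔ ((d i')⁻¹ * S'.coc g i' * d (S'.perm g i')) * S.rep (σ (S'.perm g i')) := by
  have h1 := S'.rep_mul g i'
  rw [hrep i', hrep (S'.perm g i')] at h1
  rw [map_mul, map_mul, map_inv, mul_assoc, mul_assoc, ← h1, ← mul_assoc, ← mul_assoc,
    inv_mul_cancel, one_mul]

/-- the comparison map of index sets is equivariant -/
theorem perm_of_rep_eq (hS : S.IsInj) (σ : ι' → ι) (d : ι' → Del)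
    (hrep : ∀ i' : ι', S'.rep i' = jΔ (d i') * S.rep (σ i')) (g : Gam) (i' : ι') :
    σ (S'.perm g i') = S.perm g (σ i') :=
  (S.perm_eq_of_eq hS (rep_mul_of_rep_eq S S' σ d hrep g i')).symm

theorem coc_of_rep_eq (hS : S.IsInj) (hΔ : Function.Injective jΔ) (σ : ι' → ι) (d : ι' → Del)
    (hrep : ∀ i' : ι', S'.rep i' = jΔ (d i') * S.rep (σ i')) (g : Gam) (i' : ι') :
    S'.coc g i' * d (S'.perm g i') = d i' * S.coc g (σ i') := by
  have h := S.coc_eq_of_eq hS hΔ (rep_mul_of_rep_eq S S' σ d hrep g i')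
  rw [h, ← mul_assoc, ← mul_assoc, mul_inv_cancel, one_mul]

/-- **Independence of the transversal, cocycle level**: if `S` consists of pairwise distinct
cosets and the representatives of `S'` lie in cosets of `S`, `rep' i' = jΔ (d i') * rep (σ i')`,
then `sh S' ψ = σ^* (sh S ψ) - cob (ψ ∘ d)`. -/
theorem sh_eq_of_rep_eq (hS : S.IsInj) (hΔ : Function.Injective jΔ) (σ : ι' → ι) (d : ι' → Del)
    (hrep : ∀ i' : ι', S'.rep i' = jΔ (d i') * S.rep (σ i'))
    (ψ : Additive Del →+ A) (g : Gam) :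
    sh S' ψ g =
      (fun i' => sh S ψ g (σ i')) - cob S' (fun i' => ψ (Additive.ofMul (d i'))) g :=
  sh_eq_of_equiv S S' σ d (coc_of_rep_eq S S' hS hΔ σ d hrep) ψ g

/-- Two systems of pairwise distinct cosets whose representatives lie in each other's cosets are
related by a bijection of the index sets. -/
theorem exists_equiv_of_rep_mem (hS : S.IsInj) (hS' : S'.IsInj)
    (h : ∀ i' : ι', ∃ (i : ι) (d : Del), S'.rep i' = jΔ d * S.rep i)
    (h' : ∀ i : ι, ∃ (i' : ι') (d : Del), S.rep i = jΔ d * S'.rep i') :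
    ∃ (σ : ι' ≃ ι) (d : ι' → Del), ∀ i' : ι', S'.rep i' = jΔ (d i') * S.rep (σ i') := by
  classical
  choose σ d hσ using h
  choose τ e hτ using h'
  have hστ : ∀ i, σ (τ i) = i := by
    intro i
    refine (hS i (σ (τ i)) (e i * d (τ i)) ?_).symm
    rw [map_mul, mul_assoc, ← hσ, ← hτ]
  have hτσ : ∀ i', τ (σ i') = i' := by
    intro i'
    refine (hS' i' (τ (σ i')) (d i' * e (σ i')) ?_).symm
    rw [map_mul, mul_assoc, ← hτ, ← hσ]
  exact ⟨⟨σ, τ, hτσ, hστ⟩, d, hσ⟩

/-- A covering system of pairwise distinct cosets receives a comparison map from any system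
whose representatives come from `Gam`. -/
theorem exists_rep_eq_of_isCover (hS : IsCover S) (ρ : ι' → Gam)
    (hρ : ∀ i', S'.rep i' = jΓ (ρ i')) :
    ∃ (σ : ι' → ι) (d : ι' → Del), ∀ i' : ι', S'.rep i' = jΔ (d i') * S.rep (σ i') := by
  classical
  choose σ d h using fun i' => hS (ρ i')
  exact ⟨σ, d, fun i' => by rw [hρ, h]⟩

end Equivalence

/-! ### More on full systems: stabilisers, orbit sums, invariant functions -/

section FullMore

variable {S : CosetSys₂ jΓ jΔ ι} {f : Del →* Gam} {t : ι → Gam} {i₀ : ι}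

theorem IsFull.f_injective (H : IsFull S f t i₀) : Function.Injective f := by
  intro d d' h
  apply H.hΔ
  rw [← H.hf, ← H.hf, h]

/-- For `g` fixing `i`, the cocycle value is the conjugate `t i * g * (t i)⁻¹ ∈ Del`. -/
theorem IsFull.f_coc_of_perm_eq (H : IsFull S f t i₀) {g : Gam} {i : ι} (h : S.perm g i = i) :
    f (S.coc g i) = t i * g * (t i)⁻¹ := by
  rw [H.t_mul g i, h, mul_inv_cancel_right]

theorem IsFull.coc_eq_of_conj (H : IsFull S f t i₀) {g : Gam} {i : ι} (h : S.perm g i = i)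
    {d : Del} (hd : f d = t i * g * (t i)⁻¹) : S.coc g i = d :=
  H.f_injective (by rw [H.f_coc_of_perm_eq h, hd])

/-- Conversely, `g` fixes `i` as soon as `t i * g * (t i)⁻¹` lies in `Del`. -/
theorem IsFull.perm_eq_of_conj (H : IsFull S f t i₀) {g : Gam} {i : ι} {d : Del}
    (hd : f d = t i * g * (t i)⁻¹) : S.perm g i = i := by
  refine S.perm_eq_of_eq H.inj (c := d) ?_
  rw [← H.ht, ← map_mul, ← H.hf, ← map_mul, hd, inv_mul_cancel_right]

/-- **Orbit sums of a Shapiro cocycle are values of `ψ` on conjugates of powers**: if `g ^ n`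
fixes `i` then `∑_{k < n} sh ψ g (i g^k) = ψ (t i * g ^ n * (t i)⁻¹)`. -/
theorem IsFull.sum_sh_orbit (H : IsFull S f t i₀) (ψ : Additive Del →+ A) {g : Gam} {n : ℕ}
    {i : ι} (h : S.perm (g ^ n) i = i) {d : Del} (hd : f d = t i * g ^ n * (t i)⁻¹) :
    ∑ k ∈ Finset.range n, sh S ψ g (((S.permEquiv g) ^ k) i) = ψ (Additive.ofMul d) := by
  rw [← (isCocycle_sh S ψ).map_pow_apply, sh_apply, H.coc_eq_of_conj h hd]

/-- The elements acting trivially on a function on `ι` form a subgroup; a function invariant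
under a generating set is constant. -/
theorem IsFull.eq_of_forall_perm_eq (H : IsFull S f t i₀) {B : Type*} (gens : Set Gam)
    (hgen : Subgroup.closure gens = ⊤) (F : ι → B)
    (hF : ∀ g ∈ gens, ∀ i, F (S.perm g i) = F i) (i i' : ι) : F i = F i' := by
  have key : ∀ g : Gam, ∀ i, F (S.perm g i) = F i := by
    intro g
    have hg : g ∈ Subgroup.closure gens := by rw [hgen]; exact Subgroup.mem_top g
    induction hg using Subgroup.closure_induction with
    | mem x hx => exact hF x hx
    | one => intro i; rw [S.perm_one]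
    | mul x y _ _ hx hy => intro i; rw [S.perm_mul, hy, hx]
    | inv x _ hx =>
      intro i
      have h1 := hx (S.perm x⁻¹ i)
      rw [← S.perm_mul, inv_mul_cancel, S.perm_one] at h1
      exact h1.symm
  obtain ⟨g, hg⟩ := H.exists_perm_eq i' i
  rw [← hg, key]

end FullMore

/-! ### The anti-homomorphism `permEquiv` -/

section PermEquiv

variable (S : CosetSys₂ jΓ jΔ ι)

theorem permEquiv_one : S.permEquiv 1 = 1 := Equiv.ext fun i => S.perm_one i

/-- `permEquiv` is an ANTI-homomorphism (`perm` is a right action). -/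
theorem permEquiv_mul (g h : Gam) : S.permEquiv (g * h) = S.permEquiv h * S.permEquiv g :=
  Equiv.ext fun i => S.perm_mul g h i

theorem permEquiv_inv (g : Gam) : S.permEquiv g⁻¹ = (S.permEquiv g)⁻¹ :=
  Equiv.ext fun _ => rfl

theorem permEquiv_pow (g : Gam) (n : ℕ) : S.permEquiv (g ^ n) = (S.permEquiv g) ^ n :=
  Equiv.ext fun i => S.perm_pow g n i

/-- `act` is precomposition with `permEquiv`. -/
theorem act_eq_comp (g : Gam) (v : ι → A) : act S g v = v ∘ ⇑(S.permEquiv g) := rfl

end PermEquiv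

/-! ### The canonical full system on the right cosets `H \ Gam` -/

section OfSubgroup

variable (H : Subgroup Gam)

/-- The set of right cosets `H \ Gam`. -/
abbrev RightCosets : Type _ := Quotient (QuotientGroup.rightRel H)

/-- the right coset `H g` -/
def rmk (g : Gam) : RightCosets H := Quotient.mk (QuotientGroup.rightRel H) g

theorem rmk_eq_rmk {g g' : Gam} : rmk H g = rmk H g' ↔ g' * g⁻¹ ∈ H := by
  unfold rmk
  rw [Quotient.eq]
  exact QuotientGroup.rightRel_apply

theorem rmk_surjective : Function.Surjective (rmk H) := Quotient.mk_surjective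

theorem rmk_mul_of_mem {h : Gam} (hh : h ∈ H) (g : Gam) : rmk H (h * g) = rmk H g := by
  rw [rmk_eq_rmk, mul_inv_rev, mul_inv_cancel_left]
  exact H.inv_mem hh

theorem rmk_out (x : RightCosets H) : rmk H (Quotient.out x) = x := Quotient.out_eq x

theorem out_one_mem : Quotient.out (rmk H 1) ∈ H := by
  have h := rmk_out H (rmk H 1)
  rw [rmk_eq_rmk, one_mul] at h
  have h2 := H.inv_mem h
  rwa [inv_inv] at h2

/-- The chosen representative of a right coset, normalised so that the trivial coset is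
represented by `1`. -/
noncomputable def repOf (x : RightCosets H) : Gam :=
  (Quotient.out (rmk H 1))⁻¹ * Quotient.out x

theorem rmk_repOf (x : RightCosets H) : rmk H (repOf H x) = x := by
  rw [repOf, rmk_mul_of_mem H (H.inv_mem (out_one_mem H)), rmk_out]

theorem repOf_one : repOf H (rmk H 1) = 1 := inv_mul_cancel _

/-- every element is `h * repOf (H g)` with `h ∈ H` -/
theorem mul_inv_repOf_mem (g : Gam) : g * (repOf H (rmk H g))⁻¹ ∈ H := by
  have h := rmk_repOf H (rmk H g)
  rwa [rmk_eq_rmk] at h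

/-- right multiplication on right cosets -/
def rperm (g : Gam) (x : RightCosets H) : RightCosets H :=
  Quotient.liftOn x (fun a => rmk H (a * g)) (fun a b hab => by
    have h : b * a⁻¹ ∈ H := QuotientGroup.rightRel_apply.mp hab
    show rmk H (a * g) = rmk H (b * g)
    rw [rmk_eq_rmk, mul_inv_rev, mul_assoc, mul_inv_cancel_left]
    exact h)

@[simp] theorem rperm_rmk (g a : Gam) : rperm H g (rmk H a) = rmk H (a * g) := rfl

theorem rcoc_mem (g : Gam) (x : RightCosets H) :
    repOf H x * g * (repOf H (rperm H g x))⁻¹ ∈ H := by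
  have h : rmk H (repOf H (rperm H g x)) = rmk H (repOf H x * g) := by
    rw [rmk_repOf, ← rperm_rmk, rmk_repOf]
  rwa [rmk_eq_rmk] at h

/-- **The canonical coset system of a subgroup** `H ≤ Gam` (seen inside `G` through an injective
`j : Gam →* G`): index set `H \ Gam`, `perm` = right multiplication, representatives `repOf`. -/
noncomputable def ofSubgroup (j : Gam →* G) (hj : Function.Injective j) :
    CosetSys₂ j (j.comp H.subtype) (RightCosets H) :=
  CosetSys₂.ofInj (jΓ := j) (jΔ := j.comp H.subtype) (hj.comp Subtype.val_injective)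
    (fun x => j (repOf H x)) (rperm H) (fun g x => ⟨_, rcoc_mem H g x⟩)
    (fun g x => by
      show j (repOf H x) * j g =
        j (repOf H x * g * (repOf H (rperm H g x))⁻¹) * j (repOf H (rperm H g x))
      rw [← map_mul, ← map_mul, inv_mul_cancel_right])
    (fun x x' d h => by
      have h1 : repOf H x = (d : Gam) * repOf H x' := hj (by rw [map_mul]; exact h)
      rw [← rmk_repOf H x, h1, rmk_mul_of_mem H d.2, rmk_repOf])

variable (j : Gam →* G) (hj : Function.Injective j)

@[simp] theorem ofSubgroup_rep (x : RightCosets H) :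
    (ofSubgroup H j hj).rep x = j (repOf H x) := rfl

@[simp] theorem ofSubgroup_perm (g : Gam) (x : RightCosets H) :
    (ofSubgroup H j hj).perm g x = rperm H g x := rfl

theorem ofSubgroup_perm_rmk (g a : Gam) :
    (ofSubgroup H j hj).perm g (rmk H a) = rmk H (a * g) := rfl

@[simp] theorem ofSubgroup_coc_coe (g : Gam) (x : RightCosets H) :
    ((ofSubgroup H j hj).coc g x : Gam) = repOf H x * g * (repOf H (rperm H g x))⁻¹ := rfl

theorem ofSubgroup_isInj : (ofSubgroup H j hj).IsInj := CosetSys₂.isInj_ofInj _ _ _ _ _ _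

/-- **The canonical system is full.** -/
theorem isFull_ofSubgroup : IsFull (ofSubgroup H j hj) H.subtype (repOf H) (rmk H 1) where
  inj := ofSubgroup_isInj H j hj
  hΓ := hj
  hΔ := hj.comp Subtype.val_injective
  hf := fun _ => rfl
  ht := fun _ => rfl
  h0 := by rw [ofSubgroup_rep, repOf_one, map_one]

/-- the stabiliser of the coset `H a` is `a⁻¹ H a` -/
theorem ofSubgroup_perm_rmk_eq_iff (g a : Gam) :
    (ofSubgroup H j hj).perm g (rmk H a) = rmk H a ↔ a * g * a⁻¹ ∈ H := by
  rw [ofSubgroup_perm_rmk, rmk_eq_rmk]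
  constructor
  · intro h
    have h2 := H.inv_mem h
    rwa [mul_inv_rev, inv_inv] at h2
  · intro h
    have h2 := H.inv_mem h
    rwa [mul_inv_rev, inv_inv] at h2

/-- central elements of `H` act trivially -/
theorem ofSubgroup_perm_of_central {g : Gam} (hg : g ∈ H) (hc : ∀ a : Gam, a * g = g * a)
    (x : RightCosets H) : (ofSubgroup H j hj).perm g x = x := by
  obtain ⟨a, rfl⟩ := rmk_surjective H x
  rw [ofSubgroup_perm_rmk, hc, rmk_mul_of_mem H hg]

theorem finite_rightCosets [H.FiniteIndex] : Finite (RightCosets H) :=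
  Finite.of_equiv (Gam ⧸ H) (QuotientGroup.quotientRightRelEquivQuotientLeftRel H).symm

theorem natCard_rightCosets : Nat.card (RightCosets H) = H.index :=
  Nat.card_congr (QuotientGroup.quotientRightRelEquivQuotientLeftRel H)

/-- **Universal property of the canonical system** (cocycle level): the Shapiro cocycle of ANY
system for `H ≤ Gam` whose representatives come from `Gam` is the pull-back of the canonical one
along `i' ↦ H (ρ i')`, minus an explicit coboundary. -/
theorem sh_eq_ofSubgroup (S' : CosetSys₂ j (j.comp H.subtype) ι') (ρ : ι' → Gam)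
    (hρ : ∀ i', S'.rep i' = j (ρ i')) (ψ : Additive H →+ A) (g : Gam) :
    sh S' ψ g = (fun i' => sh (ofSubgroup H j hj) ψ g (rmk H (ρ i'))) -
      cob S' (fun i' => ψ (Additive.ofMul ⟨_, mul_inv_repOf_mem H (ρ i')⟩)) g := by
  refine sh_eq_of_rep_eq (ofSubgroup H j hj) S' (ofSubgroup_isInj H j hj)
    (hj.comp Subtype.val_injective) (fun i' => rmk H (ρ i'))
    (fun i' => ⟨_, mul_inv_repOf_mem H (ρ i')⟩) (fun i' => ?_) ψ g
  rw [hρ, ofSubgroup_rep]
  show j (ρ i') = j (ρ i' * (repOf H (rmk H (ρ i')))⁻¹) * j (repOf H (rmk H (ρ i')))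
  rw [← map_mul, inv_mul_cancel_right]

/-- the comparison map `i' ↦ H (ρ i')` is equivariant -/
theorem rmk_perm_ofSubgroup (hj' : Function.Injective j)
    (S' : CosetSys₂ j (j.comp H.subtype) ι') (ρ : ι' → Gam)
    (hρ : ∀ i', S'.rep i' = j (ρ i')) (g : Gam) (i' : ι') :
    rmk H (ρ (S'.perm g i')) = rmk H (ρ i' * g) := by
  have h := S'.rep_mul g i'
  rw [hρ, hρ, ← map_mul] at h
  have h1 : ρ i' * g = ((S'.coc g i' : H) : Gam) * ρ (S'.perm g i') :=
    hj' (by rw [h, map_mul]; rfl)
  rw [h1, rmk_mul_of_mem H (S'.coc g i').2]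

end OfSubgroup

/-! ### Push-forward of a system along `Eps → Del`, and the generic `res` / `cores` formulas -/

section MapDel

/-- View a system for `Eps` as a system for `Del` along `f' : Eps →* Del` (same representatives,
same permutations, cocycle `f' ∘ coc`). -/
def mapDel (T : CosetSys₂ jΓ jΕ ι') (f' : Eps →* Del) (hf' : ∀ e, jΔ (f' e) = jΕ e) :
    CosetSys₂ jΓ jΔ ι' where
  rep := T.rep
  perm := T.perm
  coc g i := f' (T.coc g i)
  rep_mul g i := by rw [hf', T.rep_mul]
  perm_one := T.perm_one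
  perm_mul := T.perm_mul
  coc_mul g h i := by rw [T.coc_mul, map_mul]

variable (T : CosetSys₂ jΓ jΕ ι') (f' : Eps →* Del) (hf' : ∀ e, jΔ (f' e) = jΕ e)

@[simp] theorem mapDel_rep (i : ι') : (mapDel T f' hf').rep i = T.rep i := rfl

@[simp] theorem mapDel_perm (g : Gam) (i : ι') : (mapDel T f' hf').perm g i = T.perm g i := rfl

@[simp] theorem mapDel_coc (g : Gam) (i : ι') : (mapDel T f' hf').coc g i = f' (T.coc g i) := rfl

theorem sh_mapDel (ψ : Additive Del →+ A) (g : Gam) :
    sh (mapDel T f' hf') ψ g = sh T (ψ.comp (MonoidHom.toAdditive f')) g := rfl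

theorem cob_mapDel (w : ι' → A) (g : Gam) : cob (mapDel T f' hf') w g = cob T w g := rfl

/-- **Restriction, generic form**: `S` a system for `Del ≤ Gam` of pairwise distinct cosets, `T` a
system for `Eps ≤ Gam` whose representatives lie in cosets of `S`
(`T.rep i' = jΔ (d i') * S.rep (σ i')`); then `sh_T (ψ ∘ f') = σ^* (sh_S ψ) - cob (ψ ∘ d)`. -/
theorem sh_res_eq_of_rep_eq (hf₁ : ∀ e, jΔ (f' e) = jΕ e) (S : CosetSys₂ jΓ jΔ ι) (hS : S.IsInj)
    (hΔ : Function.Injective jΔ) (σ : ι' → ι) (d : ι' → Del)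
    (hrep : ∀ i' : ι', T.rep i' = jΔ (d i') * S.rep (σ i'))
    (ψ : Additive Del →+ A) (g : Gam) :
    sh T (ψ.comp (MonoidHom.toAdditive f')) g =
      (fun i' => sh S ψ g (σ i')) - cob T (fun i' => ψ (Additive.ofMul (d i'))) g :=
  sh_eq_of_rep_eq S (mapDel T f' hf₁) hS hΔ σ d hrep ψ g

/-- **Corestriction, generic form**: `S : Gam ⟶ Del`, `S_c : Del ⟶ Eps` (any transversal system),
`T : Gam ⟶ Eps` of pairwise distinct cosets with the composite representatives lying in cosets of
`T` (`S_c.rep i_c * S.rep i = jΕ (d (i, i_c)) * T.rep (σ (i, i_c))`); then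
`sh_S (cores ψ) g i = ∑_{i_c} sh_T ψ g (σ (i, i_c)) - cob_S (∑_{i_c} ψ ∘ d) g i`. -/
theorem sh_transferAdd_eq_of_rep_eq {ι_c : Type*} [Fintype ι_c] (S : CosetSys₂ jΓ jΔ ι)
    (S_c : CosetSys₂ jΔ jΕ ι_c) (hT : T.IsInj) (hΕ : Function.Injective jΕ)
    (σ : ι × ι_c → ι') (d : ι × ι_c → Eps)
    (hrep : ∀ x : ι × ι_c, S_c.rep x.2 * S.rep x.1 = jΕ (d x) * T.rep (σ x))
    (ψ : Additive Eps →+ A) (g : Gam) (i : ι) :
    sh S (transferAdd S_c ψ) g i =
      ∑ i_c, sh T ψ g (σ (i, i_c)) -
        cob S (fun i => ∑ i_c, ψ (Additive.ofMul (d (i, i_c)))) g i := by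
  have h := sh_eq_of_rep_eq T (S.comp S_c) hT hΕ σ d hrep ψ g
  rw [← sum_sh_comp, ← sum_cob_comp S S_c (fun x => ψ (Additive.ofMul (d x))) g i,
    ← Finset.sum_sub_distrib]
  refine Finset.sum_congr rfl fun i_c _ => ?_
  rw [h]
  rfl

end MapDel

/-! ### Towers of subgroups `K ≤ H ≤ Gam`: `res = pr^*`, `cores = pr_*` on the canonical systems -/

section SubgroupTower

variable (H K : Subgroup Gam) (j : Gam →* G) (hj : Function.Injective j)

/-- The projection `K \ Gam → H \ Gam` (meaningful for `K ≤ H`). -/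
noncomputable def rpr (x' : RightCosets K) : RightCosets H := rmk H (repOf K x')

theorem rpr_rmk (hKH : K ≤ H) (a : Gam) : rpr H K (rmk K a) = rmk H a := by
  rw [rpr, rmk_eq_rmk]
  have h := mul_inv_repOf_mem K a
  exact hKH h

/-- the projection is equivariant -/
theorem rpr_rperm (hKH : K ≤ H) (g : Gam) (x' : RightCosets K) :
    rpr H K (rperm K g x') = rperm H g (rpr H K x') := by
  obtain ⟨a, rfl⟩ := rmk_surjective K x'
  rw [rperm_rmk, rpr_rmk H K hKH, rpr_rmk H K hKH, rperm_rmk]

/-- **`res = pr^*` up to an explicit coboundary**, on the canonical systems of `K ≤ H ≤ Gam`;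
`f' : K →* H` is the inclusion (any homomorphism which is the identity on underlying elements). -/
theorem sh_ofSubgroup_res (f' : K →* H) (hf' : ∀ k : K, ((f' k : H) : Gam) = (k : Gam))
    (φ : Additive H →+ A) (g : Gam) :
    sh (ofSubgroup K j hj) (φ.comp (MonoidHom.toAdditive f')) g =
      (fun x' => sh (ofSubgroup H j hj) φ g (rpr H K x')) -
        cob (ofSubgroup K j hj)
          (fun x' => φ (Additive.ofMul ⟨_, mul_inv_repOf_mem H (repOf K x')⟩)) g := by
  have hf'' : ∀ k : K, (j.comp H.subtype) (f' k) = (j.comp K.subtype) k := by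
    intro k
    show j ((f' k : H) : Gam) = j (k : Gam)
    rw [hf']
  exact sh_eq_ofSubgroup H j hj (mapDel (ofSubgroup K j hj) f' hf'') (repOf K)
    (fun _ => rfl) φ g

variable {ι_c : Type*} (S_c : CosetSys₂ (j.comp H.subtype) (j.comp K.subtype) ι_c)
  (ρ_c : ι_c → H) (hρ_c : ∀ i, S_c.rep i = j (ρ_c i))

/-- the comparison map `(H \ Gam) × ι_c → K \ Gam`, `(x, i) ↦ K (ρ_c i * repOf x)` -/
noncomputable def towerMap (x : RightCosets H) (i : ι_c) : RightCosets K :=
  rmk K ((ρ_c i : Gam) * repOf H x)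

theorem rpr_towerMap (hKH : K ≤ H) (x : RightCosets H) (i : ι_c) :
    rpr H K (towerMap H K ρ_c x i) = x := by
  rw [towerMap, rpr_rmk H K hKH, rmk_mul_of_mem H (ρ_c i).2, rmk_repOf]

include hρ_c in
/-- **`cores = pr_*` up to an explicit coboundary**, on the canonical systems of `K ≤ H ≤ Gam`,
for ANY transversal system `S_c` of `K` in `H` with representatives `ρ_c i ∈ H`. -/
theorem sh_ofSubgroup_cores [Fintype ι_c] (ψ : Additive K →+ A) (g : Gam)
    (x : RightCosets H) :
    sh (ofSubgroup H j hj) (transferAdd S_c ψ) g x =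
      ∑ i, sh (ofSubgroup K j hj) ψ g (towerMap H K ρ_c x i) -
        cob (ofSubgroup H j hj) (fun x => ∑ i, ψ (Additive.ofMul
          ⟨_, mul_inv_repOf_mem K ((ρ_c i : Gam) * repOf H x)⟩)) g x := by
  refine sh_transferAdd_eq_of_rep_eq (ofSubgroup K j hj) (ofSubgroup H j hj) S_c
    (ofSubgroup_isInj K j hj) (hj.comp Subtype.val_injective)
    (fun y => towerMap H K ρ_c y.1 y.2)
    (fun y => ⟨_, mul_inv_repOf_mem K ((ρ_c y.2 : Gam) * repOf H y.1)⟩) (fun y => ?_) ψ g x
  rw [hρ_c, ofSubgroup_rep, ofSubgroup_rep, ← map_mul]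
  show j ((ρ_c y.2 : Gam) * repOf H y.1) =
    j ((ρ_c y.2 : Gam) * repOf H y.1 * (repOf K (rmk K ((ρ_c y.2 : Gam) * repOf H y.1)))⁻¹) *
      j (repOf K (rmk K ((ρ_c y.2 : Gam) * repOf H y.1)))
  rw [← map_mul, inv_mul_cancel_right]

include hρ_c in
/-- For a transversal system of pairwise distinct cosets, `i ↦ towerMap x i` is injective. -/
theorem towerMap_injective (hS_c : S_c.IsInj) (x : RightCosets H) :
    Function.Injective (towerMap H K ρ_c x) := by
  intro i k h
  rw [towerMap, towerMap, rmk_eq_rmk, mul_inv_rev, mul_assoc, mul_inv_cancel_left] at h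
  refine (hS_c k i ⟨_, h⟩ ?_).symm
  rw [hρ_c, hρ_c]
  show j (ρ_c k : Gam) = j ((ρ_c k : Gam) * (ρ_c i : Gam)⁻¹) * j (ρ_c i : Gam)
  rw [← map_mul, inv_mul_cancel_right]

include hj hρ_c in
/-- For a covering transversal system, every point of the fibre `pr⁻¹ x` is a `towerMap x i`. -/
theorem exists_towerMap_eq (hcov : IsCover S_c) (x' : RightCosets K) :
    ∃ i, towerMap H K ρ_c (rpr H K x') i = x' := by
  obtain ⟨i, k, h⟩ := hcov ⟨_, mul_inv_repOf_mem H (repOf K x')⟩
  refine ⟨i, ?_⟩
  rw [hρ_c] at h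
  have h1 : repOf K x' * (repOf H (rmk H (repOf K x')))⁻¹ = (k : Gam) * (ρ_c i : Gam) :=
    hj (h.trans (map_mul j _ _).symm)
  have h2 : (ρ_c i : Gam) * repOf H (rpr H K x') = (k : Gam)⁻¹ * repOf K x' := by
    rw [rpr, eq_inv_mul_iff_mul_eq, ← mul_assoc, ← h1, inv_mul_cancel_right]
  rw [towerMap, h2, rmk_mul_of_mem K (K.inv_mem k.2), rmk_repOf]

include hj hρ_c in
/-- **Fibre sums**: for a covering transversal system of pairwise distinct cosets, summing over
`ι_c` through `towerMap x` is summing over the fibre `pr⁻¹ x`. -/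
theorem sum_towerMap [Fintype ι_c] [Fintype (RightCosets K)] [DecidableEq (RightCosets H)]
    (hKH : K ≤ H) (hS_c : S_c.IsInj) (hcov : IsCover S_c) (F : RightCosets K → A)
    (x : RightCosets H) :
    ∑ i, F (towerMap H K ρ_c x i) = ∑ x' with rpr H K x' = x, F x' := by
  classical
  have himg : (Finset.univ.filter fun x' => rpr H K x' = x) =
      Finset.univ.image (towerMap H K ρ_c x) := by
    ext x'
    simp only [Finset.mem_filter, Finset.mem_univ, true_and, Finset.mem_image]
    constructor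
    · intro hx
      obtain ⟨i, hi⟩ := exists_towerMap_eq H K j hj S_c ρ_c hρ_c hcov x'
      exact ⟨i, by rw [← hx, hi]⟩
    · rintro ⟨i, rfl⟩
      exact rpr_towerMap H K ρ_c hKH x i
  rw [himg, Finset.sum_image]
  intro i _ k _ h
  exact towerMap_injective H K j S_c ρ_c hρ_c hS_c x h

end SubgroupTower

end Fermat.Agent.S41.PD.ShapiroGen
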