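/-
S41 / block [PD], leaf PD-c4 (helper11), part 2: **`(P2)` for `Γ₀(N q) ≤ Γ₀(N) ≤ SL₂(ℤ)`**.

Instantiation of `Adjoint.pair_res_cores_of_cover` at the canonical Shapiro systems
`shSys M := ShapiroGen.ofSubgroup (Gamma0 M) (mapGL ℝ)` (index set `Γ₀(M) \ SL₂(ℤ)`, ambient group
`GL₂(ℝ)`) and helper7's transversal `Degeneracy.coresSys N q hqN` of `Γ₀(N q)` in `Γ₀(N)`:

`pair_resAdd_coresAdd` : if `v`, `u` represent `φ` and `coresAdd N q ψ` at level `N` and `v'`, `u'`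
represent `resAdd N q φ` and `ψ` at level `N q`, then `pair v' u' = pair v u`.
-/
import Mathlib
import Fermat.Agent.S41.PD.Adjoint
import Fermat.Agent.S41.PD.DessinQuot
import Fermat.Agent.S41.PD.ShapiroGen
import Fermat.Agent.P3LR.A.DegeneracyDefs

set_option autoImplicit false

open scoped MatrixGroups

namespace Fermat.Agent.S41.PD.AdjointGamma0

open Matrix.SpecialLinearGroup CongruenceSubgroup
open Fermat.Agent.N4F.Tors.HeckeHom
open Fermat.Agent.P3LR.A.Transfer2 Fermat.Agent.P3LR.A.Degeneracy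
open Fermat.Agent.S41.PD.Dessin Fermat.Agent.S41.PD.Adjoint
open Fermat.Agent.S41.PD.ShapiroGen (RightCosets ofSubgroup ofSubgroup_isInj isFull_ofSubgroup
  repOf IsFull)

/-- **The canonical Shapiro system of level `M`**: index set `Γ₀(M) \ SL₂(ℤ)`, ambient group
`GL₂(ℝ)` (so that it composes with the coset systems of block (A)). -/
noncomputable def shSys (M : ℕ) :
    CosetSys₂ (mapGL ℝ : SL(2, ℤ) →* GL (Fin 2) ℝ) (jGL M) (RightCosets (Gamma0 M)) :=
  ofSubgroup (Gamma0 M) (mapGL ℝ) (mapGL_injective (R := ℤ) (S := ℝ))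

theorem shSys_isInj (M : ℕ) : (shSys M).IsInj :=
  ofSubgroup_isInj (Gamma0 M) (mapGL ℝ) (mapGL_injective (R := ℤ) (S := ℝ))

theorem shSys_rep (M : ℕ) (x : RightCosets (Gamma0 M)) :
    (shSys M).rep x = mapGL ℝ (repOf (Gamma0 M) x) := rfl

theorem shSys_isFull (M : ℕ) :
    IsFull (shSys M) (Gamma0 M).subtype (repOf (Gamma0 M)) (ShapiroGen.rmk (Gamma0 M) 1) :=
  isFull_ofSubgroup (Gamma0 M) (mapGL ℝ) (mapGL_injective (R := ℤ) (S := ℝ))

theorem shSys_cover (M : ℕ) (g : SL(2, ℤ)) :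
    ∃ (x : RightCosets (Gamma0 M)) (γ : ↥(Gamma0 M)), mapGL ℝ g = jGL M γ * (shSys M).rep x :=
  (shSys_isFull M).isCover g

/-- **Restriction and corestriction between `Γ₀(N)` and `Γ₀(N q)` are adjoint for the Poincaré
pairings of the dessin models** (in relational form: for ANY representatives). -/
theorem pair_resAdd_coresAdd (N q : ℕ) [Fact q.Prime] (hqN : ¬ q ∣ N)
    [Fintype (RightCosets (Gamma0 N))] [DecidableEq (RightCosets (Gamma0 N))]
    [Fintype (RightCosets (Gamma0 (N * q)))] [DecidableEq (RightCosets (Gamma0 (N * q)))]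
    (sg tg : SL(2, ℤ))
    (hD : IsDessin ((shSys N).permEquiv sg) ((shSys N).permEquiv tg))
    (hD' : IsDessin ((shSys (N * q)).permEquiv sg) ((shSys (N * q)).permEquiv tg))
    {φ : Additive ↥(Gamma0 N) →+ ℤ} {ψ : Additive ↥(Gamma0 (N * q)) →+ ℤ}
    (v u : Npar ((shSys N).permEquiv sg) ((shSys N).permEquiv tg))
    (v' u' : Npar ((shSys (N * q)).permEquiv sg) ((shSys (N * q)).permEquiv tg))
    (hv : IsRep (shSys N) sg tg φ v) (hu : IsRep (shSys N) sg tg (coresAdd N q ψ) u)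
    (hv' : IsRep (shSys (N * q)) sg tg (resAdd N q φ) v')
    (hu' : IsRep (shSys (N * q)) sg tg ψ u') :
    pair v' u' = pair v u := by
  classical
  exact pair_res_cores_of_cover (shSys N) (shSys (N * q)) (coresSys N q hqN)
    (shSys_isInj N) (shSys_isInj (N * q)) (coresSys_isInj N q hqN)
    (jGL_injective N) (jGL_injective (N * q))
    (incl N q) (fun _ => rfl) (Gamma0 N).subtype (fun _ => rfl)
    (repOf (Gamma0 N)) (fun _ => rfl) (repOf (Gamma0 (N * q))) (fun _ => rfl)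
    (coresRep N q hqN) (fun _ => rfl)
    (shSys_cover N) (shSys_cover (N * q)) (coresSys_cover N q hqN)
    sg tg hD hD' (coresAdd_apply N q hqN ψ) v u v' u' hv hu hv' hu'

/-! ### The same on the quotient `LamQ = Npar / W` -/

section Quot

variable {Amb G Gam : Type*} [Group Amb] [Group G] [Group Gam] {jG : G →* Amb} {jΓ : Gam →* Amb}
  {X : Type*} [Fintype X] [DecidableEq X]

/-- the class `a ∈ LamQ` **is `Θ φ`**: it has a representative in `Npar` which represents `φ` -/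
def IsRepQ (S : CosetSys₂ jG jΓ X) (sg tg : G) (φ : Additive Gam →+ ℤ)
    (a : LamQ (S.permEquiv sg) (S.permEquiv tg)) : Prop :=
  ∃ v : Npar (S.permEquiv sg) (S.permEquiv tg), a = Submodule.Quotient.mk v ∧ IsRep S sg tg φ v

theorem IsRepQ.mk {S : CosetSys₂ jG jΓ X} {sg tg : G} {φ : Additive Gam →+ ℤ}
    (v : Npar (S.permEquiv sg) (S.permEquiv tg)) (hv : IsRep S sg tg φ v) :
    IsRepQ S sg tg φ (Submodule.Quotient.mk v) := ⟨v, rfl, hv⟩

/-- the class representing `φ` is unique -/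
theorem IsRepQ.unique {S : CosetSys₂ jG jΓ X} {sg tg : G} {φ : Additive Gam →+ ℤ}
    {a b : LamQ (S.permEquiv sg) (S.permEquiv tg)} (ha : IsRepQ S sg tg φ a)
    (hb : IsRepQ S sg tg φ b) : a = b := by
  obtain ⟨v, rfl, hv⟩ := ha
  obtain ⟨u, rfl, hu⟩ := hb
  rw [← sub_eq_zero, ← Submodule.Quotient.mk_sub, Submodule.Quotient.mk_eq_zero]
  exact mem_WN.2 (hv.sub_mem_W hu)

end Quot

/-- **`(P2)` on classes**: `B_{Nq}(Θ(res φ), Θ ψ) = B_N(Θ φ, Θ(cores ψ))`, for ANY classes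
`a = Θ φ`, `c = Θ (cores ψ)`, `a' = Θ (res φ)`, `b' = Θ ψ` in the sense of `IsRepQ`. -/
theorem Bq_resAdd_coresAdd (N q : ℕ) [Fact q.Prime] (hqN : ¬ q ∣ N)
    [Fintype (RightCosets (Gamma0 N))] [DecidableEq (RightCosets (Gamma0 N))]
    [Fintype (RightCosets (Gamma0 (N * q)))] [DecidableEq (RightCosets (Gamma0 (N * q)))]
    (sg tg : SL(2, ℤ))
    (hD : IsDessin ((shSys N).permEquiv sg) ((shSys N).permEquiv tg))
    (hD' : IsDessin ((shSys (N * q)).permEquiv sg) ((shSys (N * q)).permEquiv tg))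
    {φ : Additive ↥(Gamma0 N) →+ ℤ} {ψ : Additive ↥(Gamma0 (N * q)) →+ ℤ}
    {a c : LamQ ((shSys N).permEquiv sg) ((shSys N).permEquiv tg)}
    {a' b' : LamQ ((shSys (N * q)).permEquiv sg) ((shSys (N * q)).permEquiv tg)}
    (ha : IsRepQ (shSys N) sg tg φ a) (hc : IsRepQ (shSys N) sg tg (coresAdd N q ψ) c)
    (ha' : IsRepQ (shSys (N * q)) sg tg (resAdd N q φ) a')
    (hb' : IsRepQ (shSys (N * q)) sg tg ψ b') :
    hD'.Bq a' b' = hD.Bq a c := by
  obtain ⟨v, rfl, hv⟩ := ha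
  obtain ⟨u, rfl, hu⟩ := hc
  obtain ⟨v', rfl, hv'⟩ := ha'
  obtain ⟨u', rfl, hu'⟩ := hb'
  rw [IsDessin.Bq_mk, IsDessin.Bq_mk]
  exact pair_resAdd_coresAdd N q hqN sg tg hD hD' v u v' u' hv hu hv' hu'

end Fermat.Agent.S41.PD.AdjointGamma0
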