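/-
S41, block [PD], leaf PD-c/Conj, file 1: HEISENBERG COCHAINS AND THE INTRINSIC CUSP SUM (model free).

For a group `G`, a commutative ring `R` and additive characters `lam mu : Additive G →+ R`,
a *cup cochain* is a map `psi : G → R` with
`psi (g * h) = psi g + psi h + lam g * mu h`
(equivalently `g ↦ (lam g, mu g, psi g)` is a homomorphism to the Heisenberg group).
The intrinsic pairing of the [PD] block is `∑ i, psi (c i)` over a finite family `c` of
"peripheral" elements (positive primitive parabolic generators, one per cusp) on which `lam`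
and `mu` vanish.  This file proves everything about it that does not depend on the group:

* `IsCup.map_one`, `IsCup.map_inv`, `IsCup.map_conj` (`psi` is conjugation invariant on
  `ker lam ∩ ker mu`);
* `IsCup.exists_hom_sub` : two cup cochains differ by an additive character;
* `IsCup.comp` : transport along a group homomorphism;
* `IsCup.sum_eq_of_forall_hom` : the cusp sum does not depend on `psi` if every character has
  cusp sum `0`;
* `IsCup.sum_comp_eq_of_conj` : **invariance**: if `e : G →* G'` maps the family `c` to conjugates
  of the family `c'` (up to a bijection of the index sets), then the cusp sums agree;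
* `IsCup.add_left`, `IsCup.add_right`, `IsCup.smul_left`, `IsCup.zero_left`, ... : bilinearity
  bookkeeping;  `IsCup.swap` : the antisymmetry device `lam * mu - psi`.
-/
import Mathlib

set_option autoImplicit false

namespace Fermat.Agent.S41.PD.Heis

variable {G G' : Type*} [Group G] [Group G'] {R : Type*} [CommRing R]

/-- `psi` is a cup cochain for the pair of characters `(lam, mu)`. -/
def IsCup (lam mu : Additive G →+ R) (psi : G → R) : Prop :=
  ∀ g h : G, psi (g * h) = psi g + psi h + lam (Additive.ofMul g) * mu (Additive.ofMul h)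

namespace IsCup

variable {lam mu : Additive G →+ R} {psi : G → R}

theorem map_mul (h : IsCup lam mu psi) (g k : G) :
    psi (g * k) = psi g + psi k + lam (Additive.ofMul g) * mu (Additive.ofMul k) := h g k

theorem map_one (h : IsCup lam mu psi) : psi 1 = 0 := by
  have h1 := h 1 1
  rw [mul_one, ofMul_one, map_zero, zero_mul, add_zero] at h1
  linear_combination -h1

theorem char_inv (chi : Additive G →+ R) (g : G) :
    chi (Additive.ofMul g⁻¹) = - chi (Additive.ofMul g) := by
  rw [ofMul_inv, map_neg]

theorem char_mul (chi : Additive G →+ R) (g k : G) :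
    chi (Additive.ofMul (g * k)) = chi (Additive.ofMul g) + chi (Additive.ofMul k) := by
  rw [ofMul_mul, map_add]

theorem map_inv (h : IsCup lam mu psi) (g : G) :
    psi g⁻¹ = - psi g + lam (Additive.ofMul g) * mu (Additive.ofMul g) := by
  have h1 := h g g⁻¹
  rw [mul_inv_cancel, h.map_one, char_inv] at h1
  linear_combination -h1

/-- **`psi` is conjugation invariant on the common kernel of `lam` and `mu`.** -/
theorem map_conj (h : IsCup lam mu psi) (g u : G) (hl : lam (Additive.ofMul u) = 0)
    (hm : mu (Additive.ofMul u) = 0) : psi (g * u * g⁻¹) = psi u := by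
  rw [h (g * u) g⁻¹, h g u, h.map_inv, char_mul, hl, hm, char_inv]
  ring

/-- two cup cochains for the same pair differ by an additive character -/
theorem exists_hom_sub {psi' : G → R} (h : IsCup lam mu psi) (h' : IsCup lam mu psi') :
    ∃ chi : Additive G →+ R, ∀ g : G, psi g - psi' g = chi (Additive.ofMul g) := by
  refine ⟨AddMonoidHom.mk' (fun x => psi (Additive.toMul x) - psi' (Additive.toMul x)) ?_,
    fun g => rfl⟩
  intro x y
  show psi (Additive.toMul x * Additive.toMul y) - psi' (Additive.toMul x * Additive.toMul y) = _
  rw [h, h']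
  ring

/-- a cup cochain plus a character is a cup cochain -/
theorem add_hom (h : IsCup lam mu psi) (chi : Additive G →+ R) :
    IsCup lam mu (fun g => psi g + chi (Additive.ofMul g)) := by
  intro g k
  simp only [h g k, char_mul]
  ring

/-- transport along a group homomorphism -/
theorem comp {lam' mu' : Additive G' →+ R} {psi' : G' → R} (h : IsCup lam' mu' psi')
    (e : G →* G') :
    IsCup (lam'.comp (MonoidHom.toAdditive e)) (mu'.comp (MonoidHom.toAdditive e))
      (fun g => psi' (e g)) := by
  intro g k
  show psi' (e (g * k)) = psi' (e g) + psi' (e k) +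
    lam' (Additive.ofMul (e g)) * mu' (Additive.ofMul (e k))
  rw [_root_.map_mul, h]

/-! ### bilinearity bookkeeping -/

theorem zero_left : IsCup (0 : Additive G →+ R) mu (fun _ => 0) := by
  intro g k
  simp

theorem zero_right : IsCup lam (0 : Additive G →+ R) (fun _ => 0) := by
  intro g k
  simp

theorem add_left {lam₂ : Additive G →+ R} {psi₂ : G → R} (h : IsCup lam mu psi)
    (h₂ : IsCup lam₂ mu psi₂) : IsCup (lam + lam₂) mu (fun g => psi g + psi₂ g) := by
  intro g k
  simp only [h g k, h₂ g k, AddMonoidHom.add_apply]
  ring

theorem add_right {mu₂ : Additive G →+ R} {psi₂ : G → R} (h : IsCup lam mu psi)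
    (h₂ : IsCup lam mu₂ psi₂) : IsCup lam (mu + mu₂) (fun g => psi g + psi₂ g) := by
  intro g k
  simp only [h g k, h₂ g k, AddMonoidHom.add_apply]
  ring

theorem neg_left (h : IsCup lam mu psi) : IsCup (-lam) mu (fun g => - psi g) := by
  intro g k
  simp only [h g k, AddMonoidHom.neg_apply]
  ring

theorem neg_right (h : IsCup lam mu psi) : IsCup lam (-mu) (fun g => - psi g) := by
  intro g k
  simp only [h g k, AddMonoidHom.neg_apply]
  ring

theorem smul_left (h : IsCup lam mu psi) (r : R) :
    IsCup (r • lam) mu (fun g => r * psi g) := by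
  intro g k
  simp only [h g k, AddMonoidHom.smul_apply, smul_eq_mul]
  ring

theorem smul_right (h : IsCup lam mu psi) (r : R) :
    IsCup lam (r • mu) (fun g => r * psi g) := by
  intro g k
  simp only [h g k, AddMonoidHom.smul_apply, smul_eq_mul]
  ring

/-- **antisymmetry device**: if `psi` is a cup cochain for `(lam, mu)` then
`lam * mu - psi` is one for `(mu, lam)`. -/
theorem swap (h : IsCup lam mu psi) :
    IsCup mu lam (fun g => lam (Additive.ofMul g) * mu (Additive.ofMul g) - psi g) := by
  intro g k
  simp only [h g k, char_mul]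
  ring

/-- the product `lam * mu'`-type cochain when the pair is `(lam, lam)`: `lam ^ 2 / 2` is not
available over `ℤ`, but `lam * lam` is a cup cochain for `(lam, lam) + (lam, lam)`. -/
theorem self_two (lam : Additive G →+ R) :
    IsCup (lam + lam) lam (fun g => lam (Additive.ofMul g) * lam (Additive.ofMul g)) := by
  intro g k
  simp only [char_mul, AddMonoidHom.add_apply]
  ring

/-! ### cusp sums -/

section Sum

variable {ι ι' : Type*} [Fintype ι] [Fintype ι']

/-- The cusp sum does not depend on the cup cochain, provided every character has cusp sum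
zero (the peripheral elements are jointly trivial in `G^ab ⊗ R`). -/
theorem sum_eq_of_forall_hom {psi' : G → R} (h : IsCup lam mu psi) (h' : IsCup lam mu psi')
    (c : ι → G) (hc : ∀ chi : Additive G →+ R, ∑ i, chi (Additive.ofMul (c i)) = 0) :
    ∑ i, psi (c i) = ∑ i, psi' (c i) := by
  obtain ⟨chi, hchi⟩ := h.exists_hom_sub h'
  have := hc chi
  rw [← sub_eq_zero, ← Finset.sum_sub_distrib]
  simpa [hchi] using this

/-- **Invariance of the cusp sum.**  Let `e : G →* G'`, let `c`, `c'` be finite families in `G`,
`G'` and `s` a bijection of the index sets such that `e (c i)` is conjugate to `c' (s i)`.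
If `lam'`, `mu'` vanish on the `c' j`, then the cusp sum of the transported cochain `psi' ∘ e`
over `c` equals the cusp sum of `psi'` over `c'`. -/
theorem sum_comp_eq_of_conj {lam' mu' : Additive G' →+ R} {psi' : G' → R}
    (h : IsCup lam' mu' psi') (e : G →* G') (c : ι → G) (c' : ι' → G') (s : ι ≃ ι')
    (hconj : ∀ i, ∃ g : G', e (c i) = g * c' (s i) * g⁻¹)
    (hl : ∀ j, lam' (Additive.ofMul (c' j)) = 0) (hm : ∀ j, mu' (Additive.ofMul (c' j)) = 0) :
    ∑ i, psi' (e (c i)) = ∑ j, psi' (c' j) := by
  rw [← s.sum_comp (fun j => psi' (c' j))]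
  refine Finset.sum_congr rfl fun i _ => ?_
  obtain ⟨g, hg⟩ := hconj i
  rw [hg, h.map_conj g _ (hl _) (hm _)]

/-- the cusp sum only depends on the conjugacy classes of the peripheral elements -/
theorem sum_eq_of_conj (h : IsCup lam mu psi) (c c' : ι → G)
    (hconj : ∀ i, ∃ g : G, c i = g * c' i * g⁻¹)
    (hl : ∀ i, lam (Additive.ofMul (c' i)) = 0) (hm : ∀ i, mu (Additive.ofMul (c' i)) = 0) :
    ∑ i, psi (c i) = ∑ i, psi (c' i) := by
  refine Finset.sum_congr rfl fun i _ => ?_
  obtain ⟨g, hg⟩ := hconj i
  rw [hg, h.map_conj g _ (hl _) (hm _)]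

end Sum

/-! ### powers -/

/-- on an element killed by `lam` (or by `mu`) a cup cochain is additive on powers -/
theorem map_pow_of_left (h : IsCup lam mu psi) (u : G) (hl : lam (Additive.ofMul u) = 0)
    (n : ℕ) : psi (u ^ n) = n * psi u := by
  induction n with
  | zero => simp [h.map_one]
  | succ n ih =>
    rw [pow_succ', h, ih, hl, zero_mul]
    push_cast
    ring

theorem map_pow_of_right (h : IsCup lam mu psi) (u : G) (hm : mu (Additive.ofMul u) = 0)
    (n : ℕ) : psi (u ^ n) = n * psi u := by
  induction n with
  | zero => simp [h.map_one]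
  | succ n ih =>
    rw [pow_succ, h, ih, hm, mul_zero]
    push_cast
    ring

end IsCup

end Fermat.Agent.S41.PD.Heis
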