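/-
S41, block [PD], leaf PD-Heis, file 3: CONJUGATION INVARIANCE OF THE INTRINSIC CUSP SUM
(generic part).

Let `G` be a group and `P ⊆ G` a conjugation invariant set of "peripheral" elements (for
`G = Γ ≤ SL₂(ℤ)`: the positive primitive parabolic elements of `Γ`).  A family `c : ι → G` is a
*system of class representatives* of `P` (`IsClassReps P c`) if every `c i` lies in `P`, every
element of `P` is conjugate to some `c i`, and distinct `c i` are not conjugate (a "cusp system").

* `IsClassReps.exists_equiv` : two systems of class representatives of the same `P` are matched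
  by a bijection of the index sets, up to conjugacy;
* `IsClassReps.map` : an isomorphism `e : G ≃* G'` with `e u ∈ P' ↔ u ∈ P` maps systems of class
  representatives of `P` to systems of class representatives of `P'`;
* `IsClassReps.sum_eq` : the cusp sum `∑ i, psi (c i)` of a cup cochain `psi` (`PD/Heis.lean`)
  whose characters vanish on `P` does not depend on the system of class representatives;
* `IsClassReps.sum_comp_eq` : **conjugation invariance**
  `∑ i, psi' (e (c i)) = ∑ j, psi' (c' j)`, i.e. (with `IsCup.comp`)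
  `Φ_G (lam' ∘ e, mu' ∘ e) = Φ_G' (lam', mu')` for the intrinsic pairing
  `Φ (lam, mu) = ∑ over class representatives of any cup cochain of (lam, mu)`.
-/
import Mathlib
import Fermat.Agent.S41.PD.Heis

set_option autoImplicit false

namespace Fermat.Agent.S41.PD.Conj

open Fermat.Agent.S41.PD.Heis

variable {G G' : Type*} [Group G] [Group G']

/-- `c` is a system of representatives of the conjugacy classes of `G` contained in `P`. -/
structure IsClassReps (P : Set G) {ι : Type*} (c : ι → G) : Prop where
  mem : ∀ i, c i ∈ P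
  surj : ∀ u ∈ P, ∃ i, ∃ g : G, u = g * c i * g⁻¹
  inj : ∀ i j, (∃ g : G, c i = g * c j * g⁻¹) → i = j

namespace IsClassReps

variable {P : Set G} {P' : Set G'} {ι ι' : Type*} {c : ι → G} {c' : ι' → G}

/-- Two systems of class representatives of the same set are matched by a bijection of the index
sets, up to conjugacy. -/
theorem exists_equiv (hc : IsClassReps P c) (hc' : IsClassReps P c') :
    ∃ s : ι ≃ ι', ∀ i, ∃ g : G, c i = g * c' (s i) * g⁻¹ := by
  classical
  have h1 : ∀ i, ∃ j, ∃ g : G, c i = g * c' j * g⁻¹ := fun i => hc'.surj _ (hc.mem i)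
  have h2 : ∀ j, ∃ i, ∃ g : G, c' j = g * c i * g⁻¹ := fun j => hc.surj _ (hc'.mem j)
  choose s hs using h1
  choose t ht using h2
  refine ⟨⟨s, t, fun i => ?_, fun j => ?_⟩, hs⟩
  · obtain ⟨g, hg⟩ := hs i
    obtain ⟨g', hg'⟩ := ht (s i)
    refine (hc.inj i (t (s i)) ⟨g * g', ?_⟩).symm
    rw [hg, hg']
    group
  · obtain ⟨g, hg⟩ := ht j
    obtain ⟨g', hg'⟩ := hs (t j)
    refine (hc'.inj j (s (t j)) ⟨g * g', ?_⟩).symm
    rw [hg, hg']
    group

/-- An isomorphism which identifies the peripheral sets maps systems of class representatives to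
systems of class representatives. -/
theorem map (hc : IsClassReps P c) (e : G ≃* G') (hP : ∀ u : G, e u ∈ P' ↔ u ∈ P) :
    IsClassReps P' (fun i => e (c i)) where
  mem i := (hP _).mpr (hc.mem i)
  surj u' hu' := by
    have hu : e.symm u' ∈ P := by
      rw [← hP, MulEquiv.apply_symm_apply]
      exact hu'
    obtain ⟨i, g, hg⟩ := hc.surj _ hu
    refine ⟨i, e g, ?_⟩
    rw [← map_inv, ← map_mul, ← map_mul, ← hg, MulEquiv.apply_symm_apply]
  inj i j := by
    rintro ⟨g', hg'⟩
    refine hc.inj i j ⟨e.symm g', ?_⟩
    apply e.injective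
    rw [map_mul, map_mul, map_inv, MulEquiv.apply_symm_apply]
    exact hg'

variable {R : Type*} [CommRing R] [Fintype ι] [Fintype ι']

/-- The cusp sum of a cup cochain whose characters vanish on `P` does not depend on the system
of class representatives of `P`. -/
theorem sum_eq (hc : IsClassReps P c) (hc' : IsClassReps P c') {lam mu : Additive G →+ R}
    {psi : G → R} (h : IsCup lam mu psi) (hl : ∀ u ∈ P, lam (Additive.ofMul u) = 0)
    (hm : ∀ u ∈ P, mu (Additive.ofMul u) = 0) :
    ∑ i, psi (c i) = ∑ j, psi (c' j) := by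
  obtain ⟨s, hs⟩ := hc.exists_equiv hc'
  have := h.sum_comp_eq_of_conj (MonoidHom.id G) c c' s (fun i => by simpa using hs i)
    (fun j => hl _ (hc'.mem j)) (fun j => hm _ (hc'.mem j))
  simpa using this

/-- **Conjugation invariance of the cusp sum.**  If `e : G ≃* G'` identifies the peripheral sets
`P`, `P'`, then for every cup cochain `psi'` on `G'` whose characters vanish on `P'`, the cusp sum
of the transported cochain `psi' ∘ e` over class representatives of `P` equals the cusp sum of
`psi'` over class representatives of `P'`. -/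
theorem sum_comp_eq {c' : ι' → G'} (hc : IsClassReps P c) (hc' : IsClassReps P' c')
    (e : G ≃* G') (hP : ∀ u : G, e u ∈ P' ↔ u ∈ P) {lam' mu' : Additive G' →+ R}
    {psi' : G' → R} (h : IsCup lam' mu' psi') (hl : ∀ u ∈ P', lam' (Additive.ofMul u) = 0)
    (hm : ∀ u ∈ P', mu' (Additive.ofMul u) = 0) :
    ∑ i, psi' (e (c i)) = ∑ j, psi' (c' j) :=
  (hc.map e hP).sum_eq hc' h hl hm

end IsClassReps

/-! ### The intrinsic pairing as a relation -/

section Pairing

variable {R : Type*} [CommRing R]

/-- `v` is the value of the intrinsic pairing `Φ_P (lam, mu)`: **some** cup cochain of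
`(lam, mu)` has cusp sum `v` over **some** finite system of class representatives of `P`
(indexed by a type in universe `0`). -/
def IsCuspPairing (P : Set G) (lam mu : Additive G →+ R) (v : R) : Prop :=
  ∃ (psi : G → R) (ι : Type) (_ : Fintype ι) (c : ι → G),
    IsCup lam mu psi ∧ IsClassReps P c ∧ ∑ i, psi (c i) = v

/-- **Conjugation invariance of the intrinsic pairing**:
`Φ_P' (lam', mu') = v → Φ_P (lam' ∘ e, mu' ∘ e) = v`. -/
theorem IsCuspPairing.comp {P : Set G} {P' : Set G'} {lam' mu' : Additive G' →+ R} {v : R}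
    (h : IsCuspPairing P' lam' mu' v) (e : G ≃* G') (hP : ∀ u : G, e u ∈ P' ↔ u ∈ P) :
    IsCuspPairing P (lam'.comp (MonoidHom.toAdditive e.toMonoidHom))
      (mu'.comp (MonoidHom.toAdditive e.toMonoidHom)) v := by
  obtain ⟨psi', ι, hι, c', hcup, hc', hv⟩ := h
  refine ⟨fun g => psi' (e g), ι, hι, fun i => e.symm (c' i), hcup.comp e.toMonoidHom, ?_, ?_⟩
  · refine hc'.map e.symm fun u' => ?_
    rw [← hP, MulEquiv.apply_symm_apply]
  · simpa using hv

/-- The value of the intrinsic pairing is unique as soon as every character of `G` has cusp sum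
zero over one (equivalently every) system of class representatives, and `lam`, `mu` vanish
on `P`. -/
theorem IsCuspPairing.unique {P : Set G} {lam mu : Additive G →+ R} {v v' : R}
    (h : IsCuspPairing P lam mu v) (h' : IsCuspPairing P lam mu v')
    (hl : ∀ u ∈ P, lam (Additive.ofMul u) = 0) (hm : ∀ u ∈ P, mu (Additive.ofMul u) = 0)
    (hchar : ∀ (chi : Additive G →+ R) (ι : Type) (_ : Fintype ι) (c : ι → G),
      IsClassReps P c → ∑ i, chi (Additive.ofMul (c i)) = 0) :
    v = v' := by
  obtain ⟨psi, ι, hι, c, hcup, hc, hv⟩ := h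
  obtain ⟨psi', ι', hι', c', hcup', hc', hv'⟩ := h'
  rw [← hv, ← hv', hc.sum_eq hc' hcup hl hm]
  exact hcup.sum_eq_of_forall_hom hcup' c' (fun chi => hchar chi ι' hι' c' hc')

end Pairing

end Fermat.Agent.S41.PD.Conj
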