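/-
S41, block [PD], leaf PD-c4 (helper15): **cusp systems** — the pure group theory behind the
intrinsic (cup product) description of the Poincaré pairing on `Hom_par(Γ, ℤ)`,
`Γ ≤ SL(2, ℤ)` of finite index.  Mathlib only.

* `IsPosPar u` : `u ∈ SL(2, ℤ)` is a positive parabolic element (trace `2`, conjugate to `T ^ n`,
  `n > 0`: `isPosPar_iff`).  Invariant under conjugation by real/rational matrices of POSITIVE
  determinant (`isPosPar_iff_of_intertwine`, `isPosPar_iff_of_mapGL_conj`).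
* `IsPrimPosPar Γ u`, `IsCuspSystem Γ c` : primitive positive parabolic elements of `Γ` and systems
  of representatives of their `Γ`-conjugacy classes (one canonical generator per cusp).
* `isCuspSystem_of_reps` : representatives of `Γ \ SL(2, ℤ) / {± T ^ i}` with their widths give a cusp
  system;  `isCuspSystem_stdCusp` : the family `stdCusp Γ` occurring in Mathlib's explicit formula
  for the transfer `transfer_eq_prod_quotient_orbitRel_zpowers_quot` is a cusp system (`-1 ∈ Γ`).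
* `IsCuspSystem.sum_eq` : the sum of a class function over a cusp system is independent of the
  system;  `IsCuspSystem.map_conj` : conjugation by `GL₂⁺` maps cusp systems to cusp systems.
* `IsHeisLift lam mu ψ` : `ψ (g h) = ψ g + ψ h + lam g * mu h` (Heisenberg lifts), class function
  on `ker lam ∩ ker mu`, difference of two lifts is a homomorphism.
* `IsCuspSystem.sum_hom` : `∑ k, χ (c k) = (cores χ)(T) = 0` for a homomorphism `χ : Γ → R`,
  `R` torsion-free (`Hom(SL(2, ℤ), R) = 0`).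
* `intrinsic Γ lam mu`, `intrinsic_eq` (computable with ANY cusp system and ANY Heisenberg lift),
  `intrinsic_conj` (**invariance under conjugation by `GL₂⁺(ℚ)`/`GL₂⁺(ℝ)`** — Atkin–Lehner
  isometry, `η`-adjointness, Hecke self-adjointness of the Poincaré pairing).
-/
import Mathlib

set_option autoImplicit false
set_option linter.unusedSimpArgs false

open scoped MatrixGroups

namespace Fermat.Agent.S41.PD.CuspSystem

open Matrix Matrix.SpecialLinearGroup ModularGroup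

theorem sl_ext {g h : SL(2, ℤ)} (h00 : g 0 0 = h 0 0) (h01 : g 0 1 = h 0 1)
    (h10 : g 1 0 = h 1 0) (h11 : g 1 1 = h 1 1) : g = h := by
  ext i j
  fin_cases i <;> fin_cases j
  · exact h00
  · exact h01
  · exact h10
  · exact h11

theorem sl_det (g : SL(2, ℤ)) : g 0 0 * g 1 1 - g 0 1 * g 1 0 = 1 := by
  have := g.det_coe
  rwa [Matrix.det_fin_two] at this

theorem sl_mul_apply (g h : SL(2, ℤ)) (i j : Fin 2) :
    (g * h) i j = g i 0 * h 0 j + g i 1 * h 1 j := by
  rw [Matrix.SpecialLinearGroup.coe_mul, Matrix.mul_apply, Fin.sum_univ_two]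

theorem sl_inv_00 (g : SL(2, ℤ)) : g⁻¹ 0 0 = g 1 1 := by
  rw [Matrix.SpecialLinearGroup.coe_inv, Matrix.adjugate_fin_two]; rfl

theorem sl_inv_01 (g : SL(2, ℤ)) : g⁻¹ 0 1 = - g 0 1 := by
  rw [Matrix.SpecialLinearGroup.coe_inv, Matrix.adjugate_fin_two]; rfl

theorem sl_inv_10 (g : SL(2, ℤ)) : g⁻¹ 1 0 = - g 1 0 := by
  rw [Matrix.SpecialLinearGroup.coe_inv, Matrix.adjugate_fin_two]; rfl

theorem sl_inv_11 (g : SL(2, ℤ)) : g⁻¹ 1 1 = g 0 0 := by
  rw [Matrix.SpecialLinearGroup.coe_inv, Matrix.adjugate_fin_two]; rfl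

theorem T_zpow_00 (n : ℤ) : (T ^ n) 0 0 = 1 := by rw [coe_T_zpow]; rfl
theorem T_zpow_01 (n : ℤ) : (T ^ n) 0 1 = n := by rw [coe_T_zpow]; rfl
theorem T_zpow_10 (n : ℤ) : (T ^ n) 1 0 = 0 := by rw [coe_T_zpow]; rfl
theorem T_zpow_11 (n : ℤ) : (T ^ n) 1 1 = 1 := by rw [coe_T_zpow]; rfl

theorem conj_T_zpow_entries (g : SL(2, ℤ)) (n : ℤ) :
    (g * T ^ n * g⁻¹) 0 0 = 1 - n * g 0 0 * g 1 0 ∧
    (g * T ^ n * g⁻¹) 0 1 = n * g 0 0 ^ 2 ∧
    (g * T ^ n * g⁻¹) 1 0 = - (n * g 1 0 ^ 2) ∧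
    (g * T ^ n * g⁻¹) 1 1 = 1 + n * g 0 0 * g 1 0 := by
  have hd := sl_det g
  simp only [sl_mul_apply, sl_inv_00, sl_inv_01, sl_inv_10, sl_inv_11, T_zpow_00, T_zpow_01,
    T_zpow_10, T_zpow_11]
  refine ⟨?_, ?_, ?_, ?_⟩
  · linear_combination hd
  · ring
  · ring
  · linear_combination hd

/-! ### Positive parabolic elements -/

/-- `u ∈ SL(2, ℤ)` is a *positive parabolic* element: trace `2`, and conjugate to a positive power
of `T` (expressed by a sign condition on the off-diagonal entries). -/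
def IsPosPar (u : SL(2, ℤ)) : Prop := u 0 0 + u 1 1 = 2 ∧ (0 < u 0 1 ∨ u 1 0 < 0)

theorem IsPosPar.ne_one {u : SL(2, ℤ)} (hu : IsPosPar u) : u ≠ 1 := by
  rintro rfl
  rcases hu.2 with h | h
  · simp at h
  · simp at h

/-- for a trace-two element, `u 0 1 * (- u 1 0)` is a square -/
theorem off_diag_of_trace {u : SL(2, ℤ)} (hu : u 0 0 + u 1 1 = 2) :
    u 0 1 * (- u 1 0) = (u 1 1 - 1) ^ 2 := by
  have hd := sl_det u
  have h00 : u 0 0 = 2 - u 1 1 := by linarith
  rw [h00] at hd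
  linear_combination hd

theorem IsPosPar.nonneg {u : SL(2, ℤ)} (hu : IsPosPar u) : 0 ≤ u 0 1 ∧ u 1 0 ≤ 0 := by
  have h := off_diag_of_trace hu.1
  have hsq : 0 ≤ (u 1 1 - 1) ^ 2 := sq_nonneg _
  rcases hu.2 with hp | hp
  · refine ⟨hp.le, ?_⟩
    by_contra hc
    have hc' : 0 < u 1 0 := not_le.mp hc
    have : u 0 1 * (- u 1 0) < 0 := mul_neg_of_pos_of_neg hp (by linarith)
    linarith
  · refine ⟨?_, hp.le⟩
    by_contra hc
    have hc' : u 0 1 < 0 := not_le.mp hc
    have : u 0 1 * (- u 1 0) < 0 := mul_neg_of_neg_of_pos hc' (by linarith)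
    linarith

theorem isPosPar_conj_T_pow (g : SL(2, ℤ)) {n : ℤ} (hn : 0 < n) : IsPosPar (g * T ^ n * g⁻¹) := by
  obtain ⟨h00, h01, h10, h11⟩ := conj_T_zpow_entries g n
  refine ⟨by rw [h00, h11]; ring, ?_⟩
  rw [h01, h10]
  by_cases hg : g 0 0 = 0
  · right
    have hd := sl_det g
    rw [hg] at hd
    have h1 : g 1 0 ≠ 0 := by
      rintro h
      rw [h] at hd
      simp at hd
    have : 0 < g 1 0 ^ 2 := by positivity
    have := mul_pos hn this
    linarith
  · left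
    have : 0 < g 0 0 ^ 2 := by positivity
    exact mul_pos hn this

theorem exists_primitive (b x : ℤ) (h : ¬ (b = 0 ∧ x = 0)) :
    ∃ d b' x' : ℤ, d ≠ 0 ∧ b = d * b' ∧ x = d * x' ∧ IsCoprime b' x' := by
  have hg : (Int.gcd b x : ℤ) ≠ 0 := by
    intro h0
    have h0' : Int.gcd b x = 0 := by exact_mod_cast h0
    rw [Int.gcd_eq_zero_iff] at h0'
    exact h h0'
  obtain ⟨b', hb'⟩ : (Int.gcd b x : ℤ) ∣ b := Int.gcd_dvd_left _ _
  obtain ⟨x', hx'⟩ : (Int.gcd b x : ℤ) ∣ x := Int.gcd_dvd_right _ _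
  refine ⟨Int.gcd b x, b', x', hg, hb', hx', ?_⟩
  have hgpos : 0 < Int.gcd b x := Nat.pos_of_ne_zero (by exact_mod_cast hg)
  have hc := Int.isCoprime_iff_gcd_eq_one.mpr (Int.gcd_div_gcd_div_gcd (i := b) (j := x) hgpos)
  have e1 : b / (Int.gcd b x : ℤ) = b' := by
    have : b / (Int.gcd b x : ℤ) = (Int.gcd b x : ℤ) * b' / (Int.gcd b x : ℤ) := by rw [← hb']
    rw [this]
    exact Int.mul_ediv_cancel_left _ hg
  have e2 : x / (Int.gcd b x : ℤ) = x' := by
    have : x / (Int.gcd b x : ℤ) = (Int.gcd b x : ℤ) * x' / (Int.gcd b x : ℤ) := by rw [← hx']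
    rw [this]
    exact Int.mul_ediv_cancel_left _ hg
  rwa [e1, e2] at hc

/-- a trace-two element of `SL(2, ℤ)` is conjugate to a power of `T` -/
theorem exists_conj_T_zpow {u : SL(2, ℤ)} (hu : u 0 0 + u 1 1 = 2) :
    ∃ (g : SL(2, ℤ)) (n : ℤ), u = g * T ^ n * g⁻¹ := by
  -- a primitive fixed vector `(p, r)`
  obtain ⟨p, r, hpr, h1, h2⟩ : ∃ p r : ℤ, IsCoprime p r ∧
      u 0 0 * p + u 0 1 * r = p ∧ u 1 0 * p + u 1 1 * r = r := by
    have hoff := off_diag_of_trace hu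
    by_cases hb : u 0 1 = 0 ∧ u 1 1 - 1 = 0
    · refine ⟨0, 1, isCoprime_zero_left.mpr isUnit_one, ?_, ?_⟩
      · simp [hb.1]
      · have := hb.2
        simp only [mul_zero, mul_one, zero_add]
        linarith
    · obtain ⟨d, b', x', hd0, hb', hx', hcop⟩ := exists_primitive _ _ hb
      refine ⟨b', x', hcop, ?_, ?_⟩
      · apply mul_left_cancel₀ hd0
        have h00 : u 0 0 = 1 - (u 1 1 - 1) := by linarith
        rw [h00]
        linear_combination (u 1 1 - 1) * hb' - (u 0 1) * hx'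
      · apply mul_left_cancel₀ hd0
        linear_combination (- u 1 0) * hb' - (u 1 1 - 1) * hx' - hoff
  obtain ⟨g, hg0, hg1⟩ := hpr.exists_SL2_col 0
  set m := g⁻¹ * u * g with hm
  have hdg := sl_det g
  have m10 : m 1 0 = 0 := by
    rw [hm]
    simp only [sl_mul_apply, sl_inv_00, sl_inv_01, sl_inv_10, sl_inv_11, hg0, hg1]
    linear_combination (-r) * h1 + p * h2
  have m00 : m 0 0 = 1 := by
    rw [hm]
    simp only [sl_mul_apply, sl_inv_00, sl_inv_01, sl_inv_10, sl_inv_11, hg0, hg1]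
    rw [hg0, hg1] at hdg
    linear_combination (g 1 1) * h1 - (g 0 1) * h2 + hdg
  have m11 : m 1 1 = 1 := by
    have := sl_det m
    rw [m10, m00] at this
    linarith
  refine ⟨g, m 0 1, ?_⟩
  have : m = T ^ (m 0 1) := by
    apply sl_ext
    · rw [m00, T_zpow_00]
    · rw [T_zpow_01]
    · rw [m10, T_zpow_10]
    · rw [m11, T_zpow_11]
  rw [← this, hm]
  group


theorem IsPosPar.exists_conj {u : SL(2, ℤ)} (hu : IsPosPar u) :
    ∃ (g : SL(2, ℤ)) (n : ℤ), 0 < n ∧ u = g * T ^ n * g⁻¹ := by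
  obtain ⟨g, n, rfl⟩ := exists_conj_T_zpow hu.1
  refine ⟨g, n, ?_, rfl⟩
  obtain ⟨-, h01, h10, -⟩ := conj_T_zpow_entries g n
  have hs := hu.2
  rw [h01, h10] at hs
  by_contra hn
  have hn' : n ≤ 0 := not_lt.mp hn
  rcases hs with h | h
  · have : n * g 0 0 ^ 2 ≤ 0 := mul_nonpos_of_nonpos_of_nonneg hn' (sq_nonneg _)
    linarith
  · have : n * g 1 0 ^ 2 ≤ 0 := mul_nonpos_of_nonpos_of_nonneg hn' (sq_nonneg _)
    linarith

theorem isPosPar_iff {u : SL(2, ℤ)} :
    IsPosPar u ↔ ∃ (g : SL(2, ℤ)) (n : ℤ), 0 < n ∧ u = g * T ^ n * g⁻¹ :=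
  ⟨IsPosPar.exists_conj, by rintro ⟨g, n, hn, rfl⟩; exact isPosPar_conj_T_pow g hn⟩

/-- conjugates of positive parabolic elements are positive parabolic -/
theorem IsPosPar.conj {u : SL(2, ℤ)} (hu : IsPosPar u) (x : SL(2, ℤ)) :
    IsPosPar (x * u * x⁻¹) := by
  obtain ⟨g, n, hn, rfl⟩ := hu.exists_conj
  have : x * (g * T ^ n * g⁻¹) * x⁻¹ = (x * g) * T ^ n * (x * g)⁻¹ := by group
  rw [this]
  exact isPosPar_conj_T_pow _ hn

/-- positive powers of positive parabolic elements are positive parabolic -/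
theorem IsPosPar.pow {u : SL(2, ℤ)} (hu : IsPosPar u) {n : ℕ} (hn : 0 < n) :
    IsPosPar (u ^ n) := by
  obtain ⟨g, m, hm, rfl⟩ := hu.exists_conj
  have : (g * T ^ m * g⁻¹) ^ n = g * T ^ (m * n) * g⁻¹ := by
    rw [conj_pow, _root_.zpow_mul, zpow_natCast]
  rw [this]
  exact isPosPar_conj_T_pow _ (mul_pos hm (by exact_mod_cast hn))

/-! ### The stabiliser of `∞` -/

/-- conjugation by an element with vanishing lower left entry fixes the powers of `T` -/
theorem conj_T_zpow_of_lower_left {y : SL(2, ℤ)} (hy : y 1 0 = 0) (n : ℤ) :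
    y * T ^ n * y⁻¹ = T ^ n := by
  obtain ⟨h00, h01, h10, h11⟩ := conj_T_zpow_entries y n
  have hd := sl_det y
  rw [hy] at hd
  have hsq : y 0 0 ^ 2 = 1 := by
    have h1 : y 0 0 * y 1 1 = 1 := by linarith
    rcases Int.eq_one_or_neg_one_of_mul_eq_one' h1 with ⟨h, -⟩ | ⟨h, -⟩
    · rw [h]; norm_num
    · rw [h]; norm_num
  apply sl_ext
  · rw [h00, hy, T_zpow_00]; ring
  · rw [h01, hsq, T_zpow_01]; ring
  · rw [h10, hy, T_zpow_10]; ring
  · rw [h11, hy, T_zpow_11]; ring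

/-- an element with vanishing lower left entry is `± T ^ i` -/
theorem eq_T_zpow_or_neg_of_lower_left {y : SL(2, ℤ)} (hy : y 1 0 = 0) :
    ∃ i : ℤ, y = T ^ i ∨ y = - T ^ i := by
  have hd := sl_det y
  rw [hy] at hd
  have h1 : y 0 0 * y 1 1 = 1 := by linarith
  rcases Int.eq_one_or_neg_one_of_mul_eq_one' h1 with ⟨h0, h1⟩ | ⟨h0, h1⟩
  · refine ⟨y 0 1, Or.inl ?_⟩
    apply sl_ext
    · rw [h0, T_zpow_00]
    · rw [T_zpow_01]
    · rw [hy, T_zpow_10]
    · rw [h1, T_zpow_11]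
  · refine ⟨- y 0 1, Or.inr ?_⟩
    apply sl_ext
    · rw [h0, Matrix.SpecialLinearGroup.coe_neg, Matrix.neg_apply, T_zpow_00]
    · rw [Matrix.SpecialLinearGroup.coe_neg, Matrix.neg_apply, T_zpow_01]; ring
    · rw [hy, Matrix.SpecialLinearGroup.coe_neg, Matrix.neg_apply, T_zpow_10]; ring
    · rw [h1, Matrix.SpecialLinearGroup.coe_neg, Matrix.neg_apply, T_zpow_11]

theorem T_zpow_lower_left (i : ℤ) : (T ^ i) 1 0 = 0 := T_zpow_10 i

theorem neg_T_zpow_lower_left (i : ℤ) : (- T ^ i) 1 0 = 0 := by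
  rw [Matrix.SpecialLinearGroup.coe_neg, Matrix.neg_apply, T_zpow_10]; ring

/-- an element intertwining two powers of `T` stabilises `∞`, and the powers agree -/
theorem lower_left_of_intertwine {y : SL(2, ℤ)} {a b : ℤ} (ha : a ≠ 0)
    (h : y * T ^ a = T ^ b * y) : y 1 0 = 0 ∧ a = b := by
  have e11 := congrArg (fun z : SL(2, ℤ) => z 1 1) h
  have e01 := congrArg (fun z : SL(2, ℤ) => z 0 1) h
  simp only [sl_mul_apply, T_zpow_00, T_zpow_01, T_zpow_10, T_zpow_11] at e11 e01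
  have hy : y 1 0 = 0 := by
    have : y 1 0 * a = 0 := by linarith
    rcases mul_eq_zero.mp this with h0 | h0
    · exact h0
    · exact absurd h0 ha
  refine ⟨hy, ?_⟩
  have hd := sl_det y
  rw [hy] at hd
  have h1 : y 0 0 * y 1 1 = 1 := by linarith
  rcases Int.eq_one_or_neg_one_of_mul_eq_one' h1 with ⟨h0, h1'⟩ | ⟨h0, h1'⟩
  · rw [h0, h1'] at e01; linarith
  · rw [h0, h1'] at e01; linarith

/-- the subgroup `{± T ^ i}` of `SL(2, ℤ)`: the stabiliser of the cusp `∞` -/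
def stabInfty : Subgroup SL(2, ℤ) where
  carrier := {y | y 1 0 = 0}
  one_mem' := by simp
  mul_mem' := by
    intro a b ha hb
    show (a * b) 1 0 = 0
    have ha' : a 1 0 = 0 := ha
    have hb' : b 1 0 = 0 := hb
    rw [sl_mul_apply, ha', hb']; ring
  inv_mem' := by
    intro a ha
    show a⁻¹ 1 0 = 0
    have ha' : a 1 0 = 0 := ha
    rw [sl_inv_10, ha']; ring

theorem mem_stabInfty {y : SL(2, ℤ)} : y ∈ stabInfty ↔ y 1 0 = 0 := Iff.rfl


/-! ### Invariance of positivity under conjugation by matrices of positive determinant -/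

section Conj

variable {K : Type*} [Field K] [LinearOrder K] [IsStrictOrderedRing K]

/-- a binary quadratic form `y p² + 2 x p q + z q²` with `y, z ≥ 0` and `y z = x²` is `≥ 0` -/
theorem quad_nonneg {x y z : K} (hy : 0 ≤ y) (hz : 0 ≤ z) (h : y * z = x ^ 2) (p q : K) :
    0 ≤ y * p ^ 2 + 2 * x * p * q + z * q ^ 2 := by
  rcases hy.eq_or_lt with hy0 | hy0
  · have hx : x = 0 := by
      have : x ^ 2 = 0 := by rw [← h, ← hy0]; ring
      exact pow_eq_zero_iff (two_ne_zero) |>.mp this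
    rw [← hy0, hx]
    have : 0 ≤ z * q ^ 2 := mul_nonneg hz (sq_nonneg _)
    linarith
  · have key : y * (y * p ^ 2 + 2 * x * p * q + z * q ^ 2) = (y * p + x * q) ^ 2 := by
      linear_combination q ^ 2 * h
    have h2 : 0 ≤ y * (y * p ^ 2 + 2 * x * p * q + z * q ^ 2) := by rw [key]; exact sq_nonneg _
    by_contra hneg
    have hneg' : y * p ^ 2 + 2 * x * p * q + z * q ^ 2 < 0 := not_le.mp hneg
    have := mul_neg_of_pos_of_neg hy0 hneg'
    linarith

/-- **Positivity is invariant under `GL₂⁺`**: if `A u = u' A` for a matrix `A` of positive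
determinant (entrywise form), and `u` is positive parabolic, then so is `u'`. -/
theorem isPosPar_of_intertwine_entries {u u' : SL(2, ℤ)} {p q r s : K} (hdet : 0 < p * s - q * r)
    (e00 : p * (u 0 0 : K) + q * (u 1 0 : K) = (u' 0 0 : K) * p + (u' 0 1 : K) * r)
    (e01 : p * (u 0 1 : K) + q * (u 1 1 : K) = (u' 0 0 : K) * q + (u' 0 1 : K) * s)
    (e10 : r * (u 0 0 : K) + s * (u 1 0 : K) = (u' 1 0 : K) * p + (u' 1 1 : K) * r)
    (e11 : r * (u 0 1 : K) + s * (u 1 1 : K) = (u' 1 0 : K) * q + (u' 1 1 : K) * s)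
    (hu : IsPosPar u) : IsPosPar u' := by
  have hD : p * s - q * r ≠ 0 := hdet.ne'
  obtain ⟨hb, hc⟩ := hu.nonneg
  have htr : ((u 0 0 : ℤ) : K) + (u 1 1 : K) = 2 := by exact_mod_cast hu.1
  have hoff : ((u 0 1 : ℤ) : K) * (- (u 1 0 : K)) = ((u 1 1 : K) - 1) ^ 2 := by
    exact_mod_cast off_diag_of_trace hu.1
  have hbK : (0 : K) ≤ (u 0 1 : K) := by exact_mod_cast hb
  have hcK : (0 : K) ≤ - (u 1 0 : K) := by
    have : ((u 1 0 : ℤ) : K) ≤ 0 := by exact_mod_cast hc
    linarith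
  -- trace
  have htr' : ((u' 0 0 : ℤ) : K) + (u' 1 1 : K) = 2 := by
    have : (((u' 0 0 : ℤ) : K) + (u' 1 1 : K) - 2) * (p * s - q * r) = 0 := by
      linear_combination (-s) * e00 - p * e11 + r * e01 + q * e10 + (p * s - q * r) * htr
    rcases mul_eq_zero.mp this with h | h
    · linarith
    · exact absurd h hD
  have htrZ : u' 0 0 + u' 1 1 = 2 := by exact_mod_cast htr'
  -- the off-diagonal entries of `u'`
  have hb' : ((u' 0 1 : ℤ) : K) * (p * s - q * r) =
      (u 0 1 : K) * p ^ 2 + 2 * ((u 1 1 : K) - 1) * p * q + (- (u 1 0 : K)) * q ^ 2 := by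
    linear_combination q * e00 - p * e01 - p * q * htr
  have hc' : (- ((u' 1 0 : ℤ) : K)) * (p * s - q * r) =
      (u 0 1 : K) * r ^ 2 + 2 * ((u 1 1 : K) - 1) * r * s + (- (u 1 0 : K)) * s ^ 2 := by
    linear_combination s * e10 - r * e11 - r * s * htr
  have hb'0 : (0 : K) ≤ (u' 0 1 : K) := by
    have h1 := quad_nonneg hbK hcK hoff p q
    rw [← hb'] at h1
    by_contra hneg
    have := mul_neg_of_neg_of_pos (not_le.mp hneg) hdet
    linarith
  have hc'0 : (0 : K) ≤ - (u' 1 0 : K) := by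
    have h1 := quad_nonneg hbK hcK hoff r s
    rw [← hc'] at h1
    by_contra hneg
    have := mul_neg_of_neg_of_pos (not_le.mp hneg) hdet
    linarith
  have hb'Z : 0 ≤ u' 0 1 := by exact_mod_cast hb'0
  have hc'Z : u' 1 0 ≤ 0 := by
    have : ((u' 1 0 : ℤ) : K) ≤ 0 := by linarith
    exact_mod_cast this
  refine ⟨htrZ, ?_⟩
  by_contra hcon
  have hcon' : ¬ (0 < u' 0 1) ∧ ¬ (u' 1 0 < 0) := not_or.mp hcon
  have hb0 : u' 0 1 = 0 := le_antisymm (not_lt.mp hcon'.1) hb'Z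
  have hc0 : u' 1 0 = 0 := le_antisymm hc'Z (not_lt.mp hcon'.2)
  -- then `u' = 1`, hence `u = 1`
  have hoff' := off_diag_of_trace htrZ
  rw [hb0, zero_mul] at hoff'
  have h11 : u' 1 1 = 1 := by
    have : u' 1 1 - 1 = 0 := pow_eq_zero_iff (two_ne_zero) |>.mp hoff'.symm
    linarith
  have h00 : u' 0 0 = 1 := by linarith
  have hb0K : ((u' 0 1 : ℤ) : K) = 0 := by exact_mod_cast hb0
  have hc0K : ((u' 1 0 : ℤ) : K) = 0 := by exact_mod_cast hc0
  have h00K : ((u' 0 0 : ℤ) : K) = 1 := by exact_mod_cast h00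
  have h11K : ((u' 1 1 : ℤ) : K) = 1 := by exact_mod_cast h11
  rw [hb0K, zero_mul] at hb'
  rw [hc0K, neg_zero, zero_mul] at hc'
  -- both quadratic forms vanish, which forces `u 0 1 = 0 = u 1 0`
  rcases hu.2 with hpos | hpos
  · have hposK : (0 : K) < (u 0 1 : K) := by exact_mod_cast hpos
    -- `y * form = (y p + x q)²`
    have k1 : ((u 0 1 : K) * p + ((u 1 1 : K) - 1) * q) ^ 2 = 0 := by
      linear_combination (u 0 1 : K) * hb'.symm - q ^ 2 * hoff
    have k2 : ((u 0 1 : K) * r + ((u 1 1 : K) - 1) * s) ^ 2 = 0 := by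
      linear_combination (u 0 1 : K) * hc'.symm - s ^ 2 * hoff
    have k1' := pow_eq_zero_iff (two_ne_zero) |>.mp k1
    have k2' := pow_eq_zero_iff (two_ne_zero) |>.mp k2
    have : (u 0 1 : K) * (p * s - q * r) = 0 := by
      linear_combination s * k1' - q * k2'
    rcases mul_eq_zero.mp this with h | h
    · exact absurd h hposK.ne'
    · exact absurd h hD
  · have hposK : (0 : K) < - (u 1 0 : K) := by
      have : ((u 1 0 : ℤ) : K) < 0 := by exact_mod_cast hpos
      linarith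
    have k1 : (((u 1 1 : K) - 1) * p + (- (u 1 0 : K)) * q) ^ 2 = 0 := by
      linear_combination (- (u 1 0 : K)) * hb'.symm - p ^ 2 * hoff
    have k2 : (((u 1 1 : K) - 1) * r + (- (u 1 0 : K)) * s) ^ 2 = 0 := by
      linear_combination (- (u 1 0 : K)) * hc'.symm - r ^ 2 * hoff
    have k1' := pow_eq_zero_iff (two_ne_zero) |>.mp k1
    have k2' := pow_eq_zero_iff (two_ne_zero) |>.mp k2
    have : (- (u 1 0 : K)) * (p * s - q * r) = 0 := by
      linear_combination (-r) * k1' + p * k2'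
    rcases mul_eq_zero.mp this with h | h
    · exact absurd h hposK.ne'
    · exact absurd h hD

end Conj


/-! ### Matrix forms of the invariance -/

section ToK

variable {K : Type*} [Field K]

/-- the matrix over `K` of an element of `SL(2, ℤ)` -/
def toK (K : Type*) [Field K] (u : SL(2, ℤ)) : Matrix (Fin 2) (Fin 2) K :=
  (u : Matrix (Fin 2) (Fin 2) ℤ).map (Int.cast : ℤ → K)

@[simp] theorem toK_apply (u : SL(2, ℤ)) (i j : Fin 2) : toK K u i j = ((u i j : ℤ) : K) := rfl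

theorem toK_mul (u v : SL(2, ℤ)) : toK K (u * v) = toK K u * toK K v := by
  ext i j
  simp [toK, Matrix.mul_apply, sl_mul_apply]

theorem toK_one : toK K (1 : SL(2, ℤ)) = 1 := by
  ext i j
  fin_cases i <;> fin_cases j <;> simp [toK]

theorem toK_injective [CharZero K] : Function.Injective (toK K) := by
  intro u v h
  have e := fun i j => congrFun (congrFun h i) j
  apply sl_ext
  · have := e 0 0; simp only [toK_apply] at this; exact_mod_cast this
  · have := e 0 1; simp only [toK_apply] at this; exact_mod_cast this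
  · have := e 1 0; simp only [toK_apply] at this; exact_mod_cast this
  · have := e 1 1; simp only [toK_apply] at this; exact_mod_cast this

/-- the inverse matrix intertwines in the other direction -/
theorem intertwine_inv {u u' : SL(2, ℤ)} (A : Matrix (Fin 2) (Fin 2) K) (hA : A.det ≠ 0)
    (h : A * toK K u = toK K u' * A) : A⁻¹ * toK K u' = toK K u * A⁻¹ := by
  have hu : IsUnit A.det := isUnit_iff_ne_zero.mpr hA
  calc A⁻¹ * toK K u' = A⁻¹ * (toK K u' * A) * A⁻¹ := by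
        rw [Matrix.mul_assoc, Matrix.mul_assoc, Matrix.mul_nonsing_inv _ hu, Matrix.mul_one]
    _ = A⁻¹ * (A * toK K u) * A⁻¹ := by rw [h]
    _ = toK K u * A⁻¹ := by
        rw [← Matrix.mul_assoc A⁻¹, Matrix.nonsing_inv_mul _ hu, Matrix.one_mul]

theorem toK_real_eq (u : SL(2, ℤ)) :
    toK ℝ u = ((mapGL ℝ u : GL (Fin 2) ℝ) : Matrix (Fin 2) (Fin 2) ℝ) := by
  rw [mapGL_coe_matrix]
  ext i j
  simp [toK]

end ToK

section ConjMatrix

variable {K : Type*} [Field K] [LinearOrder K] [IsStrictOrderedRing K]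

/-- **Positivity is invariant under `GL₂⁺(K)`**, matrix form. -/
theorem isPosPar_of_intertwine {u u' : SL(2, ℤ)} (A : Matrix (Fin 2) (Fin 2) K) (hA : 0 < A.det)
    (h : A * toK K u = toK K u' * A) (hu : IsPosPar u) : IsPosPar u' := by
  rw [Matrix.det_fin_two] at hA
  have e := fun i j => congrFun (congrFun h i) j
  have e00 := e 0 0
  have e01 := e 0 1
  have e10 := e 1 0
  have e11 := e 1 1
  simp only [Matrix.mul_apply, Fin.sum_univ_two, toK_apply] at e00 e01 e10 e11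
  exact isPosPar_of_intertwine_entries (p := A 0 0) (q := A 0 1) (r := A 1 0) (s := A 1 1)
    (by linarith) e00 e01 e10 e11 hu

theorem det_inv_pos (A : Matrix (Fin 2) (Fin 2) K) (hA : 0 < A.det) : 0 < (A⁻¹).det := by
  rw [Matrix.det_nonsing_inv, Ring.inverse_eq_inv']
  exact inv_pos.mpr hA

theorem isPosPar_iff_of_intertwine {u u' : SL(2, ℤ)} (A : Matrix (Fin 2) (Fin 2) K)
    (hA : 0 < A.det) (h : A * toK K u = toK K u' * A) : IsPosPar u ↔ IsPosPar u' :=
  ⟨isPosPar_of_intertwine A hA h,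
    isPosPar_of_intertwine A⁻¹ (det_inv_pos A hA) (intertwine_inv A hA.ne' h)⟩

end ConjMatrix

/-- `GL₂(ℝ)` form, in the language of `mapGL ℝ` (the team's `jGL`). -/
theorem isPosPar_iff_of_mapGL_conj {u u' : SL(2, ℤ)} (A : GL (Fin 2) ℝ)
    (hA : 0 < (A : Matrix (Fin 2) (Fin 2) ℝ).det)
    (h : mapGL ℝ u' = A * mapGL ℝ u * A⁻¹) : IsPosPar u ↔ IsPosPar u' := by
  have h' : A * mapGL ℝ u = mapGL ℝ u' * A := by rw [h]; group
  have h'' := congrArg (fun B : GL (Fin 2) ℝ => (B : Matrix (Fin 2) (Fin 2) ℝ)) h'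
  simp only [Matrix.GeneralLinearGroup.coe_mul] at h''
  refine isPosPar_iff_of_intertwine (K := ℝ) (A : Matrix (Fin 2) (Fin 2) ℝ) hA ?_
  rw [toK_real_eq, toK_real_eq]
  exact h''


/-! ### Primitive positive parabolic elements and cusp systems of a subgroup -/

section CuspSystem

variable (Γ : Subgroup SL(2, ℤ))

/-- `u ∈ Γ` is a *primitive* positive parabolic element of `Γ`: it is positive parabolic and not a
proper power of a positive parabolic element of `Γ`.  These are the canonical generators of the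
(trace two part of the) stabilisers of the cusps of `Γ`. -/
def IsPrimPosPar (u : Γ) : Prop :=
  IsPosPar (u : SL(2, ℤ)) ∧
    ∀ v : Γ, IsPosPar (v : SL(2, ℤ)) → ∀ n : ℕ, v ^ n = u → n = 1

/-- A *cusp system* of `Γ`: a family of representatives of the `Γ`-conjugacy classes of primitive
positive parabolic elements (= one canonical generator for each cusp of `Γ`). -/
structure IsCuspSystem {ι : Type*} (c : ι → Γ) : Prop where
  prim : ∀ k, IsPrimPosPar Γ (c k)
  complete : ∀ u : Γ, IsPrimPosPar Γ u → ∃ k, ∃ γ : Γ, u = γ * c k * γ⁻¹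
  inj : ∀ k j, ∀ γ : Γ, c k = γ * c j * γ⁻¹ → k = j

variable {Γ}

theorem IsPrimPosPar.conj {u : Γ} (hu : IsPrimPosPar Γ u) (γ : Γ) :
    IsPrimPosPar Γ (γ * u * γ⁻¹) := by
  refine ⟨?_, ?_⟩
  · have := hu.1.conj (γ : SL(2, ℤ))
    simpa using this
  · intro v hv n hn
    refine hu.2 (γ⁻¹ * v * γ) ?_ n ?_
    · have := hv.conj ((γ⁻¹ : Γ) : SL(2, ℤ))
      simpa using this
    · have : (γ⁻¹ * v * γ) ^ n = γ⁻¹ * v ^ n * γ := by
        have := conj_pow (a := γ⁻¹) (b := v) (i := n)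
        simpa using this
      rw [this, hn]
      group

/-- **The standard shape of a cusp system.**  Let `g k` be representatives of the double cosets
`Γ \ SL(2, ℤ) / {± T ^ i}` and let `h k > 0` generate `{n | g k * T ^ n * (g k)⁻¹ ∈ Γ}`.  Then the
elements `g k * T ^ h k * (g k)⁻¹` form a cusp system of `Γ`. -/
theorem isCuspSystem_of_reps {ι : Type*} (g : ι → SL(2, ℤ)) (h : ι → ℕ)
    (hpos : ∀ k, 0 < h k)
    (hmem : ∀ k (n : ℤ), g k * T ^ n * (g k)⁻¹ ∈ Γ ↔ (h k : ℤ) ∣ n)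
    (hcover : ∀ x : SL(2, ℤ), ∃ k, ∃ γ ∈ Γ, ∃ y : SL(2, ℤ), y 1 0 = 0 ∧ x = γ * g k * y)
    (hdisj : ∀ k j, ∀ γ ∈ Γ, ∀ y : SL(2, ℤ), y 1 0 = 0 → g k = γ * g j * y → k = j) :
    IsCuspSystem Γ (fun k => (⟨g k * T ^ (h k : ℤ) * (g k)⁻¹, (hmem k _).mpr dvd_rfl⟩ : Γ)) := by
  have hposZ : ∀ k, (0 : ℤ) < (h k : ℤ) := fun k => by exact_mod_cast hpos k
  refine ⟨?_, ?_, ?_⟩
  · -- primitivity
    intro k
    refine ⟨isPosPar_conj_T_pow _ (hposZ k), ?_⟩
    intro v hv n hn
    obtain ⟨g', m, hm, hvm⟩ := hv.exists_conj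
    have hn' : (v : SL(2, ℤ)) ^ n = g k * T ^ (h k : ℤ) * (g k)⁻¹ := by
      have := congrArg (fun w : Γ => (w : SL(2, ℤ))) hn
      simpa using this
    have hpow : (v : SL(2, ℤ)) ^ n = g' * T ^ (m * n) * g'⁻¹ := by
      rw [hvm, conj_pow, _root_.zpow_mul, zpow_natCast]
    have hn0 : n ≠ 0 := by
      rintro rfl
      rw [pow_zero] at hn'
      exact (isPosPar_conj_T_pow (g k) (hposZ k)).ne_one hn'.symm
    have hmn : m * n ≠ 0 := mul_ne_zero hm.ne' (by exact_mod_cast hn0)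
    -- `y := (g k)⁻¹ * g'` intertwines
    have hy : ((g k)⁻¹ * g') * T ^ (m * n) = T ^ (h k : ℤ) * ((g k)⁻¹ * g') := by
      have e : g' * T ^ (m * n) * g'⁻¹ = g k * T ^ (h k : ℤ) * (g k)⁻¹ := by rw [← hpow, hn']
      calc ((g k)⁻¹ * g') * T ^ (m * n) = (g k)⁻¹ * (g' * T ^ (m * n) * g'⁻¹) * g' := by group
        _ = (g k)⁻¹ * (g k * T ^ (h k : ℤ) * (g k)⁻¹) * g' := by rw [e]
        _ = T ^ (h k : ℤ) * ((g k)⁻¹ * g') := by group
    obtain ⟨hy0, hmn'⟩ := lower_left_of_intertwine hmn hy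
    -- hence `v = g k * T ^ m * (g k)⁻¹ ∈ Γ`
    have hv' : (v : SL(2, ℤ)) = g k * T ^ m * (g k)⁻¹ := by
      have := conj_T_zpow_of_lower_left hy0 m
      calc (v : SL(2, ℤ)) = g' * T ^ m * g'⁻¹ := hvm
        _ = g k * (((g k)⁻¹ * g') * T ^ m * ((g k)⁻¹ * g')⁻¹) * (g k)⁻¹ := by group
        _ = g k * T ^ m * (g k)⁻¹ := by rw [this]
    have hdvd : (h k : ℤ) ∣ m := (hmem k m).mp (hv' ▸ v.2)
    -- `m * n = h k` and `h k ∣ m` force `n = 1`
    obtain ⟨e, he⟩ := hdvd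
    have : (h k : ℤ) * (e * n) = (h k : ℤ) * 1 := by
      rw [mul_one, ← mul_assoc, ← he, hmn']
    have hen : e * (n : ℤ) = 1 := mul_left_cancel₀ (hposZ k).ne' this
    have hn1 : ((n : ℤ)) ∣ 1 := ⟨e, by rw [mul_comm]; exact hen.symm⟩
    have : (n : ℤ) = 1 := Int.eq_one_of_dvd_one (by positivity) hn1
    exact_mod_cast this
  · -- completeness
    intro u hu
    obtain ⟨x, n, hn, hux⟩ := hu.1.exists_conj
    obtain ⟨k, γ, hγ, y, hy0, rfl⟩ := hcover x
    have hu' : (u : SL(2, ℤ)) = γ * (g k * T ^ n * (g k)⁻¹) * γ⁻¹ := by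
      have := conj_T_zpow_of_lower_left hy0 n
      calc (u : SL(2, ℤ)) = γ * g k * y * T ^ n * (γ * g k * y)⁻¹ := hux
        _ = γ * (g k * (y * T ^ n * y⁻¹) * (g k)⁻¹) * γ⁻¹ := by group
        _ = γ * (g k * T ^ n * (g k)⁻¹) * γ⁻¹ := by rw [this]
    have hmemn : g k * T ^ n * (g k)⁻¹ ∈ Γ := by
      have : g k * T ^ n * (g k)⁻¹ = γ⁻¹ * (u : SL(2, ℤ)) * γ := by rw [hu']; group
      rw [this]
      exact Γ.mul_mem (Γ.mul_mem (Γ.inv_mem hγ) u.2) hγ
    obtain ⟨e, he⟩ := (hmem k n).mp hmemn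
    have he0 : 0 < e := by
      by_contra hcon
      have : (h k : ℤ) * e ≤ 0 := mul_nonpos_of_nonneg_of_nonpos (hposZ k).le (not_lt.mp hcon)
      omega
    obtain ⟨e', rfl⟩ : ∃ e' : ℕ, e = (e' : ℤ) := ⟨e.toNat, (Int.toNat_of_nonneg he0.le).symm⟩
    set ck : Γ := ⟨g k * T ^ (h k : ℤ) * (g k)⁻¹, (hmem k _).mpr dvd_rfl⟩ with hck
    set γ' : Γ := ⟨γ, hγ⟩ with hγ'
    have hpowe : (γ' * ck * γ'⁻¹) ^ e' = u := by
      apply Subtype.ext
      rw [hu', he, _root_.zpow_mul, zpow_natCast]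
      simp only [Subgroup.coe_pow, Subgroup.coe_mul, Subgroup.coe_inv, hck, hγ']
      rw [conj_pow, conj_pow]
    have hPos : IsPosPar ((γ' * ck * γ'⁻¹ : Γ) : SL(2, ℤ)) := by
      have := (isPosPar_conj_T_pow (g k) (hposZ k)).conj γ
      simpa [hck, hγ'] using this
    have he1 : e' = 1 := hu.2 _ hPos e' hpowe
    refine ⟨k, γ', ?_⟩
    rw [← hpowe, he1, pow_one]
  · -- injectivity
    intro k j γ hkj
    have hkj' : g k * T ^ (h k : ℤ) * (g k)⁻¹ =
        (γ : SL(2, ℤ)) * (g j * T ^ (h j : ℤ) * (g j)⁻¹) * (γ : SL(2, ℤ))⁻¹ := by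
      have := congrArg (fun w : Γ => (w : SL(2, ℤ))) hkj
      simpa using this
    have hy : ((g k)⁻¹ * γ * g j) * T ^ (h j : ℤ) = T ^ (h k : ℤ) * ((g k)⁻¹ * γ * g j) := by
      calc ((g k)⁻¹ * γ * g j) * T ^ (h j : ℤ)
          = (g k)⁻¹ * ((γ : SL(2, ℤ)) * (g j * T ^ (h j : ℤ) * (g j)⁻¹) * (γ : SL(2, ℤ))⁻¹) *
              (γ * g j) := by group
        _ = (g k)⁻¹ * (g k * T ^ (h k : ℤ) * (g k)⁻¹) * (γ * g j) := by rw [hkj']
        _ = T ^ (h k : ℤ) * ((g k)⁻¹ * γ * g j) := by group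
    obtain ⟨hy0, -⟩ := lower_left_of_intertwine (hposZ j).ne' hy
    refine hdisj k j γ γ.2 ((g k)⁻¹ * γ * g j)⁻¹ ?_ (by group)
    rw [sl_inv_10, hy0, neg_zero]

end CuspSystem


/-! ### Sums over a cusp system, and transport under conjugation -/

section Sums

variable {Γ : Subgroup SL(2, ℤ)}

/-- two cusp systems of the same group are in bijection, corresponding elements being conjugate -/
theorem IsCuspSystem.exists_equiv {ι ι' : Type*} {c : ι → Γ} {c' : ι' → Γ}
    (hc : IsCuspSystem Γ c) (hc' : IsCuspSystem Γ c') :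
    ∃ e : ι ≃ ι', ∀ k, ∃ γ : Γ, c k = γ * c' (e k) * γ⁻¹ := by
  choose φ γ hφ using fun k => hc'.complete (c k) (hc.prim k)
  have hinj : Function.Injective φ := by
    intro k j hkj
    refine hc.inj k j (γ k * (γ j)⁻¹) ?_
    rw [hφ k, hφ j, hkj]
    group
  have hsurj : Function.Surjective φ := by
    intro k'
    obtain ⟨k, δ, hk⟩ := hc.complete (c' k') (hc'.prim k')
    refine ⟨k, ?_⟩
    refine hc'.inj (φ k) k' ((γ k)⁻¹ * δ⁻¹) ?_
    have h1 : c' (φ k) = (γ k)⁻¹ * c k * γ k := by rw [hφ k]; group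
    rw [h1, hk]
    group
  exact ⟨Equiv.ofBijective φ ⟨hinj, hsurj⟩, fun k => ⟨γ k, hφ k⟩⟩

/-- **The sum of a class function over a cusp system does not depend on the cusp system.** -/
theorem IsCuspSystem.sum_eq {ι ι' : Type*} [Fintype ι] [Fintype ι'] {c : ι → Γ} {c' : ι' → Γ}
    (hc : IsCuspSystem Γ c) (hc' : IsCuspSystem Γ c') {M : Type*} [AddCommMonoid M] (f : Γ → M)
    (hf : ∀ u γ : Γ, IsPrimPosPar Γ u → f (γ * u * γ⁻¹) = f u) :
    ∑ k, f (c k) = ∑ k', f (c' k') := by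
  obtain ⟨e, he⟩ := hc.exists_equiv hc'
  rw [← e.sum_comp]
  refine Finset.sum_congr rfl fun k _ => ?_
  obtain ⟨γ, hγ⟩ := he k
  rw [hγ, hf _ _ (hc'.prim _)]

theorem IsCuspSystem.card_eq {ι ι' : Type*} [Fintype ι] [Fintype ι'] {c : ι → Γ} {c' : ι' → Γ}
    (hc : IsCuspSystem Γ c) (hc' : IsCuspSystem Γ c') : Fintype.card ι = Fintype.card ι' := by
  obtain ⟨e, -⟩ := hc.exists_equiv hc'
  exact Fintype.card_congr e

/-- reindexing a cusp system -/
theorem IsCuspSystem.comp_equiv {ι ι' : Type*} {c : ι → Γ} (hc : IsCuspSystem Γ c)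
    (e : ι' ≃ ι) : IsCuspSystem Γ (c ∘ e) := by
  refine ⟨fun k => hc.prim _, ?_, ?_⟩
  · intro u hu
    obtain ⟨k, γ, h⟩ := hc.complete u hu
    exact ⟨e.symm k, γ, by simpa using h⟩
  · intro k j γ h
    exact e.injective (hc.inj _ _ γ h)

end Sums

section Transport

variable {K : Type*} [Field K] [LinearOrder K] [IsStrictOrderedRing K]
variable {Γ Γ' : Subgroup SL(2, ℤ)}

/-- `e : Γ ≃* Γ'` is induced by conjugation with the matrix `A` (of positive determinant) -/
def IsConjBy (e : Γ ≃* Γ') (A : Matrix (Fin 2) (Fin 2) K) : Prop :=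
  0 < A.det ∧ ∀ γ : Γ, A * toK K (γ : SL(2, ℤ)) = toK K ((e γ : Γ') : SL(2, ℤ)) * A

theorem IsConjBy.symm {e : Γ ≃* Γ'} {A : Matrix (Fin 2) (Fin 2) K} (h : IsConjBy e A) :
    IsConjBy e.symm A⁻¹ := by
  refine ⟨det_inv_pos A h.1, fun γ' => ?_⟩
  have := intertwine_inv A h.1.ne' (h.2 (e.symm γ'))
  rwa [MulEquiv.apply_symm_apply] at this

theorem IsConjBy.isPosPar_iff {e : Γ ≃* Γ'} {A : Matrix (Fin 2) (Fin 2) K} (h : IsConjBy e A)
    (γ : Γ) : IsPosPar ((e γ : Γ') : SL(2, ℤ)) ↔ IsPosPar (γ : SL(2, ℤ)) :=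
  (isPosPar_iff_of_intertwine A h.1 (h.2 γ)).symm

theorem IsConjBy.isPrimPosPar {e : Γ ≃* Γ'} {A : Matrix (Fin 2) (Fin 2) K} (h : IsConjBy e A)
    {u : Γ} (hu : IsPrimPosPar Γ u) : IsPrimPosPar Γ' (e u) := by
  refine ⟨(h.isPosPar_iff u).mpr hu.1, ?_⟩
  intro v hv n hn
  refine hu.2 (e.symm v) ?_ n ?_
  · have := (h.isPosPar_iff (e.symm v))
    rw [MulEquiv.apply_symm_apply] at this
    exact this.mp hv
  · rw [← map_pow, hn, MulEquiv.symm_apply_apply]

theorem IsConjBy.isPrimPosPar_iff {e : Γ ≃* Γ'} {A : Matrix (Fin 2) (Fin 2) K}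
    (h : IsConjBy e A) (u : Γ) : IsPrimPosPar Γ' (e u) ↔ IsPrimPosPar Γ u := by
  refine ⟨fun hu => ?_, h.isPrimPosPar⟩
  have := h.symm.isPrimPosPar hu
  rwa [MulEquiv.symm_apply_apply] at this

/-- **Conjugation by a matrix of positive determinant maps cusp systems to cusp systems.** -/
theorem IsCuspSystem.map_conj {e : Γ ≃* Γ'} {A : Matrix (Fin 2) (Fin 2) K} (h : IsConjBy e A)
    {ι : Type*} {c : ι → Γ} (hc : IsCuspSystem Γ c) : IsCuspSystem Γ' (fun k => e (c k)) := by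
  refine ⟨fun k => h.isPrimPosPar (hc.prim k), ?_, ?_⟩
  · intro u' hu'
    have hu : IsPrimPosPar Γ (e.symm u') := by
      have := h.symm.isPrimPosPar hu'
      exact this
    obtain ⟨k, γ, hk⟩ := hc.complete _ hu
    refine ⟨k, e γ, ?_⟩
    have := congrArg e hk
    rw [MulEquiv.apply_symm_apply] at this
    rw [this]
    simp
  · intro k j γ' hkj
    refine hc.inj k j (e.symm γ') ?_
    apply e.injective
    rw [hkj]
    simp

end Transport


/-! ### Heisenberg lifts -/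

section Heis

variable {G : Type*} [Group G] {R : Type*} [CommRing R]

/-- `ψ : G → R` is a *Heisenberg lift* of the pair of homomorphisms `(lam, mu)`:
`ψ (g h) = ψ g + ψ h + lam g * mu h`, i.e. `g ↦ (lam g, mu g, ψ g)` is a homomorphism to the
Heisenberg group; equivalently `δψ = - lam ∪ mu`. -/
def IsHeisLift (lam mu : Additive G →+ R) (ψ : G → R) : Prop :=
  ∀ g h : G, ψ (g * h) = ψ g + ψ h + lam (Additive.ofMul g) * mu (Additive.ofMul h)

namespace IsHeisLift

variable {lam mu : Additive G →+ R} {ψ : G → R}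

theorem map_one (hψ : IsHeisLift lam mu ψ) : ψ 1 = 0 := by
  have h := hψ 1 1
  rw [mul_one, ofMul_one, map_zero, zero_mul, add_zero] at h
  have : ψ 1 + ψ 1 = ψ 1 + 0 := by rw [add_zero]; exact h.symm
  exact add_left_cancel this

theorem map_inv (hψ : IsHeisLift lam mu ψ) (g : G) :
    ψ g⁻¹ = - ψ g + lam (Additive.ofMul g) * mu (Additive.ofMul g) := by
  have h := hψ g g⁻¹
  rw [mul_inv_cancel, hψ.map_one, ofMul_inv, map_neg] at h
  linear_combination (-1 : R) * h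

/-- a Heisenberg lift is invariant under conjugation on the common kernel of `lam` and `mu` -/
theorem map_conj (hψ : IsHeisLift lam mu ψ) {u : G} (hl : lam (Additive.ofMul u) = 0)
    (hm : mu (Additive.ofMul u) = 0) (γ : G) : ψ (γ * u * γ⁻¹) = ψ u := by
  rw [hψ (γ * u) γ⁻¹, hψ γ u, hψ.map_inv γ, ofMul_mul, map_add, hl, hm, ofMul_inv, map_neg]
  ring

theorem map_pow (hψ : IsHeisLift lam mu ψ) {u : G} (hl : lam (Additive.ofMul u) = 0) (n : ℕ) :
    ψ (u ^ n) = n * ψ u := by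
  induction n with
  | zero => simp [hψ.map_one]
  | succ n ih =>
    rw [pow_succ, hψ (u ^ n) u, ih, ofMul_pow, map_nsmul, hl, smul_zero, zero_mul]
    push_cast
    ring

/-- the difference of two Heisenberg lifts of the same pair is a homomorphism -/
def diff (hψ : IsHeisLift lam mu ψ) {ψ' : G → R} (hψ' : IsHeisLift lam mu ψ') :
    Additive G →+ R where
  toFun a := ψ (Additive.toMul a) - ψ' (Additive.toMul a)
  map_zero' := by simp [hψ.map_one, hψ'.map_one]
  map_add' a b := by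
    rw [toMul_add, hψ, hψ']
    simp only [ofMul_toMul]
    ring

@[simp] theorem diff_apply (hψ : IsHeisLift lam mu ψ) {ψ' : G → R} (hψ' : IsHeisLift lam mu ψ')
    (g : G) : hψ.diff hψ' (Additive.ofMul g) = ψ g - ψ' g := rfl

/-- adding a homomorphism to a Heisenberg lift -/
theorem add_hom (hψ : IsHeisLift lam mu ψ) (χ : Additive G →+ R) :
    IsHeisLift lam mu (fun g => ψ g + χ (Additive.ofMul g)) := by
  intro g h
  simp only [hψ g h, ofMul_mul, map_add]
  ring

/-- pulling back a Heisenberg lift along a group homomorphism -/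
theorem comp {H : Type*} [Group H] (hψ : IsHeisLift lam mu ψ) (f : H →* G) :
    IsHeisLift (lam.comp (MonoidHom.toAdditive f)) (mu.comp (MonoidHom.toAdditive f))
      (fun x => ψ (f x)) := by
  intro x y
  simp only [map_mul, hψ (f x) (f y)]
  rfl

end IsHeisLift

end Heis


/-! ### The standard cusp system of a subgroup of finite index, and the transfer -/

section Std

open MulAction Function

theorem S_pow_four : S ^ 4 = 1 := by decide

theorem ST_pow_six : (S * T) ^ 6 = 1 := by decide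

/-- every homomorphism from `SL(2, ℤ)` to a torsion-free commutative group kills `T`
(indeed it is trivial, since `SL(2, ℤ)ᵃᵇ` has exponent `12`) -/
theorem hom_T_eq_one {M : Type*} [CommGroup M] [IsMulTorsionFree M] (f : SL(2, ℤ) →* M) :
    f T = 1 := by
  have hS : f S ^ 4 = 1 := by rw [← map_pow, S_pow_four, map_one]
  have hST : f (S * T) ^ 6 = 1 := by rw [← map_pow, ST_pow_six, map_one]
  have hT : f T = (f S)⁻¹ * f (S * T) := by rw [map_mul]; group
  have h12 : f T ^ 12 = 1 := by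
    rw [hT, mul_pow, inv_pow]
    have h1 : f S ^ 12 = 1 := by
      have : f S ^ 12 = (f S ^ 4) ^ 3 := by rw [← pow_mul]
      rw [this, hS, one_pow]
    have h2 : f (S * T) ^ 12 = 1 := by
      have : f (S * T) ^ 12 = (f (S * T) ^ 6) ^ 2 := by rw [← pow_mul]
      rw [this, hST, one_pow]
    rw [h1, h2, inv_one, one_mul]
  exact (pow_eq_one_iff_left (by norm_num : (12 : ℕ) ≠ 0)).mp h12

variable (Γ : Subgroup SL(2, ℤ))

/-- the index set of the standard cusp system: the orbits of `⟨T⟩` on `SL(2, ℤ) ⧸ Γ` -/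
abbrev CuspIdx : Type := orbitRel.Quotient (Subgroup.zpowers T) (SL(2, ℤ) ⧸ Γ)

/-- the standard cusp system of `Γ` (the family occurring in Mathlib's formula for the transfer) -/
noncomputable def stdCusp (q : CuspIdx Γ) : Γ :=
  ⟨(Quotient.out q).out⁻¹ * T ^ minimalPeriod (T • ·) (Quotient.out q) * (Quotient.out q).out,
    QuotientGroup.out_conj_pow_minimalPeriod_mem Γ T (Quotient.out q)⟩

variable {Γ}

theorem coset_smul_eq (x a : SL(2, ℤ)) :
    x • (a : SL(2, ℤ) ⧸ Γ) = ((x * a : SL(2, ℤ)) : SL(2, ℤ) ⧸ Γ) := rfl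

theorem isCuspSystem_stdCusp [Γ.FiniteIndex] (hneg : (-1 : SL(2, ℤ)) ∈ Γ) :
    IsCuspSystem Γ (stdCusp Γ) := by
  have hfin : Finite (SL(2, ℤ) ⧸ Γ) := Subgroup.finite_quotient_of_finiteIndex
  set g : CuspIdx Γ → SL(2, ℤ) := fun q => ((Quotient.out q).out)⁻¹ with hg
  set h : CuspIdx Γ → ℕ := fun q => minimalPeriod (T • ·) (Quotient.out q) with hh
  have hout : ∀ q : CuspIdx Γ, (((Quotient.out q).out : SL(2, ℤ)) : SL(2, ℤ) ⧸ Γ) = Quotient.out q :=
    fun q => QuotientGroup.out_eq' _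
  have hpos : ∀ q, 0 < h q := fun q =>
    minimalPeriod_pos_of_mem_periodicPts
      (Injective.mem_periodicPts (MulAction.injective T) _)
  have hmem : ∀ q (n : ℤ), g q * T ^ n * (g q)⁻¹ ∈ Γ ↔ (h q : ℤ) ∣ n := by
    intro q n
    rw [hh, ← zpow_smul_eq_iff_minimalPeriod_dvd]
    simp only [hg, inv_inv]
    rw [mul_assoc, ← QuotientGroup.eq, ← coset_smul_eq, hout, eq_comm]
  have hcover : ∀ x : SL(2, ℤ), ∃ k, ∃ γ ∈ Γ, ∃ y : SL(2, ℤ), y 1 0 = 0 ∧ x = γ * g k * y := by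
    intro x
    set p : SL(2, ℤ) ⧸ Γ := ((x⁻¹ : SL(2, ℤ)) : SL(2, ℤ) ⧸ Γ) with hp
    set q : CuspIdx Γ := (⟦p⟧ : CuspIdx Γ) with hq
    have hrel : orbitRel (Subgroup.zpowers T) (SL(2, ℤ) ⧸ Γ) (Quotient.out q) p :=
      Quotient.mk_out p
    rw [orbitRel_apply, mem_orbit_iff] at hrel
    obtain ⟨⟨t, ht⟩, htp⟩ := hrel
    obtain ⟨i, rfl⟩ := Subgroup.mem_zpowers_iff.mp ht
    have htp' : T ^ i • p = Quotient.out q := htp
    rw [hp, coset_smul_eq, ← hout q, QuotientGroup.eq] at htp'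
    refine ⟨q, _, htp', T ^ i, T_zpow_10 i, ?_⟩
    simp only [hg]
    group
  have hdisj : ∀ k j, ∀ γ ∈ Γ, ∀ y : SL(2, ℤ), y 1 0 = 0 → g k = γ * g j * y → k = j := by
    intro k j γ hγ y hy hkj
    simp only [hg] at hkj
    -- `k.out = T ^ i • j.out` for a suitable `i`
    obtain ⟨m, hm⟩ := eq_T_zpow_or_neg_of_lower_left hy
    have key : Quotient.out k = T ^ (-m) • Quotient.out j := by
      rw [← hout k, ← hout j, coset_smul_eq, QuotientGroup.eq, hkj]
      rcases hm with rfl | rfl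
      · have : γ * (Quotient.out j).out⁻¹ * T ^ m * (T ^ (-m) * (Quotient.out j).out) = γ := by
          group
        rw [this]
        exact hγ
      · have : γ * (Quotient.out j).out⁻¹ * -T ^ m * (T ^ (-m) * (Quotient.out j).out) =
            γ * (-1) := by
          rw [mul_neg, neg_mul, ← mul_neg_one]
          congr 1
          group
        rw [this]
        exact Γ.mul_mem hγ hneg
    have : (⟦Quotient.out k⟧ : CuspIdx Γ) = ⟦Quotient.out j⟧ := by
      rw [key]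
      exact orbitRel.Quotient.quotient_smul_eq (G := Subgroup.zpowers T)
        (g := ⟨T ^ (-m), Subgroup.zpow_mem_zpowers T (-m)⟩) (a := Quotient.out j)
    simpa only [Quotient.out_eq] using this
  have := isCuspSystem_of_reps g h hpos hmem hcover hdisj
  convert this using 2 with q
  apply Subtype.ext
  simp only [stdCusp, hg, hh, inv_inv, zpow_natCast]

end Std


/-! ### The intrinsic cusp sum -/

section Intrinsic

open MulAction Function

variable {Γ : Subgroup SL(2, ℤ)} {R : Type*} [CommRing R]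

/-- the sum of a homomorphism `χ : Γ → R` over the standard cusp system is `(cores χ)(T)`, hence
vanishes when `R` is torsion-free -/
theorem sum_stdCusp_hom [IsAddTorsionFree R] [Γ.FiniteIndex] [Fintype (CuspIdx Γ)]
    (χ : Additive Γ →+ R) : ∑ q, χ (Additive.ofMul (stdCusp Γ q)) = 0 := by
  have h := MonoidHom.transfer_eq_prod_quotient_orbitRel_zpowers_quot
    (AddMonoidHom.toMultiplicativeRight χ) T
  rw [hom_T_eq_one] at h
  have h2 : (∏ q : CuspIdx Γ, (AddMonoidHom.toMultiplicativeRight χ) (stdCusp Γ q)) =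
      Multiplicative.ofAdd (∑ q, χ (Additive.ofMul (stdCusp Γ q))) := by
    rw [ofAdd_sum]
    rfl
  have h3 : Multiplicative.ofAdd (∑ q, χ (Additive.ofMul (stdCusp Γ q))) = 1 := by
    rw [← h2]
    exact h.symm
  exact h3

/-- the sum of a homomorphism over ANY cusp system vanishes -/
theorem IsCuspSystem.sum_hom [IsAddTorsionFree R] [Γ.FiniteIndex] (hneg : (-1 : SL(2, ℤ)) ∈ Γ)
    {ι : Type*} [Fintype ι] {c : ι → Γ} (hc : IsCuspSystem Γ c) (χ : Additive Γ →+ R) :
    ∑ k, χ (Additive.ofMul (c k)) = 0 := by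
  classical
  have hfin : Finite (SL(2, ℤ) ⧸ Γ) := Subgroup.finite_quotient_of_finiteIndex
  let _ : Fintype (CuspIdx Γ) := Fintype.ofFinite _
  rw [hc.sum_eq (isCuspSystem_stdCusp hneg) (fun u => χ (Additive.ofMul u))]
  · exact sum_stdCusp_hom χ
  · intro u γ _
    simp only [ofMul_mul, ofMul_inv, map_add, map_neg]
    abel

/-- `lam` vanishes on the positive parabolic elements of `Γ` -/
def VanishesOnPar (lam : Additive Γ →+ R) : Prop :=
  ∀ u : Γ, IsPosPar (u : SL(2, ℤ)) → lam (Additive.ofMul u) = 0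

/-- **The intrinsic cusp sum is well defined**: for `lam, mu : Γ → R` vanishing on parabolic
elements, the sum `∑ k, ψ (c k)` over a cusp system `c` of `Γ` of a Heisenberg lift `ψ` of
`(lam, mu)` depends neither on the cusp system nor on the lift. -/
theorem cuspSum_eq [IsAddTorsionFree R] [Γ.FiniteIndex] (hneg : (-1 : SL(2, ℤ)) ∈ Γ)
    {lam mu : Additive Γ →+ R} (hl : VanishesOnPar lam) (hm : VanishesOnPar mu)
    {ι ι' : Type*} [Fintype ι] [Fintype ι'] {c : ι → Γ} {c' : ι' → Γ}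
    (hc : IsCuspSystem Γ c) (hc' : IsCuspSystem Γ c') {ψ ψ' : Γ → R}
    (hψ : IsHeisLift lam mu ψ) (hψ' : IsHeisLift lam mu ψ') :
    ∑ k, ψ (c k) = ∑ k', ψ' (c' k') := by
  have h1 : ∑ k, ψ (c k) = ∑ k', ψ (c' k') :=
    hc.sum_eq hc' ψ (fun u γ hu => hψ.map_conj (hl u hu.1) (hm u hu.1) γ)
  have h2 : ∑ k', (ψ (c' k') - ψ' (c' k')) = 0 := by
    have := hc'.sum_hom hneg (hψ.diff hψ')
    simpa using this
  rw [h1]
  rw [Finset.sum_sub_distrib] at h2
  exact sub_eq_zero.mp h2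

end Intrinsic


/-! ### The intrinsic pairing and its invariance under conjugation -/

section IntrinsicPairing

variable {R : Type*} [CommRing R]

/-- **The intrinsic (cup product) pairing** of two homomorphisms `lam, mu : Γ → R`: the sum over
the cusps of `Γ` of a Heisenberg lift of `(lam, mu)` evaluated at the canonical generator of the
stabiliser of the cusp (`0` if no Heisenberg lift exists). -/
noncomputable def intrinsic (Γ : Subgroup SL(2, ℤ)) (lam mu : Additive Γ →+ R) : R := by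
  classical
  exact if h : ∃ ψ : Γ → R, IsHeisLift lam mu ψ then
    ∑ᶠ q : CuspIdx Γ, (Classical.choose h) (stdCusp Γ q) else 0

variable {Γ Γ' : Subgroup SL(2, ℤ)}

/-- the intrinsic pairing can be computed with ANY cusp system and ANY Heisenberg lift -/
theorem intrinsic_eq [IsAddTorsionFree R] [Γ.FiniteIndex] (hneg : (-1 : SL(2, ℤ)) ∈ Γ)
    {lam mu : Additive Γ →+ R} (hl : VanishesOnPar lam) (hm : VanishesOnPar mu)
    {ι : Type*} [Fintype ι] {c : ι → Γ} (hc : IsCuspSystem Γ c) {ψ : Γ → R}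
    (hψ : IsHeisLift lam mu ψ) : intrinsic Γ lam mu = ∑ k, ψ (c k) := by
  classical
  have hfin : Finite (SL(2, ℤ) ⧸ Γ) := Subgroup.finite_quotient_of_finiteIndex
  let _ : Fintype (CuspIdx Γ) := Fintype.ofFinite _
  have hex : ∃ ψ : Γ → R, IsHeisLift lam mu ψ := ⟨ψ, hψ⟩
  rw [intrinsic, dif_pos hex, finsum_eq_sum_of_fintype]
  exact cuspSum_eq hneg hl hm (isCuspSystem_stdCusp hneg) hc (Classical.choose_spec hex) hψ

theorem intrinsic_of_not_exists {lam mu : Additive Γ →+ R}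
    (h : ¬ ∃ ψ : Γ → R, IsHeisLift lam mu ψ) : intrinsic Γ lam mu = 0 := by
  rw [intrinsic, dif_neg h]

variable {K : Type*} [Field K] [LinearOrder K] [IsStrictOrderedRing K]

theorem IsConjBy.vanishesOnPar {e : Γ ≃* Γ'} {A : Matrix (Fin 2) (Fin 2) K} (h : IsConjBy e A)
    {lam : Additive Γ →+ R} {lam' : Additive Γ' →+ R}
    (hlam : ∀ γ : Γ, lam (Additive.ofMul γ) = lam' (Additive.ofMul (e γ)))
    (hl' : VanishesOnPar lam') : VanishesOnPar lam := by
  intro u hu
  rw [hlam]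
  exact hl' _ ((h.isPosPar_iff u).mpr hu)

/-- **Invariance of the intrinsic pairing under conjugation by `GL₂⁺`.**  If `e : Γ ≃* Γ'` is
conjugation by a matrix of positive determinant and `lam = lam' ∘ e`, `mu = mu' ∘ e`, then
`intrinsic Γ lam mu = intrinsic Γ' lam' mu'`. -/
theorem intrinsic_conj [IsAddTorsionFree R] [Γ.FiniteIndex] [Γ'.FiniteIndex]
    (hneg : (-1 : SL(2, ℤ)) ∈ Γ) (hneg' : (-1 : SL(2, ℤ)) ∈ Γ')
    {e : Γ ≃* Γ'} {A : Matrix (Fin 2) (Fin 2) K} (h : IsConjBy e A)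
    {lam mu : Additive Γ →+ R} {lam' mu' : Additive Γ' →+ R}
    (hlam : ∀ γ : Γ, lam (Additive.ofMul γ) = lam' (Additive.ofMul (e γ)))
    (hmu : ∀ γ : Γ, mu (Additive.ofMul γ) = mu' (Additive.ofMul (e γ)))
    (hl' : VanishesOnPar lam') (hm' : VanishesOnPar mu') :
    intrinsic Γ lam mu = intrinsic Γ' lam' mu' := by
  classical
  have hl : VanishesOnPar lam := h.vanishesOnPar hlam hl'
  have hm : VanishesOnPar mu := h.vanishesOnPar hmu hm'
  by_cases hex : ∃ ψ' : Γ' → R, IsHeisLift lam' mu' ψ'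
  · obtain ⟨ψ', hψ'⟩ := hex
    have hψ : IsHeisLift lam mu (fun γ => ψ' (e γ)) := by
      intro g k
      simp only [map_mul, hψ' (e g) (e k), hlam, hmu]
    have hfin : Finite (SL(2, ℤ) ⧸ Γ) := Subgroup.finite_quotient_of_finiteIndex
    let _ : Fintype (CuspIdx Γ) := Fintype.ofFinite _
    have hc := isCuspSystem_stdCusp hneg
    rw [intrinsic_eq hneg hl hm hc hψ, intrinsic_eq hneg' hl' hm' (hc.map_conj h) hψ']
  · have hex' : ¬ ∃ ψ : Γ → R, IsHeisLift lam mu ψ := by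
      rintro ⟨ψ, hψ⟩
      apply hex
      refine ⟨fun γ' => ψ (e.symm γ'), ?_⟩
      intro g k
      simp only [map_mul, hψ (e.symm g) (e.symm k), hlam, hmu, MulEquiv.apply_symm_apply]
    rw [intrinsic_of_not_exists hex, intrinsic_of_not_exists hex']

end IntrinsicPairing


/-! ### `GL₂(ℝ)` wrappers (the language of `mapGL ℝ` / the team's `jGL`) -/

section RealWrappers

variable {Γ Γ' : Subgroup SL(2, ℤ)}

/-- `IsConjBy` from a conjugation formula in `GL₂(ℝ)` -/
theorem isConjBy_of_mapGL {e : Γ ≃* Γ'} (A : GL (Fin 2) ℝ)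
    (hA : 0 < (A : Matrix (Fin 2) (Fin 2) ℝ).det)
    (h : ∀ γ : Γ, mapGL ℝ ((e γ : Γ') : SL(2, ℤ)) = A * mapGL ℝ (γ : SL(2, ℤ)) * A⁻¹) :
    IsConjBy e (A : Matrix (Fin 2) (Fin 2) ℝ) := by
  refine ⟨hA, fun γ => ?_⟩
  have h' : A * mapGL ℝ (γ : SL(2, ℤ)) = mapGL ℝ ((e γ : Γ') : SL(2, ℤ)) * A := by
    rw [h γ]; group
  have h'' := congrArg (fun B : GL (Fin 2) ℝ => (B : Matrix (Fin 2) (Fin 2) ℝ)) h'
  simp only [Matrix.GeneralLinearGroup.coe_mul] at h''
  rw [toK_real_eq, toK_real_eq]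
  exact h''

/-- a positive parabolic element has `trace ^ 2 = 4` -/
theorem IsPosPar.trace_sq {u : SL(2, ℤ)} (hu : IsPosPar u) :
    (u : Matrix (Fin 2) (Fin 2) ℤ).trace ^ 2 = 4 := by
  rw [Matrix.trace_fin_two, hu.1]
  norm_num

end RealWrappers

end Fermat.Agent.S41.PD.CuspSystem
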