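/-
S41, block [PD], leaf PD-c4 (helper15), file 2: ADAPTERS between `PD/CuspSystem.lean` (positive
primitive parabolic elements, cusp systems, transfer vanishing) and the vocabulary of
`PD/Heis.lean`/`PD/Conj.lean` (helper28: `IsCup`, `IsClassReps`, `IsCuspPairing`) and of the
coset systems `CosetSys₂` (helper2's `Transfer2`, helper29's `ShapiroGen.ofSubgroup`) in which the
bridge `PD/Intrinsic.lean` (helper1) is typed.

* `primSet Γ` : the peripheral set `{u : Γ | IsPrimPosPar Γ u}`;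
  `isClassReps_iff_isCuspSystem`, `isCup_iff_isHeisLift`;
* `primSet_conj_iff` : (β) of #2048 — `e u ∈ primSet Γ' ↔ u ∈ primSet Γ` for `e : Γ ≃* Γ'` given by
  conjugation with an INTEGER matrix `W` of positive determinant (`W * γ = e γ * W`);
  `primSet_conj_iff_real` : the same for a real matrix;
* `sum_char_eq_zero` : `hchar` of `IsCuspPairing.unique`: every character of `Γ` (values in a
  torsion-free ring) has cusp sum zero over every system of class representatives of `primSet Γ`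
  (it is `(cores χ)(T)` and `Hom(SL(2, ℤ), R) = 0`);
* `isCuspSystem_of_cosetSys` / `isClassReps_of_cosetSys` : (γ) of #2048 — helper1's indexing of the
  cusps (#2021): for a coset system `S` of `Γ` in `SL(2, ℤ)` with pairwise distinct cosets and
  `T`-orbit data `(xc, kc)` (bijective `(c, j < kc c) ↦ x_c · T ^ j`), the elements
  `S.coc (T ^ kc c) (xc c)` form a cusp system of `Γ`;
* `cuspSum_conj_of_cosetSys`-free final forms: `cuspPairing_unique`, `cuspPairing_conj`.
-/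
import Mathlib
import Fermat.Agent.S41.PD.CuspSystem
import Fermat.Agent.S41.PD.Conj
import Fermat.Agent.P3LR.A.Transfer2

set_option autoImplicit false
set_option linter.unusedSimpArgs false

open scoped MatrixGroups

namespace Fermat.Agent.S41.PD.CuspAdapters

open Matrix Matrix.SpecialLinearGroup ModularGroup
open Fermat.Agent.S41.PD.CuspSystem Fermat.Agent.S41.PD.Heis Fermat.Agent.S41.PD.Conj
open Fermat.Agent.P3LR.A.Transfer2

/-! ### Dictionary -/

section Dictionary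

variable {Γ Γ' : Subgroup SL(2, ℤ)}

/-- the peripheral set of `Γ`: its primitive positive parabolic elements -/
def primSet (Γ : Subgroup SL(2, ℤ)) : Set Γ := {u | IsPrimPosPar Γ u}

@[simp] theorem mem_primSet {u : Γ} : u ∈ primSet Γ ↔ IsPrimPosPar Γ u := Iff.rfl

theorem isClassReps_iff_isCuspSystem {ι : Type*} {c : ι → Γ} :
    IsClassReps (primSet Γ) c ↔ IsCuspSystem Γ c := by
  constructor
  · intro h
    refine ⟨h.mem, fun u hu => ?_, fun k j γ hkj => h.inj k j ⟨γ, hkj⟩⟩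
    obtain ⟨i, g, hg⟩ := h.surj u hu
    exact ⟨i, g, hg⟩
  · intro h
    refine ⟨h.prim, fun u hu => ?_, fun k j hkj => ?_⟩
    · obtain ⟨i, g, hg⟩ := h.complete u hu
      exact ⟨i, g, hg⟩
    · obtain ⟨γ, hγ⟩ := hkj
      exact h.inj k j γ hγ

theorem isCup_iff_isHeisLift {G : Type*} [Group G] {R : Type*} [CommRing R]
    {lam mu : Additive G →+ R} {psi : G → R} : IsCup lam mu psi ↔ IsHeisLift lam mu psi := Iff.rfl

/-- the primitive positive parabolic elements are stable under conjugation in `Γ` -/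
theorem primSet_conj {u : Γ} (hu : u ∈ primSet Γ) (γ : Γ) : γ * u * γ⁻¹ ∈ primSet Γ :=
  IsPrimPosPar.conj hu γ

/-- conjugation by an integer matrix of positive determinant, as `IsConjBy` over `ℚ` -/
theorem isConjBy_of_intMat {e : Γ ≃* Γ'} (W : Matrix (Fin 2) (Fin 2) ℤ) (hW : 0 < W.det)
    (he : ∀ γ : Γ, W * ((γ : SL(2, ℤ)) : Matrix (Fin 2) (Fin 2) ℤ) =
      (((e γ : Γ') : SL(2, ℤ)) : Matrix (Fin 2) (Fin 2) ℤ) * W) :
    IsConjBy e (W.map (Int.cast : ℤ → ℚ)) := by
  refine ⟨?_, fun γ => ?_⟩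
  · rw [Matrix.det_fin_two] at hW ⊢
    simp only [Matrix.map_apply]
    exact_mod_cast hW
  · ext i k
    have h := congrFun (congrFun (he γ) i) k
    simp only [Matrix.mul_apply, Fin.sum_univ_two] at h
    simp only [Matrix.mul_apply, Fin.sum_univ_two, Matrix.map_apply, toK_apply]
    exact_mod_cast h

/-- **(β) of #2048.**  Conjugation by an integer matrix of positive determinant identifies the
peripheral sets. -/
theorem primSet_conj_iff (e : Γ ≃* Γ') (W : Matrix (Fin 2) (Fin 2) ℤ) (hW : 0 < W.det)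
    (he : ∀ γ : Γ, W * ((γ : SL(2, ℤ)) : Matrix (Fin 2) (Fin 2) ℤ) =
      (((e γ : Γ') : SL(2, ℤ)) : Matrix (Fin 2) (Fin 2) ℤ) * W) (u : Γ) :
    e u ∈ primSet Γ' ↔ u ∈ primSet Γ :=
  (isConjBy_of_intMat W hW he).isPrimPosPar_iff u

/-- the same for conjugation by an element of `GL₂(ℝ)` of positive determinant
(`mapGL ℝ (e γ) = A * mapGL ℝ γ * A⁻¹`, the shape of `conjEta_spec`) -/
theorem primSet_conj_iff_real (e : Γ ≃* Γ') (A : GL (Fin 2) ℝ)
    (hA : 0 < (A : Matrix (Fin 2) (Fin 2) ℝ).det)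
    (he : ∀ γ : Γ, mapGL ℝ ((e γ : Γ') : SL(2, ℤ)) = A * mapGL ℝ (γ : SL(2, ℤ)) * A⁻¹) (u : Γ) :
    e u ∈ primSet Γ' ↔ u ∈ primSet Γ :=
  (isConjBy_of_mapGL A hA he).isPrimPosPar_iff u

/-- **`hchar` of `IsCuspPairing.unique`**: every character of `Γ` with values in a torsion-free
ring has cusp sum zero over every system of class representatives of `primSet Γ`. -/
theorem sum_char_eq_zero {R : Type*} [CommRing R] [IsAddTorsionFree R] [Γ.FiniteIndex]
    (hneg : (-1 : SL(2, ℤ)) ∈ Γ) (chi : Additive Γ →+ R) {ι : Type*} [Fintype ι] {c : ι → Γ}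
    (hc : IsClassReps (primSet Γ) c) : ∑ i, chi (Additive.ofMul (c i)) = 0 :=
  (isClassReps_iff_isCuspSystem.mp hc).sum_hom hneg chi

/-- characters vanishing on positive parabolic elements vanish on the peripheral set -/
theorem vanishes_on_primSet {R : Type*} [CommRing R] {lam : Additive Γ →+ R}
    (hl : VanishesOnPar lam) : ∀ u ∈ primSet Γ, lam (Additive.ofMul u) = 0 :=
  fun u hu => hl u hu.1

/-- **The intrinsic pairing is well defined** (helper28's relational form): two values of the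
intrinsic pairing of `(lam, mu)` agree. -/
theorem cuspPairing_unique {R : Type*} [CommRing R] [IsAddTorsionFree R] [Γ.FiniteIndex]
    (hneg : (-1 : SL(2, ℤ)) ∈ Γ) {lam mu : Additive Γ →+ R} {v v' : R}
    (h : IsCuspPairing (primSet Γ) lam mu v) (h' : IsCuspPairing (primSet Γ) lam mu v')
    (hl : ∀ u ∈ primSet Γ, lam (Additive.ofMul u) = 0)
    (hm : ∀ u ∈ primSet Γ, mu (Additive.ofMul u) = 0) : v = v' :=
  h.unique h' hl hm (fun chi _ _ _ hc => sum_char_eq_zero hneg chi hc)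

/-- **Conjugation invariance of the intrinsic pairing** (integer matrix form): if
`Φ_Γ' (lam', mu') = v` then `Φ_Γ (lam' ∘ e, mu' ∘ e) = v`. -/
theorem cuspPairing_conj {R : Type*} [CommRing R] (e : Γ ≃* Γ')
    (W : Matrix (Fin 2) (Fin 2) ℤ) (hW : 0 < W.det)
    (he : ∀ γ : Γ, W * ((γ : SL(2, ℤ)) : Matrix (Fin 2) (Fin 2) ℤ) =
      (((e γ : Γ') : SL(2, ℤ)) : Matrix (Fin 2) (Fin 2) ℤ) * W)
    {lam' mu' : Additive Γ' →+ R} {v : R} (h : IsCuspPairing (primSet Γ') lam' mu' v) :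
    IsCuspPairing (primSet Γ) (lam'.comp (MonoidHom.toAdditive e.toMonoidHom))
      (mu'.comp (MonoidHom.toAdditive e.toMonoidHom)) v :=
  h.comp e (primSet_conj_iff e W hW he)

end Dictionary

/-! ### Cusp systems from coset systems with `T`-orbit data -/

section CosetAdapter

variable {Γ : Subgroup SL(2, ℤ)} {G : Type*} [Group G] {j : SL(2, ℤ) →* G}
  {X : Type*} (S : CosetSys₂ j (j.comp Γ.subtype) X) (t : X → SL(2, ℤ))

/-- the relation of the coset system, read in `SL(2, ℤ)` -/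
theorem t_mul (hj : Function.Injective j) (ht : ∀ x, S.rep x = j (t x)) (g : SL(2, ℤ)) (x : X) :
    t x * g = ((S.coc g x : Γ) : SL(2, ℤ)) * t (S.perm g x) := by
  apply hj
  rw [map_mul, map_mul, ← ht, ← ht]
  exact S.rep_mul g x

/-- the stabiliser of a point of the index set -/
def stab (x : X) : Subgroup SL(2, ℤ) where
  carrier := {g | S.perm g x = x}
  one_mem' := S.perm_one x
  mul_mem' := by
    intro g h hg hh
    show S.perm (g * h) x = x
    have hg' : S.perm g x = x := hg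
    have hh' : S.perm h x = x := hh
    rw [S.perm_mul, hg', hh']
  inv_mem' := by
    intro g hg
    show S.perm g⁻¹ x = x
    have hg' : S.perm g x = x := hg
    have h1 : S.perm g⁻¹ (S.perm g x) = x := by rw [← S.perm_mul, mul_inv_cancel, S.perm_one]
    rwa [hg'] at h1

theorem mem_stab {x : X} {g : SL(2, ℤ)} : g ∈ stab S x ↔ S.perm g x = x := Iff.rfl

theorem perm_eq_iff (hj : Function.Injective j) (hS : S.IsInj) (ht : ∀ x, S.rep x = j (t x))
    (g : SL(2, ℤ)) (x : X) : S.perm g x = x ↔ t x * g * (t x)⁻¹ ∈ Γ := by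
  constructor
  · intro h
    have := t_mul S t hj ht g x
    rw [h] at this
    rw [this, mul_inv_cancel_right]
    exact (S.coc g x).2
  · intro h
    refine S.perm_eq_of_eq hS (c := ⟨t x * g * (t x)⁻¹, h⟩) ?_
    rw [ht x, ← map_mul]
    show j (t x * g) = j (t x * g * (t x)⁻¹) * j (t x)
    rw [← map_mul, inv_mul_cancel_right]

variable {C : Type*} (xc : C → X) (kc : C → ℕ)

/-- reduction of the exponent modulo the width -/
theorem perm_T_zpow_emod (c : C) (hk : 0 < kc c) (hper : S.perm (T ^ kc c) (xc c) = xc c)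
    (n : ℤ) : S.perm (T ^ n) (xc c) = S.perm (T ^ (n % (kc c : ℤ)).toNat) (xc c) := by
  have hk' : (0 : ℤ) < (kc c : ℤ) := by exact_mod_cast hk
  have h0 : 0 ≤ n % (kc c : ℤ) := Int.emod_nonneg _ hk'.ne'
  have hmem : (T ^ kc c) ^ (n / (kc c : ℤ)) ∈ stab S (xc c) :=
    Subgroup.zpow_mem _ hper _
  have hn : T ^ n = (T ^ kc c) ^ (n / (kc c : ℤ)) * T ^ (n % (kc c : ℤ)).toNat := by
    rw [← zpow_natCast T (kc c), ← _root_.zpow_mul, ← zpow_natCast T (n % (kc c : ℤ)).toNat,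
      Int.toNat_of_nonneg h0, ← _root_.zpow_add, Int.mul_ediv_add_emod]
  rw [hn, S.perm_mul, (mem_stab S).mp hmem]

theorem isCuspSystem_of_cosetSys [Nonempty X] (hj : Function.Injective j) (hS : S.IsInj)
    (ht : ∀ x, S.rep x = j (t x)) (hneg : (-1 : SL(2, ℤ)) ∈ Γ)
    (hk : ∀ c, 0 < kc c) (hper : ∀ c, S.perm (T ^ kc c) (xc c) = xc c)
    (hbij : Function.Bijective
      (fun p : Σ c, Fin (kc c) => S.perm (T ^ (p.2 : ℕ)) (xc p.1))) :
    IsCuspSystem Γ (fun c => S.coc (T ^ kc c) (xc c)) := by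
  have htm := t_mul S t hj ht
  have hpi := perm_eq_iff S t hj hS ht
  -- a point of the orbit of `xc c` determines `c`
  have horb : ∀ (k c : C) (m : ℤ), xc k = S.perm (T ^ m) (xc c) → k = c := by
    intro k c m hkc
    rw [perm_T_zpow_emod S xc kc c (hk c) (hper c) m] at hkc
    have hk' : (0 : ℤ) < (kc c : ℤ) := by exact_mod_cast hk c
    have hlt : (m % (kc c : ℤ)).toNat < kc c := by
      have := Int.emod_lt_of_pos m hk'
      have h0 : 0 ≤ m % (kc c : ℤ) := Int.emod_nonneg _ hk'.ne'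
      omega
    have := hbij.1 (a₁ := ⟨k, ⟨0, hk k⟩⟩) (a₂ := ⟨c, ⟨(m % (kc c : ℤ)).toNat, hlt⟩⟩)
      (by simpa [S.perm_one] using hkc)
    exact congrArg Sigma.fst this
  have key := isCuspSystem_of_reps (Γ := Γ) (fun c => t (xc c)) kc hk ?_ ?_ ?_
  · convert key using 2 with c
    apply Subtype.ext
    have h1 := htm (T ^ kc c) (xc c)
    rw [hper c] at h1
    show ((S.coc (T ^ kc c) (xc c) : Γ) : SL(2, ℤ)) = t (xc c) * T ^ (kc c : ℤ) * (t (xc c))⁻¹
    rw [zpow_natCast, h1, mul_inv_cancel_right]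
  · -- membership
    intro c n
    rw [← hpi]
    constructor
    · intro h
      rw [perm_T_zpow_emod S xc kc c (hk c) (hper c) n] at h
      have hk' : (0 : ℤ) < (kc c : ℤ) := by exact_mod_cast hk c
      have h0 : 0 ≤ n % (kc c : ℤ) := Int.emod_nonneg _ hk'.ne'
      have hlt : (n % (kc c : ℤ)).toNat < kc c := by
        have := Int.emod_lt_of_pos n hk'
        omega
      have := hbij.1 (a₁ := ⟨c, ⟨(n % (kc c : ℤ)).toNat, hlt⟩⟩) (a₂ := ⟨c, ⟨0, hk c⟩⟩)
        (by simpa [S.perm_one] using h)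
      have h2 : (n % (kc c : ℤ)).toNat = 0 := by
        have := congrArg (fun p : Σ c, Fin (kc c) => (p.2 : ℕ)) this
        simpa using this
      have h3 : n % (kc c : ℤ) = 0 := by omega
      exact Int.dvd_of_emod_eq_zero h3
    · rintro ⟨m, rfl⟩
      have hmem : (T ^ kc c) ^ m ∈ stab S (xc c) := Subgroup.zpow_mem _ (hper c) _
      have : T ^ ((kc c : ℤ) * m) = (T ^ kc c) ^ m := by
        rw [_root_.zpow_mul, zpow_natCast]
      rw [this]
      exact hmem
  · -- covering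
    intro x
    obtain ⟨x₀⟩ := ‹Nonempty X›
    have h1 := htm ((t x₀)⁻¹ * x) x₀
    rw [mul_inv_cancel_left] at h1
    obtain ⟨⟨c, i⟩, hci⟩ := hbij.2 (S.perm ((t x₀)⁻¹ * x) x₀)
    have hci' : S.perm (T ^ (i : ℕ)) (xc c) = S.perm ((t x₀)⁻¹ * x) x₀ := hci
    have h2 := htm (T ^ (i : ℕ)) (xc c)
    rw [hci'] at h2
    refine ⟨c, (S.coc ((t x₀)⁻¹ * x) x₀ : Γ) * (S.coc (T ^ (i : ℕ)) (xc c) : Γ)⁻¹, ?_,
      T ^ (i : ℕ), ?_, ?_⟩
    · exact Γ.mul_mem (S.coc _ _).2 (Γ.inv_mem (S.coc _ _).2)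
    · rw [← zpow_natCast]; exact T_zpow_10 _
    · have hx : x = ((S.coc ((t x₀)⁻¹ * x) x₀ : Γ) : SL(2, ℤ)) *
          t (S.perm ((t x₀)⁻¹ * x) x₀) := h1
      calc x = ((S.coc ((t x₀)⁻¹ * x) x₀ : Γ) : SL(2, ℤ)) * t (S.perm ((t x₀)⁻¹ * x) x₀) := hx
        _ = ((S.coc ((t x₀)⁻¹ * x) x₀ : Γ) : SL(2, ℤ)) *
            (((S.coc (T ^ (i : ℕ)) (xc c) : Γ) : SL(2, ℤ))⁻¹ *
              (((S.coc (T ^ (i : ℕ)) (xc c) : Γ) : SL(2, ℤ)) *
                t (S.perm ((t x₀)⁻¹ * x) x₀))) := by group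
        _ = ((S.coc ((t x₀)⁻¹ * x) x₀ : Γ) : SL(2, ℤ)) *
            (((S.coc (T ^ (i : ℕ)) (xc c) : Γ) : SL(2, ℤ))⁻¹ * (t (xc c) * T ^ (i : ℕ))) := by
              rw [h2]
        _ = _ := by
              simp only [Subgroup.coe_mul, Subgroup.coe_inv]
              group
  · -- disjointness
    intro k c γ hγ y hy hkc
    -- reduce to `y = T ^ m`
    obtain ⟨m, hm⟩ := eq_T_zpow_or_neg_of_lower_left hy
    obtain ⟨γ', hγ', hkc'⟩ : ∃ γ' ∈ Γ, t (xc k) = γ' * t (xc c) * T ^ m := by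
      rcases hm with rfl | rfl
      · exact ⟨γ, hγ, hkc⟩
      · refine ⟨γ * (-1), Γ.mul_mem hγ hneg, ?_⟩
        rw [hkc, mul_neg, mul_neg_one, neg_mul, neg_mul]
    refine horb k c m ?_
    have h2 := htm (T ^ m) (xc c)
    -- `t (xc k) = (γ' * coc) * t (perm (T^m) (xc c))`
    have h3 : S.rep (xc k) =
        (j.comp Γ.subtype) (⟨γ', hγ'⟩ * S.coc (T ^ m) (xc c)) * S.rep (S.perm (T ^ m) (xc c)) := by
      rw [ht, ht]
      show j (t (xc k)) = j ((γ' * ((S.coc (T ^ m) (xc c) : Γ) : SL(2, ℤ)))) * j _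
      rw [← map_mul, hkc', mul_assoc γ', h2, mul_assoc]
    exact hS _ _ _ h3

/-- the same in the vocabulary of `PD/Conj.lean` -/
theorem isClassReps_of_cosetSys [Nonempty X] (hj : Function.Injective j) (hS : S.IsInj)
    (ht : ∀ x, S.rep x = j (t x)) (hneg : (-1 : SL(2, ℤ)) ∈ Γ)
    (hk : ∀ c, 0 < kc c) (hper : ∀ c, S.perm (T ^ kc c) (xc c) = xc c)
    (hbij : Function.Bijective
      (fun p : Σ c, Fin (kc c) => S.perm (T ^ (p.2 : ℕ)) (xc p.1))) :
    IsClassReps (primSet Γ) (fun c => S.coc (T ^ kc c) (xc c)) :=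
  isClassReps_iff_isCuspSystem.mpr
    (isCuspSystem_of_cosetSys S t xc kc hj hS ht hneg hk hper hbij)

end CosetAdapter

end Fermat.Agent.S41.PD.CuspAdapters
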