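/-
S41 block [PD], file (d0): the ABSTRACT core of `PD/Package.lean`.

Given a lattice `L` (in the application `L = parHomAdd M ℤ`), a dessin `(X, σ, τ)` and an additive
isomorphism `Θ : L ≃+ LamQ σ τ` (Shapiro), the pairing
`pdOf h Θ p x y := (B (Θ x) (Θ y) mod p)` with values in `ZMod p` is
* biadditive, antisymmetric,
* LEFT (and right) non-degenerate modulo `p`: `(∀ y, pd x y = 0) → ∃ z, x = p • z`,
* compatible with every pair of maps which is adjoint for the integral pairings (`pdOf_adj`),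
* and the formal "Atkin–Lehner" step: if `r' = w' ∘ r`, `c' = c ∘ w`, `w' ∘ w = id` and `w` is an isometry,
  then adjointness of `(r, c)` gives adjointness of `(r', c')` (`adj_of_isometry`).
Mathlib + `PD/DessinQuot.lean` only.
-/
import Mathlib
import Fermat.Agent.S41.PD.DessinQuot

set_option autoImplicit false

namespace Fermat.Agent.S41.PD.Package

open Fermat.Agent.S41.PD.Dessin

section Core

variable {L : Type*} [AddCommGroup L]
variable {X : Type*} [Fintype X] [DecidableEq X] {σ τ : Equiv.Perm X}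
variable (h : IsDessin σ τ) (Θ : L ≃+ LamQ σ τ) (p : ℕ)

/-- the integral pairing transported to `L` -/
noncomputable def pdInt : L →+ L →+ ℤ :=
  AddMonoidHom.mk' (fun x => (h.Bq (Θ x)).toAddMonoidHom.comp Θ.toAddMonoidHom)
    (fun x y => by
      ext z
      simp [map_add])

@[simp] theorem pdInt_apply (x y : L) : pdInt h Θ x y = h.Bq (Θ x) (Θ y) := rfl

/-- **the pairing modulo `p`** -/
noncomputable def pdOf : L →+ L →+ ZMod p :=
  AddMonoidHom.mk' (fun x => (Int.castAddHom (ZMod p)).comp (pdInt h Θ x))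
    (fun x y => by
      ext z
      simp [map_add])

@[simp] theorem pdOf_apply (x y : L) : pdOf h Θ p x y = ((h.Bq (Θ x) (Θ y) : ℤ) : ZMod p) := rfl

theorem pdOf_antisymm (x y : L) : pdOf h Θ p x y = -pdOf h Θ p y x := by
  rw [pdOf_apply, pdOf_apply, h.Bq_antisymm, Int.cast_neg]

theorem pdOf_self (x : L) : pdOf h Θ p x x = 0 := by
  rw [pdOf_apply, h.Bq_self, Int.cast_zero]

/-- **left non-degeneracy modulo `p`** (`p ≠ 0`) -/
theorem pdOf_nondeg (hp : p ≠ 0) (x : L) (hx : ∀ y, pdOf h Θ p x y = 0) :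
    ∃ z : L, x = (p : ℤ) • z := by
  have hp' : (p : ℤ) ≠ 0 := by exact_mod_cast hp
  obtain ⟨a', ha'⟩ := h.Bq_nondeg (p : ℤ) hp' (Θ x) (fun b => by
    have := hx (Θ.symm b)
    rw [pdOf_apply, AddEquiv.apply_symm_apply, ZMod.intCast_zmod_eq_zero_iff_dvd] at this
    exact this)
  refine ⟨Θ.symm a', ?_⟩
  apply Θ.injective
  rw [ha', map_zsmul, AddEquiv.apply_symm_apply]

/-- right non-degeneracy modulo `p` -/
theorem pdOf_nondeg_right (hp : p ≠ 0) (y : L) (hy : ∀ x, pdOf h Θ p x y = 0) :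
    ∃ z : L, y = (p : ℤ) • z :=
  pdOf_nondeg h Θ p hp y (fun x => by rw [pdOf_antisymm, hy, neg_zero])

end Core

section Adj

variable {L L' : Type*} [AddCommGroup L] [AddCommGroup L']
variable {X : Type*} [Fintype X] [DecidableEq X] {σ τ : Equiv.Perm X}
variable {X' : Type*} [Fintype X'] [DecidableEq X'] {σ' τ' : Equiv.Perm X'}
variable (h : IsDessin σ τ) (Θ : L ≃+ LamQ σ τ) (h' : IsDessin σ' τ') (Θ' : L' ≃+ LamQ σ' τ')
variable (p : ℕ)

/-- an integral adjunction gives the adjunction modulo `p` -/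
theorem pdOf_adj (r : L → L') (c : L' → L)
    (hrc : ∀ x y, h'.Bq (Θ' (r x)) (Θ' y) = h.Bq (Θ x) (Θ (c y))) (x : L) (y : L') :
    pdOf h' Θ' p (r x) y = pdOf h Θ p x (c y) := by
  rw [pdOf_apply, pdOf_apply, hrc]

/-- adjunction in the other slot, by antisymmetry -/
theorem pdOf_adj' (r : L → L') (c : L' → L)
    (hrc : ∀ x y, h'.Bq (Θ' (r x)) (Θ' y) = h.Bq (Θ x) (Θ (c y))) (x : L) (y : L') :
    pdOf h' Θ' p y (r x) = pdOf h Θ p (c y) x := by
  rw [pdOf_antisymm, pdOf_adj h Θ h' Θ' p r c hrc, ← pdOf_antisymm]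

/-- **The formal Atkin–Lehner step.** If `(r, c)` is an adjoint pair, `w` is an isometry of the
upper lattice with `w' ∘ w = id`, then `(w' ∘ r, c ∘ w)` is an adjoint pair. -/
theorem adj_of_isometry (r : L → L') (c : L' → L) (w w' : L' → L')
    (hrc : ∀ x y, h'.Bq (Θ' (r x)) (Θ' y) = h.Bq (Θ x) (Θ (c y)))
    (hw : ∀ x y, h'.Bq (Θ' (w x)) (Θ' (w y)) = h'.Bq (Θ' x) (Θ' y))
    (hww : ∀ x, w (w' x) = x) (x : L) (y : L') :
    h'.Bq (Θ' (w' (r x))) (Θ' y) = h.Bq (Θ x) (Θ (c (w y))) := by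
  rw [← hw, hww, hrc]

end Adj

end Fermat.Agent.S41.PD.Package
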