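/-
S41 (level raising), block [PD], concrete level-`M` layer (helper29), on top of `PD/ShapiroGen.lean`.

* `XM M := Γ₀(M) \ SL(2, ℤ)` (right cosets), `SM M : CosetSys₂ (mapGL ℝ) (jGL M) (XM M)` the
  canonical Shapiro system (ambient group `GL₂(ℝ)`, so that it composes with the degeneracy
  systems of `P3LR/A/DegeneracyDefs.lean`);
* `sg = S`, `tg = S⁻¹ * T` (so `sg * tg = T`, `tg ^ 3 = 1`), `sigmaM M`, `tauM M` the
  corresponding permutations of `XM M`, and `isDessin_M : IsDessin (sigmaM M) (tauM M)`.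
-/
import Mathlib
import Fermat.Agent.S41.PD.ShapiroGen
import Fermat.Agent.S41.PD.Dessin
import Fermat.Agent.N4F.Tors.HeckeHom

set_option autoImplicit false

namespace Fermat.Agent.S41.PD.ShapiroLevel

open Fermat.Agent.P3LR.A.Transfer2 Fermat.Agent.S41.PD.ShapiroGen Fermat.Agent.S41.PD.Dessin
open Fermat.Agent.N4F.Tors.HeckeHom
open Matrix.SpecialLinearGroup CongruenceSubgroup ModularGroup
open scoped MatrixGroups

/-! ### The generators -/

/-- the generator of order 4 -/
abbrev sg : SL(2, ℤ) := S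

/-- the generator of order 3: `tg = S⁻¹ * T = !![0, 1; -1, -1]`, so that `sg * tg = T`. -/
def tg : SL(2, ℤ) := S⁻¹ * T

theorem sg_mul_tg : sg * tg = T := by
  rw [tg, mul_inv_cancel_left]

theorem sg_mul_sg : sg * sg = -1 := by decide

theorem tg_pow_three : tg * tg * tg = 1 := by decide

theorem tg_eq : tg = -(S * T) := by decide

theorem closure_sg_tg : Subgroup.closure ({sg, tg} : Set SL(2, ℤ)) = ⊤ := by
  rw [eq_top_iff, ← SpecialLinearGroup.SL2Z_generators, Subgroup.closure_le]
  intro g hg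
  rcases hg with rfl | hg
  · exact Subgroup.subset_closure (Set.mem_insert _ _)
  · rw [Set.mem_singleton_iff] at hg
    rw [hg, ← sg_mul_tg]
    exact Subgroup.mul_mem _ (Subgroup.subset_closure (Set.mem_insert _ _))
      (Subgroup.subset_closure (Set.mem_insert_of_mem _ rfl))

/-! ### The canonical system of level `M` -/

variable (M : ℕ)

/-- `Γ₀(M) \ SL(2, ℤ)` -/
abbrev XM : Type := RightCosets (Gamma0 M)

/-- **The Shapiro system of level `M`**, inside `GL₂(ℝ)`. -/
noncomputable def SM : CosetSys₂ (mapGL ℝ : SL(2, ℤ) →* GL (Fin 2) ℝ) (jGL M) (XM M) :=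
  ofSubgroup (Gamma0 M) (mapGL ℝ) (mapGL_injective (R := ℤ) (S := ℝ))

theorem SM_isInj : (SM M).IsInj := ofSubgroup_isInj _ _ _

theorem SM_isFull :
    IsFull (SM M) (Gamma0 M).subtype (repOf (Gamma0 M)) (rmk (Gamma0 M) 1) :=
  isFull_ofSubgroup _ _ _

theorem SM_rep (x : XM M) : (SM M).rep x = mapGL ℝ (repOf (Gamma0 M) x) := rfl

theorem SM_perm_rmk (g a : SL(2, ℤ)) :
    (SM M).perm g (rmk (Gamma0 M) a) = rmk (Gamma0 M) (a * g) := rfl

theorem SM_coc_coe (g : SL(2, ℤ)) (x : XM M) :
    (((SM M).coc g x : ↥(Gamma0 M)) : SL(2, ℤ)) =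
      repOf (Gamma0 M) x * g * (repOf (Gamma0 M) ((SM M).perm g x))⁻¹ := rfl

theorem SM_isCover : IsCover (SM M) := (SM_isFull M).isCover

theorem neg_one_mem_Gamma0 : (-1 : SL(2, ℤ)) ∈ Gamma0 M := by
  rw [Gamma0_mem]
  simp

/-- `-1` acts trivially on `XM M` -/
theorem SM_perm_neg_one (x : XM M) : (SM M).perm (-1) x = x :=
  ofSubgroup_perm_of_central (Gamma0 M) (mapGL ℝ) _ (neg_one_mem_Gamma0 M)
    (fun a => by rw [mul_neg, mul_one, neg_mul, one_mul]) x

noncomputable instance instFintypeXM [NeZero M] : Fintype (XM M) :=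
  haveI : Finite (XM M) := finite_rightCosets (Gamma0 M)
  Fintype.ofFinite _

noncomputable instance instDecidableEqXM : DecidableEq (XM M) := Classical.decEq _

/-- the permutation `x ↦ x · S` -/
noncomputable def sigmaM : Equiv.Perm (XM M) := (SM M).permEquiv sg

/-- the permutation `x ↦ x · (S⁻¹ T)` -/
noncomputable def tauM : Equiv.Perm (XM M) := (SM M).permEquiv tg

theorem sigmaM_apply (x : XM M) : sigmaM M x = (SM M).perm sg x := rfl

theorem tauM_apply (x : XM M) : tauM M x = (SM M).perm tg x := rfl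

theorem sigmaM_mul_sigmaM : sigmaM M * sigmaM M = 1 := by
  unfold sigmaM
  rw [← permEquiv_mul, sg_mul_sg]
  exact Equiv.ext fun x => SM_perm_neg_one M x

theorem tauM_pow_three : tauM M * tauM M * tauM M = 1 := by
  unfold tauM
  rw [← permEquiv_mul, ← permEquiv_mul, ← mul_assoc, tg_pow_three, permEquiv_one]

/-- `T' = σ * τ` is `x ↦ x · (tg * sg)`. -/
theorem sigmaM_mul_tauM : sigmaM M * tauM M = (SM M).permEquiv (tg * sg) := by
  unfold sigmaM tauM
  rw [permEquiv_mul]

/-- **`(XM M, σ, τ)` is a dessin.** -/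
theorem isDessin_M [NeZero M] : IsDessin (sigmaM M) (tauM M) where
  sq := sigmaM_mul_sigmaM M
  cube := tauM_pow_three M
  trans := by
    intro F hσ hτ x y
    refine (SM_isFull M).eq_of_forall_perm_eq ({sg, tg} : Set SL(2, ℤ)) closure_sg_tg F ?_ x y
    intro g hg i
    rcases hg with rfl | hg
    · exact hσ i
    · rw [Set.mem_singleton_iff] at hg
      rw [hg]
      exact hτ i

end Fermat.Agent.S41.PD.ShapiroLevel
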