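/-
S41 [PD] leaf (helper10, named by helper1 #2021): orbit representatives and widths for a
permutation of a finite type.  Mathlib only.

For `π : Equiv.Perm X` on a finite `X` there are a finite index type `C : Type`, representatives
`xc : C → X` and widths `kc : C → ℕ` (`kc c = Function.minimalPeriod π (xc c) > 0`) such that
`(c, j) ↦ π ^ j (xc c)` (`j < kc c`) is a bijection onto `X`.
-/
import Mathlib

namespace Fermat.Agent.S41.PD.OrbitReps

open Function

variable {X : Type*}

section basic

variable (π : Equiv.Perm X)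

theorem iterate_eq_pow_apply (n : ℕ) (x : X) : (⇑π)^[n] x = (π ^ n) x := by
  rw [Equiv.Perm.iterate_eq_pow]

variable [Finite X]

theorem mem_periodicPts (x : X) : x ∈ periodicPts (⇑π) := by
  have : Fintype X := Fintype.ofFinite X
  classical
  refine mk_mem_periodicPts (orderOf_pos π) ?_
  show (⇑π)^[orderOf π] x = x
  rw [iterate_eq_pow_apply, pow_orderOf_eq_one]
  rfl

theorem minimalPeriod_pos (x : X) : 0 < minimalPeriod (⇑π) x :=
  minimalPeriod_pos_of_mem_periodicPts (mem_periodicPts π x)

theorem pow_minimalPeriod_apply (x : X) : (π ^ minimalPeriod (⇑π) x) x = x := by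
  rw [← iterate_eq_pow_apply]
  exact isPeriodicPt_minimalPeriod (⇑π) x

end basic

section explicit

variable [Fintype X] [DecidableEq X] (π : Equiv.Perm X)

/-- The orbit space of `π` (quotient by `SameCycle`). -/
abbrev Orb : Type _ := Quotient (Equiv.Perm.SameCycle.setoid π)

noncomputable instance : Fintype (Orb π) := by
  classical
  exact Quotient.fintype _

/-- The chosen representative of an orbit. -/
noncomputable def rep (o : Orb π) : X := Quotient.out o

theorem mk_rep (o : Orb π) : (Quotient.mk (Equiv.Perm.SameCycle.setoid π) (rep π o) : Orb π) = o :=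
  Quotient.out_eq o

/-- The width of an orbit: the minimal period of its representative. -/
noncomputable def width (o : Orb π) : ℕ := minimalPeriod (⇑π) (rep π o)

theorem width_pos (o : Orb π) : 0 < width π o := minimalPeriod_pos π _

theorem pow_width_rep (o : Orb π) : (π ^ width π o) (rep π o) = rep π o :=
  pow_minimalPeriod_apply π _

theorem sameCycle_rep (x : X) :
    Equiv.Perm.SameCycle π (rep π (Quotient.mk (Equiv.Perm.SameCycle.setoid π) x)) x := by
  have h := Quotient.mk_out (s := Equiv.Perm.SameCycle.setoid π) x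
  exact h

/-- The orbit map `(o, j) ↦ π ^ j (rep o)`. -/
noncomputable def orbMap (p : Σ o : Orb π, Fin (width π o)) : X := (π ^ (p.2 : ℕ)) (rep π p.1)

theorem mk_orbMap (p : Σ o : Orb π, Fin (width π o)) :
    (Quotient.mk (Equiv.Perm.SameCycle.setoid π) (orbMap π p) : Orb π) = p.1 := by
  rw [← mk_rep π p.1]
  refine Quotient.sound ?_
  show Equiv.Perm.SameCycle π (orbMap π p) (rep π p.1)
  refine Equiv.Perm.SameCycle.symm ?_
  exact ⟨(p.2 : ℕ), by simp [orbMap]⟩

theorem orbMap_injective : Injective (orbMap π) := by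
  rintro ⟨o, j⟩ ⟨o', j'⟩ h
  have ho : o = o' := by
    have h1 := mk_orbMap π ⟨o, j⟩
    have h2 := mk_orbMap π ⟨o', j'⟩
    rw [h] at h1
    exact h1.symm.trans h2
  subst ho
  have hj : (j : ℕ) = (j' : ℕ) := by
    refine iterate_injOn_Iio_minimalPeriod (f := ⇑π) (x := rep π o) ?_ ?_ ?_
    · exact j.2
    · exact j'.2
    · show (⇑π)^[(j : ℕ)] (rep π o) = (⇑π)^[(j' : ℕ)] (rep π o)
      rw [iterate_eq_pow_apply, iterate_eq_pow_apply]
      exact h
  have : j = j' := Fin.ext hj
  rw [this]

theorem orbMap_surjective : Surjective (orbMap π) := by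
  intro x
  set o : Orb π := Quotient.mk (Equiv.Perm.SameCycle.setoid π) x with ho
  obtain ⟨n, -, hn⟩ := (sameCycle_rep π x).exists_pow_eq'
  have hlt : n % width π o < width π o := Nat.mod_lt _ (width_pos π o)
  refine ⟨⟨o, ⟨n % width π o, hlt⟩⟩, ?_⟩
  show (π ^ (n % width π o)) (rep π o) = x
  rw [← iterate_eq_pow_apply]
  have := iterate_mod_minimalPeriod_eq (f := ⇑π) (x := rep π o) (n := n)
  rw [show width π o = minimalPeriod (⇑π) (rep π o) from rfl, this, iterate_eq_pow_apply]
  exact hn

theorem orbMap_bijective : Bijective (orbMap π) := ⟨orbMap_injective π, orbMap_surjective π⟩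

end explicit

/-- **Orbit data for a permutation** (explicit version with minimality of the widths):
a finite index type `C : Type`, representatives `xc`, widths `kc` with
`kc c = minimalPeriod π (xc c)`, such that `(c, j) ↦ π ^ j (xc c)`, `j < kc c`, is bijective. -/
theorem exists_orbit_reps_minimal [Fintype X] [DecidableEq X] (π : Equiv.Perm X) :
    ∃ (C : Type) (_ : Fintype C) (xc : C → X) (kc : C → ℕ),
      (∀ c, 0 < kc c) ∧ (∀ c, (π ^ kc c) (xc c) = xc c) ∧
      (∀ c, kc c = minimalPeriod (⇑π) (xc c)) ∧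
      (∀ c c', Equiv.Perm.SameCycle π (xc c) (xc c') → c = c') ∧
      Bijective (fun p : Σ c, Fin (kc c) => (π ^ (p.2 : ℕ)) (xc p.1)) := by
  classical
  let e : Orb π ≃ Fin (Fintype.card (Orb π)) := Fintype.equivFin _
  refine ⟨Fin (Fintype.card (Orb π)), inferInstance, fun c => rep π (e.symm c),
    fun c => width π (e.symm c), fun c => width_pos π _, fun c => pow_width_rep π _,
    fun c => rfl, ?_, ?_⟩
  · intro c c' h
    have h1 : (Quotient.mk (Equiv.Perm.SameCycle.setoid π) (rep π (e.symm c)) : Orb π)
        = Quotient.mk (Equiv.Perm.SameCycle.setoid π) (rep π (e.symm c')) := Quotient.sound h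
    rw [mk_rep, mk_rep] at h1
    exact e.symm.injective h1
  · -- transport `orbMap_bijective` along `e`
    let E : (Σ c : Fin (Fintype.card (Orb π)), Fin (width π (e.symm c))) ≃
        (Σ o : Orb π, Fin (width π o)) :=
      Equiv.sigmaCongrLeft (β := fun o : Orb π => Fin (width π o)) e.symm
    have hcomp : (fun p : Σ c : Fin (Fintype.card (Orb π)), Fin (width π (e.symm c)) =>
        (π ^ (p.2 : ℕ)) (rep π (e.symm p.1))) = orbMap π ∘ E := by
      funext p
      rfl
    rw [hcomp]
    exact (orbMap_bijective π).comp E.bijective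

/-- **Orbit data for a permutation** (helper1's statement #2021, verbatim). -/
theorem exists_orbit_reps [Fintype X] [DecidableEq X] (π : Equiv.Perm X) :
    ∃ (C : Type) (_ : Fintype C) (xc : C → X) (kc : C → ℕ),
      (∀ c, 0 < kc c) ∧ (∀ c, (π ^ kc c) (xc c) = xc c) ∧
      Bijective (fun p : Σ c, Fin (kc c) => (π ^ (p.2 : ℕ)) (xc p.1)) := by
  obtain ⟨C, hC, xc, kc, h1, h2, -, -, h3⟩ := exists_orbit_reps_minimal π
  exact ⟨C, hC, xc, kc, h1, h2, h3⟩

end Fermat.Agent.S41.PD.OrbitReps
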