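/-
S41 block [PD]: the RELATIONAL Shapiro map `Θ` (helper11's `Adjoint.IsRep`) as an additive
isomorphism, in the generality of a *full* Shapiro system (helper29's `ShapiroGen.IsFull`).

`S : CosetSys₂ jG jΓ X` (`G` the big group, `Gam` the subgroup, `X = Gam \ G`), `sg tg : G` two
elements with `σ = S.permEquiv sg`, `τ = S.permEquiv tg` a dessin.  For `φ : Gam → ℤ`:
* `isRep_zero/add/neg/sub/zsmul` : the relation `IsRep S sg tg φ v` is additive;
* `exists_isRep` : a representative exists as soon as `φ` kills `coc (sg²) x`, `coc (tg³) x`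
  (norm conditions; `H¹(C_n, permutation module) = 0`);
* `isRep_mem_Npar` : if `φ` kills the stabiliser elements `coc ((tg*sg)^n) x` (`x (tg sg)^n = x`),
  i.e. `φ` is parabolic, every representative lies in `Npar σ τ`;
* `isRep_eq_zero_of_mem_W` : injectivity, `IsRep φ v`, `v ∈ W` ⇒ `φ = 0` (for `⟨sg, tg⟩ = G`);
* `ThetaData` : existence + injectivity + surjectivity on an additive subgroup `L` of
  `Hom(Gam, ℤ)` ⇒ `ThetaData.theta : L ≃+ LamQ σ τ` with `theta_eq_mk`, and
  `ThetaData.Bq_theta : B (Θ φ) (Θ ψ) = pair v u` for all representatives.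
Imports: Mathlib, `PD/DessinQuot`, `PD/Adjoint`, `PD/ShapiroGen`, `PD/OrbitReps`.
-/
import Mathlib
import Fermat.Agent.S41.PD.DessinQuot
import Fermat.Agent.S41.PD.Adjoint
import Fermat.Agent.S41.PD.ShapiroGen
import Fermat.Agent.S41.PD.OrbitReps

set_option autoImplicit false
set_option linter.unusedSectionVars false

open Finset BigOperators Matrix

namespace Fermat.Agent.S41.PD.ThetaRel

open Fermat.Agent.P3LR.A.Transfer2 Fermat.Agent.S41.PD.Dessin Fermat.Agent.S41.PD.Adjoint
open Fermat.Agent.S41.PD.ShapiroGen Fermat.Agent.S41.PD.OrbitReps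

/-! ### Orbit sums and `(V^π)^⊥` -/

section Orbit

variable {X : Type*} [Fintype X] [DecidableEq X]

theorem apply_pow_of_op_eq (π : Equiv.Perm X) (e : X → ℤ) (he : op π e = e) (j : ℕ) (x : X) :
    e ((π ^ j) x) = e x := by
  induction j with
  | zero => simp
  | succ j ih =>
    rw [pow_succ', Equiv.Perm.mul_apply]
    have := congrFun he ((π ^ j) x)
    rw [op_apply] at this
    rw [this, ih]

/-- a function all of whose `π`-orbit sums vanish is orthogonal to the `π`-invariants -/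
theorem dot_eq_zero_of_orbit_sums (π : Equiv.Perm X) (z e : X → ℤ) (he : op π e = e)
    (hz : ∀ (n : ℕ) (x : X), (π ^ n) x = x → ∑ k ∈ range n, z ((π ^ k) x) = 0) :
    z ⬝ᵥ e = 0 := by
  obtain ⟨C, hC, xc, kc, -, hper, hbij⟩ := exists_orbit_reps π
  have h1 : z ⬝ᵥ e = ∑ p : (Σ c, Fin (kc c)),
      z ((π ^ (p.2 : ℕ)) (xc p.1)) * e ((π ^ (p.2 : ℕ)) (xc p.1)) := by
    rw [dotProduct]
    exact (hbij.sum_comp (fun x => z x * e x)).symm
  rw [h1, Fintype.sum_sigma]
  refine Finset.sum_eq_zero (fun c _ => ?_)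
  have h2 : ∀ j : Fin (kc c), z ((π ^ (j : ℕ)) (xc c)) * e ((π ^ (j : ℕ)) (xc c))
      = z ((π ^ (j : ℕ)) (xc c)) * e (xc c) := fun j => by
    rw [apply_pow_of_op_eq π e he]
  simp only [h2]
  rw [← Finset.sum_mul, Fin.sum_univ_eq_sum_range (fun k => z ((π ^ k) (xc c))) (kc c),
    hz (kc c) (xc c) (hper c), zero_mul]

end Orbit

variable {Amb G Gam : Type*} [Group Amb] [Group G] [Group Gam]
variable {jG : G →* Amb} {jΓ : Gam →* Amb}
variable {X : Type*} [Fintype X] [DecidableEq X]
variable {S : CosetSys₂ jG jΓ X} {sg tg : G}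

/-! ### Additivity of the relation -/

section Additive

theorem shp_zero (g : G) : shp S (0 : Additive Gam →+ ℤ) g = 0 := rfl

theorem shp_add (φ ψ : Additive Gam →+ ℤ) (g : G) :
    shp S (φ + ψ) g = shp S φ g + shp S ψ g := rfl

theorem shp_neg (φ : Additive Gam →+ ℤ) (g : G) : shp S (-φ) g = -shp S φ g := rfl

theorem shp_zsmul (n : ℤ) (φ : Additive Gam →+ ℤ) (g : G) :
    shp S (n • φ) g = n • shp S φ g := rfl

theorem isRep_zero : IsRep S sg tg (0 : Additive Gam →+ ℤ) 0 :=
  ⟨0, 0, by simp [shp_zero], by simp [shp_zero], by simp⟩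

theorem isRep_add {φ ψ : Additive Gam →+ ℤ} {v u : X → ℤ} (hv : IsRep S sg tg φ v)
    (hu : IsRep S sg tg ψ u) : IsRep S sg tg (φ + ψ) (v + u) := by
  obtain ⟨y, y', hy, hy', hw⟩ := hv
  obtain ⟨z, z', hz, hz', hw'⟩ := hu
  refine ⟨y + z, y' + z', ?_, ?_, ?_⟩
  · rw [map_add, shp_add, ← hy, ← hz]; abel
  · rw [map_add, shp_add, ← hy', ← hz']; abel
  · have e : v + u - (y + z - (y' + z')) = (v - (y - y')) + (u - (z - z')) := by abel
    rw [e]
    exact Submodule.add_mem _ hw hw'

theorem isRep_neg {φ : Additive Gam →+ ℤ} {v : X → ℤ} (hv : IsRep S sg tg φ v) :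
    IsRep S sg tg (-φ) (-v) := by
  obtain ⟨y, y', hy, hy', hw⟩ := hv
  refine ⟨-y, -y', ?_, ?_, ?_⟩
  · rw [map_neg, shp_neg, ← hy]; abel
  · rw [map_neg, shp_neg, ← hy']; abel
  · have e : -v - (-y - -y') = -(v - (y - y')) := by abel
    rw [e]
    exact Submodule.neg_mem _ hw

theorem isRep_sub {φ ψ : Additive Gam →+ ℤ} {v u : X → ℤ} (hv : IsRep S sg tg φ v)
    (hu : IsRep S sg tg ψ u) : IsRep S sg tg (φ - ψ) (v - u) := by
  rw [sub_eq_add_neg, sub_eq_add_neg]
  exact isRep_add hv (isRep_neg hu)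

theorem isRep_zsmul {φ : Additive Gam →+ ℤ} {v : X → ℤ} (hv : IsRep S sg tg φ v) (n : ℤ) :
    IsRep S sg tg (n • φ) (n • v) := by
  obtain ⟨y, y', hy, hy', hw⟩ := hv
  refine ⟨n • y, n • y', ?_, ?_, ?_⟩
  · rw [map_smul, shp_zsmul, ← hy, smul_sub]
  · rw [map_smul, shp_zsmul, ← hy', smul_sub]
  · have e : n • v - (n • y - n • y') = n • (v - (y - y')) := by
      rw [smul_sub, smul_sub]
    rw [e]
    exact Submodule.smul_mem _ n hw

end Additive

/-! ### Existence of representatives -/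

section Exists

theorem shp_mul_apply (φ : Additive Gam →+ ℤ) (g h : G) (x : X) :
    shp S φ (g * h) x = shp S φ g x + shp S φ h (S.perm g x) := by
  rw [shp_apply, shp_apply, shp_apply, S.coc_mul, ofMul_mul, map_add]

/-- **Existence of a representative** from the two norm conditions. -/
theorem exists_isRep (hD : IsDessin (S.permEquiv sg) (S.permEquiv tg)) (φ : Additive Gam →+ ℤ)
    (hs : ∀ x, φ (Additive.ofMul (S.coc (sg * sg) x)) = 0)
    (ht : ∀ x, φ (Additive.ofMul (S.coc (tg * tg * tg) x)) = 0) :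
    ∃ y y' : X → ℤ, op (S.permEquiv tg) y - y = shp S φ tg ∧
      op (S.permEquiv sg) y' - y' = shp S φ sg := by
  have h1 : op (S.permEquiv sg) (shp S φ sg) + shp S φ sg = 0 := by
    funext x
    have := shp_mul_apply (S := S) φ sg sg x
    rw [shp_apply, hs] at this
    simp only [Pi.add_apply, op_apply, CosetSys₂.permEquiv_apply, Pi.zero_apply]
    linarith
  have h2 : op (S.permEquiv tg) (op (S.permEquiv tg) (shp S φ tg)) +
      op (S.permEquiv tg) (shp S φ tg) + shp S φ tg = 0 := by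
    funext x
    have e1 := shp_mul_apply (S := S) φ (tg * tg) tg x
    have e2 := shp_mul_apply (S := S) φ tg tg x
    rw [shp_apply, ht] at e1
    rw [S.perm_mul] at e1
    simp only [Pi.add_apply, op_apply, CosetSys₂.permEquiv_apply, Pi.zero_apply]
    linarith
  obtain ⟨y', hy'⟩ := hD.exists_S_sub _ h1
  obtain ⟨y, hy⟩ := hD.exists_U_sub _ h2
  exact ⟨y, y', hy.symm, hy'.symm⟩

theorem exists_isRep' (hD : IsDessin (S.permEquiv sg) (S.permEquiv tg)) (φ : Additive Gam →+ ℤ)
    (hs : ∀ x, φ (Additive.ofMul (S.coc (sg * sg) x)) = 0)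
    (ht : ∀ x, φ (Additive.ofMul (S.coc (tg * tg * tg) x)) = 0) :
    ∃ v : X → ℤ, IsRep S sg tg φ v := by
  obtain ⟨y, y', hy, hy'⟩ := exists_isRep hD φ hs ht
  exact ⟨y - y', y, y', hy, hy', by simp⟩

end Exists

/-! ### Parabolic homomorphisms have parabolic representatives -/

section Parabolic

theorem permEquiv_mul' (g h : G) : S.permEquiv (g * h) = S.permEquiv h * S.permEquiv g :=
  Equiv.ext fun i => S.perm_mul g h i

/-- the `(tg*sg)`-orbit sums of `(τ-1)(y-y')` are the values of `φ` on the stabiliser elements -/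
theorem orbit_sum_eq (φ : Additive Gam →+ ℤ) (y y' : X → ℤ)
    (hy : op (S.permEquiv tg) y - y = shp S φ tg)
    (hy' : op (S.permEquiv sg) y' - y' = shp S φ sg) (n : ℕ) (x : X)
    (hx : S.perm ((tg * sg) ^ n) x = x) :
    ∑ k ∈ range n, (op (S.permEquiv tg) (y - y') - (y - y')) (((S.permEquiv (tg * sg)) ^ k) x)
      = φ (Additive.ofMul (S.coc ((tg * sg) ^ n) x)) := by
  -- the cocycle `c' = sh φ - cob y'`
  set c' : G → X → ℤ := fun g => sh S φ g - cob S y' g with hc'
  have hcoc : IsCocycle S c' := (isCocycle_sh S φ).sub (isCocycle_cob S y')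
  have hsg : c' sg = 0 := by
    funext x
    have := congrFun hy' x
    simp only [Pi.sub_apply, op_apply, CosetSys₂.permEquiv_apply, shp_apply] at this
    simp only [hc', Pi.sub_apply, sh_apply, cob_apply, Pi.zero_apply]
    linarith
  have htg : c' (tg * sg) = op (S.permEquiv tg) (y - y') - (y - y') := by
    rw [hcoc tg sg, hsg, map_zero, add_zero]
    funext x
    have := congrFun hy x
    simp only [Pi.sub_apply, op_apply, CosetSys₂.permEquiv_apply, shp_apply] at this
    simp only [hc', Pi.sub_apply, sh_apply, cob_apply, op_apply, CosetSys₂.permEquiv_apply]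
    linarith
  rw [← htg, ← hcoc.map_pow_apply]
  simp only [hc', Pi.sub_apply, sh_apply, cob_apply, hx, sub_self, sub_zero]

/-- **Parabolic homomorphisms have parabolic representatives.** -/
theorem isRep_mem_Npar (hD : IsDessin (S.permEquiv sg) (S.permEquiv tg))
    {φ : Additive Gam →+ ℤ} {v : X → ℤ} (hv : IsRep S sg tg φ v)
    (hpar : ∀ (n : ℕ) (x : X), S.perm ((tg * sg) ^ n) x = x →
      φ (Additive.ofMul (S.coc ((tg * sg) ^ n) x)) = 0) :
    v ∈ Npar (S.permEquiv sg) (S.permEquiv tg) := by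
  obtain ⟨y, y', hy, hy', hw⟩ := hv
  have h1 : y - y' ∈ Npar (S.permEquiv sg) (S.permEquiv tg) := by
    obtain ⟨w, hw⟩ := exists_eq_op_sub (S.permEquiv sg * S.permEquiv tg)
      (op (S.permEquiv tg) (y - y') - (y - y')) (fun e he => by
        refine dot_eq_zero_of_orbit_sums _ _ e he (fun n x hx => ?_)
        rw [← permEquiv_mul'] at hx ⊢
        have hx' : S.perm ((tg * sg) ^ n) x = x := by rw [S.perm_pow]; exact hx
        rw [orbit_sum_eq φ y y' hy hy' n x hx', hpar n x hx'])
    exact ⟨w, by rw [hw, op_op]⟩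
  have e : v = (v - (y - y')) + (y - y') := by abel
  rw [e]
  exact Submodule.add_mem _ (hD.W_le_Npar hw) h1

end Parabolic

/-! ### Injectivity -/

section Injective

variable {f : Gam →* G} {t : X → G} {i₀ : X}

/-- a cocycle vanishing on a generating set vanishes -/
theorem cocycle_eq_zero_of_gens {c : G → X → ℤ} (hc : IsCocycle S c) (gens : Set G)
    (hgen : Subgroup.closure gens = ⊤) (h0 : ∀ g ∈ gens, c g = 0) (g : G) : c g = 0 := by
  have hg : g ∈ Subgroup.closure gens := by rw [hgen]; exact Subgroup.mem_top g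
  induction hg using Subgroup.closure_induction with
  | mem x hx => exact h0 x hx
  | one => exact hc.map_one
  | mul x y _ _ hx hy => rw [hc x y, hx, hy, map_zero, add_zero]
  | inv x _ hx => rw [hc.map_inv, hx, map_zero, neg_zero]

/-- **Injectivity of `Θ`**: a homomorphism with a representative in `W` vanishes. -/
theorem isRep_eq_zero_of_mem_W (H : IsFull S f t i₀)
    (hgen : Subgroup.closure ({sg, tg} : Set G) = ⊤)
    {φ : Additive Gam →+ ℤ} {v : X → ℤ} (hv : IsRep S sg tg φ v)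
    (hW : v ∈ W (S.permEquiv sg) (S.permEquiv tg)) : φ = 0 := by
  obtain ⟨y, y', hy, hy', hw⟩ := hv
  have h1 : y - y' ∈ W (S.permEquiv sg) (S.permEquiv tg) := by
    have e : y - y' = v - (v - (y - y')) := by abel
    rw [e]
    exact Submodule.sub_mem _ hW hw
  obtain ⟨a, b, ha, hb, hab⟩ := (mem_W _ _).1 h1
  -- `m = y - b = y' + a`
  set m : X → ℤ := y - b with hm
  have hm' : m = y' + a := by
    rw [hm]
    have : y - b - (y' + a) = (y - y') - (a + b) := by abel
    exact sub_eq_zero.1 (by rw [this, hab, sub_self])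
  have hmt : op (S.permEquiv tg) m - m = shp S φ tg := by
    rw [hm, map_sub, hb, ← hy]; abel
  have hms : op (S.permEquiv sg) m - m = shp S φ sg := by
    rw [hm', map_add, ha, ← hy']; abel
  refine H.eq_zero_of_sh_eq_cob (w := m) (fun g => ?_)
  have hcoc : IsCocycle S (fun g => sh S φ g - cob S m g) :=
    (isCocycle_sh S φ).sub (isCocycle_cob S m)
  have := cocycle_eq_zero_of_gens hcoc {sg, tg} hgen (fun g hg => by
    rcases hg with rfl | rfl
    · show sh S φ g - cob S m g = 0
      rw [sub_eq_zero]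
      exact hms.symm
    · show sh S φ g - cob S m g = 0
      rw [sub_eq_zero]
      exact hmt.symm) g
  exact sub_eq_zero.1 this

end Injective

/-! ### The bundled isomorphism -/

section Bundle

variable (S sg tg)

/-- the three properties making the relational `Θ` an isomorphism `L ≃ Λ` -/
structure ThetaData (L : AddSubgroup (Additive Gam →+ ℤ)) : Prop where
  dessin : IsDessin (S.permEquiv sg) (S.permEquiv tg)
  exists_rep : ∀ φ ∈ L, ∃ v ∈ Npar (S.permEquiv sg) (S.permEquiv tg), IsRep S sg tg φ v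
  inj : ∀ φ ∈ L, ∀ v ∈ W (S.permEquiv sg) (S.permEquiv tg), IsRep S sg tg φ v → φ = 0
  surj : ∀ v ∈ Npar (S.permEquiv sg) (S.permEquiv tg), ∃ φ ∈ L, IsRep S sg tg φ v

variable {S sg tg}

namespace ThetaData

variable {L : AddSubgroup (Additive Gam →+ ℤ)} (D : ThetaData S sg tg L)

/-- a chosen parabolic representative -/
noncomputable def repOf (φ : L) : Npar (S.permEquiv sg) (S.permEquiv tg) :=
  ⟨Classical.choose (D.exists_rep φ.1 φ.2), (Classical.choose_spec (D.exists_rep φ.1 φ.2)).1⟩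

theorem isRep_repOf (φ : L) : IsRep S sg tg (φ : Additive Gam →+ ℤ) (D.repOf φ : X → ℤ) :=
  (Classical.choose_spec (D.exists_rep φ.1 φ.2)).2

/-- `Θ` as a function -/
noncomputable def thetaFun (φ : L) : LamQ (S.permEquiv sg) (S.permEquiv tg) :=
  Submodule.Quotient.mk (D.repOf φ)

/-- `Θ φ = [v]` for EVERY parabolic representative `v` of `φ` -/
theorem thetaFun_eq_mk (φ : L) (v : Npar (S.permEquiv sg) (S.permEquiv tg))
    (hv : IsRep S sg tg (φ : Additive Gam →+ ℤ) (v : X → ℤ)) :
    D.thetaFun φ = Submodule.Quotient.mk v := by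
  rw [thetaFun, Submodule.Quotient.eq]
  exact mem_WN.2 ((D.isRep_repOf φ).sub_mem_W hv)

theorem isRep_of_thetaFun_eq (φ : L) (v : Npar (S.permEquiv sg) (S.permEquiv tg))
    (h : D.thetaFun φ = Submodule.Quotient.mk v) :
    IsRep S sg tg (φ : Additive Gam →+ ℤ) (v : X → ℤ) := by
  rw [thetaFun, Submodule.Quotient.eq] at h
  refine (D.isRep_repOf φ).of_sub_mem_W ?_
  have := Submodule.neg_mem _ (mem_WN.1 h)
  simpa using this

/-- **the Shapiro isomorphism** `Θ : L ≃+ Λ` -/
noncomputable def theta : L ≃+ LamQ (S.permEquiv sg) (S.permEquiv tg) :=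
  AddEquiv.ofBijective
    (AddMonoidHom.mk' D.thetaFun (fun φ ψ => by
      rw [D.thetaFun_eq_mk (φ + ψ) (D.repOf φ + D.repOf ψ)
        (by simpa using isRep_add (D.isRep_repOf φ) (D.isRep_repOf ψ))]
      rfl))
    (by
      constructor
      · rw [injective_iff_map_eq_zero]
        intro φ hφ
        have h0 : D.thetaFun φ = 0 := hφ
        rw [thetaFun, Submodule.Quotient.mk_eq_zero] at h0
        exact Subtype.ext (D.inj φ.1 φ.2 _ (mem_WN.1 h0) (D.isRep_repOf φ))
      · intro a
        obtain ⟨v, rfl⟩ := Submodule.Quotient.mk_surjective _ a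
        obtain ⟨φ, hφ, hv⟩ := D.surj v.1 v.2
        exact ⟨⟨φ, hφ⟩, D.thetaFun_eq_mk ⟨φ, hφ⟩ v hv⟩)

@[simp] theorem theta_apply (φ : L) : D.theta φ = D.thetaFun φ := rfl

theorem theta_eq_mk (φ : L) (v : Npar (S.permEquiv sg) (S.permEquiv tg))
    (hv : IsRep S sg tg (φ : Additive Gam →+ ℤ) (v : X → ℤ)) :
    D.theta φ = Submodule.Quotient.mk v := D.thetaFun_eq_mk φ v hv

/-- **the pairing through representatives** -/
theorem Bq_theta (φ ψ : L) (v u : Npar (S.permEquiv sg) (S.permEquiv tg))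
    (hv : IsRep S sg tg (φ : Additive Gam →+ ℤ) (v : X → ℤ))
    (hu : IsRep S sg tg (ψ : Additive Gam →+ ℤ) (u : X → ℤ)) :
    D.dessin.Bq (D.theta φ) (D.theta ψ) = pair v u := by
  rw [D.theta_eq_mk φ v hv, D.theta_eq_mk ψ u hu, IsDessin.Bq_mk]

/-- `B (Θ φ) (Θ ψ)` is the pairing of the chosen representatives -/
theorem Bq_theta_repOf (φ ψ : L) :
    D.dessin.Bq (D.theta φ) (D.theta ψ) = pair (D.repOf φ) (D.repOf ψ) :=
  D.Bq_theta φ ψ _ _ (D.isRep_repOf φ) (D.isRep_repOf ψ)

end ThetaData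

end Bundle

end Fermat.Agent.S41.PD.ThetaRel
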