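/-
S41 block [PD], file (d): THE PACKAGE — `AsmDefs.PDData p (degDataOf hqN h1 h2)` (the consumer shape of
the assembly `P3LR/Assembly.lean`) from the two remaining inputs of the block, taken here as
hypotheses for ALL levels:

* `ThetaAt M`  : the relational Shapiro map at level `M` is an isomorphism
                 `parHomAdd M ℤ ≃ Λ(X_M)` (`ThetaRel.ThetaData (SM M) sg tg (parHomAdd M ℤ)`);
* `BridgeAt M` : the bridge `Φ_Γ = B`: the dessin pairing of representatives is the intrinsic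
                 (cusp sum of a Heisenberg lift) pairing of `CuspSystem.intrinsic`.

Everything else is on main: (P2) `AdjointGamma0.pair_resAdd_coresAdd` (helper11), the formal
Atkin–Lehner step `AtkinLehnerEta.resEtaAdd_eq`, `AtkinLehnerFinal.coresEtaAdd_eq`, `wAdd_wAdd`
(helper21), invariance of the intrinsic pairing `CuspSystem.intrinsic_conj` (helper15) at
`wEquiv`/`wMat`, and (R1) `Degeneracy.coresAdd_resEtaAdd`, `coresEtaAdd_resAdd` (helper7).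
-/
import Mathlib
import Fermat.Agent.S41.PD.PackageCore
import Fermat.Agent.S41.PD.ThetaRel
import Fermat.Agent.S41.PD.ShapiroLevel
import Fermat.Agent.S41.PD.AdjointGamma0
import Fermat.Agent.S41.PD.CuspAdapters
import Fermat.Agent.P3LR.A.AtkinLehnerEta
import Fermat.Agent.P3LR.A.Degeneracy
import Fermat.Agent.P3LR.AsmInst

set_option autoImplicit false
set_option linter.unusedSectionVars false
set_option linter.style.haveILetI false

open scoped MatrixGroups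

namespace Fermat.Agent.S41.PD.Package

open Matrix.SpecialLinearGroup CongruenceSubgroup
open Fermat.Agent.N4F.Tors.HeckeHom Fermat.Agent.N4F.Tors.Outputs
open Fermat.Agent.P3LR.A.Transfer2 Fermat.Agent.P3LR.A.Degeneracy
open Fermat.Agent.P3LR.A.AtkinLehnerSys Fermat.Agent.P3LR.A.AtkinLehnerAdd
open Fermat.Agent.P3LR.A.AtkinLehnerFinal Fermat.Agent.P3LR.A.AtkinLehnerEta
open Fermat.Agent.P3LR.AsmDefs Fermat.Agent.P3LR.AsmInst
open Fermat.Agent.S41.PD.Dessin Fermat.Agent.S41.PD.Adjoint Fermat.Agent.S41.PD.AdjointGamma0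
open Fermat.Agent.S41.PD.ShapiroLevel Fermat.Agent.S41.PD.ThetaRel
open Fermat.Agent.S41.PD.CuspSystem Fermat.Agent.S41.PD.CuspAdapters

/-! ### The two inputs -/

/-- **(Θ) at level `M`.** -/
def ThetaAt (M : ℕ) [NeZero M] : Prop := ThetaData (SM M) sg tg (parHomAdd M ℤ)

/-- the `ℚ`-valued homomorphism attached to a `ℤ`-valued one -/
def toQ {G : Type*} [Group G] (φ : Additive G →+ ℤ) : Additive G →+ ℚ := (Int.castAddHom ℚ).comp φ

@[simp] theorem toQ_apply {G : Type*} [Group G] (φ : Additive G →+ ℤ) (g : Additive G) :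
    toQ φ g = ((φ g : ℤ) : ℚ) := rfl

/-- **The bridge at level `M`**: the dessin pairing of representatives is the intrinsic pairing. -/
def BridgeAt (M : ℕ) [NeZero M] : Prop :=
  ∀ (φ ψ : Additive ↥(Gamma0 M) →+ ℤ), φ ∈ parHomAdd M ℤ → ψ ∈ parHomAdd M ℤ →
    ∀ (v u : Npar ((SM M).permEquiv sg) ((SM M).permEquiv tg)),
      IsRep (SM M) sg tg φ v → IsRep (SM M) sg tg ψ u →
      intrinsic (Gamma0 M) (toQ φ) (toQ ψ) = ((pair v u : ℤ) : ℚ)

/-! ### The integral pairing on `parHomAdd M ℤ` -/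

section Level

variable {M : ℕ} [NeZero M] (hΘ : ThetaAt M)

/-- the integral Poincaré pairing on `Λ_M = parHomAdd M ℤ` -/
noncomputable def Bint (φ ψ : parHomAdd M ℤ) : ℤ :=
  hΘ.dessin.Bq (hΘ.theta φ) (hΘ.theta ψ)

theorem Bint_eq_pair (φ ψ : parHomAdd M ℤ)
    (v u : Npar ((SM M).permEquiv sg) ((SM M).permEquiv tg))
    (hv : IsRep (SM M) sg tg φ.1 v) (hu : IsRep (SM M) sg tg ψ.1 u) :
    Bint hΘ φ ψ = pair v u :=
  hΘ.Bq_theta φ ψ v u hv hu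

theorem Bint_eq_pair_repOf (φ ψ : parHomAdd M ℤ) :
    Bint hΘ φ ψ = pair (hΘ.repOf φ) (hΘ.repOf ψ) :=
  hΘ.Bq_theta_repOf φ ψ

theorem Bint_antisymm (φ ψ : parHomAdd M ℤ) : Bint hΘ φ ψ = -Bint hΘ ψ φ :=
  hΘ.dessin.Bq_antisymm _ _

/-- **the pairing modulo `p`** -/
noncomputable def pdLevel (p : ℕ) : parHomAdd M ℤ →+ parHomAdd M ℤ →+ ZMod p :=
  pdOf hΘ.dessin hΘ.theta p

theorem pdLevel_apply (p : ℕ) (φ ψ : parHomAdd M ℤ) :
    pdLevel hΘ p φ ψ = ((Bint hΘ φ ψ : ℤ) : ZMod p) := rfl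

theorem pdLevel_nondeg (p : ℕ) (hp : p ≠ 0) (x : parHomAdd M ℤ)
    (hx : ∀ y, pdLevel hΘ p x y = 0) : ∃ z : parHomAdd M ℤ, x = (p : ℤ) • z :=
  pdOf_nondeg hΘ.dessin hΘ.theta p hp x hx

theorem pdLevel_antisymm (p : ℕ) (φ ψ : parHomAdd M ℤ) :
    pdLevel hΘ p φ ψ = -pdLevel hΘ p ψ φ :=
  pdOf_antisymm hΘ.dessin hΘ.theta p φ ψ

end Level

/-! ### Parabolic homomorphisms vanish on positive parabolic elements -/

theorem vanishesOnPar_toQ {M : ℕ} {φ : Additive ↥(Gamma0 M) →+ ℤ} (hφ : φ ∈ parHomAdd M ℤ) :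
    VanishesOnPar (toQ φ) := by
  intro u hu
  have h0 : φ (Additive.ofMul u) = 0 := hφ u (Or.inl hu.trace_sq)
  rw [toQ_apply, h0]
  exact Int.cast_zero

/-! ### The degeneracy maps on parabolic classes -/

section Deg

variable (N q : ℕ) [Fact q.Prime] (hqN : ¬ q ∣ N)

/-- `res` on parabolic classes -/
noncomputable def resP (φ : parHomAdd N ℤ) : parHomAdd (N * q) ℤ :=
  ⟨resAdd N q φ.1, resAdd_mem_parHomAdd N q φ.2⟩

/-- `resEta` on parabolic classes -/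
noncomputable def resEtaP (φ : parHomAdd N ℤ) : parHomAdd (N * q) ℤ :=
  ⟨resEtaAdd N q φ.1, resEtaAdd_mem_parHomAdd N q φ.2⟩

/-- `cores` on parabolic classes -/
noncomputable def coresP (ψ : parHomAdd (N * q) ℤ) : parHomAdd N ℤ :=
  ⟨coresAdd N q ψ.1, coresAdd_mem_parHomAdd N q ψ.2⟩

/-- `coresEta` on parabolic classes -/
noncomputable def coresEtaP (ψ : parHomAdd (N * q) ℤ) : parHomAdd N ℤ :=
  ⟨coresEtaAdd N q ψ.1, coresEtaAdd_mem_parHomAdd N q ψ.2⟩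

/-- `w_q` on parabolic classes -/
noncomputable def wP (ψ : parHomAdd (N * q) ℤ) : parHomAdd (N * q) ℤ :=
  ⟨wAdd N q hqN ψ.1, wAdd_mem_parHomAdd N q hqN ψ.2⟩

theorem wP_wP (ψ : parHomAdd (N * q) ℤ) : wP N q hqN (wP N q hqN ψ) = ψ :=
  Subtype.ext (wAdd_wAdd N q hqN ψ.1)

theorem resEtaP_eq (φ : parHomAdd N ℤ) : resEtaP N q φ = wP N q hqN (resP N q φ) :=
  Subtype.ext (resEtaAdd_eq N q hqN φ.1)

theorem coresEtaP_eq (ψ : parHomAdd (N * q) ℤ) :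
    coresEtaP N q ψ = coresP N q (wP N q hqN ψ) :=
  Subtype.ext (coresEtaAdd_eq N q hqN ψ.1)

variable [NeZero N] (hΘN : ThetaAt N) (hΘM : ThetaAt (N * q))

include hqN in
/-- **(P2)** `B_{Nq}(res φ, ψ) = B_N(φ, cores ψ)`. -/
theorem Bint_res_adj (φ : parHomAdd N ℤ) (ψ : parHomAdd (N * q) ℤ) :
    Bint hΘM (resP N q φ) ψ = Bint hΘN φ (coresP N q ψ) := by
  rw [Bint_eq_pair_repOf, Bint_eq_pair_repOf]
  exact pair_resAdd_coresAdd N q hqN sg tg hΘN.dessin hΘM.dessin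
    (hΘN.repOf φ) (hΘN.repOf (coresP N q ψ)) (hΘM.repOf (resP N q φ)) (hΘM.repOf ψ)
    (hΘN.isRep_repOf φ) (hΘN.isRep_repOf (coresP N q ψ)) (hΘM.isRep_repOf (resP N q φ))
    (hΘM.isRep_repOf ψ)

/-- **(W)** from the bridge: `w_q` is an isometry of `B_{Nq}`. -/
theorem Bint_w_iso (hB : BridgeAt (N * q)) (φ ψ : parHomAdd (N * q) ℤ) :
    Bint hΘM (wP N q hqN φ) (wP N q hqN ψ) = Bint hΘM φ ψ := by
  have h1 := hB (wP N q hqN φ).1 (wP N q hqN ψ).1 (wP N q hqN φ).2 (wP N q hqN ψ).2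
    (hΘM.repOf (wP N q hqN φ)) (hΘM.repOf (wP N q hqN ψ))
    (hΘM.isRep_repOf (wP N q hqN φ)) (hΘM.isRep_repOf (wP N q hqN ψ))
  have h2 := hB φ.1 ψ.1 φ.2 ψ.2 (hΘM.repOf φ) (hΘM.repOf ψ)
    (hΘM.isRep_repOf φ) (hΘM.isRep_repOf ψ)
  have hconj : IsConjBy (wEquiv N q hqN) ((wMat N q hqN).map (Int.cast : ℤ → ℚ)) :=
    isConjBy_of_intMat (wMat N q hqN) (det_wMat_pos N q hqN) (fun γ => wMat_mul_coe N q hqN γ)
  have h3 : intrinsic (Gamma0 (N * q)) (toQ (wP N q hqN φ).1) (toQ (wP N q hqN ψ).1) =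
      intrinsic (Gamma0 (N * q)) (toQ φ.1) (toQ ψ.1) :=
    intrinsic_conj (neg_one_mem_Gamma0 (N * q)) (neg_one_mem_Gamma0 (N * q)) hconj
      (fun γ => rfl) (fun γ => rfl) (vanishesOnPar_toQ φ.2) (vanishesOnPar_toQ ψ.2)
  rw [Bint_eq_pair_repOf, Bint_eq_pair_repOf]
  have : ((pair (hΘM.repOf (wP N q hqN φ)) (hΘM.repOf (wP N q hqN ψ)) : ℤ) : ℚ) =
      ((pair (hΘM.repOf φ) (hΘM.repOf ψ) : ℤ) : ℚ) := by
    rw [← h1, ← h2, h3]
  exact_mod_cast this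

include hqN in
/-- **the second adjunction** `B_{Nq}(resEta φ, ψ) = B_N(φ, coresEta ψ)`. -/
theorem Bint_resEta_adj (hB : BridgeAt (N * q)) (φ : parHomAdd N ℤ) (ψ : parHomAdd (N * q) ℤ) :
    Bint hΘM (resEtaP N q φ) ψ = Bint hΘN φ (coresEtaP N q ψ) := by
  rw [resEtaP_eq N q hqN, coresEtaP_eq N q hqN, ← Bint_res_adj N q hqN hΘN hΘM,
    ← Bint_w_iso N q hqN hΘM hB (resP N q φ) (wP N q hqN ψ), wP_wP]

/-- `T_q` on parabolic classes -/
noncomputable def heckeP (φ : parHomAdd N ℤ) : parHomAdd N ℤ :=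
  ⟨heckeAdd N q hqN φ.1, heckeAdd_mem_parHomAdd N q hqN φ.2⟩

theorem heckeP_eq_cores_resEta (φ : parHomAdd N ℤ) :
    heckeP N q hqN φ = coresP N q (resEtaP N q φ) :=
  Subtype.ext (coresAdd_resEtaAdd N q hqN φ.1).symm

theorem heckeP_eq_coresEta_res (φ : parHomAdd N ℤ) :
    heckeP N q hqN φ = coresEtaP N q (resP N q φ) :=
  Subtype.ext (coresEtaAdd_resAdd N q hqN φ.1).symm

include hΘM in
/-- **`T_q` is self-adjoint** for `B_N`. -/
theorem Bint_hecke_selfadj (hB : BridgeAt (N * q)) (φ ψ : parHomAdd N ℤ) :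
    Bint hΘN (heckeP N q hqN φ) ψ = Bint hΘN φ (heckeP N q hqN ψ) := by
  rw [heckeP_eq_cores_resEta N q hqN φ, heckeP_eq_coresEta_res N q hqN ψ,
    ← Bint_resEta_adj N q hqN hΘN hΘM hB, Bint_antisymm hΘN,
    ← Bint_res_adj N q hqN hΘN hΘM, ← Bint_antisymm hΘM]

end Deg

/-! ### The package -/

section Final

variable (hΘ : ∀ (M : ℕ) [NeZero M], ThetaAt M) (hB : ∀ (M : ℕ) [NeZero M], BridgeAt M)

/-- **[PD] — the Poincaré duality package** in the shape consumed by `P3LR/Assembly.lean`. -/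
noncomputable def pdData (p : ℕ) (hp : p ≠ 0) {N q : ℕ} [NeZero N] [Fact q.Prime] (hqN : ¬ q ∣ N)
    (h1 : R1Hyp N q hqN) (h2 : R2Hyp N q) : PDData p (degDataOf hqN h1 h2) where
  pdN := pdLevel (hΘ N) p
  pdM := pdLevel (hΘ (N * q)) p
  nondegN := pdLevel_nondeg (hΘ N) p hp
  nondegM := pdLevel_nondeg (hΘ (N * q)) p hp
  res_adj φ ψ := by
    rw [pdLevel_apply, pdLevel_apply]
    exact congrArg _ (Bint_res_adj N q hqN (hΘ N) (hΘ (N * q)) φ ψ)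
  resEta_adj φ ψ := by
    rw [pdLevel_apply, pdLevel_apply]
    exact congrArg _ (Bint_resEta_adj N q hqN (hΘ N) (hΘ (N * q)) (hB (N * q)) φ ψ)
  hself ℓ hℓN _ _ φ ψ := by
    haveI : Fact (ℓ : ℕ).Prime := ⟨ℓ.2⟩
    rw [pdLevel_apply, pdLevel_apply]
    have h := Bint_hecke_selfadj N (ℓ : ℕ) hℓN (hΘ N) (hΘ (N * (ℓ : ℕ))) (hB (N * (ℓ : ℕ))) φ ψ
    have e1 : heckeLattice N ℓ hℓN φ = heckeP N (ℓ : ℕ) hℓN φ := Subtype.ext rfl
    have e2 : heckeLattice N ℓ hℓN ψ = heckeP N (ℓ : ℕ) hℓN ψ := Subtype.ext rfl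
    rw [e1, e2, h]

end Final

end Fermat.Agent.S41.PD.Package
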