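import Mathlib

/-!
# `PSL₂(ℤ) ≅ C₂ * C₃` through its universal property

For every group `H` and `s t : H` with `s ^ 2 = 1`, `t ^ 3 = 1` there is a unique homomorphism
`SL(2,ℤ) →* H` with `S ↦ s` and `U = S * T ↦ t`.  Existence is the classical ping-pong argument
for the action of `SL(2,ℤ)` on the upper half plane (sets `0 < re z` and `re z < 0`).
-/

namespace Fermat.Agent.S41.PD.FreeProduct

open scoped MatrixGroups UpperHalfPlane Pointwise
open ModularGroup UpperHalfPlane

/-! ### Homomorphisms out of cyclic groups -/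

/-- The homomorphism from the cyclic group of order `n` determined by an element killed by `n`. -/
def cycHom {G : Type*} [Group G] (n : ℕ) (g : G) (hg : g ^ n = 1) : Multiplicative (ZMod n) →* G :=
  AddMonoidHom.toMultiplicativeLeft
    (ZMod.lift n ⟨zmultiplesHom (Additive G) (Additive.ofMul g), by
      change (n : ℤ) • Additive.ofMul g = 0
      rw [natCast_zsmul, ← ofMul_pow, hg]; rfl⟩)

theorem cycHom_ofAdd_intCast {G : Type*} [Group G] (n : ℕ) (g : G) (hg : g ^ n = 1) (k : ℤ) :
    cycHom n g hg (Multiplicative.ofAdd (k : ZMod n)) = g ^ k := by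
  change Additive.toMul (ZMod.lift n _ (k : ZMod n)) = g ^ k
  rw [ZMod.lift_coe]
  change Additive.toMul (k • Additive.ofMul g) = g ^ k
  rw [← ofMul_zpow]; rfl

theorem cycHom_ofAdd_one {G : Type*} [Group G] (n : ℕ) (g : G) (hg : g ^ n = 1) :
    cycHom n g hg (Multiplicative.ofAdd (1 : ZMod n)) = g := by
  have := cycHom_ofAdd_intCast n g hg 1
  simpa using this

/-! ### The action of `S` and `U = S * T` on real parts -/

theorem re_S_smul (z : ℍ) : (S • z).re = - z.re / Complex.normSq z := by
  rw [modular_S_smul]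
  simp [Complex.inv_re, neg_div]

theorem re_S_smul_pos {z : ℍ} (hz : z.re < 0) : 0 < (S • z).re := by
  rw [re_S_smul]
  have : 0 < Complex.normSq z := Complex.normSq_pos.mpr z.ne_zero
  exact div_pos (by linarith) this

theorem re_S_smul_neg {z : ℍ} (hz : 0 < z.re) : (S • z).re < 0 := by
  rw [re_S_smul]
  have : 0 < Complex.normSq z := Complex.normSq_pos.mpr z.ne_zero
  exact div_neg_of_neg_of_pos (by linarith) this

theorem re_U_smul_neg {z : ℍ} (hz : 0 < z.re) : ((S * T) • z).re < 0 := by
  rw [mul_smul]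
  apply re_S_smul_neg
  rw [re_T_smul]; linarith

theorem re_U_inv_smul_neg {z : ℍ} (hz : 0 < z.re) : ((S * T)⁻¹ • z).re < 0 := by
  rw [mul_inv_rev, mul_smul, re_T_inv_smul, S_inv, SL_neg_smul]
  have := re_S_smul_neg hz
  linarith

theorem S_mul_S : S * S = -1 := by decide

theorem U_pow_three : (S * T) ^ 3 = -1 := by decide

/-! ### The two permutations and the ping-pong -/

/-- The action of `SL(2,ℤ)` on the upper half plane as a homomorphism to permutations. -/
noncomputable def actHom : SL(2, ℤ) →* Equiv.Perm ℍ := MulAction.toPermHom SL(2, ℤ) ℍ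

theorem actHom_apply (g : SL(2, ℤ)) (z : ℍ) : actHom g z = g • z := rfl

theorem actHom_neg_one : actHom (-1) = 1 := by
  ext1 z
  rw [actHom_apply, SL_neg_smul, one_smul]; rfl

/-- The orders `2` and `3` of the two free factors. -/
def ord : Bool → ℕ := fun b => cond b 3 2

/-- The two cyclic free factors. -/
abbrev Cyc (b : Bool) : Type := Multiplicative (ZMod (ord b))

/-- The generators `S` and `U = S * T`. -/
def genSL : Bool → SL(2, ℤ) := fun b => cond b (S * T) S

theorem actHom_genSL_pow (b : Bool) : actHom (genSL b) ^ ord b = 1 := by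
  cases b
  · change actHom S ^ 2 = 1
    rw [← map_pow, pow_two, S_mul_S, actHom_neg_one]
  · change actHom (S * T) ^ 3 = 1
    rw [← map_pow, U_pow_three, actHom_neg_one]

/-- The two homomorphisms `C₂, C₃ → Perm ℍ`. -/
noncomputable def permHom (b : Bool) : Cyc b →* Equiv.Perm ℍ :=
  cycHom (ord b) (actHom (genSL b)) (actHom_genSL_pow b)

/-- The ping-pong sets: `0 < re z` for `C₂` and `re z < 0` for `C₃`. -/
def pp : Bool → Set ℍ := fun b => cond b {z | z.re < 0} {z | 0 < z.re}

theorem pp_nonempty (b : Bool) : (pp b).Nonempty := by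
  cases b
  · refine ⟨⟨⟨1, 1⟩, by simp⟩, ?_⟩
    change (0 : ℝ) < 1
    norm_num
  · refine ⟨⟨⟨-1, 1⟩, by simp⟩, ?_⟩
    change (-1 : ℝ) < 0
    norm_num

theorem pp_disjoint : Pairwise (Function.onFun Disjoint pp) := by
  intro i j hij
  rw [Function.onFun, Set.disjoint_left]
  intro z hi hj
  cases i <;> cases j
  · exact hij rfl
  · exact lt_asymm (show (0 : ℝ) < z.re from hi) (show z.re < 0 from hj)
  · exact lt_asymm (show (0 : ℝ) < z.re from hj) (show z.re < 0 from hi)
  · exact hij rfl

theorem cyc_two_cases (h : Multiplicative (ZMod 2)) (hh : h ≠ 1) :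
    h = Multiplicative.ofAdd ((1 : ℤ) : ZMod 2) := by
  revert h; decide

theorem cyc_three_cases (h : Multiplicative (ZMod 3)) (hh : h ≠ 1) :
    h = Multiplicative.ofAdd ((1 : ℤ) : ZMod 3) ∨ h = Multiplicative.ofAdd ((-1 : ℤ) : ZMod 3) := by
  revert h; decide

theorem pp_ping_pong :
    Pairwise fun i j => ∀ h : Cyc i, h ≠ 1 → permHom i h • pp j ⊆ pp i := by
  intro i j hij h hh
  cases i <;> cases j
  · exact absurd rfl hij
  · -- `C₂`: `S` maps `re < 0` into `0 < re`
    have h1 := cyc_two_cases h hh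
    rintro _ ⟨z, hz, rfl⟩
    have : permHom false h = actHom S ^ (1 : ℤ) := by
      rw [h1]; exact cycHom_ofAdd_intCast _ _ _ _
    rw [this, zpow_one]
    exact re_S_smul_pos (show z.re < 0 from hz)
  · -- `C₃`: `U`, `U⁻¹` map `0 < re` into `re < 0`
    rintro _ ⟨z, hz, rfl⟩
    rcases cyc_three_cases h hh with h1 | h1
    · have : permHom true h = actHom (S * T) ^ (1 : ℤ) := by
        rw [h1]; exact cycHom_ofAdd_intCast _ _ _ _
      rw [this, zpow_one]
      exact re_U_smul_neg (show 0 < z.re from hz)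
    · have : permHom true h = actHom (S * T) ^ (-1 : ℤ) := by
        rw [h1]; exact cycHom_ofAdd_intCast _ _ _ _
      rw [this, zpow_neg_one, ← map_inv]
      exact re_U_inv_smul_neg (show 0 < z.re from hz)
  · exact absurd rfl hij

theorem lift_permHom_injective : Function.Injective (Monoid.CoprodI.lift permHom) := by
  refine Monoid.CoprodI.lift_injective_of_ping_pong permHom (Or.inr ⟨true, ?_⟩) pp pp_nonempty
    pp_disjoint pp_ping_pong
  change 3 ≤ Cardinal.mk (Multiplicative (ZMod 3))
  rw [Cardinal.mk_fintype, Fintype.card_multiplicative, ZMod.card]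
  norm_num

/-! ### `SL(2,ℤ) → C₂ * C₃` -/

/-- The canonical generator of each cyclic factor, inside the free product. -/
def genCo (b : Bool) : Monoid.CoprodI Cyc :=
  Monoid.CoprodI.of (M := Cyc) (i := b) (Multiplicative.ofAdd (1 : ZMod (ord b)))

theorem lift_permHom_genCo (b : Bool) :
    Monoid.CoprodI.lift permHom (genCo b) = actHom (genSL b) := by
  rw [genCo, Monoid.CoprodI.lift_of]
  exact cycHom_ofAdd_one _ _ _

theorem actHom_range_le : actHom.range ≤ (Monoid.CoprodI.lift permHom).range := by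
  rw [MonoidHom.range_eq_map, ← SpecialLinearGroup.SL2Z_generators, MonoidHom.map_closure,
    Subgroup.closure_le]
  rintro _ ⟨g, hg, rfl⟩
  rcases hg with rfl | rfl
  · exact ⟨genCo false, lift_permHom_genCo false⟩
  · refine ⟨(genCo false)⁻¹ * genCo true, ?_⟩
    rw [map_mul, map_inv, lift_permHom_genCo, lift_permHom_genCo, ← map_inv, ← map_mul]
    congr 1
    change S⁻¹ * (S * T) = T
    group

/-- The homomorphism `SL(2,ℤ) → C₂ * C₃` (it is `PSL₂(ℤ) ≅ C₂ * C₃` composed with the
projection). -/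
noncomputable def toCoprod : SL(2, ℤ) →* Monoid.CoprodI Cyc :=
  (MonoidHom.ofInjective lift_permHom_injective).symm.toMonoidHom.comp
    (actHom.codRestrict (Monoid.CoprodI.lift permHom).range
      fun g => actHom_range_le (MonoidHom.mem_range.mpr ⟨g, rfl⟩))

theorem lift_permHom_toCoprod (g : SL(2, ℤ)) :
    Monoid.CoprodI.lift permHom (toCoprod g) = actHom g := by
  have := (MonoidHom.ofInjective lift_permHom_injective).apply_symm_apply
    (actHom.codRestrict (Monoid.CoprodI.lift permHom).range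
      (fun g => actHom_range_le (MonoidHom.mem_range.mpr ⟨g, rfl⟩)) g)
  exact congrArg Subtype.val this

theorem toCoprod_genSL (b : Bool) : toCoprod (genSL b) = genCo b :=
  lift_permHom_injective ((lift_permHom_toCoprod _).trans (lift_permHom_genCo b).symm)

/-! ### The universal property -/

section Universal

variable {H : Type*} [Group H]

/-- The images of the generators. -/
def genH (s t : H) : Bool → H := fun b => cond b t s

theorem genH_pow (s t : H) (hs : s ^ 2 = 1) (ht : t ^ 3 = 1) (b : Bool) :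
    genH s t b ^ ord b = 1 := by
  cases b
  · exact hs
  · exact ht

/-- The homomorphism `SL(2,ℤ) →* H` with `S ↦ s`, `S * T ↦ t`. -/
noncomputable def homOfPair (s t : H) (hs : s ^ 2 = 1) (ht : t ^ 3 = 1) : SL(2, ℤ) →* H :=
  (Monoid.CoprodI.lift fun b => cycHom (ord b) (genH s t b) (genH_pow s t hs ht b)).comp toCoprod

theorem homOfPair_genSL (s t : H) (hs : s ^ 2 = 1) (ht : t ^ 3 = 1) (b : Bool) :
    homOfPair s t hs ht (genSL b) = genH s t b := by
  rw [homOfPair, MonoidHom.comp_apply, toCoprod_genSL, genCo, Monoid.CoprodI.lift_of]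
  exact cycHom_ofAdd_one _ _ _

theorem homOfPair_S (s t : H) (hs : s ^ 2 = 1) (ht : t ^ 3 = 1) : homOfPair s t hs ht S = s :=
  homOfPair_genSL s t hs ht false

theorem homOfPair_U (s t : H) (hs : s ^ 2 = 1) (ht : t ^ 3 = 1) :
    homOfPair s t hs ht (S * T) = t :=
  homOfPair_genSL s t hs ht true

/-- Two homomorphisms out of `SL(2,ℤ)` agreeing on `S` and `U = S * T` are equal. -/
theorem hom_ext_S_U {f g : SL(2, ℤ) →* H} (hS : f S = g S) (hU : f (S * T) = g (S * T)) :
    f = g := by
  have hT : f T = g T := by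
    have h1 : T = S⁻¹ * (S * T) := by group
    calc f T = f (S⁻¹ * (S * T)) := congrArg f h1
      _ = (f S)⁻¹ * f (S * T) := by rw [map_mul f S⁻¹, map_inv]
      _ = (g S)⁻¹ * g (S * T) := by rw [hS, hU]
      _ = g (S⁻¹ * (S * T)) := by rw [map_mul g S⁻¹, map_inv]
      _ = g T := congrArg g h1.symm
  have hcl : Subgroup.closure ({S, T} : Set SL(2, ℤ)) = ⊤ := SpecialLinearGroup.SL2Z_generators
  refine MonoidHom.eq_of_eqOn_dense hcl ?_
  rintro x (rfl | rfl)
  · exact hS
  · exact hT

/-- The element `U = S * T = !![0, -1; 1, 1]`, of order `6` in `SL(2,ℤ)` and `3` in `PSL₂(ℤ)`. -/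
def U : SL(2, ℤ) := S * T

theorem U_eq : U = S * T := rfl

theorem coe_U : (U : Matrix (Fin 2) (Fin 2) ℤ) = !![0, -1; 1, 1] := by decide

theorem U_pow_three' : U ^ 3 = -1 := U_pow_three

theorem S_pow_two : S ^ 2 = -1 := by decide

/-- **`PSL₂(ℤ) = C₂ * C₃`, universal property.**  For `s ^ 2 = 1`, `t ^ 3 = 1` in a group `H`
there is a unique homomorphism `SL(2,ℤ) →* H` with `S ↦ s` and `U = S * T ↦ t`. -/
theorem exists_unique_hom (s t : H) (hs : s ^ 2 = 1) (ht : t ^ 3 = 1) :
    ∃! f : SL(2, ℤ) →* H, f S = s ∧ f (S * T) = t := by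
  refine ⟨homOfPair s t hs ht, ⟨homOfPair_S s t hs ht, homOfPair_U s t hs ht⟩, ?_⟩
  rintro f ⟨hfS, hfU⟩
  exact hom_ext_S_U (hfS.trans (homOfPair_S s t hs ht).symm)
    (hfU.trans (homOfPair_U s t hs ht).symm)

/-- The same statement with `U = S * T` as a named element. -/
theorem exists_unique_hom_U (s t : H) (hs : s ^ 2 = 1) (ht : t ^ 3 = 1) :
    ∃! f : SL(2, ℤ) →* H, f S = s ∧ f U = t :=
  exists_unique_hom s t hs ht

/-- Any homomorphism given by the universal property kills `-1`. -/
theorem map_neg_one_of_sq (f : SL(2, ℤ) →* H) (hs : f S ^ 2 = 1) : f (-1) = 1 := by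
  rw [← S_pow_two, map_pow, hs]

end Universal

end Fermat.Agent.S41.PD.FreeProduct
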