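/-
S41, block [PD], leaf PD-Heis, file 2: THE (TWISTED) HEISENBERG GROUP.

For a group `G` acting on a commutative ring `M` by ring automorphisms (`MulSemiringAction G M`)
the set `M × M × M × G` is a group under
`(a, b, c, g) * (a', b', c', g') = (a + g • a', b + g • b', c + g • c' + a * g • b', g * g')`.
A homomorphism `K →* HeisSemi G M` lying over `π : K →* G` is the same thing as a triple
`(Φ, Ψ, Ξ)` of maps `K → M` where `Φ`, `Ψ` are `π`-twisted cocycles and
`Ξ (k * h) = Ξ k + π k • Ξ h + Φ k * π k • Ψ h` (`δ Ξ = Φ ∪ Ψ`).  Evaluating at a ring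
homomorphism `ev : M →+* R` which is invariant under a subgroup `H ≤ K` (e.g. evaluation at a point
fixed by `H` when `M = X → R`) produces characters `lam mu` of `H` and a cup cochain `psi` in the
sense of `PD/Heis.lean`.

This is the target group for the universal property `FreeProduct.exists_unique_hom`
(existence of Heisenberg lifts): the file also contains the formulas for squares and cubes
and the solvability of `x ^ 2 = 1`, `x ^ 3 = 1` in the central coordinate when `2`, `3` are
invertible.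
-/
import Mathlib
import Fermat.Agent.S41.PD.Heis

set_option autoImplicit false
set_option linter.unusedSectionVars false

namespace Fermat.Agent.S41.PD.HeisGroup

open Fermat.Agent.S41.PD.Heis

/-- the twisted Heisenberg group `M × M × M ⋊ G` -/
@[ext] structure HeisSemi (G M : Type*) where
  /-- first character coordinate -/
  a : M
  /-- second character coordinate -/
  b : M
  /-- central coordinate -/
  c : M
  /-- the group coordinate -/
  g : G

namespace HeisSemi

variable {G M : Type*} [Group G] [CommRing M] [MulSemiringAction G M]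

instance : Mul (HeisSemi G M) :=
  ⟨fun x y => ⟨x.a + x.g • y.a, x.b + x.g • y.b, x.c + x.g • y.c + x.a * x.g • y.b, x.g * y.g⟩⟩

instance : One (HeisSemi G M) := ⟨⟨0, 0, 0, 1⟩⟩

instance : Inv (HeisSemi G M) :=
  ⟨fun x => ⟨-(x.g⁻¹ • x.a), -(x.g⁻¹ • x.b), -(x.g⁻¹ • x.c) + x.g⁻¹ • (x.a * x.b), x.g⁻¹⟩⟩

@[simp] theorem mul_a (x y : HeisSemi G M) : (x * y).a = x.a + x.g • y.a := rfl
@[simp] theorem mul_b (x y : HeisSemi G M) : (x * y).b = x.b + x.g • y.b := rfl
@[simp] theorem mul_c (x y : HeisSemi G M) :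
    (x * y).c = x.c + x.g • y.c + x.a * x.g • y.b := rfl
@[simp] theorem mul_g (x y : HeisSemi G M) : (x * y).g = x.g * y.g := rfl
@[simp] theorem one_a : (1 : HeisSemi G M).a = 0 := rfl
@[simp] theorem one_b : (1 : HeisSemi G M).b = 0 := rfl
@[simp] theorem one_c : (1 : HeisSemi G M).c = 0 := rfl
@[simp] theorem one_g : (1 : HeisSemi G M).g = 1 := rfl
@[simp] theorem inv_a (x : HeisSemi G M) : x⁻¹.a = -(x.g⁻¹ • x.a) := rfl
@[simp] theorem inv_b (x : HeisSemi G M) : x⁻¹.b = -(x.g⁻¹ • x.b) := rfl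
@[simp] theorem inv_c (x : HeisSemi G M) :
    x⁻¹.c = -(x.g⁻¹ • x.c) + x.g⁻¹ • (x.a * x.b) := rfl
@[simp] theorem inv_g (x : HeisSemi G M) : x⁻¹.g = x.g⁻¹ := rfl

instance : Group (HeisSemi G M) where
  mul_assoc x y z := by
    ext
    · simp only [mul_a, mul_g, smul_add, mul_smul]; ring
    · simp only [mul_b, mul_g, smul_add, mul_smul]; ring
    · simp only [mul_a, mul_b, mul_c, mul_g, smul_add, mul_smul, smul_mul']; ring
    · simp only [mul_g, mul_assoc]
  one_mul x := by
    ext <;> simp
  mul_one x := by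
    ext <;> simp
  inv_mul_cancel x := by
    ext
    · simp
    · simp
    · simp only [mul_c, inv_c, inv_a, inv_g, one_c, smul_mul']; ring
    · simp

/-- the projection to `G` -/
def toG : HeisSemi G M →* G where
  toFun x := x.g
  map_one' := rfl
  map_mul' _ _ := rfl

@[simp] theorem toG_apply (x : HeisSemi G M) : toG x = x.g := rfl

/-! ### squares and cubes -/

theorem sq_a (x : HeisSemi G M) : (x ^ 2).a = x.a + x.g • x.a := by rw [pow_two]; rfl
theorem sq_b (x : HeisSemi G M) : (x ^ 2).b = x.b + x.g • x.b := by rw [pow_two]; rfl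
theorem sq_c (x : HeisSemi G M) : (x ^ 2).c = x.c + x.g • x.c + x.a * x.g • x.b := by
  rw [pow_two]; rfl
theorem sq_g (x : HeisSemi G M) : (x ^ 2).g = x.g ^ 2 := by rw [pow_two, pow_two]; rfl

theorem cube_a (x : HeisSemi G M) : (x ^ 3).a = x.a + x.g • x.a + (x.g ^ 2) • x.a := by
  rw [pow_succ, mul_a, sq_a, sq_g]
theorem cube_b (x : HeisSemi G M) : (x ^ 3).b = x.b + x.g • x.b + (x.g ^ 2) • x.b := by
  rw [pow_succ, mul_b, sq_b, sq_g]
theorem cube_c (x : HeisSemi G M) :
    (x ^ 3).c = x.c + x.g • x.c + (x.g ^ 2) • x.c + x.a * x.g • x.b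
      + (x.a + x.g • x.a) * (x.g ^ 2) • x.b := by
  rw [pow_succ, mul_c, sq_c, sq_a, sq_g]; ring
theorem cube_g (x : HeisSemi G M) : (x ^ 3).g = x.g ^ 3 := by
  rw [pow_succ, mul_g, sq_g, pow_succ (x.g) 2]

theorem smul_natCast (g : G) (n : ℕ) : g • (n : M) = (n : M) := by
  induction n with
  | zero => simp
  | succ n ih => rw [Nat.cast_succ, smul_add, ih, smul_one]

/-- an inverse of `2` (or of any fixed natural number) is fixed by a ring automorphism -/
theorem smul_eq_of_mul_eq_one (g : G) (n : ℕ) {i : M} (hi : (n : M) * i = 1) : g • i = i := by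
  have h1 : (n : M) * g • i = 1 := by
    have := congrArg (fun m => g • m) hi
    simp only [smul_mul', smul_one, smul_natCast] at this
    exact this
  calc g • i = ((n : M) * i) * g • i := by rw [hi, one_mul]
    _ = i * ((n : M) * g • i) := by ring
    _ = i := by rw [h1, mul_one]

/-- **order two**: over a ring in which `2` is invertible, a pair of `g`-anti-invariant elements
`a`, `b` (`g ^ 2 = 1`) can be completed to an element of order two of the Heisenberg group. -/
theorem exists_sq_eq_one (h2 : IsUnit (2 : M)) (a b : M) (g : G) (hg : g ^ 2 = 1)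
    (ha : a + g • a = 0) (hb : b + g • b = 0) :
    ∃ c : M, (⟨a, b, c, g⟩ : HeisSemi G M) ^ 2 = 1 := by
  obtain ⟨u, hu⟩ := h2
  have hi : ((2 : ℕ) : M) * ((u⁻¹ : Mˣ) : M) = 1 := by
    rw [Nat.cast_ofNat, ← hu, Units.mul_inv]
  have hgi := smul_eq_of_mul_eq_one g 2 hi
  have hgb : g • b = -b := by linear_combination hb
  have hga : g • a = -a := by linear_combination ha
  refine ⟨((u⁻¹ : Mˣ) : M) * (a * b), ?_⟩
  ext
  · rw [sq_a]; exact ha
  · rw [sq_b]; exact hb
  · rw [sq_c]
    simp only [smul_mul', hgi, hga, hgb, one_c]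
    rw [Nat.cast_ofNat] at hi
    linear_combination (a * b) * hi
  · rw [sq_g]; exact hg

/-- **order three**: over a ring in which `3` is invertible, a pair of elements `a`, `b` of
`g`-norm zero (`g ^ 3 = 1`) can be completed to an element of order three of the Heisenberg
group. -/
theorem exists_cube_eq_one (h3 : IsUnit (3 : M)) (a b : M) (g : G) (hg : g ^ 3 = 1)
    (ha : a + g • a + (g ^ 2) • a = 0) (hb : b + g • b + (g ^ 2) • b = 0) :
    ∃ c : M, (⟨a, b, c, g⟩ : HeisSemi G M) ^ 3 = 1 := by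
  obtain ⟨u, hu⟩ := h3
  have hi : ((3 : ℕ) : M) * ((u⁻¹ : Mˣ) : M) = 1 := by
    rw [Nat.cast_ofNat, ← hu, Units.mul_inv]
  have hgi := smul_eq_of_mul_eq_one g 3 hi
  have hgi2 := smul_eq_of_mul_eq_one (g ^ 2) 3 hi
  have hg3 : ∀ m : M, g • (g ^ 2) • m = m := by
    intro m
    rw [← mul_smul, ← pow_succ', hg, one_smul]
  have hg2 : ∀ m : M, (g ^ 2) • m = g • g • m := by
    intro m
    rw [pow_two, mul_smul]
  -- `r` is the defect; it is `g`-invariant
  set r : M := -(a * g • b + (a + g • a) * (g ^ 2) • b) with hr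
  refine ⟨((u⁻¹ : Mˣ) : M) * r, ?_⟩
  have hgggb : g • g • g • b = b := by
    rw [← mul_smul, ← mul_smul, ← pow_two, ← pow_succ, hg, one_smul]
  have ha' : g • g • a = -a - g • a := by rw [← hg2]; linear_combination ha
  have hb' : g • g • b = -b - g • b := by rw [← hg2]; linear_combination hb
  have hgr : g • r = r := by
    have e1 : g • r = -(g • a * g • g • b + (g • a + g • g • a) * g • g • g • b) := by
      rw [hr]; simp only [smul_neg, smul_add, smul_mul', hg2]
    have e2 : r = -(a * g • b + (a + g • a) * g • g • b) := by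
      rw [hr, hg2]
    rw [e1, e2, hgggb, ha', hb']
    ring
  have hgr2 : (g ^ 2) • r = r := by rw [hg2, hgr, hgr]
  ext
  · rw [cube_a]; exact ha
  · rw [cube_b]; exact hb
  · rw [cube_c]
    simp only [smul_mul', hgi, hgi2, hgr, hgr2, one_c]
    rw [Nat.cast_ofNat] at hi
    linear_combination r * hi - hr
  · rw [cube_g]; exact hg

end HeisSemi

/-! ### The dictionary: homomorphisms to the Heisenberg group = twisted cup data -/

section Dictionary

variable {G M K : Type*} [Group G] [CommRing M] [MulSemiringAction G M] [Group K]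

/-- `Φ : K → M` is a cocycle twisted by `π : K →* G`. -/
def IsTwCocycle (π : K →* G) (Φ : K → M) : Prop :=
  ∀ k h : K, Φ (k * h) = Φ k + π k • Φ h

/-- twisted cup data: `Φ`, `Ψ` are `π`-twisted cocycles and `δ Ξ = Φ ∪ Ψ`. -/
structure IsTwCup (π : K →* G) (Φ Ψ Ξ : K → M) : Prop where
  left : IsTwCocycle π Φ
  right : IsTwCocycle π Ψ
  cup : ∀ k h : K, Ξ (k * h) = Ξ k + π k • Ξ h + Φ k * π k • Ψ h

theorem IsTwCocycle.map_one {π : K →* G} {Φ : K → M} (h : IsTwCocycle π Φ) : Φ 1 = 0 := by
  have h1 := h 1 1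
  rw [mul_one, _root_.map_one, one_smul] at h1
  linear_combination -h1

/-- a homomorphism to the Heisenberg group gives twisted cup data over its `G`-component -/
theorem isTwCup_of_hom (F : K →* HeisSemi G M) :
    IsTwCup (HeisSemi.toG.comp F) (fun k => (F k).a) (fun k => (F k).b) (fun k => (F k).c) where
  left k h := by
    show (F (k * h)).a = _
    rw [map_mul]; rfl
  right k h := by
    show (F (k * h)).b = _
    rw [map_mul]; rfl
  cup k h := by
    show (F (k * h)).c = _
    rw [map_mul]; rfl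

/-- twisted cup data assemble to a homomorphism to the Heisenberg group -/
def IsTwCup.toHom {π : K →* G} {Φ Ψ Ξ : K → M} (h : IsTwCup π Φ Ψ Ξ) : K →* HeisSemi G M :=
  MonoidHom.mk' (fun k => ⟨Φ k, Ψ k, Ξ k, π k⟩) (by
    intro k l
    ext
    · exact h.left k l
    · exact h.right k l
    · exact h.cup k l
    · exact map_mul π k l)

@[simp] theorem IsTwCup.toHom_apply {π : K →* G} {Φ Ψ Ξ : K → M} (h : IsTwCup π Φ Ψ Ξ) (k : K) :
    h.toHom k = ⟨Φ k, Ψ k, Ξ k, π k⟩ := rfl

/-- A `π`-twisted cocycle, evaluated through an additive map `ev : M →+ R` which is invariant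
under `π (H)`, is an additive character of the subgroup `H`. -/
def IsTwCocycle.evHom {π : K →* G} {Φ : K → M} (h : IsTwCocycle π Φ) {R : Type*} [AddCommGroup R]
    (ev : M →+ R) (H : Subgroup K) (hinv : ∀ k ∈ H, ∀ m : M, ev (π k • m) = ev m) :
    Additive ↥H →+ R :=
  AddMonoidHom.mk' (fun x => ev (Φ ((Additive.toMul x : ↥H) : K))) (by
    intro x y
    show ev (Φ (((Additive.toMul x : ↥H) : K) * ((Additive.toMul y : ↥H) : K))) = _
    rw [h, map_add, hinv _ (Additive.toMul x : ↥H).2])

@[simp] theorem IsTwCocycle.evHom_apply {π : K →* G} {Φ : K → M} (h : IsTwCocycle π Φ)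
    {R : Type*} [AddCommGroup R] (ev : M →+ R) (H : Subgroup K)
    (hinv : ∀ k ∈ H, ∀ m : M, ev (π k • m) = ev m) (k : ↥H) :
    h.evHom ev H hinv (Additive.ofMul k) = ev (Φ (k : K)) := rfl

/-- **Evaluation of twisted cup data at an invariant point is a cup cochain.**  If
`ev : M →+* R` is invariant under `π (H)` (e.g. evaluation at a point fixed by `H` when
`M = X → R`), then `k ↦ ev (Ξ k)` is a cup cochain on `H` for the characters `ev ∘ Φ`,
`ev ∘ Ψ`. -/
theorem IsTwCup.isCup_ev {π : K →* G} {Φ Ψ Ξ : K → M} (h : IsTwCup π Φ Ψ Ξ) {R : Type*}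
    [CommRing R] (ev : M →+* R) (H : Subgroup K)
    (hinv : ∀ k ∈ H, ∀ m : M, ev (π k • m) = ev m) :
    IsCup (h.left.evHom ev.toAddMonoidHom H hinv) (h.right.evHom ev.toAddMonoidHom H hinv)
      (fun k : ↥H => ev (Ξ (k : K))) := by
  intro k l
  show ev (Ξ ((k : K) * (l : K))) = ev (Ξ k) + ev (Ξ l) + ev (Φ k) * ev (Ψ l)
  rw [h.cup, map_add, map_add, map_mul, hinv _ k.2, hinv _ k.2]

end Dictionary

/-! ### The permutation model: functions on a right `G`-set -/

section Perm

/-- a right action of `G` on `X` as bare data (`perm (g * h) x = perm h (perm g x)`, the shape of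
`CosetSys₂.perm`) -/
structure RAct (G X : Type*) [Group G] where
  /-- the action -/
  perm : G → X → X
  perm_one : ∀ x : X, perm 1 x = x
  perm_mul : ∀ (g h : G) (x : X), perm (g * h) x = perm h (perm g x)

variable {G X : Type*} [Group G]

/-- the ring of `R`-valued functions on the right `G`-set `X`, with the left action
`(g • v) x = v (x g)` -/
def RAct.Fn (_A : RAct G X) (R : Type*) : Type _ := X → R

instance (A : RAct G X) (R : Type*) [CommRing R] : CommRing (A.Fn R) :=
  inferInstanceAs (CommRing (X → R))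

instance (A : RAct G X) (R : Type*) [CommRing R] : MulSemiringAction G (A.Fn R) where
  smul g v := fun x => v (A.perm g x)
  one_smul v := by
    funext x
    show v (A.perm 1 x) = v x
    rw [A.perm_one]
  mul_smul g h v := by
    funext x
    show v (A.perm (g * h) x) = v (A.perm h (A.perm g x))
    rw [A.perm_mul]
  smul_zero _ := rfl
  smul_add _ _ _ := rfl
  smul_one _ := rfl
  smul_mul _ _ _ := rfl

theorem RAct.smul_apply (A : RAct G X) {R : Type*} [CommRing R] (g : G) (v : A.Fn R) (x : X) :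
    (g • v) x = v (A.perm g x) := rfl

/-- evaluation at a point, as a ring homomorphism -/
def RAct.evAt (A : RAct G X) (R : Type*) [CommRing R] (x₀ : X) : A.Fn R →+* R :=
  Pi.evalRingHom (fun _ : X => R) x₀

@[simp] theorem RAct.evAt_apply (A : RAct G X) {R : Type*} [CommRing R] (x₀ : X) (v : A.Fn R) :
    A.evAt R x₀ v = v x₀ := rfl

theorem RAct.evAt_smul (A : RAct G X) {R : Type*} [CommRing R] {x₀ : X} {g : G}
    (hg : A.perm g x₀ = x₀) (v : A.Fn R) : A.evAt R x₀ (g • v) = A.evAt R x₀ v := by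
  show v (A.perm g x₀) = v x₀
  rw [hg]

theorem RAct.isUnit_ofNat (A : RAct G X) {R : Type*} [CommRing R] (n : ℕ) [n.AtLeastTwo]
    (h : IsUnit (OfNat.ofNat n : R)) : IsUnit (OfNat.ofNat n : A.Fn R) := by
  obtain ⟨u, hu⟩ := h
  refine ⟨⟨fun _ => (u : R), fun _ => ((u⁻¹ : Rˣ) : R), ?_, ?_⟩, ?_⟩
  · funext x
    show (u : R) * ((u⁻¹ : Rˣ) : R) = 1
    rw [Units.mul_inv]
  · funext x
    show ((u⁻¹ : Rˣ) : R) * (u : R) = 1
    rw [Units.inv_mul]
  · funext x
    show (u : R) = (OfNat.ofNat n : R)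
    exact hu

/-- **From a homomorphism to the Heisenberg group of a permutation module to a cup cochain on a
point stabiliser.**  `F : K →* HeisSemi G (X → R)`, `H ≤ K` a subgroup whose image in `G` fixes
`x₀`: then `k ↦ (F k).c x₀` is a cup cochain on `H` for the characters `k ↦ (F k).a x₀`,
`k ↦ (F k).b x₀`. -/
theorem isCup_of_hom_of_fixed (A : RAct G X) {R : Type*} [CommRing R] {K : Type*} [Group K]
    (F : K →* HeisSemi G (A.Fn R)) (H : Subgroup K) (x₀ : X)
    (hfix : ∀ k ∈ H, A.perm (F k).g x₀ = x₀) :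
    ∃ lam mu : Additive ↥H →+ R,
      (∀ k : ↥H, lam (Additive.ofMul k) = (F (k : K)).a x₀) ∧
      (∀ k : ↥H, mu (Additive.ofMul k) = (F (k : K)).b x₀) ∧
      IsCup lam mu (fun k : ↥H => (F (k : K)).c x₀) := by
  have h := isTwCup_of_hom F
  have hinv : ∀ k ∈ H, ∀ m : A.Fn R,
      (A.evAt R x₀).toAddMonoidHom ((HeisSemi.toG.comp F) k • m) =
        (A.evAt R x₀).toAddMonoidHom m := fun k hk m => A.evAt_smul (hfix k hk) m
  exact ⟨h.left.evHom _ H hinv, h.right.evHom _ H hinv, fun _ => rfl, fun _ => rfl,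
    h.isCup_ev (A.evAt R x₀) H hinv⟩

end Perm

end Fermat.Agent.S41.PD.HeisGroup
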