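/-
S41 / block [PD], part (c3) (helper1): the BRIDGE between the dessin model pairing
(`PD/Dessin.lean`, `pair v u = ⟨(σ-1)u, w_v⟩`) and the intrinsic cusp sum
`Σ_c ξ(u_c)` of a cup cochain `ξ(gh) = ξ(g) + ξ(h) + λ(g) μ(h)`.

Part 1 (Mathlib only): "cup triples" `(Φ, Ψ, Ξ)` on a group acting on a finite set,
gauge changes, and the orbit-sum theorem `sum_orbit_eq`:
`Σ_c Ξ(T^{k_c})(x_c) = Σ_x (u(σx) - u(x)) w(x)`.

Part 2: the instance for a two-group coset system `CosetSys₂` (`P3LR/A/Transfer2.lean`):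
`Φ g x := λ (coc g x)`, `Ξ g x := ξ (coc g x)`, and the final statement for `SL(2,ℤ)`,
`s = S`, `t = S⁻¹ T`, `s t = T`, with the model pairing of `PD/Dessin.lean`. The sign is PLUS.
-/
import Mathlib
import Fermat.Agent.S41.PD.Dessin
import Fermat.Agent.S41.PD.Heis
import Fermat.Agent.S41.PD.HeisGroup
import Fermat.Agent.S41.PD.FreeProduct
import Fermat.Agent.S41.PD.ShapiroGen
import Fermat.Agent.P3LR.A.Transfer2

set_option autoImplicit false
set_option linter.unusedSectionVars false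
set_option linter.unusedVariables false
set_option linter.style.haveILetI false

open Finset BigOperators

namespace Fermat.Agent.S41.PD.Intrinsic

/-! ### Part 1: cup triples on a finite `G`-set -/

section Abstract

variable {G : Type*} [Group G] {X : Type*} {R : Type*} [CommRing R]

/-- a right action `x ↦ x·g` given as a function `p g x` -/
structure IsAct (p : G → X → X) : Prop where
  one : ∀ x, p 1 x = x
  mul : ∀ g h x, p (g * h) x = p h (p g x)

/-- cocycles `Φ(gh)(x) = Φ(g)(x) + Φ(h)(x·g)` -/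
def IsCoc (p : G → X → X) (Φ : G → X → R) : Prop :=
  ∀ g h x, Φ (g * h) x = Φ g x + Φ h (p g x)

/-- cup triples: `Ξ(gh)(x) = Ξ(g)(x) + Ξ(h)(x·g) + Φ(g)(x) Ψ(h)(x·g)` -/
def IsCupT (p : G → X → X) (Φ Ψ Ξ : G → X → R) : Prop :=
  ∀ g h x, Ξ (g * h) x = Ξ g x + Ξ h (p g x) + Φ g x * Ψ h (p g x)

variable {p : G → X → X}

namespace IsAct

variable (hp : IsAct p)
include hp

/-- the permutation `x ↦ x·g` -/
def equiv (g : G) : Equiv.Perm X where
  toFun := p g
  invFun := p g⁻¹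
  left_inv x := by rw [← hp.mul, mul_inv_cancel, hp.one]
  right_inv x := by rw [← hp.mul, inv_mul_cancel, hp.one]

@[simp] theorem equiv_apply (g : G) (x : X) : hp.equiv g x = p g x := rfl

theorem sum_comp [Fintype X] (g : G) (f : X → R) : ∑ x, f (p g x) = ∑ x, f x :=
  Equiv.sum_comp (hp.equiv g) f

theorem pow_succ_apply (T : G) (j : ℕ) (x : X) : p (T ^ (j + 1)) x = p T (p (T ^ j) x) := by
  rw [pow_succ, hp.mul]

end IsAct

theorem IsCoc.map_one (hp : IsAct p) {Φ : G → X → R} (hΦ : IsCoc p Φ) (x : X) : Φ 1 x = 0 := by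
  have h := hΦ 1 1 x
  rw [mul_one, hp.one] at h
  exact left_eq_add.mp h

/-- first gauge change: `(Φ - δρ, Ψ, Ξ + ρ·Ψ)` -/
theorem IsCupT.gauge_left {Φ Ψ Ξ : G → X → R} (hΨ : IsCoc p Ψ) (hΞ : IsCupT p Φ Ψ Ξ)
    (ρ : X → R) :
    IsCupT p (fun g x => Φ g x - (ρ (p g x) - ρ x)) Ψ (fun g x => Ξ g x + ρ x * Ψ g x) := by
  intro g h x
  simp only
  rw [hΞ g h x, hΨ g h x]
  ring

/-- second gauge change: `(Φ, Ψ - δρ', Ξ - Φ(g)·(g·ρ'))` -/
theorem IsCupT.gauge_right (hp : IsAct p) {Φ Ψ Ξ : G → X → R} (hΦ : IsCoc p Φ)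
    (hΞ : IsCupT p Φ Ψ Ξ) (ρ' : X → R) :
    IsCupT p Φ (fun g x => Ψ g x - (ρ' (p g x) - ρ' x))
      (fun g x => Ξ g x - Φ g x * ρ' (p g x)) := by
  intro g h x
  simp only
  rw [hΞ g h x, hΦ g h x, hp.mul g h x]
  ring

theorem IsCoc.sub_cob (hp : IsAct p) {Φ : G → X → R} (hΦ : IsCoc p Φ) (ρ : X → R) :
    IsCoc p (fun g x => Φ g x - (ρ (p g x) - ρ x)) := by
  intro g h x
  simp only
  rw [hΦ g h x, hp.mul g h x]
  ring

/-- a cocycle which is a coboundary at `T` is the same coboundary on all powers of `T` -/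
theorem IsCoc.pow_eq (hp : IsAct p) {Φ : G → X → R} (hΦ : IsCoc p Φ) (T : G) (m : X → R)
    (hT : ∀ x, Φ T x = m (p T x) - m x) (j : ℕ) (x : X) :
    Φ (T ^ j) x = m (p (T ^ j) x) - m x := by
  induction j with
  | zero => rw [pow_zero, hΦ.map_one hp, hp.one, sub_self]
  | succ j ih =>
    rw [pow_succ, hΦ, ih, hT, hp.mul]
    ring

/-- if `Φ T = 0` there are no cross terms on the powers of `T` -/
theorem IsCupT.pow_eq_sum (hp : IsAct p) {Φ Ψ Ξ : G → X → R} (hΦ : IsCoc p Φ)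
    (hΞ : IsCupT p Φ Ψ Ξ) (T : G) (hT : ∀ x, Φ T x = 0) (hΞ1 : ∀ x, Ξ 1 x = 0) (k : ℕ) (x : X) :
    Ξ (T ^ k) x = ∑ j ∈ range k, Ξ T (p (T ^ j) x) := by
  have hΦ0 : ∀ j x, Φ (T ^ j) x = 0 := by
    intro j x
    have := hΦ.pow_eq hp T (fun _ => 0) (by intro x; rw [hT, sub_self]) j x
    rw [this, sub_self]
  induction k with
  | zero => rw [pow_zero, hΞ1, Finset.sum_range_zero]
  | succ k ih =>
    rw [pow_succ, hΞ, ih, hΦ0, zero_mul, add_zero, Finset.sum_range_succ]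

theorem IsCupT.map_one (hp : IsAct p) {Φ Ψ Ξ : G → X → R} (hΦ : IsCoc p Φ)
    (hΞ : IsCupT p Φ Ψ Ξ) (x : X) : Ξ 1 x = 0 := by
  have h := hΞ 1 1 x
  rw [mul_one, hp.one, hΦ.map_one hp, zero_mul, add_zero] at h
  exact left_eq_add.mp h

/-- **Orbit sums without cross terms.** If `Φ T = δm (T)` then
`Ξ(T^k)(x) + m(x) Ψ(T^k)(x) = Σ_{j<k} (Ξ(T) + m Ψ(T))(x·T^j)`. -/
theorem IsCupT.pow_add_eq_sum (hp : IsAct p) {Φ Ψ Ξ : G → X → R} (hΦ : IsCoc p Φ)
    (hΨ : IsCoc p Ψ) (hΞ : IsCupT p Φ Ψ Ξ) (T : G) (m : X → R)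
    (hT : ∀ x, Φ T x = m (p T x) - m x) (k : ℕ) (x : X) :
    Ξ (T ^ k) x + m x * Ψ (T ^ k) x
      = ∑ j ∈ range k, (Ξ T (p (T ^ j) x) + m (p (T ^ j) x) * Ψ T (p (T ^ j) x)) := by
  have h1 := hΞ.gauge_left hΨ m
  have h2 := hΦ.sub_cob hp m
  have h3 := h1.pow_eq_sum hp h2 T
    (by intro x; show Φ T x - (m (p T x) - m x) = 0; rw [hT, sub_self])
    (fun x => h1.map_one hp h2 x) k x
  exact h3

section Main

variable [Fintype X]

/-- **The normalised computation.** For a cup triple with `Φ s = 0`, `Φ t = (τ-1)v`,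
`Ψ t = (τ-1)u`, where `s²` and `t³` act trivially and `Ξ(s²) = Ξ(t³) = 0`:
`Σ_x Ξ(st)(x) = -⟨v, (τ-1)u⟩`. -/
theorem IsCupT.sum_st_normalized (hp : IsAct p) {Φ Ψ Ξ : G → X → R} (hΦ : IsCoc p Φ)
    (hΞ : IsCupT p Φ Ψ Ξ) (s t : G)
    (httt : ∀ x, p (t * t * t) x = x)
    (hΞss : ∀ x, Ξ (s * s) x = 0) (hΞttt : ∀ x, Ξ (t * t * t) x = 0)
    (v u : X → R)
    (hΦs : ∀ x, Φ s x = 0) (hΦt : ∀ x, Φ t x = v (p t x) - v x)
    (hΨt : ∀ x, Ψ t x = u (p t x) - u x)
    (h2 : ∀ r : R, 2 * r = 0 → r = 0) (h3 : ∀ r : R, 3 * r = 0 → r = 0) :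
    ∑ x, Ξ (s * t) x = - ∑ x, v x * (u (p t x) - u x) := by
  have e : ∀ f : X → R, ∑ x, f (p t x) = ∑ x, f x := hp.sum_comp t
  have e2 : ∀ f : X → R, ∑ x, f (p t (p t x)) = ∑ x, f x := fun f => by
    rw [e (fun y => f (p t y)), e f]
  -- `Σ Ξ(s) = 0`
  have hs0 : ∑ x, Ξ s x = 0 := by
    apply h2
    have h1 : ∀ x, Ξ s x + Ξ s (p s x) = 0 := by
      intro x
      have h := hΞ s s x
      rw [hΞss, hΦs, zero_mul, add_zero] at h
      exact h.symm
    have h' : ∑ x, (Ξ s x + Ξ s (p s x)) = 0 := Finset.sum_eq_zero (fun x _ => h1 x)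
    rw [Finset.sum_add_distrib, hp.sum_comp s (fun y => Ξ s y)] at h'
    rw [two_mul]; exact h'
  have hpt3 : ∀ x, p t (p t (p t x)) = x := by
    intro x
    rw [← hp.mul, ← hp.mul, ← mul_assoc]
    exact httt x
  -- `Σ Ξ(t) = ⟨v,u⟩ - ⟨v,τu⟩`
  have ht0 : ∑ x, Ξ t x = ∑ x, v x * u x - ∑ x, v x * u (p t x) := by
    have key : ∀ x, Ξ t x + Ξ t (p t x) + Ξ t (p t (p t x))
        + (v (p t x) * u (p t (p t x)) - v (p t x) * u (p t x) - v x * u (p t (p t x))
            + v x * u (p t x))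
        + (v (p t (p t x)) * u x - v (p t (p t x)) * u (p t (p t x)) - v x * u x
            + v x * u (p t (p t x))) = 0 := by
      intro x
      have h1 := hΞ (t * t) t x
      have h2' := hΞ t t x
      have h3' := hΦ t t x
      rw [hΞttt, h2', h3', hp.mul t t x, hΦt, hΦt, hΨt, hΨt, hpt3] at h1
      linear_combination -h1
    have hsum := Finset.sum_eq_zero (s := Finset.univ) (fun x _ => key x)
    have a1 : ∑ x, Ξ t (p t x) = ∑ x, Ξ t x := e (fun y => Ξ t y)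
    have a2 : ∑ x, Ξ t (p t (p t x)) = ∑ x, Ξ t x := e2 (fun y => Ξ t y)
    have b1 : ∑ x, v (p t x) * u (p t (p t x)) = ∑ x, v x * u (p t x) :=
      e (fun y => v y * u (p t y))
    have b2 : ∑ x, v (p t x) * u (p t x) = ∑ x, v x * u x := e (fun y => v y * u y)
    have b5 : ∑ x, v (p t (p t x)) * u x = ∑ x, v x * u (p t x) := by
      rw [← e2 (fun y => v y * u (p t y))]
      refine Finset.sum_congr rfl fun x _ => ?_
      rw [hpt3]
    have b6 : ∑ x, v (p t (p t x)) * u (p t (p t x)) = ∑ x, v x * u x :=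
      e2 (fun y => v y * u y)
    have hsum' : ∑ x, Ξ t x + ∑ x, Ξ t (p t x) + ∑ x, Ξ t (p t (p t x))
        + (∑ x, v (p t x) * u (p t (p t x)) - ∑ x, v (p t x) * u (p t x)
            - ∑ x, v x * u (p t (p t x)) + ∑ x, v x * u (p t x))
        + (∑ x, v (p t (p t x)) * u x - ∑ x, v (p t (p t x)) * u (p t (p t x))
            - ∑ x, v x * u x + ∑ x, v x * u (p t (p t x))) = 0 := by
      rw [← hsum]
      simp only [Finset.sum_add_distrib, Finset.sum_sub_distrib]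
    rw [a1, a2, b1, b2, b5, b6] at hsum'
    have : 3 * (∑ x, Ξ t x - (∑ x, v x * u x - ∑ x, v x * u (p t x))) = 0 := by
      linear_combination hsum'
    exact sub_eq_zero.mp (h3 _ this)
  have hst : ∀ x, Ξ (s * t) x = Ξ s x + Ξ t (p s x) := by
    intro x
    rw [hΞ s t x, hΦs, zero_mul, add_zero]
  rw [Finset.sum_congr rfl (fun x _ => hst x), Finset.sum_add_distrib, hs0, zero_add,
    hp.sum_comp s (fun y => Ξ t y), ht0]
  simp only [mul_sub, Finset.sum_sub_distrib]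
  ring

/-- **The orbit-sum theorem** (general gauge).  `s²`, `t³` act trivially and `Φ, Ψ, Ξ` vanish on
them; `Φ s = δρ(s)`, `Φ t = δ(v+ρ)(t)`, `Ψ s = δρ'(s)`, `Ψ t = δ(u+ρ')(t)`; `v`, `u` are parabolic
with witnesses `w`, `w'` (`(τ-1)v = (τσ-1)w`); `x_c`, `k_c` are orbit representatives and
widths for `T = s t`.  Then `Σ_c Ξ(T^{k_c})(x_c) = Σ_x (u(σx) - u(x)) w(x)`. -/
theorem IsCupT.sum_orbit_eq (hp : IsAct p) {Φ Ψ Ξ : G → X → R} (hΦ : IsCoc p Φ) (hΨ : IsCoc p Ψ)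
    (hΞ : IsCupT p Φ Ψ Ξ) (s t : G)
    (hss : ∀ x, p (s * s) x = x) (hΦss : ∀ x, Φ (s * s) x = 0) (hΨss : ∀ x, Ψ (s * s) x = 0)
    (hΞss : ∀ x, Ξ (s * s) x = 0)
    (httt : ∀ x, p (t * t * t) x = x) (hΦttt : ∀ x, Φ (t * t * t) x = 0)
    (hΨttt : ∀ x, Ψ (t * t * t) x = 0) (hΞttt : ∀ x, Ξ (t * t * t) x = 0)
    (v u ρ ρ' w w' : X → R)
    (hΦs : ∀ x, Φ s x = ρ (p s x) - ρ x)
    (hΦt : ∀ x, Φ t x = (v (p t x) + ρ (p t x)) - (v x + ρ x))
    (hΨs : ∀ x, Ψ s x = ρ' (p s x) - ρ' x)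
    (hΨt : ∀ x, Ψ t x = (u (p t x) + ρ' (p t x)) - (u x + ρ' x))
    (hv : ∀ x, v (p t x) - v x = w (p s (p t x)) - w x)
    (hu : ∀ x, u (p t x) - u x = w' (p s (p t x)) - w' x)
    {C : Type*} [Fintype C] (xc : C → X) (kc : C → ℕ)
    (hper : ∀ c, p ((s * t) ^ kc c) (xc c) = xc c)
    (hbij : Function.Bijective (fun q : Σ c, Fin (kc c) => p ((s * t) ^ (q.2 : ℕ)) (xc q.1)))
    (h2 : ∀ r : R, 2 * r = 0 → r = 0) (h3 : ∀ r : R, 3 * r = 0 → r = 0) :
    ∑ c, Ξ ((s * t) ^ kc c) (xc c) = ∑ x, (u (p s x) - u x) * w x := by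
  -- the normalised triple
  set Φ₁ : G → X → R := fun g x => Φ g x - (ρ (p g x) - ρ x) with hΦ₁
  set Ξ₁ : G → X → R := fun g x => Ξ g x + ρ x * Ψ g x with hΞ₁
  set Ψ₁ : G → X → R := fun g x => Ψ g x - (ρ' (p g x) - ρ' x) with hΨ₁
  set Ξ₂ : G → X → R := fun g x => Ξ₁ g x - Φ₁ g x * ρ' (p g x) with hΞ₂
  have cΦ₁ : IsCoc p Φ₁ := hΦ.sub_cob hp ρ
  have cΨ₁ : IsCoc p Ψ₁ := hΨ.sub_cob hp ρ'
  have cΞ₁ : IsCupT p Φ₁ Ψ Ξ₁ := hΞ.gauge_left hΨ ρ
  have cΞ₂ : IsCupT p Φ₁ Ψ₁ Ξ₂ := cΞ₁.gauge_right hp cΦ₁ ρ'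
  have nΦs : ∀ x, Φ₁ s x = 0 := fun x => by
    show Φ s x - (ρ (p s x) - ρ x) = 0
    rw [hΦs, sub_self]
  have nΦt : ∀ x, Φ₁ t x = v (p t x) - v x := fun x => by
    show Φ t x - (ρ (p t x) - ρ x) = _
    rw [hΦt]; ring
  have nΨs : ∀ x, Ψ₁ s x = 0 := fun x => by
    show Ψ s x - (ρ' (p s x) - ρ' x) = 0
    rw [hΨs, sub_self]
  have nΨt : ∀ x, Ψ₁ t x = u (p t x) - u x := fun x => by
    show Ψ t x - (ρ' (p t x) - ρ' x) = _
    rw [hΨt]; ring
  have nΞss : ∀ x, Ξ₂ (s * s) x = 0 := fun x => by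
    show Ξ (s * s) x + ρ x * Ψ (s * s) x
      - (Φ (s * s) x - (ρ (p (s * s) x) - ρ x)) * ρ' (p (s * s) x) = 0
    rw [hΞss, hΨss, hΦss, hss]; ring
  have nΞttt : ∀ x, Ξ₂ (t * t * t) x = 0 := fun x => by
    show Ξ (t * t * t) x + ρ x * Ψ (t * t * t) x
      - (Φ (t * t * t) x - (ρ (p (t * t * t) x) - ρ x)) * ρ' (p (t * t * t) x) = 0
    rw [hΞttt, hΨttt, hΦttt, httt]; ring
  set T : G := s * t with hT
  set m : X → R := fun x => w (p s x) with hm
  set m' : X → R := fun x => w' (p s x) with hm'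
  -- `Φ₁ T = δm (T)`, `Ψ₁ T = δm' (T)`
  have hΦT : ∀ x, Φ₁ T x = m (p T x) - m x := fun x => by
    rw [hT, cΦ₁ s t x, nΦs, nΦt, zero_add, hv, hp.mul s t x]
  have hΨT : ∀ x, Ψ₁ T x = m' (p T x) - m' x := fun x => by
    rw [hT, cΨ₁ s t x, nΨs, nΨt, zero_add, hu, hp.mul s t x]
  -- values at the periodic points
  have hper' : ∀ c, Ξ ((s * t) ^ kc c) (xc c)
      = Ξ₂ (T ^ kc c) (xc c) + m (xc c) * Ψ₁ (T ^ kc c) (xc c) := by
    intro c
    have e1 : Φ₁ (T ^ kc c) (xc c) = 0 := by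
      rw [cΦ₁.pow_eq hp T m hΦT, hper c, sub_self]
    have e2 : Ψ₁ (T ^ kc c) (xc c) = 0 := by
      rw [cΨ₁.pow_eq hp T m' hΨT, hper c, sub_self]
    have e3 : Ψ (T ^ kc c) (xc c) = 0 := by
      have : Ψ₁ (T ^ kc c) (xc c) = Ψ (T ^ kc c) (xc c)
          - (ρ' (p (T ^ kc c) (xc c)) - ρ' (xc c)) := rfl
      rw [e2, hper c, sub_self, sub_zero] at this
      exact this.symm
    have e4 : Ξ₂ (T ^ kc c) (xc c) = Ξ (T ^ kc c) (xc c) + ρ (xc c) * Ψ (T ^ kc c) (xc c)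
        - Φ₁ (T ^ kc c) (xc c) * ρ' (p (T ^ kc c) (xc c)) := rfl
    rw [e4, e1, e2, e3]; ring
  have hsumA : ∀ c, Ξ₂ (T ^ kc c) (xc c) + m (xc c) * Ψ₁ (T ^ kc c) (xc c)
      = ∑ j : Fin (kc c), (fun y => Ξ₂ T y + m y * Ψ₁ T y) (p (T ^ (j : ℕ)) (xc c)) := by
    intro c
    rw [cΞ₂.pow_add_eq_sum hp cΦ₁ cΨ₁ T m hΦT (kc c) (xc c)]
    exact (Fin.sum_univ_eq_sum_range
      (fun j => Ξ₂ T (p (T ^ j) (xc c)) + m (p (T ^ j) (xc c)) * Ψ₁ T (p (T ^ j) (xc c)))
      (kc c)).symm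
  have hdecomp : ∑ c, ∑ j : Fin (kc c), (fun y => Ξ₂ T y + m y * Ψ₁ T y) (p (T ^ (j : ℕ)) (xc c))
      = ∑ x, (Ξ₂ T x + m x * Ψ₁ T x) := by
    rw [← Fintype.sum_sigma' (fun c (j : Fin (kc c)) =>
      (fun y => Ξ₂ T y + m y * Ψ₁ T y) (p (T ^ (j : ℕ)) (xc c)))]
    exact hbij.sum_comp (fun y => Ξ₂ T y + m y * Ψ₁ T y)
  rw [Finset.sum_congr rfl (fun c _ => (hper' c).trans (hsumA c)), hdecomp,
    Finset.sum_add_distrib]
  -- the normalised computation
  have hN := cΞ₂.sum_st_normalized hp cΦ₁ s t httt nΞss nΞttt v u nΦs nΦt nΨt h2 h3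
  rw [hN]
  -- `Σ m Ψ₁(T) = ⟨w, (τ-1)u⟩`
  have hΨT' : ∀ x, m x * Ψ₁ T x = (fun y => w y * (u (p t y) - u y)) (p s x) := fun x => by
    show w (p s x) * Ψ₁ T x = w (p s x) * (u (p t (p s x)) - u (p s x))
    rw [hT, cΨ₁ s t x, nΨs, nΨt, zero_add]
  rw [Finset.sum_congr rfl (fun x _ => hΨT' x), hp.sum_comp s (fun y => w y * (u (p t y) - u y))]
  -- final identity
  have hpss : ∀ x, p s (p s x) = x := fun x => by rw [← hp.mul]; exact hss x
  have f1 : ∑ x, (w x - v x) * u (p t x) = ∑ x, (w (p s x) - v x) * u x := by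
    rw [← hp.sum_comp t (fun y => (w (p s y) - v y) * u y)]
    refine Finset.sum_congr rfl fun x _ => ?_
    have := hv x
    have e : w x - v x = w (p s (p t x)) - v (p t x) := by linear_combination this
    rw [e]
  have f2 : ∑ x, w (p s x) * u x = ∑ x, w x * u (p s x) := by
    rw [← hp.sum_comp s (fun y => w (p s y) * u y)]
    refine Finset.sum_congr rfl fun x _ => ?_
    rw [hpss]
  have g1 : ∑ x, (w x - v x) * u (p t x) = ∑ x, w x * u (p t x) - ∑ x, v x * u (p t x) := by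
    rw [← Finset.sum_sub_distrib]
    exact Finset.sum_congr rfl fun x _ => by ring
  have g2 : ∑ x, (w (p s x) - v x) * u x = ∑ x, w (p s x) * u x - ∑ x, v x * u x := by
    rw [← Finset.sum_sub_distrib]
    exact Finset.sum_congr rfl fun x _ => by ring
  rw [g1, g2, f2] at f1
  simp only [mul_sub, sub_mul, Finset.sum_sub_distrib]
  have f3 : ∑ x, u (p s x) * w x = ∑ x, w x * u (p s x) :=
    Finset.sum_congr rfl fun x _ => mul_comm _ _
  have f4 : ∑ x, u x * w x = ∑ x, w x * u x := Finset.sum_congr rfl fun x _ => mul_comm _ _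
  rw [f3, f4]
  linear_combination f1

end Main

end Abstract

/-! ### Part 2: coset systems -/

section CosetSys

open Fermat.Agent.P3LR.A.Transfer2 Fermat.Agent.S41.PD.ShapiroGen Fermat.Agent.S41.PD.Heis
open Fermat.Agent.S41.PD.Dessin

variable {G Gam Del : Type*} [Group G] [Group Gam] [Group Del]
  {jΓ : Gam →* G} {jΔ : Del →* G} {X : Type*} {R : Type*} [CommRing R]

theorem isAct_perm (S : CosetSys₂ jΓ jΔ X) : IsAct S.perm := ⟨S.perm_one, S.perm_mul⟩

theorem isCoc_sh (S : CosetSys₂ jΓ jΔ X) (lam : Additive Del →+ R) :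
    IsCoc S.perm (sh S lam) := by
  intro g h x
  rw [sh_apply, S.coc_mul, ofMul_mul, map_add]
  rfl

theorem isCupT_sh (S : CosetSys₂ jΓ jΔ X) {lam mu : Additive Del →+ R} {xi : Del → R}
    (hxi : IsCup lam mu xi) :
    IsCupT S.perm (sh S lam) (sh S mu) (fun g x => xi (S.coc g x)) := by
  intro g h x
  show xi (S.coc (g * h) x) = _
  rw [S.coc_mul, hxi]
  rfl

/-- characters and cup cochains vanish on involutions (if `2` is a non-zero-divisor) -/
theorem char_eq_zero_of_sq (h2 : ∀ r : R, 2 * r = 0 → r = 0) (lam : Additive Del →+ R) (z : Del)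
    (hz : z * z = 1) : lam (Additive.ofMul z) = 0 := by
  apply h2
  have h := congrArg (fun d => lam (Additive.ofMul d)) hz
  simp only [ofMul_mul, map_add, ofMul_one, map_zero] at h
  rw [two_mul]; exact h

theorem cup_eq_zero_of_sq (h2 : ∀ r : R, 2 * r = 0 → r = 0) {lam mu : Additive Del →+ R}
    {xi : Del → R} (hxi : IsCup lam mu xi) (z : Del) (hz : z * z = 1) : xi z = 0 := by
  apply h2
  have h := hxi z z
  rw [hz, hxi.map_one, char_eq_zero_of_sq h2 lam z hz, zero_mul, add_zero] at h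
  rw [two_mul]; exact h.symm

/-- **The bridge for a coset system** (abstract generators `s`, `t`). -/
theorem cuspSum_eq_of_cosetSys [Fintype X] (S : CosetSys₂ jΓ jΔ X)
    (h2 : ∀ r : R, 2 * r = 0 → r = 0) (h3 : ∀ r : R, 3 * r = 0 → r = 0)
    {lam mu : Additive Del →+ R} {xi : Del → R} (hxi : IsCup lam mu xi) (s t : Gam)
    (hss : ∀ x, S.perm (s * s) x = x) (zs : Del) (hzs : zs * zs = 1)
    (hcs : ∀ x, S.coc (s * s) x = zs)
    (httt : ∀ x, S.perm (t * t * t) x = x) (zt : Del) (hzt : zt * zt = 1)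
    (hct : ∀ x, S.coc (t * t * t) x = zt)
    (v u ρ ρ' w w' : X → R)
    (hls : sh S lam s = cob S ρ s) (hlt : sh S lam t = cob S (v + ρ) t)
    (hms : sh S mu s = cob S ρ' s) (hmt : sh S mu t = cob S (u + ρ') t)
    (hv : ∀ x, v (S.perm t x) - v x = w (S.perm s (S.perm t x)) - w x)
    (hu : ∀ x, u (S.perm t x) - u x = w' (S.perm s (S.perm t x)) - w' x)
    {C : Type*} [Fintype C] (xc : C → X) (kc : C → ℕ)
    (hper : ∀ c, S.perm ((s * t) ^ kc c) (xc c) = xc c)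
    (hbij : Function.Bijective
      (fun q : Σ c, Fin (kc c) => S.perm ((s * t) ^ (q.2 : ℕ)) (xc q.1))) :
    ∑ c, xi (S.coc ((s * t) ^ kc c) (xc c)) = ∑ x, (u (S.perm s x) - u x) * w x := by
  have hp := isAct_perm S
  refine (isCupT_sh S hxi).sum_orbit_eq hp (isCoc_sh S lam) (isCoc_sh S mu) s t hss
    (fun x => ?_) (fun x => ?_) (fun x => ?_) httt (fun x => ?_) (fun x => ?_) (fun x => ?_)
    v u ρ ρ' w w' (fun x => ?_) (fun x => ?_) (fun x => ?_) (fun x => ?_) hv hu xc kc hper hbij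
    h2 h3
  · rw [sh_apply, hcs]; exact char_eq_zero_of_sq h2 lam zs hzs
  · rw [sh_apply, hcs]; exact char_eq_zero_of_sq h2 mu zs hzs
  · show xi (S.coc (s * s) x) = 0
    rw [hcs]; exact cup_eq_zero_of_sq h2 hxi zs hzs
  · rw [sh_apply, hct]; exact char_eq_zero_of_sq h2 lam zt hzt
  · rw [sh_apply, hct]; exact char_eq_zero_of_sq h2 mu zt hzt
  · show xi (S.coc (t * t * t) x) = 0
    rw [hct]; exact cup_eq_zero_of_sq h2 hxi zt hzt
  · rw [hls]; rfl
  · rw [hlt]; rfl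
  · rw [hms]; rfl
  · rw [hmt]; rfl

end CosetSys

/-! ### Part 3: `SL(2,ℤ)` and the dessin pairing -/

section SL2

open Fermat.Agent.P3LR.A.Transfer2 Fermat.Agent.S41.PD.ShapiroGen Fermat.Agent.S41.PD.Heis
open Fermat.Agent.S41.PD.Dessin
open scoped MatrixGroups

variable {G Del : Type*} [Group G] [Group Del]
  {jΓ : SL(2, ℤ) →* G} {jΔ : Del →* G} {X : Type*} {R : Type*} [CommRing R]

/-- the element `τ = S⁻¹ T` of order three -/
def tauSL : SL(2, ℤ) := ModularGroup.S⁻¹ * ModularGroup.T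

theorem S_mul_tauSL : ModularGroup.S * tauSL = ModularGroup.T := mul_inv_cancel_left _ _

theorem tauSL_cube : tauSL * tauSL * tauSL = 1 := by decide

theorem S_mul_S : ModularGroup.S * ModularGroup.S = -1 := by decide

/-- **The bridge**: for a full coset system of `Γ ≤ SL(2,ℤ)` (containing `-1`), parabolic
representatives `v`, `u` of the Shapiro classes of the characters `lam`, `mu`, EVERY cup cochain
`xi` of `(lam, mu)` and EVERY system of `T`-orbit representatives, the cusp sum of `xi` is the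
dessin pairing `pair v u`. -/
theorem cuspSum_eq_pair [Fintype X] [DecidableEq X] (S : CosetSys₂ jΓ jΔ X)
    {f : Del →* SL(2, ℤ)} {t : X → SL(2, ℤ)} {i₀ : X} (H : IsFull S f t i₀)
    (d₀ : Del) (hd₀ : f d₀ = -1)
    (h2 : ∀ r : R, 2 * r = 0 → r = 0) (h3 : ∀ r : R, 3 * r = 0 → r = 0)
    {lam mu : Additive Del →+ R} {xi : Del → R} (hxi : IsCup lam mu xi)
    (v u : Npar (S.permEquiv ModularGroup.S) (S.permEquiv tauSL))
    (ρ ρ' : X → R)
    (hls : sh S lam ModularGroup.S = cob S ρ ModularGroup.S)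
    (hlt : sh S lam tauSL = cob S ((fun x => (((v : X → ℤ) x : ℤ) : R)) + ρ) tauSL)
    (hms : sh S mu ModularGroup.S = cob S ρ' ModularGroup.S)
    (hmt : sh S mu tauSL = cob S ((fun x => (((u : X → ℤ) x : ℤ) : R)) + ρ') tauSL)
    {C : Type*} [Fintype C] (xc : C → X) (kc : C → ℕ)
    (hper : ∀ c, S.perm (ModularGroup.T ^ kc c) (xc c) = xc c)
    (hbij : Function.Bijective
      (fun q : Σ c, Fin (kc c) => S.perm (ModularGroup.T ^ (q.2 : ℕ)) (xc q.1))) :
    ∑ c, xi (S.coc (ModularGroup.T ^ kc c) (xc c)) = ((pair v u : ℤ) : R) := by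
  have hneg : ∀ x, t x * (-1 : SL(2, ℤ)) * (t x)⁻¹ = -1 := by
    intro x
    have : t x * (-1 : SL(2, ℤ)) = -1 * t x := by
      rw [mul_neg, mul_one, neg_mul, one_mul]
    rw [this, mul_inv_cancel_right]
  have hss : ∀ x, S.perm (ModularGroup.S * ModularGroup.S) x = x := fun x => by
    rw [S_mul_S]
    exact H.perm_eq_of_conj (d := d₀) (by rw [hd₀, hneg])
  have hcs : ∀ x, S.coc (ModularGroup.S * ModularGroup.S) x = d₀ := fun x => by
    rw [S_mul_S]
    exact H.coc_eq_of_conj (H.perm_eq_of_conj (d := d₀) (by rw [hd₀, hneg])) (by rw [hd₀, hneg])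
  have hd₀2 : d₀ * d₀ = 1 := by
    apply H.f_injective
    rw [map_mul, hd₀, map_one, neg_mul_neg, one_mul]
  have httt : ∀ x, S.perm (tauSL * tauSL * tauSL) x = x := fun x => by
    rw [tauSL_cube, S.perm_one]
  have hct : ∀ x, S.coc (tauSL * tauSL * tauSL) x = 1 := fun x => by
    rw [tauSL_cube, S.coc_one]
  have hw : ∀ (z : Npar (S.permEquiv ModularGroup.S) (S.permEquiv tauSL)) (x : X),
      (fun x => (((z : X → ℤ) x : ℤ) : R)) (S.perm tauSL x) - (fun x => (((z : X → ℤ) x : ℤ) : R)) x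
        = (fun x => ((wit z x : ℤ) : R)) (S.perm ModularGroup.S (S.perm tauSL x))
          - (fun x => ((wit z x : ℤ) : R)) x := by
    intro z x
    have h := congrFun (wit_spec z) x
    simp only [dS_apply, Pi.sub_apply, op_apply, CosetSys₂.permEquiv_apply] at h
    simp only
    rw [← Int.cast_sub, ← Int.cast_sub, h]
  have key := cuspSum_eq_of_cosetSys S h2 h3 hxi ModularGroup.S tauSL hss d₀ hd₀2 hcs httt 1
    (one_mul 1) hct (fun x => (((v : X → ℤ) x : ℤ) : R)) (fun x => (((u : X → ℤ) x : ℤ) : R))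
    ρ ρ' (fun x => ((wit v x : ℤ) : R)) (fun x => ((wit u x : ℤ) : R)) hls hlt hms hmt
    (hw v) (hw u) xc kc (by rw [S_mul_tauSL]; exact hper) (by rw [S_mul_tauSL]; exact hbij)
  rw [S_mul_tauSL] at key
  rw [key]
  unfold pair
  simp only [dotProduct, dS_apply, Pi.sub_apply, op_apply, CosetSys₂.permEquiv_apply]
  push_cast
  rfl

end SL2

/-! ### Part 4: existence of cup cochains (Heisenberg lift through `PSL₂(ℤ) = C₂ * C₃`) -/

section Existence

open Fermat.Agent.P3LR.A.Transfer2 Fermat.Agent.S41.PD.ShapiroGen Fermat.Agent.S41.PD.Heis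
open Fermat.Agent.S41.PD.HeisGroup
open scoped MatrixGroups

variable {G Del : Type*} [Group G] [Group Del]
  {jΓ : SL(2, ℤ) →* G} {jΔ : Del →* G} {X : Type*} {R : Type*} [CommRing R]

/-- the tautological right action of `(Perm X)ᵐᵒᵖ` on `X` -/
def permRAct (X : Type*) : RAct (Equiv.Perm X)ᵐᵒᵖ X where
  perm g x := g.unop x
  perm_one _ := rfl
  perm_mul _ _ _ := rfl

/-- a function on `X`, seen in the function ring of `permRAct X` -/
def toFn (v : X → R) : (permRAct X).Fn R := v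

/-- `k ↦ op (permEquiv k)`, a homomorphism `SL(2,ℤ) →* (Perm X)ᵐᵒᵖ` -/
def piHom (S : CosetSys₂ jΓ jΔ X) : SL(2, ℤ) →* (Equiv.Perm X)ᵐᵒᵖ where
  toFun k := MulOpposite.op (S.permEquiv k)
  map_one' := by rw [permEquiv_one]; rfl
  map_mul' k l := by rw [permEquiv_mul, MulOpposite.op_mul]

theorem piHom_smul (S : CosetSys₂ jΓ jΔ X) (k : SL(2, ℤ)) (v : X → R) :
    piHom S k • (toFn v : (permRAct X).Fn R) = toFn (act S k v) := rfl

theorem toFn_add (v w : X → R) : (toFn (v + w) : (permRAct X).Fn R) = toFn v + toFn w := rfl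

theorem toFn_neg (v : X → R) : (toFn (-v) : (permRAct X).Fn R) = -toFn v := rfl

theorem toFn_zero : (toFn (0 : X → R) : (permRAct X).Fn R) = 0 := rfl

/-- **Existence of cup cochains** for a full coset system of `Γ ≤ SL(2,ℤ)` containing `-1`, over
a ring in which `2` and `3` are invertible. -/
theorem exists_isCup (S : CosetSys₂ jΓ jΔ X)
    {f : Del →* SL(2, ℤ)} {t : X → SL(2, ℤ)} {i₀ : X} (H : IsFull S f t i₀)
    (d₀ : Del) (hd₀ : f d₀ = -1) (h2 : IsUnit (2 : R)) (h3 : IsUnit (3 : R))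
    (lam mu : Additive Del →+ R) : ∃ xi : Del → R, IsCup lam mu xi := by
  have h2' : ∀ r : R, 2 * r = 0 → r = 0 := fun r hr => (h2.mul_right_eq_zero).mp hr
  -- `-1` acts trivially and its cocycle value is `d₀`
  have hneg : ∀ x, t x * (-1 : SL(2, ℤ)) * (t x)⁻¹ = -1 := by
    intro x
    have : t x * (-1 : SL(2, ℤ)) = -1 * t x := by
      rw [mul_neg, mul_one, neg_mul, one_mul]
    rw [this, mul_inv_cancel_right]
  have hp1 : ∀ x, S.perm (-1) x = x := fun x =>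
    H.perm_eq_of_conj (d := d₀) (by rw [hd₀, hneg])
  have hc1 : ∀ x, S.coc (-1) x = d₀ := fun x =>
    H.coc_eq_of_conj (hp1 x) (by rw [hd₀, hneg])
  have hd₀2 : d₀ * d₀ = 1 := by
    apply H.f_injective
    rw [map_mul, hd₀, map_one, neg_mul_neg, one_mul]
  have hsh1 : ∀ chi : Additive Del →+ R, sh S chi (-1) = 0 := by
    intro chi
    funext x
    rw [sh_apply, hc1]
    exact char_eq_zero_of_sq h2' chi d₀ hd₀2
  have hpi1 : piHom S (-1) = 1 := by
    show MulOpposite.op (S.permEquiv (-1)) = 1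
    have : S.permEquiv (-1) = 1 := Equiv.ext fun x => hp1 x
    rw [this]; rfl
  -- the element of order two
  have hgS : (piHom S ModularGroup.S) ^ 2 = 1 := by
    rw [← map_pow, FreeProduct.S_pow_two, hpi1]
  have haS : ∀ chi : Additive Del →+ R,
      (toFn (sh S chi ModularGroup.S) : (permRAct X).Fn R)
        + piHom S ModularGroup.S • toFn (sh S chi ModularGroup.S) = 0 := by
    intro chi
    rw [piHom_smul, ← toFn_add, ← sh_mul, FreeProduct.S_mul_S, hsh1]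
    rfl
  obtain ⟨cS, hcS⟩ := HeisSemi.exists_sq_eq_one ((permRAct X).isUnit_ofNat 2 h2)
    (toFn (sh S lam ModularGroup.S)) (toFn (sh S mu ModularGroup.S))
    (piHom S ModularGroup.S) hgS (haS lam) (haS mu)
  -- the element of order three
  have hgU : (piHom S (ModularGroup.S * ModularGroup.T)) ^ 3 = 1 := by
    rw [← map_pow, FreeProduct.U_pow_three, hpi1]
  have haU : ∀ chi : Additive Del →+ R,
      (toFn (sh S chi (ModularGroup.S * ModularGroup.T)) : (permRAct X).Fn R)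
        + piHom S (ModularGroup.S * ModularGroup.T) •
            toFn (sh S chi (ModularGroup.S * ModularGroup.T))
        + (piHom S (ModularGroup.S * ModularGroup.T)) ^ 2 •
            toFn (sh S chi (ModularGroup.S * ModularGroup.T)) = 0 := by
    intro chi
    rw [← map_pow, piHom_smul, piHom_smul, ← toFn_add, ← toFn_add]
    have h := (isCocycle_sh S chi).map_pow (ModularGroup.S * ModularGroup.T) 3
    rw [FreeProduct.U_pow_three, hsh1, Finset.sum_range_succ, Finset.sum_range_succ,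
      Finset.sum_range_one, pow_zero, act_one, pow_one] at h
    rw [← h]
    rfl
  obtain ⟨cU, hcU⟩ := HeisSemi.exists_cube_eq_one ((permRAct X).isUnit_ofNat 3 h3)
    (toFn (sh S lam (ModularGroup.S * ModularGroup.T)))
    (toFn (sh S mu (ModularGroup.S * ModularGroup.T)))
    (piHom S (ModularGroup.S * ModularGroup.T)) hgU (haU lam) (haU mu)
  -- the Heisenberg lift
  obtain ⟨F, ⟨hFS, hFU⟩, -⟩ := FreeProduct.exists_unique_hom _ _ hcS hcU
  -- its first two coordinates are the Shapiro cocycles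
  have hP : ∀ k : SL(2, ℤ), (F k).a = toFn (sh S lam k) ∧ (F k).b = toFn (sh S mu k)
      ∧ (F k).g = piHom S k := by
    let E : Subgroup SL(2, ℤ) :=
      { carrier := {k | (F k).a = toFn (sh S lam k) ∧ (F k).b = toFn (sh S mu k)
          ∧ (F k).g = piHom S k}
        one_mem' := by
          refine ⟨?_, ?_, ?_⟩
          · rw [map_one, (isCocycle_sh S lam).map_one]; rfl
          · rw [map_one, (isCocycle_sh S mu).map_one]; rfl
          · rw [map_one, map_one]; rfl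
        mul_mem' := by
          rintro k l ⟨hk1, hk2, hk3⟩ ⟨hl1, hl2, hl3⟩
          refine ⟨?_, ?_, ?_⟩
          · rw [map_mul, HeisSemi.mul_a, hk1, hk3, hl1, piHom_smul, sh_mul, toFn_add]
          · rw [map_mul, HeisSemi.mul_b, hk2, hk3, hl2, piHom_smul, sh_mul, toFn_add]
          · rw [map_mul, HeisSemi.mul_g, hk3, hl3, map_mul]
        inv_mem' := by
          rintro k ⟨hk1, hk2, hk3⟩
          refine ⟨?_, ?_, ?_⟩
          · rw [map_inv, HeisSemi.inv_a, hk1, hk3, ← map_inv, piHom_smul,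
              (isCocycle_sh S lam).map_inv, toFn_neg]
          · rw [map_inv, HeisSemi.inv_b, hk2, hk3, ← map_inv, piHom_smul,
              (isCocycle_sh S mu).map_inv, toFn_neg]
          · rw [map_inv, HeisSemi.inv_g, hk3, map_inv] }
    have hS : ModularGroup.S ∈ E := by
      show (F ModularGroup.S).a = _ ∧ (F ModularGroup.S).b = _ ∧ (F ModularGroup.S).g = _
      rw [hFS]; exact ⟨rfl, rfl, rfl⟩
    have hU : ModularGroup.S * ModularGroup.T ∈ E := by
      show (F (ModularGroup.S * ModularGroup.T)).a = _ ∧ (F (ModularGroup.S * ModularGroup.T)).b = _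
        ∧ (F (ModularGroup.S * ModularGroup.T)).g = _
      rw [hFU]; exact ⟨rfl, rfl, rfl⟩
    have hT : ModularGroup.T ∈ E := by
      have : ModularGroup.T = ModularGroup.S⁻¹ * (ModularGroup.S * ModularGroup.T) := by group
      rw [this]
      exact E.mul_mem (E.inv_mem hS) hU
    have hE : E = ⊤ := by
      rw [eq_top_iff, ← _root_.SpecialLinearGroup.SL2Z_generators, Subgroup.closure_le]
      rintro x (rfl | rfl)
      · exact hS
      · exact hT
    intro k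
    have : k ∈ E := by rw [hE]; exact Subgroup.mem_top k
    exact this
  -- evaluation at the base point
  refine ⟨fun d => (F (f d)).c i₀, ?_⟩
  intro d d'
  show (F (f (d * d'))).c i₀ = (F (f d)).c i₀ + (F (f d')).c i₀ + _
  rw [map_mul, map_mul, HeisSemi.mul_c]
  obtain ⟨h1, -, h3'⟩ := hP (f d)
  obtain ⟨-, h2'', -⟩ := hP (f d')
  rw [h1, h2'', h3']
  show (F (f d)).c i₀ + (F (f d')).c (S.perm (f d) i₀)
      + (sh S lam (f d) i₀) * (sh S mu (f d') (S.perm (f d) i₀)) = _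
  rw [H.perm_f, H.sh_apply_base, H.sh_apply_base]

end Existence

end Fermat.Agent.S41.PD.Intrinsic
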