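/-
S41, block [PD] (helper15): THE ATKIN–LEHNER ISOMETRY (W) OF THE POINCARÉ PAIRING, reduced to
the bridge.

If a pairing `B` on `Hom(Γ₀(Nq), ℤ)` is computed, on parabolic classes, by the intrinsic cusp sum
(`IsCuspPairing (primSet Γ₀(Nq)) φ_ℚ ψ_ℚ (B φ ψ)`: SOME cup cochain of `(φ, ψ)` over `ℚ` has cusp
sum `B φ ψ` over SOME cusp system — this is the bridge `PD/Intrinsic`), then `B` is invariant under
the Atkin–Lehner operator `wAdd N q hqN = (· ∘ wConj)`:
`B (w φ) (w ψ) = B φ ψ`.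

Inputs: `CuspAdapters.cuspPairing_conj` / `cuspPairing_unique` (invariance of positive primitive
parabolic classes under `GL₂⁺(ℚ)`, transfer vanishing) and helper21's `wEquiv`, `wMat`,
`wMat_mul_coe`, `det_wMat_pos` (`P3LR/A/AtkinLehnerEta`).
-/
import Mathlib
import Fermat.Agent.S41.PD.CuspAdapters
import Fermat.Agent.P3LR.A.AtkinLehnerEta

set_option autoImplicit false

open scoped MatrixGroups

namespace Fermat.Agent.S41.PD.WIsometry

open Matrix Matrix.SpecialLinearGroup ModularGroup CongruenceSubgroup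
open Fermat.Agent.S41.PD.CuspSystem Fermat.Agent.S41.PD.Heis Fermat.Agent.S41.PD.Conj
open Fermat.Agent.S41.PD.CuspAdapters
open Fermat.Agent.N4F.Tors.HeckeHom
open Fermat.Agent.P3LR.A.AtkinLehnerSys Fermat.Agent.P3LR.A.AtkinLehnerAdd
open Fermat.Agent.P3LR.A.AtkinLehnerEta

/-- the rationalisation of an integral character -/
def ratHom {G : Type*} [Group G] (φ : Additive G →+ ℤ) : Additive G →+ ℚ :=
  (Int.castAddHom ℚ).comp φ

@[simp] theorem ratHom_apply {G : Type*} [Group G] (φ : Additive G →+ ℤ) (g : Additive G) :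
    ratHom φ g = ((φ g : ℤ) : ℚ) := rfl

/-- a parabolic character vanishes on the peripheral set -/
theorem ratHom_vanishes {M : ℕ} {φ : Additive ↥(Gamma0 M) →+ ℤ} (hφ : φ ∈ parHomAdd M ℤ) :
    ∀ u ∈ primSet (Gamma0 M), ratHom φ (Additive.ofMul u) = 0 := by
  intro u hu
  have h1 : IsPosPar (u : SL(2, ℤ)) := hu.1
  have h2 : φ (Additive.ofMul u) = 0 := hφ u (Or.inl h1.trace_sq)
  simp [h2]

theorem neg_one_mem_Gamma0 (M : ℕ) : (-1 : SL(2, ℤ)) ∈ Gamma0 M := by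
  rw [Gamma0_mem]
  simp

variable (N q : ℕ) [hq : Fact q.Prime] (hqN : ¬ q ∣ N)

/-- the Atkin–Lehner conjugation identifies the peripheral set of `Γ₀(Nq)` with itself -/
theorem wEquiv_mem_primSet_iff (u : ↥(Gamma0 (N * q))) :
    wEquiv N q hqN u ∈ primSet (Gamma0 (N * q)) ↔ u ∈ primSet (Gamma0 (N * q)) :=
  primSet_conj_iff (wEquiv N q hqN) (wMat N q hqN) (det_wMat_pos N q hqN)
    (fun δ => wMat_mul_coe N q hqN δ) u

/-- **(W): the Atkin–Lehner isometry**, for any pairing computed by the intrinsic cusp sum. -/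
theorem w_invariant_of_bridge [NeZero N]
    (B : (Additive ↥(Gamma0 (N * q)) →+ ℤ) → (Additive ↥(Gamma0 (N * q)) →+ ℤ) → ℤ)
    (hB : ∀ φ ψ : Additive ↥(Gamma0 (N * q)) →+ ℤ, φ ∈ parHomAdd (N * q) ℤ →
      ψ ∈ parHomAdd (N * q) ℤ →
      IsCuspPairing (primSet (Gamma0 (N * q))) (ratHom φ) (ratHom ψ) ((B φ ψ : ℤ) : ℚ))
    (φ ψ : Additive ↥(Gamma0 (N * q)) →+ ℤ) (hφ : φ ∈ parHomAdd (N * q) ℤ)
    (hψ : ψ ∈ parHomAdd (N * q) ℤ) :
    B (wAdd N q hqN φ) (wAdd N q hqN ψ) = B φ ψ := by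
  haveI : NeZero (N * q) := ⟨mul_ne_zero (NeZero.ne N) hq.out.ne_zero⟩
  have h1 := hB φ ψ hφ hψ
  have h2 := cuspPairing_conj (wEquiv N q hqN) (wMat N q hqN) (det_wMat_pos N q hqN)
    (fun δ => wMat_mul_coe N q hqN δ) h1
  have hφ' := wAdd_mem_parHomAdd N q hqN hφ
  have hψ' := wAdd_mem_parHomAdd N q hqN hψ
  have h3 := hB _ _ hφ' hψ'
  have e1 : (ratHom φ).comp (MonoidHom.toAdditive (wEquiv N q hqN).toMonoidHom) =
      ratHom (wAdd N q hqN φ) := rfl
  have e2 : (ratHom ψ).comp (MonoidHom.toAdditive (wEquiv N q hqN).toMonoidHom) =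
      ratHom (wAdd N q hqN ψ) := rfl
  rw [e1, e2] at h2
  have := cuspPairing_unique (neg_one_mem_Gamma0 (N * q)) h3 h2 (ratHom_vanishes hφ')
    (ratHom_vanishes hψ')
  exact_mod_cast this

end Fermat.Agent.S41.PD.WIsometry
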