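/-
S41 / block [PD], part (c3b) (helper1): ADAPTERS for the bridge `PD/Intrinsic.lean`.

* `exists_gauge_of_isRep` : helper11's `Adjoint.IsRep S sg tg φ v` gives the cocycle normal form
  `sh φ sg = δρ(sg)`, `sh φ tg = δ(v + ρ)(tg)` consumed by `Intrinsic.cuspSum_eq_pair`;
* `isCuspPairing_pair` : for the level-`M` Shapiro system `SM M` (helper29), characters `φ ψ` of
  `Γ₀(M)` with parabolic representatives `v u`:
  `IsCuspPairing (primSet Γ₀(M)) φ_ℚ ψ_ℚ (pair v u)` — the hypothesis `hB` of helper15's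
  `WIsometry.w_invariant_of_bridge`;
* `pair_eq_intrinsic` : `(pair v u : ℚ) = CuspSystem.intrinsic Γ₀(M) φ_ℚ ψ_ℚ`;
* `pair_wAdd` : **(W)** the Atkin–Lehner isometry of the dessin pairing, in the form asked by the
  Package: representatives of `wAdd φ`, `wAdd ψ` pair like representatives of `φ`, `ψ`.
-/
import Mathlib
import Fermat.Agent.S41.PD.Intrinsic
import Fermat.Agent.S41.PD.Adjoint
import Fermat.Agent.S41.PD.ShapiroLevel
import Fermat.Agent.S41.PD.OrbitReps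
import Fermat.Agent.S41.PD.CuspAdapters
import Fermat.Agent.S41.PD.WIsometry

set_option autoImplicit false
set_option linter.unusedSectionVars false
set_option linter.unusedVariables false
set_option linter.style.haveILetI false

open scoped MatrixGroups

namespace Fermat.Agent.S41.PD.IntrinsicGlue

open Matrix Matrix.SpecialLinearGroup ModularGroup CongruenceSubgroup
open Fermat.Agent.P3LR.A.Transfer2 Fermat.Agent.S41.PD.ShapiroGen Fermat.Agent.S41.PD.Heis
open Fermat.Agent.S41.PD.Dessin Fermat.Agent.S41.PD.Adjoint Fermat.Agent.S41.PD.ShapiroLevel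
open Fermat.Agent.S41.PD.Conj Fermat.Agent.S41.PD.CuspAdapters Fermat.Agent.S41.PD.CuspSystem
open Fermat.Agent.S41.PD.WIsometry Fermat.Agent.S41.PD.Intrinsic
open Fermat.Agent.N4F.Tors.HeckeHom
open Fermat.Agent.P3LR.A.AtkinLehnerSys Fermat.Agent.P3LR.A.AtkinLehnerAdd
open Fermat.Agent.P3LR.A.AtkinLehnerEta

/-! ### From `IsRep` to the cocycle normal form -/

section Gauge'

variable {G₀ G Gam : Type*} [Group G₀] [Group G] [Group Gam] {jG : G →* G₀} {jΓ : Gam →* G₀}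
  {X : Type*} [Fintype X] [DecidableEq X]

/-- `IsRep` in cocycle form: `sh φ sg = δρ(sg)` and `sh φ tg = δ(v + ρ)(tg)`. -/
theorem exists_gauge_of_isRep (S : CosetSys₂ jG jΓ X) (sg tg : G) (φ : Additive Gam →+ ℤ)
    (v : X → ℤ) (h : IsRep S sg tg φ v) :
    ∃ ρ : X → ℤ, sh S φ sg = cob S ρ sg ∧ sh S φ tg = cob S (v + ρ) tg := by
  obtain ⟨y, y', hy, hy', hW⟩ := h
  obtain ⟨a, b, ha, hb, hab⟩ := (mem_W _ _).1 hW
  refine ⟨y' - a, ?_, ?_⟩
  · funext x
    have h1 := congrFun hy' x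
    have h2 := congrFun ha x
    simp only [Pi.sub_apply, op_apply, shp_apply, CosetSys₂.permEquiv_apply] at h1 h2
    rw [sh_apply, cob_apply, Pi.sub_apply, Pi.sub_apply, ← h1, h2]
    ring
  · funext x
    have h1 := congrFun hy x
    have h2 := congrFun hb x
    have h3 := congrFun hab x
    have h4 := congrFun hab (S.perm tg x)
    simp only [Pi.sub_apply, Pi.add_apply, op_apply, shp_apply, CosetSys₂.permEquiv_apply]
      at h1 h2 h3 h4
    rw [sh_apply, cob_apply, Pi.add_apply, Pi.add_apply, Pi.sub_apply, Pi.sub_apply, ← h1]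
    linarith

/-- the same after extension of scalars to `ℚ` -/
theorem exists_gauge_rat (S : CosetSys₂ jG jΓ X) (sg tg : G) (φ : Additive Gam →+ ℤ)
    (v : X → ℤ) (h : IsRep S sg tg φ v) :
    ∃ ρ : X → ℚ, sh S (ratHom φ) sg = cob S ρ sg ∧
      sh S (ratHom φ) tg = cob S ((fun x => ((v x : ℤ) : ℚ)) + ρ) tg := by
  obtain ⟨ρ, h1, h2⟩ := exists_gauge_of_isRep S sg tg φ v h
  refine ⟨fun x => ((ρ x : ℤ) : ℚ), ?_, ?_⟩
  · funext x
    have := congrFun h1 x
    simp only [sh_apply, cob_apply] at this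
    simp only [sh_apply, cob_apply, ratHom_apply]
    rw [this]; push_cast; ring
  · funext x
    have := congrFun h2 x
    simp only [sh_apply, cob_apply, Pi.add_apply] at this
    simp only [sh_apply, cob_apply, ratHom_apply, Pi.add_apply]
    rw [this]; push_cast; ring

end Gauge'

/-! ### The level-`M` statements -/

section Level

variable (M : ℕ) [NeZero M]

theorem two_ne : ∀ r : ℚ, 2 * r = 0 → r = 0 := fun r h => by linarith

theorem three_ne : ∀ r : ℚ, 3 * r = 0 → r = 0 := fun r h => by linarith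

/-- `tg` of `ShapiroLevel` is `tauSL` of `Intrinsic` -/
theorem tg_eq_tauSL : ShapiroLevel.tg = tauSL := rfl

/-- **The bridge at level `M`, for every cup cochain and every `T`-orbit system.** -/
theorem cuspSum_eq_pair_level (φ ψ : Additive ↥(Gamma0 M) →+ ℤ)
    (v u : Npar (sigmaM M) (tauM M))
    (hv : IsRep (SM M) sg tg φ v) (hu : IsRep (SM M) sg tg ψ u)
    {xi : ↥(Gamma0 M) → ℚ} (hxi : IsCup (ratHom φ) (ratHom ψ) xi)
    {C : Type*} [Fintype C] (xc : C → XM M) (kc : C → ℕ)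
    (hper : ∀ c, (SM M).perm (T ^ kc c) (xc c) = xc c)
    (hbij : Function.Bijective
      (fun q : Σ c, Fin (kc c) => (SM M).perm (T ^ (q.2 : ℕ)) (xc q.1))) :
    ∑ c, xi ((SM M).coc (T ^ kc c) (xc c)) = ((pair v u : ℤ) : ℚ) := by
  obtain ⟨ρ, h1, h2⟩ := exists_gauge_rat (SM M) sg tg φ v hv
  obtain ⟨ρ', h1', h2'⟩ := exists_gauge_rat (SM M) sg tg ψ u hu
  exact cuspSum_eq_pair (SM M) (SM_isFull M) ⟨-1, ShapiroLevel.neg_one_mem_Gamma0 M⟩ rfl two_ne three_ne hxi
    v u ρ ρ' h1 h2 h1' h2' xc kc hper hbij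

/-- existence of a `ℚ`-valued cup cochain at level `M` -/
theorem exists_isCup_level (φ ψ : Additive ↥(Gamma0 M) →+ ℤ) :
    ∃ xi : ↥(Gamma0 M) → ℚ, IsCup (ratHom φ) (ratHom ψ) xi :=
  exists_isCup (SM M) (SM_isFull M) ⟨-1, ShapiroLevel.neg_one_mem_Gamma0 M⟩ rfl
    (isUnit_iff_ne_zero.mpr (by norm_num)) (isUnit_iff_ne_zero.mpr (by norm_num)) _ _

/-- `T`-orbit data on `XM M` -/
theorem exists_cusp_data :
    ∃ (C : Type) (_ : Fintype C) (xc : C → XM M) (kc : C → ℕ), (∀ c, 0 < kc c) ∧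
      (∀ c, (SM M).perm (T ^ kc c) (xc c) = xc c) ∧
      Function.Bijective (fun q : Σ c, Fin (kc c) => (SM M).perm (T ^ (q.2 : ℕ)) (xc q.1)) := by
  obtain ⟨C, hC, xc, kc, hk, hper, hbij⟩ :=
    OrbitReps.exists_orbit_reps ((SM M).permEquiv T)
  refine ⟨C, hC, xc, kc, hk, fun c => ?_, ?_⟩
  · rw [(SM M).perm_pow]; exact hper c
  · have : (fun q : Σ c, Fin (kc c) => (SM M).perm (T ^ (q.2 : ℕ)) (xc q.1))
        = (fun q : Σ c, Fin (kc c) => (((SM M).permEquiv T) ^ (q.2 : ℕ)) (xc q.1)) := by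
      funext q; rw [(SM M).perm_pow]
    rw [this]; exact hbij

/-- **The dessin pairing is the intrinsic cusp pairing** (`IsCuspPairing` form = the hypothesis
`hB` of `WIsometry.w_invariant_of_bridge`). -/
theorem isCuspPairing_pair (φ ψ : Additive ↥(Gamma0 M) →+ ℤ)
    (v u : Npar (sigmaM M) (tauM M))
    (hv : IsRep (SM M) sg tg φ v) (hu : IsRep (SM M) sg tg ψ u) :
    IsCuspPairing (primSet (Gamma0 M)) (ratHom φ) (ratHom ψ) ((pair v u : ℤ) : ℚ) := by
  obtain ⟨xi, hxi⟩ := exists_isCup_level M φ ψ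
  obtain ⟨C, hC, xc, kc, hk, hper, hbij⟩ := exists_cusp_data M
  haveI : Nonempty (XM M) := ⟨rmk (Gamma0 M) 1⟩
  have hreps : IsClassReps (primSet (Gamma0 M)) (fun c => (SM M).coc (T ^ kc c) (xc c)) :=
    isClassReps_of_cosetSys (Γ := Gamma0 M) (j := mapGL ℝ) (SM M) (repOf (Gamma0 M)) xc kc
      (mapGL_injective (R := ℤ) (S := ℝ)) (SM_isInj M) (fun x => SM_rep M x)
      (ShapiroLevel.neg_one_mem_Gamma0 M) hk hper hbij
  exact ⟨xi, C, hC, fun c => (SM M).coc (T ^ kc c) (xc c), hxi, hreps,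
    cuspSum_eq_pair_level M φ ψ v u hv hu hxi xc kc hper hbij⟩

/-- **The dessin pairing is the intrinsic pairing** of `PD/CuspSystem.lean`. -/
theorem pair_eq_intrinsic (φ ψ : Additive ↥(Gamma0 M) →+ ℤ) (hφ : φ ∈ parHomAdd M ℤ)
    (hψ : ψ ∈ parHomAdd M ℤ) (v u : Npar (sigmaM M) (tauM M))
    (hv : IsRep (SM M) sg tg φ v) (hu : IsRep (SM M) sg tg ψ u) :
    ((pair v u : ℤ) : ℚ) = CuspSystem.intrinsic (Gamma0 M) (ratHom φ) (ratHom ψ) := by
  obtain ⟨xi, hxi⟩ := exists_isCup_level M φ ψ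
  obtain ⟨C, hC, xc, kc, hk, hper, hbij⟩ := exists_cusp_data M
  haveI : Nonempty (XM M) := ⟨rmk (Gamma0 M) 1⟩
  have hsys : IsCuspSystem (Gamma0 M) (fun c => (SM M).coc (T ^ kc c) (xc c)) :=
    isCuspSystem_of_cosetSys (Γ := Gamma0 M) (j := mapGL ℝ) (SM M) (repOf (Gamma0 M)) xc kc
      (mapGL_injective (R := ℤ) (S := ℝ)) (SM_isInj M) (fun x => SM_rep M x)
      (ShapiroLevel.neg_one_mem_Gamma0 M) hk hper hbij
  have hvan : ∀ χ : Additive ↥(Gamma0 M) →+ ℤ, χ ∈ parHomAdd M ℤ →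
      VanishesOnPar (ratHom χ) := by
    intro χ hχ w hw
    have h2 : χ (Additive.ofMul w) = 0 := hχ w (Or.inl hw.trace_sq)
    simp [h2]
  rw [intrinsic_eq (ShapiroLevel.neg_one_mem_Gamma0 M) (hvan φ hφ) (hvan ψ hψ) hsys hxi]
  exact (cuspSum_eq_pair_level M φ ψ v u hv hu hxi xc kc hper hbij).symm

end Level

/-! ### (W): the Atkin–Lehner isometry -/

section W

/-- **(W): the Atkin–Lehner isometry of the dessin pairing**: representatives of `w φ`, `w ψ`
pair like representatives of `φ`, `ψ`. -/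
theorem pair_wAdd (N q : ℕ) [NeZero N] [hq : Fact q.Prime] (hqN : ¬ q ∣ N) [NeZero (N * q)]
    (φ ψ : Additive ↥(Gamma0 (N * q)) →+ ℤ) (hφ : φ ∈ parHomAdd (N * q) ℤ)
    (hψ : ψ ∈ parHomAdd (N * q) ℤ)
    (v u v' u' : Npar (sigmaM (N * q)) (tauM (N * q)))
    (hv : IsRep (SM (N * q)) sg tg φ v) (hu : IsRep (SM (N * q)) sg tg ψ u)
    (hv' : IsRep (SM (N * q)) sg tg (wAdd N q hqN φ) v')
    (hu' : IsRep (SM (N * q)) sg tg (wAdd N q hqN ψ) u') :
    pair v' u' = pair v u := by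
  have h1 := isCuspPairing_pair (N * q) φ ψ v u hv hu
  have h2 := cuspPairing_conj (wEquiv N q hqN) (wMat N q hqN) (det_wMat_pos N q hqN)
    (fun δ => wMat_mul_coe N q hqN δ) h1
  have hφ' := wAdd_mem_parHomAdd N q hqN hφ
  have hψ' := wAdd_mem_parHomAdd N q hqN hψ
  have h3 := isCuspPairing_pair (N * q) _ _ v' u' hv' hu'
  have e1 : (ratHom φ).comp (MonoidHom.toAdditive (wEquiv N q hqN).toMonoidHom) =
      ratHom (wAdd N q hqN φ) := rfl
  have e2 : (ratHom ψ).comp (MonoidHom.toAdditive (wEquiv N q hqN).toMonoidHom) =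
      ratHom (wAdd N q hqN ψ) := rfl
  rw [e1, e2] at h2
  have := cuspPairing_unique (WIsometry.neg_one_mem_Gamma0 (N * q)) h3 h2 (ratHom_vanishes hφ')
    (ratHom_vanishes hψ')
  exact_mod_cast this

end W

end Fermat.Agent.S41.PD.IntrinsicGlue
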