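/-
S41 / block [PD] (helper11): **the relational Shapiro map `Θ` in the dessin model** — Shapiro's
lemma in the `IsRep` language of `PD/Adjoint.lean`, for the canonical system `SM M` of
`Γ₀(M) ≤ SL₂(ℤ)` (`PD/ShapiroLevel.lean`).

Generic part (any generators `sg`, `tg` of `SL₂(ℤ)` with `sg² = ±1`, `tg³ = ±1`):
* `IsRep.zero/add/neg/sub/zsmul` : the relation `IsRep` is additive;
* `isDessin_SM`      : `IsDessin (permEquiv sg) (permEquiv tg)`;
* `exists_isRep`     : every `φ : Γ₀(M) → ℤ` has a representative (`Θ φ` exists);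
* `IsRep.eq_zero_of_mem_W` : `Θ` is injective.

Specific part (`sg = S`, `tg = S⁻¹ T`), through the free-product presentation of `PSL₂(ℤ)`
(`PD/FreeProduct.lean`):
* `exists_hom_isRep` : every `v : XM M → ℤ` represents some `φ` (`Θ` is onto).
-/
import Mathlib
import Fermat.Agent.S41.PD.AdjointGamma0
import Fermat.Agent.S41.PD.ShapiroLevel
import Fermat.Agent.S41.PD.FreeProduct

set_option autoImplicit false

open scoped MatrixGroups
open Matrix

namespace Fermat.Agent.S41.PD.ThetaRep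

open Matrix.SpecialLinearGroup CongruenceSubgroup
open Fermat.Agent.N4F.Tors.HeckeHom
open Fermat.Agent.P3LR.A.Transfer2
open Fermat.Agent.S41.PD.Dessin Fermat.Agent.S41.PD.Adjoint Fermat.Agent.S41.PD.AdjointGamma0
open Fermat.Agent.S41.PD.ShapiroGen (RightCosets repOf rmk IsFull sh isCocycle_sh IsCocycle act cob)
open Fermat.Agent.S41.PD.ShapiroLevel (XM SM SM_isFull neg_one_mem_Gamma0 SM_perm_neg_one)

/-! ### `IsRep` is an additive relation -/

section Additive

variable {Amb G Gam : Type*} [Group Amb] [Group G] [Group Gam]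
variable {jG : G →* Amb} {jΓ : Gam →* Amb} {X : Type*}
variable {S : CosetSys₂ jG jΓ X} {sg tg : G}

theorem shp_add (S : CosetSys₂ jG jΓ X) (φ₁ φ₂ : Additive Gam →+ ℤ) (g : G) :
    shp S (φ₁ + φ₂) g = shp S φ₁ g + shp S φ₂ g := rfl

theorem shp_neg (S : CosetSys₂ jG jΓ X) (φ : Additive Gam →+ ℤ) (g : G) :
    shp S (-φ) g = - shp S φ g := rfl

theorem shp_zero (S : CosetSys₂ jG jΓ X) (g : G) : shp S (0 : Additive Gam →+ ℤ) g = 0 := rfl

theorem IsRep.zero : IsRep S sg tg (0 : Additive Gam →+ ℤ) 0 :=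
  ⟨0, 0, by rw [map_zero, sub_zero, shp_zero], by rw [map_zero, sub_zero, shp_zero],
    by simp⟩

theorem IsRep.add {φ₁ φ₂ : Additive Gam →+ ℤ} {v₁ v₂ : X → ℤ} (h₁ : IsRep S sg tg φ₁ v₁)
    (h₂ : IsRep S sg tg φ₂ v₂) : IsRep S sg tg (φ₁ + φ₂) (v₁ + v₂) := by
  obtain ⟨y₁, y₁', hy₁, hy₁', hw₁⟩ := h₁
  obtain ⟨y₂, y₂', hy₂, hy₂', hw₂⟩ := h₂
  refine ⟨y₁ + y₂, y₁' + y₂', ?_, ?_, ?_⟩
  · rw [map_add, shp_add, ← hy₁, ← hy₂]; abel
  · rw [map_add, shp_add, ← hy₁', ← hy₂']; abel
  · have e : v₁ + v₂ - (y₁ + y₂ - (y₁' + y₂')) = (v₁ - (y₁ - y₁')) + (v₂ - (y₂ - y₂')) := by abel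
    rw [e]
    exact Submodule.add_mem _ hw₁ hw₂

theorem IsRep.neg {φ : Additive Gam →+ ℤ} {v : X → ℤ} (h : IsRep S sg tg φ v) :
    IsRep S sg tg (-φ) (-v) := by
  obtain ⟨y, y', hy, hy', hw⟩ := h
  refine ⟨-y, -y', ?_, ?_, ?_⟩
  · rw [map_neg, shp_neg, ← hy]; abel
  · rw [map_neg, shp_neg, ← hy']; abel
  · have e : -v - (-y - -y') = -(v - (y - y')) := by abel
    rw [e]
    exact Submodule.neg_mem _ hw

theorem IsRep.sub {φ₁ φ₂ : Additive Gam →+ ℤ} {v₁ v₂ : X → ℤ} (h₁ : IsRep S sg tg φ₁ v₁)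
    (h₂ : IsRep S sg tg φ₂ v₂) : IsRep S sg tg (φ₁ - φ₂) (v₁ - v₂) := by
  rw [sub_eq_add_neg, sub_eq_add_neg]
  exact IsRep.add h₁ (IsRep.neg h₂)

theorem IsRep.nsmul {φ : Additive Gam →+ ℤ} {v : X → ℤ} (h : IsRep S sg tg φ v) (n : ℕ) :
    IsRep S sg tg (n • φ) (n • v) := by
  induction n with
  | zero => rw [zero_smul, zero_smul]; exact IsRep.zero
  | succ n ih => rw [succ_nsmul, succ_nsmul]; exact IsRep.add ih h

theorem IsRep.zsmul {φ : Additive Gam →+ ℤ} {v : X → ℤ} (h : IsRep S sg tg φ v) (n : ℤ) :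
    IsRep S sg tg (n • φ) (n • v) := by
  obtain ⟨k, rfl | rfl⟩ := n.eq_nat_or_neg
  · rw [natCast_zsmul, natCast_zsmul]; exact IsRep.nsmul h k
  · rw [neg_smul, neg_smul, natCast_zsmul, natCast_zsmul]; exact IsRep.neg (IsRep.nsmul h k)

end Additive

/-! ### Level `M` -/

variable (M : ℕ)

/-- `1` and `-1` act trivially on `Γ₀(M) \ SL₂(ℤ)` -/
theorem perm_of_eq_one_or_neg_one {z : SL(2, ℤ)} (hz : z = 1 ∨ z = -1)
    (x : XM M) : (SM M).perm z x = x := by
  rcases hz with rfl | rfl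
  · exact (SM M).perm_one x
  · exact SM_perm_neg_one M x

/-- a `ℤ`-valued homomorphism kills `-1` -/
theorem map_neg_one_eq_zero (φ : Additive ↥(Gamma0 M) →+ ℤ) :
    φ (Additive.ofMul ⟨-1, neg_one_mem_Gamma0 M⟩) = 0 := by
  have h1 : (⟨-1, neg_one_mem_Gamma0 M⟩ : ↥(Gamma0 M)) * ⟨-1, neg_one_mem_Gamma0 M⟩ = 1 := by
    apply Subtype.ext
    simp
  have h2 := congrArg (fun g => φ (Additive.ofMul g)) h1
  simp only [ofMul_mul, map_add, ofMul_one, map_zero] at h2
  omega

/-- the Shapiro cochain vanishes at `±1` -/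
theorem shp_of_eq_one_or_neg_one {z : SL(2, ℤ)} (hz : z = 1 ∨ z = -1)
    (φ : Additive ↥(Gamma0 M) →+ ℤ) : shp (SM M) φ z = 0 := by
  funext x
  show φ (Additive.ofMul ((SM M).coc z x)) = 0
  rcases hz with rfl | rfl
  · rw [(SM M).coc_one, ofMul_one, map_zero]
  · have hc : (SM M).coc (-1) x = ⟨-1, neg_one_mem_Gamma0 M⟩ := by
      apply Subtype.ext
      show repOf (Gamma0 M) x * (-1) * (repOf (Gamma0 M) (ShapiroGen.rperm (Gamma0 M) (-1) x))⁻¹ = -1
      have hp : ShapiroGen.rperm (Gamma0 M) (-1) x = x :=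
        perm_of_eq_one_or_neg_one M (Or.inr rfl) x
      rw [hp]
      simp
    rw [hc, map_neg_one_eq_zero]

/-- cocycle identity for the Shapiro cochain, in `op` form -/
theorem shp_mul (φ : Additive ↥(Gamma0 M) →+ ℤ) (g h : SL(2, ℤ)) :
    shp (SM M) φ (g * h) = shp (SM M) φ g + op ((SM M).permEquiv g) (shp (SM M) φ h) :=
  ShapiroGen.sh_mul (SM M) φ g h

variable {M}
variable {sg tg : SL(2, ℤ)}

/-- **The dessin of `Γ₀(M)`**: `σ = ·sg`, `τ = ·tg` on `Γ₀(M) \ SL₂(ℤ)`. -/
theorem isDessin_SM (hs : sg * sg = 1 ∨ sg * sg = -1)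
    (ht : tg * tg * tg = 1 ∨ tg * tg * tg = -1)
    (hgen : Subgroup.closure ({sg, tg} : Set SL(2, ℤ)) = ⊤) :
    IsDessin ((SM M).permEquiv sg) ((SM M).permEquiv tg) where
  sq := by
    rw [← ShapiroGen.permEquiv_mul]
    exact Equiv.ext fun x => perm_of_eq_one_or_neg_one M hs x
  cube := by
    rw [← ShapiroGen.permEquiv_mul, ← ShapiroGen.permEquiv_mul, ← mul_assoc]
    exact Equiv.ext fun x => perm_of_eq_one_or_neg_one M ht x
  trans := fun F hσ hτ x y =>
    (SM_isFull M).eq_of_forall_perm_eq {sg, tg} hgen F (by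
      intro g hg i
      rcases hg with rfl | hg
      · exact hσ i
      · rw [Set.mem_singleton_iff] at hg
        subst hg
        exact hτ i) x y

/-- **Existence of `Θ φ`**: every `φ : Γ₀(M) → ℤ` has a representative. -/
theorem exists_isRep [Fintype (XM M)] [DecidableEq (XM M)]
    (hs : sg * sg = 1 ∨ sg * sg = -1)
    (ht : tg * tg * tg = 1 ∨ tg * tg * tg = -1)
    (hgen : Subgroup.closure ({sg, tg} : Set SL(2, ℤ)) = ⊤)
    (φ : Additive ↥(Gamma0 M) →+ ℤ) : ∃ v : XM M → ℤ, IsRep (SM M) sg tg φ v := by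
  have hD := isDessin_SM (M := M) hs ht hgen
  set σ := (SM M).permEquiv sg with hσ
  set τ := (SM M).permEquiv tg with hτ
  set c := shp (SM M) φ with hc
  have h2 : op σ (c sg) + c sg = 0 := by
    have h := shp_mul M φ sg sg
    rw [shp_of_eq_one_or_neg_one M hs] at h
    rw [add_comm]; exact h.symm
  have h3 : op τ (op τ (c tg)) + op τ (c tg) + c tg = 0 := by
    have h := shp_mul M φ (tg * tg) tg
    rw [shp_of_eq_one_or_neg_one M ht, shp_mul M φ tg tg, ShapiroGen.permEquiv_mul, ← op_op] at h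
    rw [h]; abel
  obtain ⟨y', hy'⟩ := hD.exists_S_sub (c sg) h2
  obtain ⟨y, hy⟩ := hD.exists_U_sub (c tg) h3
  exact ⟨y - y', y, y', hy.symm, hy'.symm, by rw [sub_self]; exact Submodule.zero_mem _⟩

/-- a cocycle vanishing on a generating set vanishes -/
theorem cocycle_eq_zero_of_gens {c : SL(2, ℤ) → XM M → ℤ} (hc : IsCocycle (SM M) c)
    (gens : Set SL(2, ℤ)) (hgen : Subgroup.closure gens = ⊤) (h0 : ∀ g ∈ gens, c g = 0)
    (g : SL(2, ℤ)) : c g = 0 := by
  have hg : g ∈ Subgroup.closure gens := by rw [hgen]; exact Subgroup.mem_top g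
  induction hg using Subgroup.closure_induction with
  | mem x hx => exact h0 x hx
  | one => exact hc.map_one
  | mul x y _ _ hx hy => rw [hc, hx, hy, map_zero, add_zero]
  | inv x _ hx => rw [hc.map_inv, hx, map_zero, neg_zero]

/-- **`Θ` is injective**: if `φ` is represented by an element of `W`, then `φ = 0`. -/
theorem IsRep.eq_zero_of_mem_W [Fintype (XM M)] [DecidableEq (XM M)]
    (hgen : Subgroup.closure ({sg, tg} : Set SL(2, ℤ)) = ⊤)
    {φ : Additive ↥(Gamma0 M) →+ ℤ} {v : XM M → ℤ} (h : IsRep (SM M) sg tg φ v)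
    (hv : v ∈ W ((SM M).permEquiv sg) ((SM M).permEquiv tg)) : φ = 0 := by
  obtain ⟨y, y', hy, hy', hw⟩ := h
  have hyy : y - y' ∈ W ((SM M).permEquiv sg) ((SM M).permEquiv tg) := by
    have e : y - y' = v - (v - (y - y')) := by abel
    rw [e]
    exact Submodule.sub_mem _ hv hw
  obtain ⟨a, b, ha, hb, hab⟩ := (mem_W _ _).1 hyy
  -- `e := y - b = y' + a`
  have he : y - b = y' + a := by
    have : y - y' = a + b := hab
    have h1 : y - b = (y - y') - b + y' := by abel
    rw [h1, this]; abel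
  have h_t : shp (SM M) φ tg = cob (SM M) (y - b) tg := by
    show _ = act (SM M) tg (y - b) - (y - b)
    rw [← hy]
    show _ = op ((SM M).permEquiv tg) (y - b) - (y - b)
    rw [map_sub, hb]; abel
  have h_s : shp (SM M) φ sg = cob (SM M) (y - b) sg := by
    show _ = act (SM M) sg (y - b) - (y - b)
    rw [← hy', he]
    show _ = op ((SM M).permEquiv sg) (y' + a) - (y' + a)
    rw [map_add, ha]; abel
  refine (SM_isFull M).eq_zero_of_sh_eq_cob (w := y - b) fun g => ?_
  have hcoc : IsCocycle (SM M) (fun g => sh (SM M) φ g - cob (SM M) (y - b) g) :=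
    (isCocycle_sh (SM M) φ).sub (ShapiroGen.isCocycle_cob (SM M) (y - b))
  have := cocycle_eq_zero_of_gens hcoc {sg, tg} hgen (by
    intro g hg
    rcases hg with rfl | hg
    · exact sub_eq_zero.2 h_s
    · rw [Set.mem_singleton_iff] at hg
      subst hg
      exact sub_eq_zero.2 h_t) g
  exact sub_eq_zero.1 this

/-! ### Affine permutations of `X × ℤ`

The group `(X → ℤ) ⋊ Perm X` realised inside `Perm (X × ℤ)`: `aff π f : (x, n) ↦ (π x, n + f x)`.
A map `g ↦ aff (π g) (c g)` is anti-multiplicative iff `π` is and `c` is a cocycle. -/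

section Aff

variable {X : Type*}

/-- the affine permutation `(x, n) ↦ (π x, n + f x)` of `X × ℤ` -/
def aff (π : Equiv.Perm X) (f : X → ℤ) : Equiv.Perm (X × ℤ) where
  toFun p := (π p.1, p.2 + f p.1)
  invFun p := (π.symm p.1, p.2 - f (π.symm p.1))
  left_inv p := by simp
  right_inv p := by simp

theorem aff_apply (π : Equiv.Perm X) (f : X → ℤ) (p : X × ℤ) :
    aff π f p = (π p.1, p.2 + f p.1) := rfl

theorem aff_mul (π ρ : Equiv.Perm X) (f g : X → ℤ) :
    aff π f * aff ρ g = aff (π * ρ) (fun x => g x + f (ρ x)) := by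
  refine Equiv.ext fun p => ?_
  rw [Equiv.Perm.mul_apply, aff_apply, aff_apply, aff_apply, Equiv.Perm.mul_apply, add_assoc]

theorem aff_one : aff (1 : Equiv.Perm X) (fun _ => 0) = 1 := by
  refine Equiv.ext fun p => ?_
  rw [aff_apply, Equiv.Perm.one_apply, Equiv.Perm.one_apply, add_zero]

theorem aff_inj {π ρ : Equiv.Perm X} {f g : X → ℤ} (h : aff π f = aff ρ g) : π = ρ ∧ f = g := by
  constructor
  · refine Equiv.ext fun x => ?_
    have := congrArg (fun e : Equiv.Perm (X × ℤ) => (e (x, 0)).1) h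
    simpa [aff_apply] using this
  · funext x
    have := congrArg (fun e : Equiv.Perm (X × ℤ) => (e (x, 0)).2) h
    simpa [aff_apply] using this

theorem aff_inv (π : Equiv.Perm X) (f : X → ℤ) :
    (aff π f)⁻¹ = aff π⁻¹ (fun x => - f (π⁻¹ x)) := by
  rw [inv_eq_iff_mul_eq_one, aff_mul, ← aff_one]
  congr 1
  · exact mul_inv_cancel π
  · funext x
    rw [neg_add_cancel]

end Aff

/-! ### `Θ` is onto (for `sg = S`, `tg = S⁻¹ T`) -/

section Surj

open ModularGroup
open Fermat.Agent.S41.PD.ShapiroLevel (tg_eq)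

theorem closure_S_ST : Subgroup.closure ({S, S * T} : Set SL(2, ℤ)) = ⊤ := by
  rw [eq_top_iff, ← SpecialLinearGroup.SL2Z_generators, Subgroup.closure_le]
  intro g hg
  rcases hg with rfl | hg
  · exact Subgroup.subset_closure (Set.mem_insert _ _)
  · rw [Set.mem_singleton_iff] at hg
    have e : g = S⁻¹ * (S * T) := by rw [hg, inv_mul_cancel_left]
    rw [e]
    exact Subgroup.mul_mem _ (Subgroup.inv_mem _ (Subgroup.subset_closure (Set.mem_insert _ _)))
      (Subgroup.subset_closure (Set.mem_insert_of_mem _ rfl))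

/-- `S * T` and `tg = -(S * T)` induce the same permutation of `XM M` -/
theorem permEquiv_ST : (SM M).permEquiv (S * T) = (SM M).permEquiv ShapiroLevel.tg := by
  have e : ShapiroLevel.tg = -1 * (S * T) := by rw [tg_eq, neg_mul, one_mul]
  have h1 : (SM M).permEquiv (-1) = 1 := Equiv.ext fun x => SM_perm_neg_one M x
  rw [e, ShapiroGen.permEquiv_mul (SM M) (-1) (S * T), h1, mul_one]

/-- **`Θ` is onto**: every `v : XM M → ℤ` represents some homomorphism `φ : Γ₀(M) → ℤ`
(parabolic iff `v ∈ Npar`, by the dictionary). -/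
theorem exists_hom_isRep (v : XM M → ℤ) :
    ∃ φ : Additive ↥(Gamma0 M) →+ ℤ, IsRep (SM M) ShapiroLevel.sg ShapiroLevel.tg φ v := by
  set σ : Equiv.Perm (XM M) := (SM M).permEquiv S with hσdef
  set τ : Equiv.Perm (XM M) := (SM M).permEquiv ShapiroLevel.tg with hτdef
  have hσ2 : σ * σ = 1 := ShapiroLevel.sigmaM_mul_sigmaM M
  have hτ3 : τ * τ * τ = 1 := ShapiroLevel.tauM_pow_three M
  have hτ3' : ∀ x, τ (τ (τ x)) = x := fun x => by
    have := congrArg (fun e : Equiv.Perm (XM M) => e x) hτ3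
    simpa [Equiv.Perm.mul_apply] using this
  set ft : XM M → ℤ := fun x => v (τ x) - v x with hft
  -- the two generators of the opposite of the affine group
  have hs : (MulOpposite.op (aff σ (fun _ => 0)) : (Equiv.Perm (XM M × ℤ))ᵐᵒᵖ) ^ 2 = 1 := by
    rw [← MulOpposite.op_pow, pow_two, aff_mul, hσ2]
    simp only [add_zero]
    rw [aff_one, MulOpposite.op_one]
  have ht : (MulOpposite.op (aff τ ft) : (Equiv.Perm (XM M × ℤ))ᵐᵒᵖ) ^ 3 = 1 := by
    rw [← MulOpposite.op_pow, pow_succ, pow_two, aff_mul, aff_mul, hτ3, ← MulOpposite.op_one,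
      ← aff_one]
    congr 2
    funext x
    simp only [hft, hτ3']
    ring
  set F : SL(2, ℤ) →* (Equiv.Perm (XM M × ℤ))ᵐᵒᵖ := FreeProduct.homOfPair _ _ hs ht with hF
  have hFS : (F S).unop = aff σ (fun _ => 0) := by
    rw [hF, FreeProduct.homOfPair_S, MulOpposite.unop_op]
  have hFU : (F (S * T)).unop = aff τ ft := by
    rw [hF, FreeProduct.homOfPair_U, MulOpposite.unop_op]
  -- every `F g` is affine over `permEquiv g`
  have key : ∀ g : SL(2, ℤ), ∃ f : XM M → ℤ, (F g).unop = aff ((SM M).permEquiv g) f := by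
    intro g
    have hg : g ∈ Subgroup.closure ({S, S * T} : Set SL(2, ℤ)) := by
      rw [closure_S_ST]; exact Subgroup.mem_top g
    induction hg using Subgroup.closure_induction with
    | mem x hx =>
      rcases hx with rfl | hx
      · exact ⟨_, hFS⟩
      · rw [Set.mem_singleton_iff] at hx
        subst hx
        exact ⟨ft, by rw [hFU, permEquiv_ST]⟩
    | one => exact ⟨fun _ => 0, by rw [map_one, MulOpposite.unop_one, ShapiroGen.permEquiv_one,
        aff_one]⟩
    | mul x y _ _ hx hy =>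
      obtain ⟨fx, hfx⟩ := hx
      obtain ⟨fy, hfy⟩ := hy
      exact ⟨_, by rw [map_mul, MulOpposite.unop_mul, hfx, hfy, aff_mul,
        ShapiroGen.permEquiv_mul]⟩
    | inv x _ hx =>
      obtain ⟨fx, hfx⟩ := hx
      exact ⟨_, by rw [map_inv, MulOpposite.unop_inv, hfx, aff_inv, ShapiroGen.permEquiv_inv]⟩
  choose c hc using key
  have hcoc : IsCocycle (SM M) c := by
    intro g h
    have h1 : (F (g * h)).unop = aff ((SM M).permEquiv (g * h)) (c (g * h)) := hc (g * h)
    rw [map_mul, MulOpposite.unop_mul, hc g, hc h, aff_mul] at h1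
    have h2 := (aff_inj h1).2
    rw [← h2]
    funext x
    rfl
  have hcS : c S = fun _ => 0 := by
    have h1 := hc S
    rw [hFS] at h1
    exact (aff_inj h1).2.symm
  have hcU : c (S * T) = ft := by
    have h1 := hc (S * T)
    rw [hFU] at h1
    exact (aff_inj h1).2.symm
  have hcneg : c (-1) = 0 := by
    have e : (-1 : SL(2, ℤ)) = S * S := ShapiroLevel.sg_mul_sg.symm
    rw [e, hcoc, hcS]
    funext x
    rfl
  have hctg : c ShapiroLevel.tg = ft := by
    have e : ShapiroLevel.tg = (S * T) * (-1) := by rw [tg_eq, mul_neg, mul_one]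
    rw [e, hcoc, hcneg, map_zero, add_zero, hcU]
  obtain ⟨ψ, w, hψ⟩ := (SM_isFull M).exists_eq_sh_add_cob hcoc
  refine ⟨ψ, v - w, -w, ?_, ?_, ?_⟩
  · have h1 := hψ ShapiroLevel.tg
    rw [hctg] at h1
    have h2 : sh (SM M) ψ ShapiroLevel.tg = ft - cob (SM M) w ShapiroLevel.tg :=
      eq_sub_of_add_eq h1.symm
    show _ = sh (SM M) ψ ShapiroLevel.tg
    rw [h2]
    funext x
    show (v - w) (τ x) - (v - w) x = (v (τ x) - v x) - (w (τ x) - w x)
    simp only [Pi.sub_apply]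
    ring
  · have h1 := hψ S
    rw [hcS] at h1
    have h2 : sh (SM M) ψ S = (fun _ => 0) - cob (SM M) w S := eq_sub_of_add_eq h1.symm
    show _ = sh (SM M) ψ S
    rw [h2]
    funext x
    show (-w) (σ x) - (-w) x = 0 - (w (σ x) - w x)
    simp only [Pi.neg_apply]
    ring
  · have e : v - (v - w - -w) = 0 := by abel
    rw [e]
    exact Submodule.zero_mem _

end Surj

end Fermat.Agent.S41.PD.ThetaRep
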