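/-
S41 block [PD]: `thetaAt M : Package.ThetaAt M` — the relational Shapiro map at level `M` is an
isomorphism `parHomAdd M ℤ ≃ Λ(X_M)`.  Pure assembly of
* `ThetaRep.exists_isRep` / `ThetaRep.exists_hom_isRep` (helper11: existence, surjectivity),
* `ShapiroDict.mem_parHomAdd_iff_mem_Npar` (helper29: the parabolic dictionary),
* `ThetaRel.isRep_eq_zero_of_mem_W` (injectivity), `ShapiroLevel.isDessin_M`.
-/
import Mathlib
import Fermat.Agent.S41.PD.Package
import Fermat.Agent.S41.PD.ShapiroDict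
import Fermat.Agent.S41.PD.ThetaRep

set_option autoImplicit false

open scoped MatrixGroups

namespace Fermat.Agent.S41.PD.Theta

open Matrix.SpecialLinearGroup CongruenceSubgroup
open Fermat.Agent.N4F.Tors.HeckeHom
open Fermat.Agent.S41.PD.Dessin Fermat.Agent.S41.PD.Adjoint
open Fermat.Agent.S41.PD.ShapiroLevel Fermat.Agent.S41.PD.ThetaRel
open Fermat.Agent.S41.PD.Package

/-- **(Θ) at every level.** -/
theorem thetaAt (M : ℕ) [NeZero M] : ThetaAt M where
  dessin := isDessin_M M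
  exists_rep φ hφ := by
    obtain ⟨v, hv⟩ := ThetaRep.exists_isRep (M := M) (sg := sg) (tg := tg)
      (Or.inr sg_mul_sg) (Or.inl tg_pow_three) closure_sg_tg φ
    exact ⟨v, (ShapiroDict.mem_parHomAdd_iff_mem_Npar M φ v hv).1 hφ, hv⟩
  inj φ _ v hv hrep := isRep_eq_zero_of_mem_W (SM_isFull M) closure_sg_tg hrep hv
  surj v hv := by
    obtain ⟨φ, hφ⟩ := ThetaRep.exists_hom_isRep (M := M) v
    exact ⟨φ, (ShapiroDict.mem_parHomAdd_iff_mem_Npar M φ v hφ).2 hv, hφ⟩

end Fermat.Agent.S41.PD.Theta
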