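/-
S41 / block [PD] (helper11): (P2) res/cores adjunction in `Θ`-form, for any two `ThetaData`
(`PD/ThetaRel.lean`) at levels `N` and `N * q` — the `hrc` input of `Package.pdOf_adj`.
-/
import Mathlib
import Fermat.Agent.S41.PD.AdjointGamma0
import Fermat.Agent.S41.PD.ShapiroLevel
import Fermat.Agent.S41.PD.ThetaRel

set_option autoImplicit false
open scoped MatrixGroups

namespace Fermat.Agent.S41.PD.AdjointTheta

open Matrix.SpecialLinearGroup CongruenceSubgroup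
open Fermat.Agent.N4F.Tors.HeckeHom
open Fermat.Agent.P3LR.A.Transfer2 Fermat.Agent.P3LR.A.Degeneracy
open Fermat.Agent.S41.PD.Dessin Fermat.Agent.S41.PD.Adjoint Fermat.Agent.S41.PD.AdjointGamma0
open Fermat.Agent.S41.PD.ShapiroLevel Fermat.Agent.S41.PD.ThetaRel

/-- **(P2) in `Θ`-form**: `B'(Θ'(res φ), Θ' ψ) = B(Θ φ, Θ(cores ψ))` for ANY two Shapiro
isomorphisms given by `ThetaData`. -/
theorem Bq_theta_resAdd_coresAdd (N q : ℕ) [Fact q.Prime] (hqN : ¬ q ∣ N)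
    [Fintype (XM N)] [DecidableEq (XM N)] [Fintype (XM (N * q))] [DecidableEq (XM (N * q))]
    (sg tg : SL(2, ℤ))
    (D : ThetaData (SM N) sg tg (parHomAdd N ℤ))
    (D' : ThetaData (SM (N * q)) sg tg (parHomAdd (N * q) ℤ))
    (φ : parHomAdd N ℤ) (ψ : parHomAdd (N * q) ℤ) :
    D'.dessin.Bq (D'.theta ⟨resAdd N q φ.1, resAdd_mem_parHomAdd N q φ.2⟩) (D'.theta ψ) =
      D.dessin.Bq (D.theta φ) (D.theta ⟨coresAdd N q ψ.1, coresAdd_mem_parHomAdd N q ψ.2⟩) := by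
  rw [D'.Bq_theta_repOf, D.Bq_theta_repOf]
  exact pair_resAdd_coresAdd N q hqN sg tg D.dessin D'.dessin _ _ _ _
    (D.isRep_repOf φ) (D.isRep_repOf ⟨coresAdd N q ψ.1, coresAdd_mem_parHomAdd N q ψ.2⟩)
    (D'.isRep_repOf ⟨resAdd N q φ.1, resAdd_mem_parHomAdd N q φ.2⟩) (D'.isRep_repOf ψ)

end Fermat.Agent.S41.PD.AdjointTheta
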