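/-
S41 / block [PD] (helper11): the `resEta`/`coresEta` adjunction and the self-adjointness of `T_q`
in `Θ`-form, for ANY two `ThetaData` (`PD/ThetaRel.lean`) at levels `N` and `N * q`, with the
isometry property (W) of the Atkin–Lehner involution `w_q` at level `N * q` as a HYPOTHESIS `WIso`.

* `Bq_theta_resEtaAdd_coresEtaAdd` : `B'(Θ'(resEta φ), Θ' ψ) = B(Θ φ, Θ(coresEta ψ))`;
* `Bq_theta_heckeAdd_selfadj`      : `B(Θ(T_q φ), Θ ψ) = B(Θ φ, Θ(T_q ψ))`;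
* `Bq_theta_heckeLattice_selfadj`  : the same for `heckeLattice N ℓ hℓN`, `ℓ : Nat.Primes`.
-/
import Mathlib
import Fermat.Agent.S41.PD.AdjointTheta
import Fermat.Agent.P3LR.A.AtkinLehnerEta
import Fermat.Agent.P3LR.A.Degeneracy
import Fermat.Agent.N4F.Tors.Outputs

set_option autoImplicit false
open scoped MatrixGroups

namespace Fermat.Agent.S41.PD.AdjointThetaW

open Matrix.SpecialLinearGroup CongruenceSubgroup
open Fermat.Agent.N4F.Tors.HeckeHom Fermat.Agent.N4F.Tors.Outputs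
open Fermat.Agent.P3LR.A.Transfer2 Fermat.Agent.P3LR.A.Degeneracy
open Fermat.Agent.P3LR.A.AtkinLehnerAdd Fermat.Agent.P3LR.A.AtkinLehnerEta
open Fermat.Agent.P3LR.A.AtkinLehnerFinal
open Fermat.Agent.S41.PD.Dessin Fermat.Agent.S41.PD.Adjoint Fermat.Agent.S41.PD.AdjointGamma0
open Fermat.Agent.S41.PD.ShapiroLevel Fermat.Agent.S41.PD.ThetaRel
open Fermat.Agent.S41.PD.AdjointTheta

variable (N q : ℕ) [Fact q.Prime] (hqN : ¬ q ∣ N)

/-- the Atkin–Lehner involution `w_q` on the lattice `parHomAdd (N * q) ℤ` -/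
noncomputable def wPar (x : parHomAdd (N * q) ℤ) : parHomAdd (N * q) ℤ :=
  ⟨wAdd N q hqN x.1, wAdd_mem_parHomAdd N q hqN x.2⟩

theorem wPar_wPar (x : parHomAdd (N * q) ℤ) : wPar N q hqN (wPar N q hqN x) = x :=
  Subtype.ext (wAdd_wAdd N q hqN x.1)

variable [Fintype (XM N)] [DecidableEq (XM N)] [Fintype (XM (N * q))] [DecidableEq (XM (N * q))]
variable (sg tg : SL(2, ℤ))
variable (D : ThetaData (SM N) sg tg (parHomAdd N ℤ))
variable (D' : ThetaData (SM (N * q)) sg tg (parHomAdd (N * q) ℤ))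

/-- **(W)**: `w_q` is an isometry of the Poincaré pairing at level `N * q`. -/
def WIso : Prop :=
  ∀ x y : parHomAdd (N * q) ℤ,
    D'.dessin.Bq (D'.theta (wPar N q hqN x)) (D'.theta (wPar N q hqN y)) =
      D'.dessin.Bq (D'.theta x) (D'.theta y)

variable {N q hqN sg tg D'}

/-- **`resEta_adj` in `Θ`-form**, from (P2) and (W). -/
theorem Bq_theta_resEtaAdd_coresEtaAdd (hW : WIso N q hqN sg tg D')
    (φ : parHomAdd N ℤ) (ψ : parHomAdd (N * q) ℤ) :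
    D'.dessin.Bq (D'.theta ⟨resEtaAdd N q φ.1, resEtaAdd_mem_parHomAdd N q φ.2⟩) (D'.theta ψ) =
      D.dessin.Bq (D.theta φ)
        (D.theta ⟨coresEtaAdd N q ψ.1, coresEtaAdd_mem_parHomAdd N q ψ.2⟩) := by
  have e1 : (⟨resEtaAdd N q φ.1, resEtaAdd_mem_parHomAdd N q φ.2⟩ : parHomAdd (N * q) ℤ) =
      wPar N q hqN ⟨resAdd N q φ.1, resAdd_mem_parHomAdd N q φ.2⟩ :=
    Subtype.ext (resEtaAdd_eq N q hqN φ.1)
  have e2 : (⟨coresEtaAdd N q ψ.1, coresEtaAdd_mem_parHomAdd N q ψ.2⟩ : parHomAdd N ℤ) =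
      ⟨coresAdd N q (wPar N q hqN ψ).1, coresAdd_mem_parHomAdd N q (wPar N q hqN ψ).2⟩ :=
    Subtype.ext (coresAdd_wAdd N q hqN ψ.1).symm
  rw [e1, e2, ← Bq_theta_resAdd_coresAdd N q hqN sg tg D D' φ (wPar N q hqN ψ)]
  conv_lhs => rw [← wPar_wPar N q hqN ψ]
  exact hW _ _

/-- **Self-adjointness of `T_q`** for the Poincaré pairing at level `N`, from (P2), (W) at level
`N * q`, (R1) `cores ∘ resEta = T_q = coresEta ∘ res` and antisymmetry. -/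
theorem Bq_theta_heckeAdd_selfadj (hW : WIso N q hqN sg tg D') (φ ψ : parHomAdd N ℤ) :
    D.dessin.Bq (D.theta ⟨heckeAdd N q hqN φ.1, heckeAdd_mem_parHomAdd N q hqN φ.2⟩) (D.theta ψ) =
      D.dessin.Bq (D.theta φ)
        (D.theta ⟨heckeAdd N q hqN ψ.1, heckeAdd_mem_parHomAdd N q hqN ψ.2⟩) := by
  have e1 : (⟨heckeAdd N q hqN φ.1, heckeAdd_mem_parHomAdd N q hqN φ.2⟩ : parHomAdd N ℤ) =
      ⟨coresAdd N q (resEtaAdd N q φ.1),
        coresAdd_mem_parHomAdd N q (resEtaAdd_mem_parHomAdd N q φ.2)⟩ :=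
    Subtype.ext (coresAdd_resEtaAdd N q hqN φ.1).symm
  have e2 : (⟨heckeAdd N q hqN ψ.1, heckeAdd_mem_parHomAdd N q hqN ψ.2⟩ : parHomAdd N ℤ) =
      ⟨coresEtaAdd N q (resAdd N q ψ.1),
        coresEtaAdd_mem_parHomAdd N q (resAdd_mem_parHomAdd N q ψ.2)⟩ :=
    Subtype.ext (coresEtaAdd_resAdd N q hqN ψ.1).symm
  rw [e1, e2, D.dessin.Bq_antisymm,
    ← Bq_theta_resAdd_coresAdd N q hqN sg tg D D' ψ
      ⟨resEtaAdd N q φ.1, resEtaAdd_mem_parHomAdd N q φ.2⟩,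
    ← D'.dessin.Bq_antisymm,
    Bq_theta_resEtaAdd_coresEtaAdd D hW φ ⟨resAdd N q ψ.1, resAdd_mem_parHomAdd N q ψ.2⟩]

/-- **Self-adjointness of `T_ℓ` on the lattice** (`ℓ : Nat.Primes`, `ℓ ∤ N`) — the `hself` of
`PDData` in `Θ`-form; needs `ThetaData` and (W) at level `N * ℓ`. -/
theorem Bq_theta_heckeLattice_selfadj {N : ℕ} (ℓ : Nat.Primes) (hℓN : ¬ (ℓ : ℕ) ∣ N)
    [Fintype (XM N)] [DecidableEq (XM N)] [Fintype (XM (N * ℓ))] [DecidableEq (XM (N * ℓ))]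
    {sg tg : SL(2, ℤ)} (D : ThetaData (SM N) sg tg (parHomAdd N ℤ))
    {D' : ThetaData (SM (N * ℓ)) sg tg (parHomAdd (N * ℓ) ℤ)}
    (hW : haveI : Fact (ℓ : ℕ).Prime := ⟨ℓ.2⟩; WIso N (ℓ : ℕ) hℓN sg tg D')
    (φ ψ : parHomAdd N ℤ) :
    D.dessin.Bq (D.theta (heckeLattice N ℓ hℓN φ)) (D.theta ψ) =
      D.dessin.Bq (D.theta φ) (D.theta (heckeLattice N ℓ hℓN ψ)) := by
  have : Fact (ℓ : ℕ).Prime := ⟨ℓ.2⟩
  exact Bq_theta_heckeAdd_selfadj D hW φ ψ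

end Fermat.Agent.S41.PD.AdjointThetaW
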