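/-
S41 (level raising), block [PD] (helper29): **existence of a cup cochain on `Γ₀(M)`**.

For `lam mu : Γ₀(M) → R` (`R` a commutative ring in which `2` and `3` are invertible) there is
`ξ : Γ₀(M) → R` with `ξ (g h) = ξ g + ξ h + lam g * mu h` (`Heis.IsCup lam mu ξ`).

Construction: the Shapiro cocycles `sh lam`, `sh mu : SL(2, ℤ) → (XM M → R)` and the action of
`SL(2, ℤ)` on `XM M = Γ₀(M) \ SL(2, ℤ)` give the first, second and last coordinates of two elements
`s`, `t` of the twisted Heisenberg group `HeisSemi (Equiv.Perm (XM M)) (XM M → R)`; their central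
coordinates can be chosen with `s ^ 2 = 1`, `t ^ 3 = 1` (`HeisGroup.exists_sq_eq_one`,
`exists_cube_eq_one`); `SL(2, ℤ) / ± 1 = C₂ * C₃` (`FreeProduct.homOfPair`) gives a homomorphism
`F : SL(2, ℤ) →* HeisSemi ..` and `ξ γ := (F γ).c (Γ₀(M) · 1)`.
-/
import Mathlib
import Fermat.Agent.S41.PD.ShapiroLevel
import Fermat.Agent.S41.PD.HeisGroup
import Fermat.Agent.S41.PD.FreeProduct

set_option autoImplicit false

namespace Fermat.Agent.S41.PD.CupExists

open Fermat.Agent.P3LR.A.Transfer2 Fermat.Agent.S41.PD.ShapiroGen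
open Fermat.Agent.S41.PD.ShapiroLevel Fermat.Agent.S41.PD.HeisGroup Fermat.Agent.S41.PD.Heis
open Fermat.Agent.S41.PD.FreeProduct
open Fermat.Agent.N4F.Tors.HeckeHom
open Matrix.SpecialLinearGroup CongruenceSubgroup ModularGroup
open scoped MatrixGroups

/-! ### The permutation action -/

/-- `Equiv.Perm X` acts on `X` from the right by `x · g := g⁻¹ x`. -/
def permRAct (X : Type*) : RAct (Equiv.Perm X) X where
  perm g x := g⁻¹ x
  perm_one x := by rw [inv_one]; rfl
  perm_mul g h x := by rw [mul_inv_rev]; rfl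

variable (M : ℕ)

/-- the homomorphism `SL(2, ℤ) →* Equiv.Perm (XM M)`, `g ↦ (x ↦ x · g)⁻¹` -/
noncomputable def piM : SL(2, ℤ) →* Equiv.Perm (XM M) where
  toFun g := ((SM M).permEquiv g)⁻¹
  map_one' := by rw [permEquiv_one, inv_one]
  map_mul' g h := by rw [permEquiv_mul, mul_inv_rev]

theorem perm_piM (g : SL(2, ℤ)) (x : XM M) :
    (permRAct (XM M)).perm (piM M g) x = (SM M).perm g x := by
  show ((((SM M).permEquiv g)⁻¹)⁻¹) x = _
  rw [inv_inv]
  rfl

theorem piM_neg_one : piM M (-1) = 1 := by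
  show ((SM M).permEquiv (-1))⁻¹ = 1
  rw [inv_eq_one]
  exact Equiv.ext fun x => SM_perm_neg_one M x

variable {R : Type*} [CommRing R]

/-- the coefficient ring `XM M → R` with the action `(g • v) x = v (x · g)` of `Equiv.Perm` -/
abbrev Fn (R : Type*) : Type _ := (permRAct (XM M)).Fn R

/-- a function `XM M → R` as an element of the coefficient ring -/
def toFn (v : XM M → R) : Fn M R := v

@[simp] theorem toFn_apply (v : XM M → R) (x : XM M) : toFn M v x = v x := rfl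

theorem smul_piM_apply (g : SL(2, ℤ)) (v : Fn M R) (x : XM M) :
    (piM M g • v) x = v ((SM M).perm g x) := by
  rw [RAct.smul_apply, perm_piM]

theorem smul_piM_toFn (g : SL(2, ℤ)) (v : XM M → R) :
    piM M g • toFn M v = toFn M (act (SM M) g v) := by
  funext x
  exact smul_piM_apply M g (toFn M v) x

theorem toFn_add (v w : XM M → R) : toFn M (v + w) = toFn M v + toFn M w := rfl

theorem toFn_zero : toFn M (0 : XM M → R) = 0 := rfl

/-- the Shapiro cocycle with values in the coefficient ring -/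
noncomputable def shF (ψ : Additive ↥(Gamma0 M) →+ R) (k : SL(2, ℤ)) : Fn M R :=
  toFn M (sh (SM M) ψ k)

theorem shF_apply (ψ : Additive ↥(Gamma0 M) →+ R) (k : SL(2, ℤ)) (x : XM M) :
    shF M ψ k x = sh (SM M) ψ k x := rfl

theorem shF_mul (ψ : Additive ↥(Gamma0 M) →+ R) (k l : SL(2, ℤ)) :
    shF M ψ (k * l) = shF M ψ k + piM M k • shF M ψ l := by
  unfold shF
  rw [sh_mul, toFn_add, smul_piM_toFn]

/-! ### The cocycles vanish on `-1` -/

theorem SM_coc_neg_one (x : XM M) : (SM M).coc (-1) x = ⟨-1, neg_one_mem_Gamma0 M⟩ := by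
  apply Subtype.ext
  rw [SM_coc_coe, SM_perm_neg_one]
  show repOf (Gamma0 M) x * -1 * (repOf (Gamma0 M) x)⁻¹ = -1
  rw [mul_neg, mul_one, neg_mul, mul_inv_cancel]

theorem map_neg_one_eq_zero (h2 : IsUnit (2 : R)) (lam : Additive ↥(Gamma0 M) →+ R) :
    lam (Additive.ofMul ⟨-1, neg_one_mem_Gamma0 M⟩) = 0 := by
  have h1 : (⟨-1, neg_one_mem_Gamma0 M⟩ : ↥(Gamma0 M)) * ⟨-1, neg_one_mem_Gamma0 M⟩ = 1 := by
    apply Subtype.ext
    show (-1 : SL(2, ℤ)) * -1 = 1
    rw [neg_mul_neg, one_mul]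
  have h3 : lam (Additive.ofMul ((⟨-1, neg_one_mem_Gamma0 M⟩ : ↥(Gamma0 M)) *
      ⟨-1, neg_one_mem_Gamma0 M⟩)) = 0 := by rw [h1, ofMul_one, map_zero]
  rw [ofMul_mul, map_add, ← two_mul] at h3
  exact (h2.mul_right_eq_zero).mp h3

theorem shF_neg_one (h2 : IsUnit (2 : R)) (lam : Additive ↥(Gamma0 M) →+ R) :
    shF M lam (-1) = 0 := by
  funext x
  rw [shF_apply, sh_apply, SM_coc_neg_one, map_neg_one_eq_zero M h2]
  rfl

/-! ### The two generators in the Heisenberg group -/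

/-- the Heisenberg group of level `M` -/
abbrev HeisM (R : Type*) [CommRing R] : Type _ := HeisSemi (Equiv.Perm (XM M)) (Fn M R)

theorem piM_S_sq : piM M S ^ 2 = 1 := by
  rw [← map_pow, S_pow_two, piM_neg_one]

theorem piM_U_cube : piM M (S * T) ^ 3 = 1 := by
  rw [← map_pow, U_pow_three, piM_neg_one]

theorem norm_two (h2 : IsUnit (2 : R)) (lam : Additive ↥(Gamma0 M) →+ R) :
    shF M lam S + piM M S • shF M lam S = 0 := by
  rw [← shF_mul, S_mul_S, shF_neg_one M h2]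

theorem norm_three (h2 : IsUnit (2 : R)) (lam : Additive ↥(Gamma0 M) →+ R) :
    shF M lam (S * T) + piM M (S * T) • shF M lam (S * T) +
      (piM M (S * T) ^ 2) • shF M lam (S * T) = 0 := by
  have key : ∀ k : SL(2, ℤ), shF M lam (k ^ 3) = shF M lam k + piM M k • shF M lam k +
      (piM M k ^ 2) • shF M lam k := by
    intro k
    rw [pow_succ, pow_two, shF_mul, shF_mul, map_mul, ← pow_two]
  rw [← key, U_pow_three, shF_neg_one M h2]

theorem exists_s (h2 : IsUnit (2 : R)) (lam mu : Additive ↥(Gamma0 M) →+ R) : ∃ c : Fn M R,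
    (⟨shF M lam S, shF M mu S, c, piM M S⟩ : HeisM M R) ^ 2 = 1 :=
  HeisSemi.exists_sq_eq_one ((permRAct (XM M)).isUnit_ofNat 2 h2) _ _ _ (piM_S_sq M)
    (norm_two M h2 lam) (norm_two M h2 mu)

theorem exists_t (h2 : IsUnit (2 : R)) (h3 : IsUnit (3 : R))
    (lam mu : Additive ↥(Gamma0 M) →+ R) : ∃ c : Fn M R,
    (⟨shF M lam (S * T), shF M mu (S * T), c, piM M (S * T)⟩ : HeisM M R) ^ 3 = 1 :=
  HeisSemi.exists_cube_eq_one ((permRAct (XM M)).isUnit_ofNat 3 h3) _ _ _ (piM_U_cube M)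
    (norm_three M h2 lam) (norm_three M h2 mu)

/-- the generator `s` -/
noncomputable def sH (h2 : IsUnit (2 : R)) (lam mu : Additive ↥(Gamma0 M) →+ R) : HeisM M R :=
  ⟨shF M lam S, shF M mu S, Classical.choose (exists_s M h2 lam mu), piM M S⟩

/-- the generator `t` -/
noncomputable def tH (h2 : IsUnit (2 : R)) (h3 : IsUnit (3 : R))
    (lam mu : Additive ↥(Gamma0 M) →+ R) : HeisM M R :=
  ⟨shF M lam (S * T), shF M mu (S * T), Classical.choose (exists_t M h2 h3 lam mu),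
    piM M (S * T)⟩

theorem sH_sq (h2 : IsUnit (2 : R)) (lam mu : Additive ↥(Gamma0 M) →+ R) :
    sH M h2 lam mu ^ 2 = 1 := Classical.choose_spec (exists_s M h2 lam mu)

theorem tH_cube (h2 : IsUnit (2 : R)) (h3 : IsUnit (3 : R))
    (lam mu : Additive ↥(Gamma0 M) →+ R) : tH M h2 h3 lam mu ^ 3 = 1 :=
  Classical.choose_spec (exists_t M h2 h3 lam mu)

/-- **The Heisenberg homomorphism** `F : SL(2, ℤ) →* HeisM M R`. -/
noncomputable def heisHom (h2 : IsUnit (2 : R)) (h3 : IsUnit (3 : R))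
    (lam mu : Additive ↥(Gamma0 M) →+ R) : SL(2, ℤ) →* HeisM M R :=
  homOfPair (sH M h2 lam mu) (tH M h2 h3 lam mu) (sH_sq M h2 lam mu) (tH_cube M h2 h3 lam mu)

theorem heisHom_S (h2 : IsUnit (2 : R)) (h3 : IsUnit (3 : R))
    (lam mu : Additive ↥(Gamma0 M) →+ R) : heisHom M h2 h3 lam mu S = sH M h2 lam mu :=
  homOfPair_S _ _ _ _

theorem heisHom_U (h2 : IsUnit (2 : R)) (h3 : IsUnit (3 : R))
    (lam mu : Additive ↥(Gamma0 M) →+ R) : heisHom M h2 h3 lam mu (S * T) = tH M h2 h3 lam mu :=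
  homOfPair_U _ _ _ _

/-! ### Identification of the coordinates of `F` -/

/-- the projection `⟨a, b, c, g⟩ ↦ ⟨a, 0, 0, g⟩`, a homomorphism -/
def projA : HeisM M R →* HeisM M R :=
  IsTwCup.toHom (π := HeisSemi.toG) (Φ := fun x => x.a) (Ψ := fun _ => 0) (Ξ := fun _ => 0)
    { left := fun _ _ => rfl
      right := fun _ _ => by simp
      cup := fun _ _ => by simp }

/-- the projection `⟨a, b, c, g⟩ ↦ ⟨b, 0, 0, g⟩`, a homomorphism -/
def projB : HeisM M R →* HeisM M R :=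
  IsTwCup.toHom (π := HeisSemi.toG) (Φ := fun x => x.b) (Ψ := fun _ => 0) (Ξ := fun _ => 0)
    { left := fun _ _ => rfl
      right := fun _ _ => by simp
      cup := fun _ _ => by simp }

/-- the homomorphism `k ↦ ⟨sh ψ k, 0, 0, π₀ k⟩` -/
noncomputable def shHom (ψ : Additive ↥(Gamma0 M) →+ R) : SL(2, ℤ) →* HeisM M R :=
  IsTwCup.toHom (π := piM M) (Φ := fun k => shF M ψ k) (Ψ := fun _ => 0) (Ξ := fun _ => 0)
    { left := fun k l => shF_mul M ψ k l
      right := fun _ _ => by simp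
      cup := fun _ _ => by simp }

theorem shHom_eq_projA (h2 : IsUnit (2 : R)) (h3 : IsUnit (3 : R))
    (lam mu : Additive ↥(Gamma0 M) →+ R) :
    shHom M lam = (projA M).comp (heisHom M h2 h3 lam mu) := by
  refine hom_ext_S_U ?_ ?_
  · rw [MonoidHom.comp_apply, heisHom_S]
    rfl
  · rw [MonoidHom.comp_apply, heisHom_U]
    rfl

theorem shHom_eq_projB (h2 : IsUnit (2 : R)) (h3 : IsUnit (3 : R))
    (lam mu : Additive ↥(Gamma0 M) →+ R) :
    shHom M mu = (projB M).comp (heisHom M h2 h3 lam mu) := by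
  refine hom_ext_S_U ?_ ?_
  · rw [MonoidHom.comp_apply, heisHom_S]
    rfl
  · rw [MonoidHom.comp_apply, heisHom_U]
    rfl

theorem heisHom_a (h2 : IsUnit (2 : R)) (h3 : IsUnit (3 : R))
    (lam mu : Additive ↥(Gamma0 M) →+ R) (k : SL(2, ℤ)) :
    (heisHom M h2 h3 lam mu k).a = shF M lam k := by
  have h := congrArg (fun F : SL(2, ℤ) →* HeisM M R => (F k).a) (shHom_eq_projA M h2 h3 lam mu)
  exact h.symm

theorem heisHom_b (h2 : IsUnit (2 : R)) (h3 : IsUnit (3 : R))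
    (lam mu : Additive ↥(Gamma0 M) →+ R) (k : SL(2, ℤ)) :
    (heisHom M h2 h3 lam mu k).b = shF M mu k := by
  have h := congrArg (fun F : SL(2, ℤ) →* HeisM M R => (F k).a) (shHom_eq_projB M h2 h3 lam mu)
  exact h.symm

theorem heisHom_g (h2 : IsUnit (2 : R)) (h3 : IsUnit (3 : R))
    (lam mu : Additive ↥(Gamma0 M) →+ R) (k : SL(2, ℤ)) :
    (heisHom M h2 h3 lam mu k).g = piM M k := by
  have h := congrArg (fun F : SL(2, ℤ) →* HeisM M R => (F k).g) (shHom_eq_projA M h2 h3 lam mu)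
  exact h.symm

/-- the central coordinate, as a cochain `SL(2, ℤ) → (XM M → R)` -/
noncomputable def xiOf (h2 : IsUnit (2 : R)) (h3 : IsUnit (3 : R))
    (lam mu : Additive ↥(Gamma0 M) →+ R) (k : SL(2, ℤ)) : XM M → R :=
  (heisHom M h2 h3 lam mu k).c

/-- **the twisted cup identity** `Ξ (k l) x = Ξ k x + Ξ l (x · k) + sh lam k x * sh mu l (x · k)` -/
theorem xiOf_mul (h2 : IsUnit (2 : R)) (h3 : IsUnit (3 : R))
    (lam mu : Additive ↥(Gamma0 M) →+ R) (k l : SL(2, ℤ)) (x : XM M) :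
    xiOf M h2 h3 lam mu (k * l) x = xiOf M h2 h3 lam mu k x +
      xiOf M h2 h3 lam mu l ((SM M).perm k x) +
        sh (SM M) lam k x * sh (SM M) mu l ((SM M).perm k x) := by
  unfold xiOf
  rw [map_mul, HeisSemi.mul_c, heisHom_g, heisHom_a, heisHom_b]
  show (heisHom M h2 h3 lam mu k).c x + (piM M k • (heisHom M h2 h3 lam mu l).c) x +
    shF M lam k x * (piM M k • shF M mu l) x = _
  rw [smul_piM_apply, smul_piM_apply]
  rfl

/-! ### The cup cochain on `Γ₀(M)` -/

/-- **Existence of a cup cochain** for any pair of characters of `Γ₀(M)` with values in a ring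
in which `2` and `3` are invertible. -/
theorem exists_isCup (h2 : IsUnit (2 : R)) (h3 : IsUnit (3 : R))
    (lam mu : Additive ↥(Gamma0 M) →+ R) : ∃ ξ : ↥(Gamma0 M) → R, IsCup lam mu ξ := by
  have hfull := SM_isFull M
  refine ⟨fun γ => xiOf M h2 h3 lam mu (γ : SL(2, ℤ)) (rmk (Gamma0 M) 1), ?_⟩
  intro γ δ
  have h := xiOf_mul M h2 h3 lam mu (γ : SL(2, ℤ)) (δ : SL(2, ℤ)) (rmk (Gamma0 M) 1)
  have hp : (SM M).perm (γ : SL(2, ℤ)) (rmk (Gamma0 M) 1) = rmk (Gamma0 M) 1 := hfull.perm_f γ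
  have ha : sh (SM M) lam (γ : SL(2, ℤ)) (rmk (Gamma0 M) 1) = lam (Additive.ofMul γ) :=
    hfull.sh_apply_base lam γ
  have hb : sh (SM M) mu (δ : SL(2, ℤ)) (rmk (Gamma0 M) 1) = mu (Additive.ofMul δ) :=
    hfull.sh_apply_base mu δ
  rw [hp, ha, hb] at h
  exact h

end Fermat.Agent.S41.PD.CupExists
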