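/-
S41 block [PD]: `bridgeAt M : Package.BridgeAt M` — **the bridge at every level**: for parabolic
`φ, ψ : Γ₀(M) → ℤ` with (parabolic) representatives `v, u` in the dessin model, the intrinsic
pairing `CuspSystem.intrinsic (Gamma0 M) φ_ℚ ψ_ℚ` (cusp sum of a Heisenberg lift) is the dessin
pairing `pair v u`.  Pure assembly of
* `CupExists.exists_isCup` (helper29: a cup cochain exists over `ℚ`),
* `OrbitReps.exists_orbit_reps` (helper10: `T`-orbit data on `X_M`),
* `CuspAdapters.isCuspSystem_of_cosetSys` (helper15: orbit data give a cusp system),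
* `CuspSystem.intrinsic_eq` (helper15: the intrinsic pairing is the cusp sum of ANY lift),
* `Intrinsic.cuspSum_eq_pair` (helper1: the cusp sum is `pair v u`, sign PLUS),
with the gauges `ρ := y' - a`, read off from `IsRep`.
-/
import Mathlib
import Fermat.Agent.S41.PD.Package
import Fermat.Agent.S41.PD.Intrinsic
import Fermat.Agent.S41.PD.CupExists
import Fermat.Agent.S41.PD.OrbitReps
import Fermat.Agent.S41.PD.CuspAdapters

set_option autoImplicit false
set_option linter.unusedSectionVars false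
set_option linter.style.haveILetI false

open scoped MatrixGroups

namespace Fermat.Agent.S41.PD.BridgeAt

open Matrix.SpecialLinearGroup CongruenceSubgroup
open Fermat.Agent.N4F.Tors.HeckeHom
open Fermat.Agent.P3LR.A.Transfer2
open Fermat.Agent.S41.PD.Dessin Fermat.Agent.S41.PD.Adjoint
open Fermat.Agent.S41.PD.ShapiroGen Fermat.Agent.S41.PD.ShapiroLevel
open Fermat.Agent.S41.PD.CuspSystem Fermat.Agent.S41.PD.CuspAdapters
open Fermat.Agent.S41.PD.Package

/-- helper1's `tauSL` is helper29's `tg` -/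
theorem tauSL_eq_tg : Intrinsic.tauSL = tg := rfl

/-- **the gauge of a representative**: if `v` represents `φ`, then the Shapiro cocycle of `φ_ℚ` is
a coboundary of `ρ` at `sg` and of `v + ρ` at `tg`. -/
theorem exists_gauge {M : ℕ} [NeZero M] (φ : Additive ↥(Gamma0 M) →+ ℤ) (v : XM M → ℤ)
    (hv : IsRep (SM M) sg tg φ v) :
    ∃ ρ : XM M → ℚ, sh (SM M) (toQ φ) sg = cob (SM M) ρ sg ∧
      sh (SM M) (toQ φ) tg = cob (SM M) ((fun x => ((v x : ℤ) : ℚ)) + ρ) tg := by
  obtain ⟨y, y', hy, hy', hw⟩ := hv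
  obtain ⟨a, b, ha, hb, hab⟩ := (mem_W _ _).1 hw
  refine ⟨fun x => ((y' x - a x : ℤ) : ℚ), ?_, ?_⟩
  · funext x
    have h1 := congrFun hy' x
    have h2 := congrFun ha x
    simp only [Pi.sub_apply, op_apply, CosetSys₂.permEquiv_apply, shp_apply] at h1 h2
    rw [sh_apply, cob_apply, toQ_apply, ← h1, h2]
    push_cast
    ring
  · funext x
    have h1 := congrFun hy x
    have h2 := congrFun hb x
    have h3 := congrFun hab x
    have h4 := congrFun hab ((SM M).perm tg x)
    simp only [Pi.sub_apply, Pi.add_apply, op_apply, CosetSys₂.permEquiv_apply, shp_apply]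
      at h1 h2 h3 h4
    rw [sh_apply, cob_apply, toQ_apply, ← h1]
    simp only [Pi.add_apply]
    have e1 : v ((SM M).perm tg x) = y ((SM M).perm tg x) - y' ((SM M).perm tg x)
        + a ((SM M).perm tg x) + b ((SM M).perm tg x) := by linarith
    have e2 : v x = y x - y' x + a x + b x := by linarith
    rw [e1, e2, h2]
    push_cast
    ring

/-- **(Bridge) at every level.** -/
theorem bridgeAt (M : ℕ) [NeZero M] : BridgeAt M := by
  intro φ ψ hφ hψ v u hv hu
  have h2 : IsUnit (2 : ℚ) := isUnit_iff_ne_zero.2 (by norm_num)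
  have h3 : IsUnit (3 : ℚ) := isUnit_iff_ne_zero.2 (by norm_num)
  obtain ⟨ξ, hξ⟩ := CupExists.exists_isCup M (R := ℚ) h2 h3 (toQ φ) (toQ ψ)
  obtain ⟨C, hC, xc, kc, hk, hper, hbij⟩ :=
    OrbitReps.exists_orbit_reps ((SM M).permEquiv ModularGroup.T)
  have hper' : ∀ c, (SM M).perm (ModularGroup.T ^ kc c) (xc c) = xc c := fun c => by
    rw [CosetSys₂.perm_pow]; exact hper c
  have hfun : (fun p : Σ c, Fin (kc c) => (SM M).perm (ModularGroup.T ^ (p.2 : ℕ)) (xc p.1))
      = (fun p : Σ c, Fin (kc c) => (((SM M).permEquiv ModularGroup.T) ^ (p.2 : ℕ)) (xc p.1)) :=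
    funext fun p => CosetSys₂.perm_pow _ _ _ _
  have hbij' : Function.Bijective
      (fun p : Σ c, Fin (kc c) => (SM M).perm (ModularGroup.T ^ (p.2 : ℕ)) (xc p.1)) := by
    rw [hfun]; exact hbij
  haveI : Nonempty (XM M) := ⟨rmk (Gamma0 M) 1⟩
  have hcs : IsCuspSystem (Gamma0 M) (fun c => (SM M).coc (ModularGroup.T ^ kc c) (xc c)) :=
    isCuspSystem_of_cosetSys (SM M) (repOf (Gamma0 M)) xc kc
      (mapGL_injective (R := ℤ) (S := ℝ)) (SM_isInj M) (fun _ => rfl) (neg_one_mem_Gamma0 M)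
      hk hper' hbij'
  rw [intrinsic_eq (neg_one_mem_Gamma0 M) (vanishesOnPar_toQ hφ) (vanishesOnPar_toQ hψ) hcs hξ]
  obtain ⟨ρ, hls, hlt⟩ := exists_gauge φ v hv
  obtain ⟨ρ', hms, hmt⟩ := exists_gauge ψ u hu
  exact Intrinsic.cuspSum_eq_pair (SM M) (SM_isFull M) ⟨-1, neg_one_mem_Gamma0 M⟩ rfl
    (fun r hr => by linarith) (fun r hr => by linarith) hξ v u ρ ρ' hls hlt hms hmt xc kc
    hper' hbij'

end Fermat.Agent.S41.PD.BridgeAt
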