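/-
S41, block [PD], leaf PD-Heis, file 4: THE ATKIN–LEHNER ISOMETRY (W) OF THE INTRINSIC PAIRING.

Instances of the conjugation invariance of the intrinsic cusp pairing (`PD/Conj.lean`,
`PD/CuspAdapters.lean`) for the automorphisms of `Γ₀(M)` given by conjugation with an integer
matrix of positive determinant, in particular

* helper21's `wConj N q hqN` / `wMat N q hqN` / `wAdd N q hqN` (`P3LR/A/AtkinLehner*.lean`), and
* `P4.AtkinLehner.alConj hqN` / `alMat N q`.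

The form consumed by `PD/Package`: if a function `B` on `parHomAdd M ℤ` computes the intrinsic
pairing (the bridge: `IsCuspPairing (primSet Γ₀(M)) φ_ℚ ψ_ℚ (B φ ψ)`), then `B` is invariant under
the automorphism (`bridge_isometry`, `bridge_isometry_wAdd`, `bridge_isometry_alConj`).
-/
import Mathlib
import Fermat.Agent.S41.PD.CuspAdapters
import Fermat.Agent.P3LR.A.AtkinLehnerEta
import Fermat.Agent.P4.AtkinLehner

set_option autoImplicit false

open scoped MatrixGroups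

namespace Fermat.Agent.S41.PD.ConjAL

open Matrix.SpecialLinearGroup CongruenceSubgroup
open Fermat.Agent.N4F.Tors.HeckeHom Fermat.Agent.P3LR.A.IntMat
open Fermat.Agent.S41.PD.Heis Fermat.Agent.S41.PD.Conj Fermat.Agent.S41.PD.CuspSystem
open Fermat.Agent.S41.PD.CuspAdapters

/-! ### Generalities on `Γ₀(M)` -/

theorem neg_one_mem_Gamma0 (M : ℕ) : (-1 : SL(2, ℤ)) ∈ Gamma0 M := by
  rw [Gamma0_mem]
  simp

/-- elements of `parHomAdd` vanish on positive parabolic elements -/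
theorem vanishesOnPar_of_mem {M : ℕ} {A : Type*} [CommRing A]
    {φ : Additive ↥(Gamma0 M) →+ A} (hφ : φ ∈ parHomAdd M A) : VanishesOnPar φ :=
  fun u hu => hφ u (Or.inl hu.trace_sq)

/-- the rational character attached to an integral one -/
def ratHom {M : ℕ} (φ : Additive ↥(Gamma0 M) →+ ℤ) : Additive ↥(Gamma0 M) →+ ℚ :=
  (Int.castAddHom ℚ).comp φ

@[simp] theorem ratHom_apply {M : ℕ} (φ : Additive ↥(Gamma0 M) →+ ℤ)
    (x : Additive ↥(Gamma0 M)) : ratHom φ x = ((φ x : ℤ) : ℚ) := rfl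

theorem ratHom_mem {M : ℕ} {φ : Additive ↥(Gamma0 M) →+ ℤ} (hφ : φ ∈ parHomAdd M ℤ) :
    ratHom φ ∈ parHomAdd M ℚ := by
  intro g hg
  rw [ratHom_apply, hφ g hg, Int.cast_zero]

/-! ### The generic isometry -/

section Generic

variable {M : ℕ}

/-- **Conjugation invariance of the intrinsic pairing of `Γ₀(M)`** under an automorphism given by
conjugation with an integer matrix of positive determinant. -/
theorem cuspPairing_comp {R : Type*} [CommRing R] (e : ↥(Gamma0 M) ≃* ↥(Gamma0 M))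
    (W : Matrix (Fin 2) (Fin 2) ℤ) (hW : 0 < W.det)
    (he : ∀ γ : ↥(Gamma0 M), W * ((γ : SL(2, ℤ)) : Matrix (Fin 2) (Fin 2) ℤ) =
      (((e γ : ↥(Gamma0 M)) : SL(2, ℤ)) : Matrix (Fin 2) (Fin 2) ℤ) * W)
    {lam mu : Additive ↥(Gamma0 M) →+ R} {v : R}
    (h : IsCuspPairing (primSet (Gamma0 M)) lam mu v) :
    IsCuspPairing (primSet (Gamma0 M)) (lam.comp (MonoidHom.toAdditive e.toMonoidHom))
      (mu.comp (MonoidHom.toAdditive e.toMonoidHom)) v :=
  cuspPairing_conj e W hW he h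

/-- **(W), abstract form.**  Let `B` be a function on pairs of parabolic homomorphisms
`Γ₀(M) → ℤ` which computes the intrinsic pairing (the bridge).  Then `B` is invariant under every
automorphism of `Γ₀(M)` given by conjugation with an integer matrix of positive determinant. -/
theorem bridge_isometry [NeZero M] (e : ↥(Gamma0 M) ≃* ↥(Gamma0 M))
    (W : Matrix (Fin 2) (Fin 2) ℤ) (hW : 0 < W.det)
    (he : ∀ γ : ↥(Gamma0 M), W * ((γ : SL(2, ℤ)) : Matrix (Fin 2) (Fin 2) ℤ) =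
      (((e γ : ↥(Gamma0 M)) : SL(2, ℤ)) : Matrix (Fin 2) (Fin 2) ℤ) * W)
    (B : ↥(parHomAdd M ℤ) → ↥(parHomAdd M ℤ) → ℤ)
    (hB : ∀ φ ψ : ↥(parHomAdd M ℤ), IsCuspPairing (primSet (Gamma0 M))
      (ratHom (φ : Additive ↥(Gamma0 M) →+ ℤ)) (ratHom (ψ : Additive ↥(Gamma0 M) →+ ℤ))
      ((B φ ψ : ℤ) : ℚ))
    (φ ψ φ' ψ' : ↥(parHomAdd M ℤ))
    (hφ : ∀ γ : ↥(Gamma0 M), (φ' : Additive ↥(Gamma0 M) →+ ℤ) (Additive.ofMul γ) =
      (φ : Additive ↥(Gamma0 M) →+ ℤ) (Additive.ofMul (e γ)))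
    (hψ : ∀ γ : ↥(Gamma0 M), (ψ' : Additive ↥(Gamma0 M) →+ ℤ) (Additive.ofMul γ) =
      (ψ : Additive ↥(Gamma0 M) →+ ℤ) (Additive.ofMul (e γ))) :
    B φ' ψ' = B φ ψ := by
  have h1 := cuspPairing_comp e W hW he (hB φ ψ)
  have e1 : (ratHom (φ : Additive ↥(Gamma0 M) →+ ℤ)).comp
      (MonoidHom.toAdditive e.toMonoidHom) = ratHom (φ' : Additive ↥(Gamma0 M) →+ ℤ) := by
    refine AddMonoidHom.ext fun x => ?_
    obtain ⟨γ, rfl⟩ := Additive.ofMul.surjective x
    show ((((φ : Additive ↥(Gamma0 M) →+ ℤ) (Additive.ofMul (e γ)) : ℤ)) : ℚ) = _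
    rw [ratHom_apply, hφ]
  have e2 : (ratHom (ψ : Additive ↥(Gamma0 M) →+ ℤ)).comp
      (MonoidHom.toAdditive e.toMonoidHom) = ratHom (ψ' : Additive ↥(Gamma0 M) →+ ℤ) := by
    refine AddMonoidHom.ext fun x => ?_
    obtain ⟨γ, rfl⟩ := Additive.ofMul.surjective x
    show ((((ψ : Additive ↥(Gamma0 M) →+ ℤ) (Additive.ofMul (e γ)) : ℤ)) : ℚ) = _
    rw [ratHom_apply, hψ]
  rw [e1, e2] at h1
  have h2 := cuspPairing_unique (neg_one_mem_Gamma0 M) (hB φ' ψ') h1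
    (vanishes_on_primSet (vanishesOnPar_of_mem (ratHom_mem φ'.2)))
    (vanishes_on_primSet (vanishesOnPar_of_mem (ratHom_mem ψ'.2)))
  exact_mod_cast h2

end Generic

/-! ### helper21's `wConj` / `wAdd` -/

section W

open Fermat.Agent.P3LR.A.AtkinLehnerSys Fermat.Agent.P3LR.A.AtkinLehnerAdd
open Fermat.Agent.P3LR.A.AtkinLehnerEta

variable (N q : ℕ) [hq : Fact q.Prime] (hqN : ¬ q ∣ N)

/-- the Atkin–Lehner involution on parabolic homomorphisms -/
noncomputable def wPar (A : Type*) [AddCommGroup A] :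
    ↥(parHomAdd (N * q) A) →+ ↥(parHomAdd (N * q) A) where
  toFun φ := ⟨wAdd N q hqN φ, wAdd_mem_parHomAdd N q hqN φ.2⟩
  map_zero' := Subtype.ext (map_zero _)
  map_add' _ _ := Subtype.ext (map_add (wAdd N q hqN) _ _)

@[simp] theorem coe_wPar {A : Type*} [AddCommGroup A] (φ : ↥(parHomAdd (N * q) A)) :
    ((wPar N q hqN A φ : ↥(parHomAdd (N * q) A)) : Additive ↥(Gamma0 (N * q)) →+ A) =
      wAdd N q hqN φ := rfl

theorem wPar_wPar {A : Type*} [AddCommGroup A] (φ : ↥(parHomAdd (N * q) A)) :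
    wPar N q hqN A (wPar N q hqN A φ) = φ :=
  Subtype.ext (wAdd_wAdd N q hqN _)

/-- **invariance of the intrinsic pairing under `w_q`** -/
theorem cuspPairing_wAdd {R : Type*} [CommRing R]
    {lam mu : Additive ↥(Gamma0 (N * q)) →+ R} {v : R}
    (h : IsCuspPairing (primSet (Gamma0 (N * q))) lam mu v) :
    IsCuspPairing (primSet (Gamma0 (N * q))) (wAdd N q hqN lam) (wAdd N q hqN mu) v :=
  cuspPairing_comp (wEquiv N q hqN) (wMat N q hqN) (det_wMat_pos N q hqN)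
    (wMat_mul_coe N q hqN) h

/-- **(W) for `w_q`**: a function computing the intrinsic pairing is `w_q`-invariant. -/
theorem bridge_isometry_wAdd [NeZero (N * q)]
    (B : ↥(parHomAdd (N * q) ℤ) → ↥(parHomAdd (N * q) ℤ) → ℤ)
    (hB : ∀ φ ψ : ↥(parHomAdd (N * q) ℤ), IsCuspPairing (primSet (Gamma0 (N * q)))
      (ratHom (φ : Additive ↥(Gamma0 (N * q)) →+ ℤ))
      (ratHom (ψ : Additive ↥(Gamma0 (N * q)) →+ ℤ)) ((B φ ψ : ℤ) : ℚ))
    (φ ψ : ↥(parHomAdd (N * q) ℤ)) :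
    B (wPar N q hqN ℤ φ) (wPar N q hqN ℤ ψ) = B φ ψ :=
  bridge_isometry (wEquiv N q hqN) (wMat N q hqN) (det_wMat_pos N q hqN)
    (wMat_mul_coe N q hqN) B hB φ ψ _ _ (fun _ => rfl) (fun _ => rfl)

end W

/-! ### `P4.AtkinLehner.alConj` -/

section AL

open Fermat.Agent.P4.AtkinLehner

variable {N q : ℕ} [hq : Fact q.Prime] (hqN : ¬ q ∣ N)

include hqN in
theorem det_alMat_pos : 0 < (alMat N q).det := by
  rw [alMat, det_alGen N q _ _ _ _ (alMat_h hqN)]
  exact_mod_cast hq.out.pos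

/-- **invariance of the intrinsic pairing under `alConj`** -/
theorem cuspPairing_alConj {R : Type*} [CommRing R]
    {lam mu : Additive ↥(Gamma0 (N * q)) →+ R} {v : R}
    (h : IsCuspPairing (primSet (Gamma0 (N * q))) lam mu v) :
    IsCuspPairing (primSet (Gamma0 (N * q)))
      (lam.comp (MonoidHom.toAdditive (alConj hqN)))
      (mu.comp (MonoidHom.toAdditive (alConj hqN))) v :=
  cuspPairing_comp (alEquiv hqN) (alMat N q) (det_alMat_pos hqN) (alMat_mul hqN) h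

/-- **(W) for `alConj`**: a function computing the intrinsic pairing is invariant under
`φ ↦ φ ∘ alConj`. -/
theorem bridge_isometry_alConj [NeZero (N * q)]
    (B : ↥(parHomAdd (N * q) ℤ) → ↥(parHomAdd (N * q) ℤ) → ℤ)
    (hB : ∀ φ ψ : ↥(parHomAdd (N * q) ℤ), IsCuspPairing (primSet (Gamma0 (N * q)))
      (ratHom (φ : Additive ↥(Gamma0 (N * q)) →+ ℤ))
      (ratHom (ψ : Additive ↥(Gamma0 (N * q)) →+ ℤ)) ((B φ ψ : ℤ) : ℚ))
    (φ ψ φ' ψ' : ↥(parHomAdd (N * q) ℤ))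
    (hφ : (φ' : Additive ↥(Gamma0 (N * q)) →+ ℤ) =
      (φ : Additive ↥(Gamma0 (N * q)) →+ ℤ).comp (MonoidHom.toAdditive (alConj hqN)))
    (hψ : (ψ' : Additive ↥(Gamma0 (N * q)) →+ ℤ) =
      (ψ : Additive ↥(Gamma0 (N * q)) →+ ℤ).comp (MonoidHom.toAdditive (alConj hqN))) :
    B φ' ψ' = B φ ψ :=
  bridge_isometry (alEquiv hqN) (alMat N q) (det_alMat_pos hqN) (alMat_mul hqN) B hB φ ψ φ' ψ'
    (fun γ => by rw [hφ]; rfl) (fun γ => by rw [hψ]; rfl)

end AL

end Fermat.Agent.S41.PD.ConjAL
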