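/-
S41 block [PD]: MODEL-SIDE lemmas for the bridge `Φ_Γ = B` (`PD/Intrinsic.lean`), in the conventions
of `PD/Dessin.lean` (`op g v x = v (g x)`, `dS g v = op g v - v`, `⬝ᵥ` the standard form).

Setting of the bridge (helper17 #1239, sign repair #1975, oracle helper22 #2005): cochains on
`G = ⟨S, U⟩` with values in `V = (X → ℤ)`, `Φ(gh) = Φ g + g Φ h`, `Ψ` likewise,
`Ξ(gh) = Ξ g + g Ξ h + Φ g · g Ψ h`, normalised by
`Φ S = Ψ S = Ξ S = 0`, `Φ U = (τ-1)v`, `Ψ U = (τ-1)u`, `Ξ U = -v·(τ-1)u`.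

* (M2) `heis_cube` : the relation `t³ = 1` for `t = (Φ U, Ψ U, Ξ U; τ)` in the Heisenberg group
  (`heis_sq` for `S` is trivial).
* (M3) `xiSeq_eq` : along a cyclic group `⟨g⟩` with `Φ g = (g-1)w`:
  `Ξ(gⁿ) = ∑_{i<n} gⁱ(Ξ g + w·Ψ g) - w·Ψ(gⁿ)`.
* (M1) `pair_eq_bridge` : `B(v,u) = ⟨w_v - v, (τ-1)u⟩`, which is the value
  `∑_x (Ξ(T') + w_v·Ψ(T'))(x)` of the cusp sum for `T' = U S` (`Ξ(T') = Ξ U = -v·(τ-1)u`,
  `Ψ(T') = (τ-1)u`): `sum_bridge`.
Mathlib + `PD/Dessin.lean` only.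
-/
import Mathlib
import Fermat.Agent.S41.PD.Dessin

set_option autoImplicit false
set_option linter.unusedSectionVars false

open Finset BigOperators Matrix

namespace Fermat.Agent.S41.PD.Dessin

variable {X : Type*} [Fintype X]

/-! ### `op` and pointwise products -/

theorem op_mul' (g : Equiv.Perm X) (a b : X → ℤ) : op g (a * b) = op g a * op g b := rfl

theorem sum_op (g : Equiv.Perm X) (f : X → ℤ) : ∑ x, op g f x = ∑ x, f x :=
  Equiv.sum_comp g f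

theorem dot_eq_sum_mul (a b : X → ℤ) : a ⬝ᵥ b = ∑ x, (a * b) x := rfl

/-! ### (M3) cochains along a cyclic group -/

section Cyclic

variable (g : Equiv.Perm X) (A B C : X → ℤ)

/-- `Φ(gⁿ)` for `Φ g = A` -/
def phiSeq : ℕ → (X → ℤ)
  | 0 => 0
  | n + 1 => phiSeq n + op (g ^ n) A

/-- `Ξ(gⁿ)` for `Φ g = A`, `Ψ g = B`, `Ξ g = C` -/
def xiSeq : ℕ → (X → ℤ)
  | 0 => 0
  | n + 1 => xiSeq n + op (g ^ n) C + phiSeq g A n * op (g ^ n) B

@[simp] theorem phiSeq_zero : phiSeq g A 0 = 0 := rfl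

@[simp] theorem phiSeq_succ (n : ℕ) : phiSeq g A (n + 1) = phiSeq g A n + op (g ^ n) A := rfl

@[simp] theorem xiSeq_zero : xiSeq g A B C 0 = 0 := rfl

@[simp] theorem xiSeq_succ (n : ℕ) :
    xiSeq g A B C (n + 1) = xiSeq g A B C n + op (g ^ n) C + phiSeq g A n * op (g ^ n) B := rfl

theorem phiSeq_eq_sum (n : ℕ) : phiSeq g A n = ∑ i ∈ range n, op (g ^ i) A := by
  induction n with
  | zero => simp
  | succ n ih => rw [phiSeq_succ, ih, sum_range_succ]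

/-- `Φ(gⁿ) = (gⁿ - 1) w` when `Φ g = (g - 1) w` -/
theorem phiSeq_of_eq (w : X → ℤ) (hA : A = op g w - w) (n : ℕ) :
    phiSeq g A n = op (g ^ n) w - w := by
  induction n with
  | zero => simp
  | succ n ih =>
    rw [phiSeq_succ, ih, hA, map_sub, op_op, ← pow_succ']
    abel

/-- **(M3)** `Ξ(gⁿ) = ∑_{i<n} gⁱ (C + w·B) - w · Ψ(gⁿ)` when `Φ g = (g-1) w`. -/
theorem xiSeq_eq (w : X → ℤ) (hA : A = op g w - w) (n : ℕ) :
    xiSeq g A B C n = ∑ i ∈ range n, op (g ^ i) (C + w * B) - w * phiSeq g B n := by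
  induction n with
  | zero => simp
  | succ n ih =>
    rw [xiSeq_succ, ih, phiSeq_of_eq g A w hA, sum_range_succ, phiSeq_succ, map_add, op_mul']
    ring

/-- evaluation at a point of period `n`: if `gⁿ x = x` and `Ψ(gⁿ)(x) = 0` then
`Ξ(gⁿ)(x) = ∑_{i<n} (C + w·B)(gⁱ x)`. -/
theorem xiSeq_apply_of_periodic (w : X → ℤ) (hA : A = op g w - w) (n : ℕ) (x : X)
    (hB : phiSeq g B n x = 0) :
    xiSeq g A B C n x = ∑ i ∈ range n, (C + w * B) ((g ^ i) x) := by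
  rw [xiSeq_eq g A B C w hA n]
  simp only [Pi.sub_apply, Pi.mul_apply, hB, mul_zero, sub_zero, Finset.sum_apply, op_apply]

end Cyclic

/-! ### (M2) the Heisenberg relations, (M1) the bridge -/

section Bridge

variable [DecidableEq X] {σ τ : Equiv.Perm X}

namespace IsDessin

variable (h : IsDessin σ τ)
include h

theorem tau_tau_tau (x : X) : τ (τ (τ x)) = x := by
  have := congrArg (fun f : Equiv.Perm X => f x) h.cube
  simpa [Equiv.Perm.mul_apply] using this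

theorem sigma_sigma (x : X) : σ (σ x) = x := by
  have := congrArg (fun f : Equiv.Perm X => f x) h.sq
  simpa [Equiv.Perm.mul_apply] using this

/-- **(M2)** the relation `t³ = 1` in the Heisenberg group, for `t = ((τ-1)v, (τ-1)u, -v·(τ-1)u; τ)`:
`Ξ(U³) = ξ + τξ + τ²ξ + a·τb + (a + τa)·τ²b = 0`. -/
theorem heis_cube (v u : X → ℤ) :
    -(v * dS τ u) + op τ (-(v * dS τ u)) + op τ (op τ (-(v * dS τ u)))
      + dS τ v * op τ (dS τ u) + (dS τ v + op τ (dS τ v)) * op τ (op τ (dS τ u)) = 0 := by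
  funext x
  simp only [dS_apply, Pi.add_apply, Pi.neg_apply, Pi.mul_apply, Pi.sub_apply, op_apply,
    Pi.zero_apply, h.tau_tau_tau]
  ring

/-- the first two components of `t³ = 1` (norm conditions): `a + τa + τ²a = 0` for `a = (τ-1)v`. -/
theorem norm_tau_dS (v : X → ℤ) : dS τ v + op τ (dS τ v) + op τ (op τ (dS τ v)) = 0 := by
  funext x
  simp only [dS_apply, Pi.add_apply, Pi.sub_apply, op_apply, Pi.zero_apply, h.tau_tau_tau]
  ring

/-- **(M1) the bridge formula**: `B(v,u) = ⟨w - v, (τ-1)u⟩` for every witness `w` of `v`. -/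
theorem pair_eq_bridge (v u : Npar σ τ) (w : X → ℤ) (hw : dS τ v = op τ (op σ w) - w) :
    pair v u = (w - (v : X → ℤ)) ⬝ᵥ dS τ u := by
  rw [h.pair_eq v u w hw]
  -- `a = v - w`, `b = v - σ w`, `τ b = a`
  have hab : op τ ((v : X → ℤ) - op σ w) = (v : X → ℤ) - w := by
    rw [dS_apply] at hw
    rw [map_sub]
    have : op τ (v : X → ℤ) = (v : X → ℤ) + (op τ (op σ w) - w) := by rw [← hw]; abel
    rw [this]; abel
  have h1 : ((v : X → ℤ) - w) ⬝ᵥ op τ (u : X → ℤ) = ((v : X → ℤ) - op σ w) ⬝ᵥ (u : X → ℤ) := by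
    rw [← hab, dot_op_op]
  have h2 : (w - (v : X → ℤ)) ⬝ᵥ dS τ u
      = (op σ w - w) ⬝ᵥ (u : X → ℤ) := by
    have e1 : w - (v : X → ℤ) = -((v : X → ℤ) - w) := by abel
    rw [dS_apply, dotProduct_sub, e1, neg_dotProduct, neg_dotProduct, h1]
    simp only [sub_dotProduct]
    ring
  rw [h2, dS_apply, sub_dotProduct, sub_dotProduct, h.dot_S, dotProduct_comm (u : X → ℤ) w,
    dotProduct_comm (u : X → ℤ) (op σ w)]

/-- **the cusp sum in the model**: `∑_x (Ξ(T') + w·Ψ(T'))(x) = B(v,u)` for `Ξ(T') = -v·(τ-1)u`,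
`Ψ(T') = (τ-1)u`. -/
theorem sum_bridge (v u : Npar σ τ) (w : X → ℤ) (hw : dS τ v = op τ (op σ w) - w) :
    ∑ x, (-((v : X → ℤ) * dS τ u) + w * dS τ u) x = pair v u := by
  rw [h.pair_eq_bridge v u w hw, dot_eq_sum_mul]
  refine Finset.sum_congr rfl (fun x _ => ?_)
  simp only [Pi.add_apply, Pi.neg_apply, Pi.mul_apply, Pi.sub_apply]
  ring

end IsDessin

end Bridge

end Fermat.Agent.S41.PD.Dessin
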