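/-
S41 / [PD]: shim.  The dessin model (definitions AND theorems) lives in `PD/Dessin.lean`;
this file only re-exports it under the name announced in the arbiter's ruling.
-/
import Fermat.Agent.S41.PD.Dessin
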