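import Mathlib

/-!
# S41, block [PD], part 1: the combinatorial model of Poincaré duality

`P` a finite set with two permutations `σ` (`σ² = 1`) and `τ` (`τ³ = 1`) generating a transitive
group (for `Γ ⊂ SL₂(ℤ)` of finite index: `P = Γ \ SL₂(ℤ)`, `σ = S`, `τ = S T`).  `Mod = P → ℤ` with
the standard form `m ⬝ᵥ m'`; permutations act by pull-back `m ↦ m ∘ g`.

* `inv g` : the `g`-invariant functions; `Inv σ τ = inv σ ⊔ inv τ`; `A σ τ = Mod ⧸ Inv σ τ`
  (`≅ H¹(Γ, ℤ)` by Shapiro + `PSL₂(ℤ) = C₂ * C₃`).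
* `Bsub σ τ` : the functions with `a + a ∘ σ = 0` and `a + a ∘ τ + a ∘ τ ∘ τ = 0`
  (`≅ H¹_c(Γ, ℤ) ≅ H₁(Γ, ℤ)`: relative cocycles).
* `saturated` : `Inv σ τ` is a saturated submodule (transitivity), hence `A σ τ` is free and
  `dvd_of_forall` : the pairing `A × B → ℤ` is perfect on the `A`-side.
* `exists_sigma`, `exists_tau` : `H¹` of a finite cyclic group with values in a permutation module
  vanishes (explicit primitives).
-/

set_option autoImplicit false
set_option linter.unusedSectionVars false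
set_option linter.unusedVariables false
set_option linter.style.haveILetI false

open scoped BigOperators

namespace Fermat.Agent.S41.PD.Model

variable {P : Type*} [Fintype P] [DecidableEq P]

/-- The hypotheses on the two permutations. -/
structure Dessin (σ τ : Equiv.Perm P) : Prop where
  sq : ∀ x, σ (σ x) = x
  cube : ∀ x, τ (τ (τ x)) = x
  conn : ∀ S : Set P, S.Nonempty → (∀ x ∈ S, σ x ∈ S) → (∀ x ∈ S, τ x ∈ S) → S = Set.univ

/-- The functions invariant under a permutation. -/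
def inv (g : Equiv.Perm P) : Submodule ℤ (P → ℤ) where
  carrier := {s | ∀ x, s (g x) = s x}
  add_mem' := by
    intro a b ha hb x
    simp only [Pi.add_apply, ha x, hb x]
  zero_mem' := by intro x; rfl
  smul_mem' := by
    intro c a ha x
    simp only [Pi.smul_apply, ha x]

theorem mem_inv {g : Equiv.Perm P} {s : P → ℤ} : s ∈ inv g ↔ ∀ x, s (g x) = s x := Iff.rfl

/-- `a + a ∘ σ = 0`. -/
def Ksig (σ : Equiv.Perm P) : Submodule ℤ (P → ℤ) where
  carrier := {a | ∀ x, a x + a (σ x) = 0}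
  add_mem' := by
    intro a b ha hb x
    have h1 := ha x
    have h2 := hb x
    simp only [Pi.add_apply]
    linarith
  zero_mem' := by intro x; simp
  smul_mem' := by
    intro c a ha x
    have h1 := ha x
    simp only [Pi.smul_apply, smul_eq_mul]
    rw [← mul_add, h1, mul_zero]

theorem mem_Ksig {σ : Equiv.Perm P} {a : P → ℤ} : a ∈ Ksig σ ↔ ∀ x, a x + a (σ x) = 0 := Iff.rfl

/-- `a + a ∘ τ + a ∘ τ ∘ τ = 0`. -/
def Ktau (τ : Equiv.Perm P) : Submodule ℤ (P → ℤ) where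
  carrier := {a | ∀ x, a x + a (τ x) + a (τ (τ x)) = 0}
  add_mem' := by
    intro a b ha hb x
    have h1 := ha x
    have h2 := hb x
    simp only [Pi.add_apply]
    linarith
  zero_mem' := by intro x; simp
  smul_mem' := by
    intro c a ha x
    have h1 := ha x
    simp only [Pi.smul_apply, smul_eq_mul]
    rw [← mul_add, ← mul_add, h1, mul_zero]

theorem mem_Ktau {τ : Equiv.Perm P} {a : P → ℤ} :
    a ∈ Ktau τ ↔ ∀ x, a x + a (τ x) + a (τ (τ x)) = 0 := Iff.rfl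

/-- `B = K_σ ∩ K_τ`. -/
def Bsub (σ τ : Equiv.Perm P) : Submodule ℤ (P → ℤ) := Ksig σ ⊓ Ktau τ

theorem mem_Bsub {σ τ : Equiv.Perm P} {a : P → ℤ} :
    a ∈ Bsub σ τ ↔ (∀ x, a x + a (σ x) = 0) ∧ ∀ x, a x + a (τ x) + a (τ (τ x)) = 0 := Iff.rfl

/-- `Inv = Mod^σ + Mod^τ`. -/
def Inv (σ τ : Equiv.Perm P) : Submodule ℤ (P → ℤ) := inv σ ⊔ inv τ

/-- `A = Mod / (Mod^σ + Mod^τ)`. -/
abbrev A (σ τ : Equiv.Perm P) : Type _ := (P → ℤ) ⧸ Inv σ τ

/-! ### Reindexing the standard form -/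

theorem dot_comp (g : Equiv.Perm P) (m m' : P → ℤ) : (m ∘ g) ⬝ᵥ (m' ∘ g) = m ⬝ᵥ m' :=
  comp_equiv_dotProduct_comp_equiv m m' g

theorem dot_eq_sum (m m' : P → ℤ) : m ⬝ᵥ m' = ∑ x, m x * m' x := rfl

/-- `Mod^σ ⊥ K_σ`. -/
theorem dot_eq_zero_of_inv_Ksig {σ : Equiv.Perm P} {s a : P → ℤ} (hs : s ∈ inv σ)
    (ha : a ∈ Ksig σ) : s ⬝ᵥ a = 0 := by
  have h1 : (s ∘ σ) ⬝ᵥ (a ∘ σ) = s ⬝ᵥ a := dot_comp σ s a
  have h2 : s ∘ σ = s := funext fun x => hs x
  rw [h2] at h1
  have h3 : s ⬝ᵥ a + s ⬝ᵥ (a ∘ σ) = 0 := by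
    rw [← dotProduct_add]
    have : a + a ∘ σ = 0 := funext fun x => ha x
    rw [this, dotProduct_zero]
  linarith

/-- `Mod^τ ⊥ K_τ`. -/
theorem dot_eq_zero_of_inv_Ktau {τ : Equiv.Perm P} {t a : P → ℤ} (ht : t ∈ inv τ)
    (ha : a ∈ Ktau τ) : t ⬝ᵥ a = 0 := by
  have e : t ∘ τ = t := funext fun x => ht x
  have h1 : t ⬝ᵥ (a ∘ τ) = t ⬝ᵥ (a ∘ τ ∘ τ) := by
    have := dot_comp τ t (a ∘ τ)
    rw [e] at this
    exact this.symm
  have h2 : t ⬝ᵥ a = t ⬝ᵥ (a ∘ τ) := by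
    have := dot_comp τ t a
    rw [e] at this
    exact this.symm
  have h3 : t ⬝ᵥ a + t ⬝ᵥ (a ∘ τ) + t ⬝ᵥ (a ∘ τ ∘ τ) = 0 := by
    rw [← dotProduct_add, ← dotProduct_add]
    have : a + a ∘ τ + a ∘ τ ∘ τ = 0 := funext fun x => ha x
    rw [this, dotProduct_zero]
  linarith

/-- `Inv ⊥ B`. -/
theorem dot_eq_zero_of_Inv_Bsub {σ τ : Equiv.Perm P} {m a : P → ℤ} (hm : m ∈ Inv σ τ)
    (ha : a ∈ Bsub σ τ) : m ⬝ᵥ a = 0 := by
  obtain ⟨s, hs, t, ht, rfl⟩ := Submodule.mem_sup.1 hm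
  rw [add_dotProduct, dot_eq_zero_of_inv_Ksig hs ha.1, dot_eq_zero_of_inv_Ktau ht ha.2, add_zero]

/-! ### (F1) `Inv` is saturated -/

theorem saturated {σ τ : Equiv.Perm P} (h : Dessin σ τ) (k : ℤ) (hk : k ≠ 0) (m : P → ℤ)
    (hm : k • m ∈ Inv σ τ) : m ∈ Inv σ τ := by
  obtain ⟨s, hs, t, ht, hst⟩ := Submodule.mem_sup.1 hm
  have hx : ∀ x, s x + t x = k * m x := fun x => by
    have := congrFun hst x
    simpa using this
  rcases isEmpty_or_nonempty P with hP | ⟨⟨x₀⟩⟩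
  · have : m = 0 := funext fun x => (hP.false x).elim
    rw [this]
    exact Submodule.zero_mem _
  -- `s` is constant modulo `k`
  have hS : {x | k ∣ s x - s x₀} = Set.univ := by
    apply h.conn _ ⟨x₀, by simp⟩
    · intro x hx'
      simp only [Set.mem_ofPred_eq] at hx' ⊢
      rw [hs x]
      exact hx'
    · intro x hx'
      simp only [Set.mem_ofPred_eq] at hx' ⊢
      have h1 := hx x
      have h2 := hx (τ x)
      have h3 := ht x
      have : s (τ x) - s x₀ = (s x - s x₀) + k * (m (τ x) - m x) := by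
        rw [h3] at h2
        linarith
      rw [this]
      exact dvd_add hx' (dvd_mul_right _ _)
  have hdiv : ∀ x, k ∣ s x - s x₀ := fun x => by
    have : x ∈ {x | k ∣ s x - s x₀} := by rw [hS]; trivial
    exact this
  choose s' hs' using hdiv
  have hs'inv : s' ∈ inv σ := by
    intro x
    have h1 := hs' (σ x)
    have h2 := hs' x
    rw [hs x] at h1
    have : k * s' (σ x) = k * s' x := by rw [← h1, ← h2]
    exact mul_left_cancel₀ hk this
  have ht'inv : (m - s') ∈ inv τ := by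
    intro x
    have h1 := hs' (τ x)
    have h2 := hs' x
    have h3 := hx x
    have h4 := hx (τ x)
    have h5 := ht x
    have : k * (m (τ x) - s' (τ x)) = k * (m x - s' x) := by
      rw [mul_sub, mul_sub, ← h1, ← h2, ← h3, ← h4, h5]
      ring
    simp only [Pi.sub_apply]
    exact mul_left_cancel₀ hk this
  have : m = s' + (m - s') := by abel
  rw [this]
  exact Submodule.add_mem_sup hs'inv ht'inv

/-- `A` is torsion-free. -/
theorem isTorsionFree {σ τ : Equiv.Perm P} (h : Dessin σ τ) : Module.IsTorsionFree ℤ (A σ τ) := by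
  apply Module.IsTorsionFree.of_smul_eq_zero
  intro k α hα
  by_cases hk : k = 0
  · exact Or.inl hk
  right
  obtain ⟨m, rfl⟩ := Submodule.Quotient.mk_surjective _ α
  rw [← Submodule.Quotient.mk_smul, Submodule.Quotient.mk_eq_zero] at hα
  rw [Submodule.Quotient.mk_eq_zero]
  exact saturated h k hk m hα

/-! ### (F2) the pairing `A × B → ℤ` is perfect on the `A`-side -/

theorem sq_symm {σ : Equiv.Perm P} (hsq : ∀ x, σ (σ x) = x) {x y : P} : σ y = x ↔ y = σ x := by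
  constructor
  · intro h; rw [← h, hsq]
  · intro h; rw [h, hsq]

theorem cube_symm {τ : Equiv.Perm P} (hc : ∀ x, τ (τ (τ x)) = x) {x y : P} :
    τ y = x ↔ y = τ (τ x) := by
  constructor
  · intro h; rw [← h, hc]
  · intro h; rw [h, hc]

theorem single_add_single_mem_inv {σ : Equiv.Perm P} (hsq : ∀ x, σ (σ x) = x) (x : P) :
    (Pi.single x 1 + Pi.single (σ x) 1 : P → ℤ) ∈ inv σ := by
  intro y
  simp only [Pi.add_apply, Pi.single_apply, sq_symm hsq, hsq]
  ring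

theorem single_add_single_add_single_mem_inv {τ : Equiv.Perm P} (hc : ∀ x, τ (τ (τ x)) = x)
    (x : P) :
    (Pi.single x 1 + Pi.single (τ x) 1 + Pi.single (τ (τ x)) 1 : P → ℤ) ∈ inv τ := by
  intro y
  simp only [Pi.add_apply, Pi.single_apply, cube_symm hc, hc]
  ring

/-- every functional on `A` is the pairing with an element of `B`. -/
theorem exists_Bsub_of_functional {σ τ : Equiv.Perm P} (h : Dessin σ τ) (f : A σ τ →ₗ[ℤ] ℤ) :
    ∃ a ∈ Bsub σ τ, ∀ m : P → ℤ, f (Submodule.Quotient.mk m) = m ⬝ᵥ a := by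
  refine ⟨fun x => f (Submodule.Quotient.mk (Pi.single x 1)), ⟨?_, ?_⟩, ?_⟩
  · intro x
    show f _ + f _ = 0
    rw [← map_add, ← Submodule.Quotient.mk_add]
    have : (Submodule.Quotient.mk (Pi.single x 1 + Pi.single (σ x) 1 : P → ℤ) : A σ τ) = 0 := by
      rw [Submodule.Quotient.mk_eq_zero]
      exact Submodule.mem_sup_left (single_add_single_mem_inv h.sq x)
    rw [this, map_zero]
  · intro x
    show f _ + f _ + f _ = 0
    rw [← map_add, ← map_add, ← Submodule.Quotient.mk_add, ← Submodule.Quotient.mk_add]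
    have : (Submodule.Quotient.mk
        (Pi.single x 1 + Pi.single (τ x) 1 + Pi.single (τ (τ x)) 1 : P → ℤ) : A σ τ) = 0 := by
      rw [Submodule.Quotient.mk_eq_zero]
      exact Submodule.mem_sup_right (single_add_single_add_single_mem_inv h.cube x)
    rw [this, map_zero]
  · intro m
    have hm : m = ∑ x, m x • (Pi.single x 1 : P → ℤ) := by
      funext y
      simp [Finset.sum_apply, Pi.single_apply]
    conv_lhs => rw [hm]
    rw [dot_eq_sum]
    have : (Submodule.Quotient.mk (∑ x, m x • (Pi.single x 1 : P → ℤ)) : A σ τ) =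
        ∑ x, m x • (Submodule.Quotient.mk (Pi.single x 1 : P → ℤ) : A σ τ) := by
      rw [← Submodule.mkQ_apply, map_sum]
      rfl
    rw [this, map_sum]
    refine Finset.sum_congr rfl fun x _ => ?_
    rw [map_smul, smul_eq_mul]

/-- **(F2)**: if `k` divides the pairing of `m` with every element of `B` then `m ∈ k Mod + Inv`. -/
theorem dvd_of_forall {σ τ : Equiv.Perm P} (h : Dessin σ τ) (k : ℤ) (m : P → ℤ)
    (hm : ∀ a ∈ Bsub σ τ, k ∣ m ⬝ᵥ a) : ∃ m₁ : P → ℤ, m - k • m₁ ∈ Inv σ τ := by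
  haveI := isTorsionFree h
  haveI : Module.Free ℤ (A σ τ) := Module.free_of_finite_type_torsion_free'
  let b := Module.Free.chooseBasis ℤ (A σ τ)
  have key : ∀ f : A σ τ →ₗ[ℤ] ℤ, k ∣ f (Submodule.Quotient.mk m) := by
    intro f
    obtain ⟨a, ha, hf⟩ := exists_Bsub_of_functional h f
    rw [hf]
    exact hm a ha
  choose c hc using fun i => key (b.coord i)
  obtain ⟨m₁, hm₁⟩ := Submodule.Quotient.mk_surjective (Inv σ τ) (∑ i, c i • b i)
  refine ⟨m₁, ?_⟩
  rw [← Submodule.Quotient.mk_eq_zero, Submodule.Quotient.mk_sub, Submodule.Quotient.mk_smul, hm₁,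
    sub_eq_zero]
  conv_lhs => rw [← b.sum_repr (Submodule.Quotient.mk m)]
  rw [Finset.smul_sum]
  refine Finset.sum_congr rfl fun i _ => ?_
  have := hc i
  rw [Module.Basis.coord_apply] at this
  rw [this, mul_smul]

/-! ### Explicit primitives: `H¹(C_n, permutation module) = 0` for `n = 2, 3` -/

/-- a ranking of the finite set `P`. -/
noncomputable def rk (x : P) : ℕ := (Fintype.equivFin P x : ℕ)

theorem rk_injective : Function.Injective (rk : P → ℕ) := by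
  intro x y hxy
  exact (Fintype.equivFin P).injective (Fin.ext hxy)

theorem exists_sigma {σ : Equiv.Perm P} (hsq : ∀ x, σ (σ x) = x) {a : P → ℤ} (ha : a ∈ Ksig σ) :
    ∃ a₀ : P → ℤ, ∀ x, a₀ (σ x) - a₀ x = a x := by
  refine ⟨fun x => if rk (σ x) < rk x then a (σ x) else 0, fun x => ?_⟩
  have h1 := ha x
  simp only [hsq]
  by_cases hfix : σ x = x
  · rw [hfix] at h1 ⊢
    simp only [lt_irrefl, if_false]
    omega
  · have hne : rk (σ x) ≠ rk x := fun hh => hfix (rk_injective hh)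
    split_ifs <;> omega

theorem exists_tau {τ : Equiv.Perm P} (hc : ∀ x, τ (τ (τ x)) = x) {b : P → ℤ} (hb : b ∈ Ktau τ) :
    ∃ w : P → ℤ, ∀ x, w (τ x) - w x = b x := by
  refine ⟨fun x => if rk x ≤ rk (τ x) ∧ rk x ≤ rk (τ (τ x)) then 0
    else if rk (τ (τ x)) ≤ rk x ∧ rk (τ (τ x)) ≤ rk (τ x) then b (τ (τ x))
    else b (τ x) + b (τ (τ x)), fun x => ?_⟩
  have h1 := hb x
  simp only [hc]
  by_cases hfix : τ x = x
  · simp only [hfix] at h1 ⊢
    simp only [le_refl, and_self, if_true]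
    omega
  · have h12 : rk (τ x) ≠ rk x := fun hh => hfix (rk_injective hh)
    have h23 : rk (τ (τ x)) ≠ rk (τ x) := fun hh => hfix (τ.injective (rk_injective hh))
    have h13 : rk (τ (τ x)) ≠ rk x := fun hh => by
      apply hfix
      have e : τ (τ x) = x := rk_injective hh
      have := hc x
      rw [e] at this
      exact this
    split_ifs <;> omega

/-! ### The maps `δ_σ`, `δ_τ` and their inverses `D_σ`, `D_τ` into `A` -/

section D

variable {σ τ : Equiv.Perm P}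

/-- `a₀ ↦ a₀ ∘ g - a₀`. -/
def delta (g : Equiv.Perm P) : (P → ℤ) →ₗ[ℤ] (P → ℤ) := LinearMap.funLeft ℤ ℤ g - LinearMap.id

@[simp] theorem delta_apply (g : Equiv.Perm P) (m : P → ℤ) (x : P) :
    delta g m x = m (g x) - m x := rfl

theorem delta_mem_Ksig (hsq : ∀ x, σ (σ x) = x) (m : P → ℤ) : delta σ m ∈ Ksig σ := by
  intro x
  simp only [delta_apply, hsq]
  ring

theorem delta_mem_Ktau (hc : ∀ x, τ (τ (τ x)) = x) (m : P → ℤ) : delta τ m ∈ Ktau τ := by
  intro x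
  simp only [delta_apply, hc]
  ring

/-- `δ_σ : Mod → K_σ`. -/
def deltaSig (hsq : ∀ x, σ (σ x) = x) : (P → ℤ) →ₗ[ℤ] Ksig σ :=
  LinearMap.codRestrict (Ksig σ) (delta σ) (delta_mem_Ksig hsq)

/-- `δ_τ : Mod → K_τ`. -/
def deltaTau (hc : ∀ x, τ (τ (τ x)) = x) : (P → ℤ) →ₗ[ℤ] Ktau τ :=
  LinearMap.codRestrict (Ktau τ) (delta τ) (delta_mem_Ktau hc)

theorem deltaSig_surjective (hsq : ∀ x, σ (σ x) = x) : Function.Surjective (deltaSig hsq) := by
  rintro ⟨a, ha⟩
  obtain ⟨a₀, h0⟩ := exists_sigma hsq ha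
  exact ⟨a₀, Subtype.ext (funext h0)⟩

theorem deltaTau_surjective (hc : ∀ x, τ (τ (τ x)) = x) : Function.Surjective (deltaTau hc) := by
  rintro ⟨b, hb⟩
  obtain ⟨w, h0⟩ := exists_tau hc hb
  exact ⟨w, Subtype.ext (funext h0)⟩

theorem ker_delta (g : Equiv.Perm P) : LinearMap.ker (delta g) = inv g := by
  ext m
  rw [LinearMap.mem_ker, mem_inv]
  constructor
  · intro h x
    have := congrFun h x
    simp only [delta_apply, Pi.zero_apply] at this
    linarith
  · intro h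
    funext x
    simp only [delta_apply, Pi.zero_apply, h x, sub_self]

theorem ker_deltaSig (hsq : ∀ x, σ (σ x) = x) : LinearMap.ker (deltaSig hsq) = inv σ := by
  rw [deltaSig, LinearMap.ker_codRestrict, ker_delta]

theorem ker_deltaTau (hc : ∀ x, τ (τ (τ x)) = x) : LinearMap.ker (deltaTau hc) = inv τ := by
  rw [deltaTau, LinearMap.ker_codRestrict, ker_delta]

/-- `D_σ : K_σ → A`, the inverse of `δ_σ` followed by the projection. -/
noncomputable def Dsig (h : Dessin σ τ) : Ksig σ →ₗ[ℤ] A σ τ :=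
  (Submodule.mapQ (LinearMap.ker (deltaSig h.sq)) (Inv σ τ) LinearMap.id (by
      rw [ker_deltaSig]
      intro m hm
      exact Submodule.mem_sup_left hm)).comp
    ((deltaSig h.sq).quotKerEquivOfSurjective (deltaSig_surjective h.sq)).symm.toLinearMap

/-- `D_τ : K_τ → A`. -/
noncomputable def Dtau (h : Dessin σ τ) : Ktau τ →ₗ[ℤ] A σ τ :=
  (Submodule.mapQ (LinearMap.ker (deltaTau h.cube)) (Inv σ τ) LinearMap.id (by
      rw [ker_deltaTau]
      intro m hm
      exact Submodule.mem_sup_right hm)).comp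
    ((deltaTau h.cube).quotKerEquivOfSurjective (deltaTau_surjective h.cube)).symm.toLinearMap

theorem Dsig_deltaSig (h : Dessin σ τ) (m : P → ℤ) :
    Dsig h (deltaSig h.sq m) = Submodule.Quotient.mk m := by
  rw [Dsig, LinearMap.comp_apply, LinearEquiv.coe_coe,
    LinearMap.quotKerEquivOfSurjective_symm_apply, Submodule.mapQ_apply]
  rfl

theorem Dtau_deltaTau (h : Dessin σ τ) (m : P → ℤ) :
    Dtau h (deltaTau h.cube m) = Submodule.Quotient.mk m := by
  rw [Dtau, LinearMap.comp_apply, LinearEquiv.coe_coe,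
    LinearMap.quotKerEquivOfSurjective_symm_apply, Submodule.mapQ_apply]
  rfl

/-- `a ↦ -(a ∘ τ)`, from `B` to `K_τ`. -/
def twist (τ' : Equiv.Perm P) (σ' : Equiv.Perm P) : Bsub σ' τ' →ₗ[ℤ] Ktau τ' :=
  LinearMap.codRestrict (Ktau τ') ((-(LinearMap.funLeft ℤ ℤ τ')).comp (Bsub σ' τ').subtype) (by
    rintro ⟨a, ha⟩ x
    have := ha.2 (τ' x)
    simp only [LinearMap.comp_apply, Submodule.subtype_apply, LinearMap.neg_apply,
      LinearMap.funLeft_apply, Pi.neg_apply, Function.comp_apply]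
    linarith)

theorem twist_apply (a : Bsub σ τ) (x : P) : (twist τ σ a : P → ℤ) x = -(a : P → ℤ) (τ x) := rfl

/-- the inclusion `B → K_σ`. -/
def incSig (σ τ : Equiv.Perm P) : Bsub σ τ →ₗ[ℤ] Ksig σ :=
  Submodule.inclusion (show Bsub σ τ ≤ Ksig σ from inf_le_left)

theorem incSig_apply (a : Bsub σ τ) : (incSig σ τ a : P → ℤ) = (a : P → ℤ) := rfl

/-- **`D : B → A`**, `D a = [a₀ - w]` with `a₀ ∘ σ - a₀ = a`, `w ∘ τ - w = -(a ∘ τ)`. -/
noncomputable def D (h : Dessin σ τ) : Bsub σ τ →ₗ[ℤ] A σ τ :=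
  (Dsig h).comp (incSig σ τ) - (Dtau h).comp (twist τ σ)

theorem D_eq (h : Dessin σ τ) (a : Bsub σ τ) (a₀ w : P → ℤ)
    (h0 : ∀ x, a₀ (σ x) - a₀ x = (a : P → ℤ) x)
    (hw : ∀ x, w (τ x) - w x = -(a : P → ℤ) (τ x)) :
    D h a = Submodule.Quotient.mk (a₀ - w) := by
  have e1 : incSig σ τ a = deltaSig h.sq a₀ := Subtype.ext (funext fun x => (h0 x).symm)
  have e2 : twist τ σ a = deltaTau h.cube w := Subtype.ext (funext fun x => (hw x).symm)
  rw [D, LinearMap.sub_apply, LinearMap.comp_apply, LinearMap.comp_apply, e1, e2, Dsig_deltaSig,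
    Dtau_deltaTau, Submodule.Quotient.mk_sub]

theorem exists_D_eq (h : Dessin σ τ) (a : Bsub σ τ) :
    ∃ a₀ w : P → ℤ, (∀ x, a₀ (σ x) - a₀ x = (a : P → ℤ) x) ∧
      (∀ x, w (τ x) - w x = -(a : P → ℤ) (τ x)) ∧ D h a = Submodule.Quotient.mk (a₀ - w) := by
  obtain ⟨a₀, h0⟩ := exists_sigma h.sq a.2.1
  obtain ⟨w, hw⟩ := exists_tau h.cube (twist τ σ a).2
  exact ⟨a₀, w, h0, hw, D_eq h a a₀ w h0 hw⟩

/-- `6 D(a) = -[a + 2 a ∘ τ]`. -/
theorem six_smul_D (h : Dessin σ τ) (a : Bsub σ τ) :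
    (6 : ℤ) • D h a =
      -(Submodule.Quotient.mk ((a : P → ℤ) + (2 : ℤ) • ((a : P → ℤ) ∘ τ)) : A σ τ) := by
  have ha1 := a.2.1
  have ha2 := a.2.2
  -- `2 D_σ(a) = [-a]`
  have e1 : (2 : ℤ) • incSig σ τ a = deltaSig h.sq (-(a : P → ℤ)) := by
    apply Subtype.ext
    funext x
    have := ha1 x
    show (2 : ℤ) • (a : P → ℤ) x = delta σ (-(a : P → ℤ)) x
    simp only [delta_apply, Pi.neg_apply, smul_eq_mul]
    linarith
  -- `3 D_τ(-a∘τ) = [a∘τ∘τ + 2 a∘τ]`
  have e2 : (3 : ℤ) • twist τ σ a =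
      deltaTau h.cube ((a : P → ℤ) ∘ τ ∘ τ + (2 : ℤ) • ((a : P → ℤ) ∘ τ)) := by
    apply Subtype.ext
    funext x
    have h1 := ha2 x
    have h2 := h.cube x
    show (3 : ℤ) • (-(a : P → ℤ) (τ x)) = delta τ _ x
    simp only [delta_apply, Pi.add_apply, Pi.smul_apply, Function.comp_apply, smul_eq_mul, h2]
    linarith
  have e3 : (6 : ℤ) • D h a = (3 : ℤ) • ((2 : ℤ) • (Dsig h) (incSig σ τ a)) -
      (2 : ℤ) • ((3 : ℤ) • (Dtau h) (twist τ σ a)) := by
    rw [D, LinearMap.sub_apply, LinearMap.comp_apply, LinearMap.comp_apply, smul_sub, smul_smul,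
      smul_smul]
    norm_num
  rw [e3, ← map_smul, ← map_smul (Dtau h), e1, e2, Dsig_deltaSig, Dtau_deltaTau,
    ← Submodule.Quotient.mk_smul, ← Submodule.Quotient.mk_smul, ← Submodule.Quotient.mk_sub,
    ← Submodule.Quotient.mk_neg]
  congr 1
  funext x
  have h1 := ha2 x
  simp only [Pi.sub_apply, Pi.smul_apply, Pi.neg_apply, Pi.add_apply, Function.comp_apply,
    smul_eq_mul]
  linarith

end D

/-! ### The evaluation pairing and the form on `B` -/

section Pairing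

variable {σ τ : Equiv.Perm P}

/-- `m ↦ (a ↦ m ⬝ᵥ a)` on `Mod × B`. -/
def dotB (σ τ : Equiv.Perm P) : (P → ℤ) →ₗ[ℤ] (Bsub σ τ →ₗ[ℤ] ℤ) :=
  LinearMap.mk₂ ℤ (fun m (a : Bsub σ τ) => m ⬝ᵥ (a : P → ℤ))
    (fun m₁ m₂ a => add_dotProduct m₁ m₂ _)
    (fun c m a => smul_dotProduct c m _)
    (fun m a₁ a₂ => dotProduct_add m _ _)
    (fun c m a => dotProduct_smul c m _)

@[simp] theorem dotB_apply (m : P → ℤ) (a : Bsub σ τ) : dotB σ τ m a = m ⬝ᵥ (a : P → ℤ) := rfl

/-- the evaluation pairing `A × B → ℤ`. -/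
def ev (σ τ : Equiv.Perm P) : A σ τ →ₗ[ℤ] (Bsub σ τ →ₗ[ℤ] ℤ) :=
  Submodule.liftQ (Inv σ τ) (dotB σ τ) (by
    intro m hm
    rw [LinearMap.mem_ker]
    ext a
    exact dot_eq_zero_of_Inv_Bsub hm a.2)

@[simp] theorem ev_mk (m : P → ℤ) (a : Bsub σ τ) :
    ev σ τ (Submodule.Quotient.mk m) a = m ⬝ᵥ (a : P → ℤ) := rfl

/-- the form `(D a, a')` on `B`. -/
noncomputable def form₂ (h : Dessin σ τ) : Bsub σ τ →ₗ[ℤ] (Bsub σ τ →ₗ[ℤ] ℤ) :=
  (ev σ τ).comp (D h)

theorem form₂_apply (h : Dessin σ τ) (a a' : Bsub σ τ) : form₂ h a a' = ev σ τ (D h a) a' := rfl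

theorem six_mul_form₂ (h : Dessin σ τ) (a a' : Bsub σ τ) :
    6 * form₂ h a a' = -(((a : P → ℤ) + (2 : ℤ) • ((a : P → ℤ) ∘ τ)) ⬝ᵥ (a' : P → ℤ)) := by
  have := six_smul_D h a
  rw [form₂_apply, ← smul_eq_mul, ← LinearMap.smul_apply, ← map_smul, this, map_neg,
    LinearMap.neg_apply, ev_mk]

/-- **(F3)** the form is antisymmetric. -/
theorem form₂_antisymm (h : Dessin σ τ) (a a' : Bsub σ τ) : form₂ h a a' = -form₂ h a' a := by
  have h1 := six_mul_form₂ h a a'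
  have h2 := six_mul_form₂ h a' a
  rw [add_dotProduct, smul_dotProduct, smul_eq_mul] at h1 h2
  -- the three sums
  have e0 : (a' : P → ℤ) ⬝ᵥ (a : P → ℤ) = (a : P → ℤ) ⬝ᵥ (a' : P → ℤ) := dotProduct_comm _ _
  have e1 : ((a' : P → ℤ) ∘ τ) ⬝ᵥ (a : P → ℤ) =
      ∑ x, (a : P → ℤ) (τ (τ x)) * (a' : P → ℤ) x := by
    rw [dot_eq_sum]
    rw [← Equiv.sum_comp τ (fun x => (a : P → ℤ) (τ (τ x)) * (a' : P → ℤ) x)]
    refine Finset.sum_congr rfl fun x _ => ?_
    simp only [Function.comp_apply, h.cube]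
    ring
  have e2 : (a : P → ℤ) ⬝ᵥ (a' : P → ℤ) + ((a : P → ℤ) ∘ τ) ⬝ᵥ (a' : P → ℤ) +
      ∑ x, (a : P → ℤ) (τ (τ x)) * (a' : P → ℤ) x = 0 := by
    rw [dot_eq_sum, dot_eq_sum, ← Finset.sum_add_distrib, ← Finset.sum_add_distrib]
    refine Finset.sum_eq_zero fun x _ => ?_
    have := a.2.2 x
    simp only [Function.comp_apply]
    rw [← add_mul, ← add_mul, this, zero_mul]
  rw [e0, e1] at h2
  linarith

end Pairing

/-! ### (F4) the range of `D`: the parabolic classes -/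

section Par

variable {σ τ : Equiv.Perm P}

/-- the parabolic representatives: `m ∘ τ - m` is a coboundary for `U = σ ∘ τ`. -/
def Par (σ τ : Equiv.Perm P) : Submodule ℤ (P → ℤ) where
  carrier := {m | ∃ r : P → ℤ, ∀ x, m (τ x) - m x = r (σ (τ x)) - r x}
  add_mem' := by
    rintro m m' ⟨r, hr⟩ ⟨r', hr'⟩
    refine ⟨r + r', fun x => ?_⟩
    have h1 := hr x
    have h2 := hr' x
    simp only [Pi.add_apply]
    linarith
  zero_mem' := ⟨0, fun x => by simp⟩
  smul_mem' := by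
    rintro c m ⟨r, hr⟩
    refine ⟨c • r, fun x => ?_⟩
    have h1 := hr x
    simp only [Pi.smul_apply, smul_eq_mul]
    rw [← mul_sub, ← mul_sub, h1]

theorem mem_Par {m : P → ℤ} :
    m ∈ Par σ τ ↔ ∃ r : P → ℤ, ∀ x, m (τ x) - m x = r (σ (τ x)) - r x := Iff.rfl

theorem Inv_le_Par : Inv σ τ ≤ Par σ τ := by
  apply sup_le
  · intro s hs
    exact ⟨s, fun x => by rw [hs (τ x)]⟩
  · intro t ht
    exact ⟨0, fun x => by rw [ht x]; simp⟩

/-- coboundaries of a permutation form a saturated submodule. -/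
theorem cobound_saturated (g : Equiv.Perm P) (k : ℤ) (hk : k ≠ 0) (f r : P → ℤ)
    (h : ∀ x, k * f x = r (g x) - r x) : ∃ r' : P → ℤ, ∀ x, f x = r' (g x) - r' x := by
  refine ⟨fun x => r x / k, fun x => ?_⟩
  have h1 : r (g x) = r x + k * f x := by have := h x; linarith
  have h2 : r (g x) % k = r x % k := by rw [h1, Int.add_mul_emod_self_left]
  have h3 := Int.mul_ediv_add_emod (r (g x)) k
  have h4 := Int.mul_ediv_add_emod (r x) k
  have h5 : k * f x = k * (r (g x) / k - r x / k) := by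
    rw [mul_sub]
    have := h x
    linarith
  exact mul_left_cancel₀ hk h5

theorem Par_saturated (k : ℤ) (hk : k ≠ 0) (m : P → ℤ) (hm : k • m ∈ Par σ τ) : m ∈ Par σ τ := by
  obtain ⟨r, hr⟩ := hm
  obtain ⟨r', hr'⟩ := cobound_saturated (τ.trans σ) k hk (fun x => m (τ x) - m x) r (fun x => by
    have := hr x
    simp only [Pi.smul_apply, smul_eq_mul] at this
    simp only [Equiv.trans_apply]
    rw [mul_sub]
    exact this)
  exact ⟨r', fun x => hr' x⟩

/-- `D(B)` consists of parabolic classes. -/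
theorem D_mem_Par (h : Dessin σ τ) (a : Bsub σ τ) :
    ∃ m ∈ Par σ τ, D h a = Submodule.Quotient.mk m := by
  obtain ⟨a₀, w, h0, hw, hD⟩ := exists_D_eq h a
  refine ⟨a₀ - w, ⟨a₀, fun x => ?_⟩, hD⟩
  have h1 := hw x
  have h2 := h0 (τ x)
  simp only [Pi.sub_apply]
  linarith

/-- every parabolic class is in `D(B)`. -/
theorem exists_D_eq_mk (h : Dessin σ τ) {m : P → ℤ} (hm : m ∈ Par σ τ) :
    ∃ a : Bsub σ τ, D h a = Submodule.Quotient.mk m := by
  obtain ⟨r, hr⟩ := hm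
  have hw : ∀ x, (r - m) (τ x) - (r - m) x = -(delta σ r) (τ x) := by
    intro x
    have := hr x
    simp only [Pi.sub_apply, delta_apply]
    linarith
  have ha1 : delta σ r ∈ Ksig σ := delta_mem_Ksig h.sq r
  have ha2 : delta σ r ∈ Ktau τ := by
    intro x
    have k0 := delta_mem_Ktau h.cube (r - m) x
    have k1 := hw x
    have k2 := hw (τ x)
    have k3 := hw (τ (τ x))
    rw [h.cube] at k3
    simp only [delta_apply] at k0
    linarith
  refine ⟨⟨delta σ r, ha1, ha2⟩, ?_⟩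
  have := D_eq h ⟨delta σ r, ha1, ha2⟩ r (r - m) (fun x => rfl) hw
  rw [this]
  congr 1
  abel

theorem mem_range_D_iff (h : Dessin σ τ) (α : A σ τ) :
    α ∈ LinearMap.range (D h) ↔ ∃ m ∈ Par σ τ, α = Submodule.Quotient.mk m := by
  constructor
  · rintro ⟨a, rfl⟩
    exact D_mem_Par h a
  · rintro ⟨m, hm, rfl⟩
    obtain ⟨a, ha⟩ := exists_D_eq_mk h hm
    exact ⟨a, ha⟩

/-- the parabolic classes form a saturated submodule of `A`. -/
theorem range_D_saturated (h : Dessin σ τ) (k : ℤ) (hk : k ≠ 0) (α : A σ τ)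
    (hα : k • α ∈ LinearMap.range (D h)) : α ∈ LinearMap.range (D h) := by
  obtain ⟨m₁, rfl⟩ := Submodule.Quotient.mk_surjective _ α
  obtain ⟨m, hm, hm'⟩ := (mem_range_D_iff h _).1 hα
  rw [← Submodule.Quotient.mk_smul, Submodule.Quotient.eq] at hm'
  refine (mem_range_D_iff h _).2 ⟨m₁, ?_, rfl⟩
  apply Par_saturated k hk
  have : k • m₁ = (k • m₁ - m) + m := by abel
  rw [this]
  exact Submodule.add_mem _ (Inv_le_Par hm') hm

end Par

/-! ### (F5) non-degeneracy -/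

section Nondeg

variable {σ τ : Equiv.Perm P}

/-- **(F5)**: if `k` divides `(D a, a')` for all `a' ∈ B` then `D a ∈ k · D(B)`. -/
theorem form₂_nondeg (h : Dessin σ τ) (k : ℤ) (hk : k ≠ 0) (a : Bsub σ τ)
    (ha : ∀ a' : Bsub σ τ, k ∣ form₂ h a a') : ∃ a₁ : Bsub σ τ, D h a = k • D h a₁ := by
  obtain ⟨a₀, w, h0, hw, hD⟩ := exists_D_eq h a
  obtain ⟨m₁, hm₁⟩ := dvd_of_forall h k (a₀ - w) (fun a' ha' => by
    have := ha ⟨a', ha'⟩
    rw [form₂_apply, hD, ev_mk] at this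
    exact this)
  have e : D h a = k • (Submodule.Quotient.mk m₁ : A σ τ) := by
    rw [hD, ← Submodule.Quotient.mk_smul, Submodule.Quotient.eq]
    exact hm₁
  have hr : (Submodule.Quotient.mk m₁ : A σ τ) ∈ LinearMap.range (D h) := by
    apply range_D_saturated h k hk
    rw [← e]
    exact ⟨a, rfl⟩
  obtain ⟨a₁, ha₁⟩ := hr
  exact ⟨a₁, by rw [ha₁, e]⟩

/-- the kernel of `D` is in the radical of the form. -/
theorem form₂_eq_zero_of_D_eq_zero_left (h : Dessin σ τ) {a : Bsub σ τ} (ha : D h a = 0)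
    (a' : Bsub σ τ) : form₂ h a a' = 0 := by
  rw [form₂_apply, ha, map_zero, LinearMap.zero_apply]

theorem form₂_eq_zero_of_D_eq_zero_right (h : Dessin σ τ) {a' : Bsub σ τ} (ha : D h a' = 0)
    (a : Bsub σ τ) : form₂ h a a' = 0 := by
  rw [form₂_antisymm, form₂_eq_zero_of_D_eq_zero_left h ha, neg_zero]

/-- the form only depends on `D a`, `D a'`. -/
theorem form₂_congr (h : Dessin σ τ) {a₁ a₂ a₁' a₂' : Bsub σ τ} (h1 : D h a₁ = D h a₂)
    (h2 : D h a₁' = D h a₂') : form₂ h a₁ a₁' = form₂ h a₂ a₂' := by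
  have e1 : D h (a₁ - a₂) = 0 := by rw [map_sub, h1, sub_self]
  have e2 : D h (a₁' - a₂') = 0 := by rw [map_sub, h2, sub_self]
  have k1 := form₂_eq_zero_of_D_eq_zero_left h e1 a₁'
  have k2 := form₂_eq_zero_of_D_eq_zero_right h e2 a₂
  rw [map_sub, LinearMap.sub_apply] at k1
  rw [map_sub] at k2
  linarith

end Nondeg

end Fermat.Agent.S41.PD.Model
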