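/-
S41 block [PD], CLOSED: `pdDataFinal p hp hqN : AsmDefs.PDData p (AsmInstFinal.degData N q hqN)` with
NO hypotheses — `Package.pdData` at `Theta.thetaAt` (the relational Shapiro isomorphism at every
level) and `BridgeAt.bridgeAt` (intrinsic pairing = dessin pairing at every level), for the closed
degeneracy data `AsmInstFinal.degData N q hqN` (which is `degDataOf hqN r1Hyp r2Hyp` by `rfl`).
-/
import Mathlib
import Fermat.Agent.S41.PD.Package
import Fermat.Agent.S41.PD.Theta
import Fermat.Agent.S41.PD.BridgeAt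
import Fermat.Agent.P3LR.AsmInstFinal

set_option autoImplicit false

namespace Fermat.Agent.S41.PD.PackageFinal

open Fermat.Agent.P3LR.AsmDefs Fermat.Agent.P3LR.AsmInstFinal

/-- **[PD] closed**: the Poincaré duality package for the degeneracy data of `Γ₀(N q) ⊂ Γ₀(N)`. -/
noncomputable def pdDataFinal (p : ℕ) (hp : p ≠ 0) {N q : ℕ} [NeZero N] [Fact q.Prime]
    (hqN : ¬ q ∣ N) : PDData p (degData N q hqN) :=
  Package.pdData (fun M _ => Theta.thetaAt M) (fun M _ => BridgeAt.bridgeAt M) p hp hqN
    (r1Hyp N q hqN) (r2Hyp N q hqN)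

end Fermat.Agent.S41.PD.PackageFinal
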