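/-
S41 / block [PD], file PD-Shapiro (helper5; arbiter ruling #1997 / #3c).

**Shapiro's lemma in degree 1 on a dessin, with the presentation `PSL₂(ℤ) = C₂ * C₃`.**

Setting (`GSet Γ X`): a transitive right `SL(2, ℤ)`-set `X` (`perm (g * h) = perm h * perm g`)
with a base point whose stabiliser is `Γ ∋ -1`.  Then `σ := perm S`, `τ := perm U` (`U = S * T`;
`perm U = perm (S⁻¹ * T)` since `-1` acts trivially) form a dessin in the sense of
`PD/Dessin.lean` (helper3), `SL(2, ℤ)` acts on `V = X → ℤ` by `(g • v) x = v (x g)`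
(`act g = op (perm g)`), cocycles are `IsCoc c : c (g * h) = c g + g • c h`.

* `exists_isCoc a b` : a cocycle with `c S = a`, `c U = b` whenever `(1 + σ) a = 0`,
  `(1 + τ + τ²) b = 0` (universal property of `C₂ * C₃`, `PD/FreeProduct.lean` of helper6, applied
  to the semidirect product `V ⋊ Perm X`); `IsCoc.ext` (uniqueness);
* `IsCoc.res` : restriction to `Γ`, evaluated at the base point, a homomorphism `Γ → ℤ`;
  `IsCoc.exists_cob_of_res_eq_zero` (S4), `exists_isCoc_res_eq` (S3, Shapiro cocycle of a section);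
* `cv v` : THE cocycle with `cv v S = 0`, `cv v U = τ v - v` (conventions of #1239 / #2005);
  `IsCoc.exists_eq_cv_add_cob` (every cocycle is `cv v + δ y'`);
* `Psi : (X → ℤ) →+ (Additive Γ →+ ℤ)`, `Psi v γ = cv v γ base`;
  `Psi_eq_zero_iff : Psi v = 0 ↔ v ∈ W σ τ`, `Psi_surjective`;
* **`isParabolicHom_Psi_iff : IsParabolicHom Γ (Psi v) ↔ v ∈ Npar σ τ`** (the dictionary; uses
  `M2/ES/Parabolic.exists_conj_T_zpow`);
* `theta : (Additive Γ →+ ℤ) ≃ₗ[ℤ] (X → ℤ) ⧸ W σ τ`,
  `thetaPar : parabolicHoms ℤ Γ ℤ ≃ₗ[ℤ] Npar σ τ ⧸ (W σ τ).comap (Npar σ τ).subtype` (`= LamQ`);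
* naturality for maps of pointed `G`-sets (`IsEquivariant`): `cv_pull`, `cv_push`, `Psi_pull`
  (restriction = pull-back), `Psi_push_apply` (push-forward = sum over the fibre of the base point);
* `GSet.ofSubgroup Γ hneg : GSet Γ (SL(2, ℤ) ⧸ Γ)` and `isEquivariant_quotientMapOfLE`.
-/
import Mathlib
import Fermat.Agent.S41.PD.Dessin
import Fermat.Agent.S41.PD.FreeProduct
import Fermat.Agent.M2.ES.Parabolic
import Fermat.Prelude.Def_ModularCurve_PeriodMap

set_option autoImplicit false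
set_option linter.unusedSectionVars false
set_option linter.unusedVariables false

open scoped MatrixGroups
open ModularGroup Matrix
open Fermat.Agent.S41.PD.Dessin
open Fermat.Agent.S41.PD.FreeProduct
open ModularCurve.Period (IsParabolicHom parabolicHoms)

namespace Fermat.Agent.S41.PD.Shapiro

/-! ### Generators -/

theorem T_eq_S_inv_mul_U : (T : SL(2, ℤ)) = S⁻¹ * U := by
  rw [U_eq, inv_mul_cancel_left]

theorem closure_S_U : Subgroup.closure ({S, U} : Set SL(2, ℤ)) = ⊤ := by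
  rw [eq_top_iff, ← SpecialLinearGroup.SL2Z_generators, Subgroup.closure_le]
  rintro g (rfl | rfl)
  · exact Subgroup.subset_closure (by simp)
  · rw [T_eq_S_inv_mul_U]
    exact Subgroup.mul_mem _ (Subgroup.inv_mem _ (Subgroup.subset_closure (by simp)))
      (Subgroup.subset_closure (by simp))

theorem U_mul_U_mul_U : U * U * U = (-1 : SL(2, ℤ)) := by
  have h := U_pow_three'
  rw [pow_succ, pow_two] at h
  exact h

/-- a subgroup containing `S` and `U` is everything -/
theorem mem_of_S_U (H : Subgroup SL(2, ℤ)) (hS : S ∈ H) (hU : U ∈ H) (g : SL(2, ℤ)) : g ∈ H := by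
  have h : Subgroup.closure ({S, U} : Set SL(2, ℤ)) ≤ H := by
    rw [Subgroup.closure_le]
    rintro g (rfl | rfl)
    · exact hS
    · exact hU
  rw [closure_S_U] at h
  exact h (Subgroup.mem_top g)

/-! ### The `G`-set -/

/-- A transitive right `SL(2, ℤ)`-set with a base point whose stabiliser is `Γ`, `-1 ∈ Γ`. -/
structure GSet (Γ : Subgroup SL(2, ℤ)) (X : Type*) where
  /-- the right action: `perm g x = x · g` -/
  perm : SL(2, ℤ) → Equiv.Perm X
  perm_mul : ∀ g h, perm (g * h) = perm h * perm g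
  /-- the base point -/
  base : X
  stab : ∀ g, perm g base = base ↔ g ∈ Γ
  trans : ∀ x, ∃ g, perm g base = x
  neg_one_mem : -1 ∈ Γ

namespace GSet

variable {Γ : Subgroup SL(2, ℤ)} {X : Type*} (P : GSet Γ X)

theorem perm_one : P.perm 1 = 1 := by
  have h := P.perm_mul 1 1
  rw [mul_one] at h
  exact mul_eq_left.mp h.symm

theorem perm_mul_apply (g h : SL(2, ℤ)) (x : X) : P.perm (g * h) x = P.perm h (P.perm g x) := by
  rw [P.perm_mul]; rfl

theorem perm_inv (g : SL(2, ℤ)) : P.perm g⁻¹ = (P.perm g)⁻¹ := by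
  have h := P.perm_mul g g⁻¹
  rw [mul_inv_cancel, P.perm_one] at h
  exact eq_inv_of_mul_eq_one_left h.symm

theorem perm_inv_apply_perm (g : SL(2, ℤ)) (x : X) : P.perm g⁻¹ (P.perm g x) = x := by
  rw [P.perm_inv]; simp

theorem perm_apply_perm_inv (g : SL(2, ℤ)) (x : X) : P.perm g (P.perm g⁻¹ x) = x := by
  rw [P.perm_inv]; simp

theorem perm_neg_one : P.perm (-1) = 1 := by
  ext x
  obtain ⟨g, rfl⟩ := P.trans x
  rw [← P.perm_mul_apply, mul_neg_one, ← neg_one_mul, P.perm_mul_apply,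
    (P.stab (-1)).2 P.neg_one_mem]
  rfl

theorem perm_neg (g : SL(2, ℤ)) : P.perm (-g) = P.perm g := by
  rw [← neg_one_mul, P.perm_mul, P.perm_neg_one, mul_one]

/-- `g ↦ (perm g)⁻¹` is a homomorphism -/
def permInvHom : SL(2, ℤ) →* Equiv.Perm X where
  toFun g := (P.perm g)⁻¹
  map_one' := by rw [P.perm_one, inv_one]
  map_mul' g h := by rw [P.perm_mul, _root_.mul_inv_rev]

/-- `σ`: the action of `S` -/
def sig : Equiv.Perm X := P.perm S

/-- `τ`: the action of `U = S * T` -/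
def tau : Equiv.Perm X := P.perm U

theorem sig_mul_sig : P.sig * P.sig = 1 := by
  unfold sig
  rw [← P.perm_mul, S_mul_S, P.perm_neg_one]

theorem tau_cube : P.tau * P.tau * P.tau = 1 := by
  unfold tau
  rw [← P.perm_mul, ← P.perm_mul, ← mul_assoc, U_mul_U_mul_U, P.perm_neg_one]

theorem sig_inv : P.sig⁻¹ = P.sig := inv_eq_of_mul_eq_one_left P.sig_mul_sig

theorem perm_T : P.perm T = P.tau * P.sig := by
  rw [T_eq_S_inv_mul_U, P.perm_mul, P.perm_inv]
  show P.tau * P.sig⁻¹ = _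
  rw [P.sig_inv]

/-- a function invariant under `σ` and `τ` is invariant under the whole group -/
theorem invariant_of_sig_tau {β : Type*} (f : X → β) (hσ : ∀ x, f (P.sig x) = f x)
    (hτ : ∀ x, f (P.tau x) = f x) (g : SL(2, ℤ)) (x : X) : f (P.perm g x) = f x := by
  let H : Subgroup SL(2, ℤ) :=
    { carrier := {g | ∀ x, f (P.perm g x) = f x}
      one_mem' := fun x => by rw [P.perm_one]; rfl
      mul_mem' := fun {a b} ha hb x => by rw [P.perm_mul_apply, hb, ha]
      inv_mem' := fun {a} ha x => by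
        have := ha (P.perm a⁻¹ x)
        rw [P.perm_apply_perm_inv] at this
        exact this.symm }
  exact mem_of_S_U H hσ hτ g x

section Fin

variable [Fintype X] [DecidableEq X]

theorem isDessin : IsDessin P.sig P.tau where
  sq := P.sig_mul_sig
  cube := P.tau_cube
  trans f hσ hτ x y := by
    obtain ⟨g, rfl⟩ := P.trans x
    obtain ⟨g', rfl⟩ := P.trans y
    rw [P.invariant_of_sig_tau f hσ hτ, P.invariant_of_sig_tau f hσ hτ]

end Fin

/-! ### Cocycles -/

variable [Fintype X]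

/-- the action of `g` on `V = X → ℤ`: `(g • v) x = v (x g)` -/
def act (g : SL(2, ℤ)) : (X → ℤ) →ₗ[ℤ] (X → ℤ) := op (P.perm g)

@[simp] theorem act_apply (g : SL(2, ℤ)) (v : X → ℤ) (x : X) : P.act g v x = v (P.perm g x) := rfl

theorem act_mul (g h : SL(2, ℤ)) (v : X → ℤ) : P.act (g * h) v = P.act g (P.act h v) := by
  ext x; simp [P.perm_mul_apply]

@[simp] theorem act_one (v : X → ℤ) : P.act 1 v = v := by
  ext x; simp [P.perm_one]

theorem act_S (v : X → ℤ) : P.act S v = op P.sig v := rfl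

theorem act_U (v : X → ℤ) : P.act U v = op P.tau v := rfl

/-- cocycles `SL(2, ℤ) → V`: `c (g h) = c g + g • c h` -/
def IsCoc (c : SL(2, ℤ) → X → ℤ) : Prop := ∀ g h, c (g * h) = c g + P.act g (c h)

/-- the coboundary of `w` -/
def cob (w : X → ℤ) : SL(2, ℤ) → X → ℤ := fun g => P.act g w - w

theorem isCoc_cob (w : X → ℤ) : P.IsCoc (P.cob w) := by
  intro g h
  unfold cob
  rw [P.act_mul, map_sub]; abel

variable {P}

theorem IsCoc.add {c c' : SL(2, ℤ) → X → ℤ} (hc : P.IsCoc c) (hc' : P.IsCoc c') :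
    P.IsCoc (c + c') := by
  intro g h
  simp only [Pi.add_apply, hc g h, hc' g h, map_add]; abel

theorem IsCoc.sub {c c' : SL(2, ℤ) → X → ℤ} (hc : P.IsCoc c) (hc' : P.IsCoc c') :
    P.IsCoc (c - c') := by
  intro g h
  simp only [Pi.sub_apply, hc g h, hc' g h, map_sub]; abel

theorem IsCoc.zero : P.IsCoc (0 : SL(2, ℤ) → X → ℤ) := by
  intro g h; simp

theorem IsCoc.map_one {c : SL(2, ℤ) → X → ℤ} (hc : P.IsCoc c) : c 1 = 0 := by
  have h := hc 1 1
  rw [mul_one, P.act_one] at h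
  exact left_eq_add.mp h

/-- the zero set of a cocycle is a subgroup -/
def IsCoc.zeroSubgroup {c : SL(2, ℤ) → X → ℤ} (hc : P.IsCoc c) : Subgroup SL(2, ℤ) where
  carrier := {g | c g = 0}
  one_mem' := hc.map_one
  mul_mem' := fun {a b} ha hb => by
    show c (a * b) = 0
    rw [hc a b, show c a = 0 from ha, show c b = 0 from hb, map_zero, add_zero]
  inv_mem' := fun {a} ha => by
    show c a⁻¹ = 0
    have h := hc a a⁻¹
    rw [mul_inv_cancel, hc.map_one, show c a = 0 from ha, zero_add] at h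
    have h2 := congrArg (P.act a⁻¹) h
    rw [map_zero, ← P.act_mul, inv_mul_cancel, P.act_one] at h2
    exact h2.symm

theorem IsCoc.mem_zeroSubgroup {c : SL(2, ℤ) → X → ℤ} (hc : P.IsCoc c) {g : SL(2, ℤ)} :
    g ∈ hc.zeroSubgroup ↔ c g = 0 := Iff.rfl

/-- a cocycle is determined by its values at `S` and `U` -/
theorem IsCoc.ext {c c' : SL(2, ℤ) → X → ℤ} (hc : P.IsCoc c) (hc' : P.IsCoc c')
    (hS : c S = c' S) (hU : c U = c' U) : c = c' := by
  funext g
  have h := mem_of_S_U (hc.sub hc').zeroSubgroup (by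
    show (c - c') S = 0
    rw [Pi.sub_apply, hS, sub_self]) (by
    show (c - c') U = 0
    rw [Pi.sub_apply, hU, sub_self]) g
  have h' : (c - c') g = 0 := h
  rw [Pi.sub_apply, sub_eq_zero] at h'
  exact h'

theorem IsCoc.map_neg_one {c : SL(2, ℤ) → X → ℤ} (hc : P.IsCoc c) : c (-1) = 0 := by
  have h := hc (-1) (-1)
  rw [neg_mul_neg, mul_one, hc.map_one] at h
  have h2 : P.act (-1) (c (-1)) = c (-1) := by
    ext x; simp [P.perm_neg_one]
  rw [h2] at h
  ext x
  have := congrFun h x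
  simp only [Pi.zero_apply, Pi.add_apply] at this ⊢
  omega

theorem IsCoc.map_neg {c : SL(2, ℤ) → X → ℤ} (hc : P.IsCoc c) (g : SL(2, ℤ)) : c (-g) = c g := by
  rw [← neg_one_mul, hc, hc.map_neg_one, zero_add]
  ext x; simp [P.perm_neg_one]

end GSet

/-! ### The semidirect product `V ⋊ Perm X` -/

section Semi

variable {X : Type*}

/-- `π ↦ (v ↦ v ∘ π⁻¹)` as a homomorphism `Perm X →* MulAut (Multiplicative (X → ℤ))` -/
def autHom : Equiv.Perm X →* MulAut (Multiplicative (X → ℤ)) where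
  toFun π := AddEquiv.toMultiplicative
    { toFun := fun v => v ∘ π.symm
      invFun := fun v => v ∘ π
      left_inv := fun v => by ext x; simp
      right_inv := fun v => by ext x; simp
      map_add' := fun _ _ => rfl }
  map_one' := by ext v; rfl
  map_mul' π π' := by ext v; rfl

theorem autHom_apply (π : Equiv.Perm X) (v : X → ℤ) :
    autHom π (Multiplicative.ofAdd v) = Multiplicative.ofAdd (v ∘ π.symm) := rfl

/-- the ambient group `V ⋊ Perm X` -/
abbrev Semi (X : Type*) := Multiplicative (X → ℤ) ⋊[autHom (X := X)] Equiv.Perm X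

end Semi

namespace GSet

variable {Γ : Subgroup SL(2, ℤ)} {X : Type*} (P : GSet Γ X) [Fintype X]

/-- the cocycle with prescribed values at `S` and `U` -/
theorem exists_isCoc (a b : X → ℤ) (ha : op P.sig a + a = 0)
    (hb : op P.tau (op P.tau b) + op P.tau b + b = 0) :
    ∃ c : SL(2, ℤ) → X → ℤ, P.IsCoc c ∧ c S = a ∧ c U = b := by
  classical
  set s : Semi X := ⟨Multiplicative.ofAdd a, P.sig⁻¹⟩ with hs
  set t : Semi X := ⟨Multiplicative.ofAdd b, P.tau⁻¹⟩ with ht
  have hs2 : s ^ 2 = 1 := by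
    rw [pow_two]
    refine SemidirectProduct.ext ?_ ?_
    · rw [SemidirectProduct.mul_left, SemidirectProduct.one_left]
      show Multiplicative.ofAdd a * autHom P.sig⁻¹ (Multiplicative.ofAdd a) = 1
      rw [autHom_apply, ← ofAdd_add]
      have : a + a ∘ (P.sig⁻¹).symm = 0 := by
        rw [← ha, add_comm]; rfl
      rw [this]; rfl
    · rw [SemidirectProduct.mul_right, SemidirectProduct.one_right]
      show P.sig⁻¹ * P.sig⁻¹ = 1
      rw [← _root_.mul_inv_rev, P.sig_mul_sig, inv_one]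
  have ht3 : t ^ 3 = 1 := by
    rw [pow_succ, pow_two]
    refine SemidirectProduct.ext ?_ ?_
    · rw [SemidirectProduct.mul_left, SemidirectProduct.mul_left, SemidirectProduct.mul_right,
        SemidirectProduct.one_left]
      show Multiplicative.ofAdd b * autHom P.tau⁻¹ (Multiplicative.ofAdd b) *
        autHom (P.tau⁻¹ * P.tau⁻¹) (Multiplicative.ofAdd b) = 1
      rw [autHom_apply, autHom_apply, ← ofAdd_add, ← ofAdd_add]
      have : b + b ∘ (P.tau⁻¹).symm + b ∘ (P.tau⁻¹ * P.tau⁻¹).symm = 0 := by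
        rw [← hb]
        ext x
        simp only [Pi.add_apply, Function.comp_apply, op_apply]
        have e1 : (P.tau⁻¹).symm x = P.tau x := rfl
        have e2 : (P.tau⁻¹ * P.tau⁻¹).symm x = P.tau (P.tau x) := rfl
        rw [e1, e2]; ring
      rw [this]; rfl
    · rw [SemidirectProduct.mul_right, SemidirectProduct.mul_right, SemidirectProduct.one_right]
      show P.tau⁻¹ * P.tau⁻¹ * P.tau⁻¹ = 1
      rw [← _root_.mul_inv_rev, ← _root_.mul_inv_rev, ← mul_assoc, P.tau_cube, inv_one]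
  set f : SL(2, ℤ) →* Semi X := homOfPair s t hs2 ht3 with hf
  have hfS : f S = s := homOfPair_S s t hs2 ht3
  have hfU : f U = t := homOfPair_U s t hs2 ht3
  have hright : ∀ g, (f g).right = (P.perm g)⁻¹ := by
    have : (SemidirectProduct.rightHom.comp f) = P.permInvHom := by
      apply hom_ext_S_U
      · show (f S).right = (P.perm S)⁻¹
        rw [hfS]; rfl
      · show (f (S * T)).right = (P.perm (S * T))⁻¹
        rw [← U_eq, hfU]; rfl
    intro g
    exact DFunLike.congr_fun this g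
  refine ⟨fun g => Multiplicative.toAdd (f g).left, ?_, ?_, ?_⟩
  · intro g h
    show Multiplicative.toAdd (f (g * h)).left = _
    rw [map_mul, SemidirectProduct.mul_left, hright g, toAdd_mul]
    congr 1
  · show Multiplicative.toAdd (f S).left = a
    rw [hfS]; rfl
  · show Multiplicative.toAdd (f U).left = b
    rw [hfU]; rfl

end GSet

namespace GSet

variable {Γ : Subgroup SL(2, ℤ)} {X : Type*} {P : GSet Γ X} [Fintype X]

/-! ### Restriction to `Γ`: evaluation at the base point -/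

theorem perm_base_of_mem {g : SL(2, ℤ)} (hg : g ∈ Γ) : P.perm g P.base = P.base :=
  (P.stab g).2 hg

/-- the restriction of a cocycle to `Γ`, evaluated at the base point -/
def IsCoc.res {c : SL(2, ℤ) → X → ℤ} (hc : P.IsCoc c) : Additive Γ →+ ℤ where
  toFun γ := c (Additive.toMul γ : Γ).1 P.base
  map_zero' := by
    show c ((1 : Γ) : SL(2, ℤ)) P.base = 0
    rw [Subgroup.coe_one, hc.map_one]; rfl
  map_add' γ γ' := by
    show c (((Additive.toMul γ * Additive.toMul γ' : Γ)) : SL(2, ℤ)) P.base = _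
    rw [Subgroup.coe_mul, hc, Pi.add_apply, act_apply, perm_base_of_mem (Additive.toMul γ).2]

theorem IsCoc.res_apply {c : SL(2, ℤ) → X → ℤ} (hc : P.IsCoc c) (γ : Γ) :
    hc.res (Additive.ofMul γ) = c γ.1 P.base := rfl

theorem res_cob (w : X → ℤ) : (P.isCoc_cob w).res = 0 := by
  refine AddMonoidHom.ext fun γ => ?_
  obtain ⟨γ, rfl⟩ := Additive.ofMul.surjective γ
  rw [IsCoc.res_apply]
  show P.act γ.1 w P.base - w P.base = 0
  rw [act_apply, perm_base_of_mem γ.2, sub_self]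

theorem IsCoc.res_add {c c' : SL(2, ℤ) → X → ℤ} (hc : P.IsCoc c) (hc' : P.IsCoc c') :
    (hc.add hc').res = hc.res + hc'.res := by
  refine AddMonoidHom.ext fun γ => ?_
  rfl

theorem IsCoc.res_sub {c c' : SL(2, ℤ) → X → ℤ} (hc : P.IsCoc c) (hc' : P.IsCoc c') :
    (hc.sub hc').res = hc.res - hc'.res := by
  refine AddMonoidHom.ext fun γ => ?_
  rfl

theorem IsCoc.res_congr {c c' : SL(2, ℤ) → X → ℤ} (hc : P.IsCoc c) (hc' : P.IsCoc c')
    (h : c = c') : hc.res = hc'.res := by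
  subst h; rfl

/-- **(S4)** a cocycle whose restriction to `Γ` vanishes is a coboundary -/
theorem IsCoc.exists_cob_of_res_eq_zero {c : SL(2, ℤ) → X → ℤ} (hc : P.IsCoc c)
    (h0 : hc.res = 0) : ∃ w : X → ℤ, c = P.cob w := by
  classical
  choose t ht using P.trans
  have hΓ : ∀ γ : SL(2, ℤ), γ ∈ Γ → c γ P.base = 0 := by
    intro γ hγ
    have := DFunLike.congr_fun h0 (Additive.ofMul (⟨γ, hγ⟩ : Γ))
    exact this
  -- independence of the representative
  have hwd : ∀ g g' : SL(2, ℤ), P.perm g P.base = P.perm g' P.base →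
      c g P.base = c g' P.base := by
    intro g g' hgg
    have hmem : g' * g⁻¹ ∈ Γ := by
      rw [← P.stab, P.perm_mul_apply, ← hgg, P.perm_inv_apply_perm]
    have h1 : g' = (g' * g⁻¹) * g := by group
    have h2 := hc (g' * g⁻¹) g
    rw [← h1] at h2
    rw [h2, Pi.add_apply, hΓ _ hmem, zero_add, act_apply, perm_base_of_mem hmem]
  refine ⟨fun x => c (t x) P.base, ?_⟩
  funext h
  ext x
  show c h x = c (t (P.perm h x)) P.base - c (t x) P.base
  have h1 := hc (t x) h
  have h2 := congrFun h1 P.base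
  rw [Pi.add_apply, act_apply, ht x] at h2
  have h3 : c (t x * h) P.base = c (t (P.perm h x)) P.base := by
    apply hwd
    rw [P.perm_mul_apply, ht, ht]
  rw [← h3, h2]; ring

/-- **(S3)** every homomorphism `Γ → ℤ` is the restriction of a cocycle (the Shapiro cocycle of
a section) -/
theorem exists_isCoc_res_eq (φ : Additive Γ →+ ℤ) :
    ∃ (c : SL(2, ℤ) → X → ℤ) (hc : P.IsCoc c), hc.res = φ := by
  classical
  choose t ht using P.trans
  have hmem : ∀ (g : SL(2, ℤ)) (x : X), t x * g * (t (P.perm g x))⁻¹ ∈ Γ := by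
    intro g x
    rw [← P.stab, P.perm_mul_apply, P.perm_mul_apply, ht, P.perm_inv]
    rw [Equiv.Perm.inv_eq_iff_eq, ht]
  set c : SL(2, ℤ) → X → ℤ := fun g x => φ (Additive.ofMul ⟨_, hmem g x⟩) with hcdef
  have hc : P.IsCoc c := by
    intro g h
    ext x
    show φ _ = φ _ + φ _
    rw [← map_add, ← ofMul_mul]
    congr 2
    apply Subtype.ext
    show t x * (g * h) * (t (P.perm (g * h) x))⁻¹ =
      (t x * g * (t (P.perm g x))⁻¹) * (t (P.perm g x) * h * (t (P.perm h (P.perm g x)))⁻¹)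
    rw [P.perm_mul_apply]; group
  refine ⟨c, hc, ?_⟩
  refine AddMonoidHom.ext fun γ => ?_
  obtain ⟨γ, rfl⟩ := Additive.ofMul.surjective γ
  rw [IsCoc.res_apply]
  show φ (Additive.ofMul ⟨t P.base * γ.1 * (t (P.perm γ.1 P.base))⁻¹, _⟩) = φ (Additive.ofMul γ)
  have htb : t P.base ∈ Γ := by rw [← P.stab, ht]
  have e : (⟨t P.base * γ.1 * (t (P.perm γ.1 P.base))⁻¹, hmem γ.1 P.base⟩ : Γ)
      = ⟨t P.base, htb⟩ * γ * (⟨t P.base, htb⟩ : Γ)⁻¹ := by
    apply Subtype.ext
    show t P.base * γ.1 * (t (P.perm γ.1 P.base))⁻¹ = t P.base * γ.1 * (t P.base)⁻¹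
    rw [perm_base_of_mem γ.2]
  rw [e, ofMul_mul, ofMul_mul, map_add, map_add, ofMul_inv, map_neg]
  abel

end GSet

namespace GSet

variable {Γ : Subgroup SL(2, ℤ)} {X : Type*} {P : GSet Γ X} [Fintype X]

/-! ### The relations at `S` and `U` -/

theorem IsCoc.S_rel {c : SL(2, ℤ) → X → ℤ} (hc : P.IsCoc c) : op P.sig (c S) + c S = 0 := by
  have h := hc S S
  rw [S_mul_S, hc.map_neg_one] at h
  rw [add_comm]; exact h.symm

theorem IsCoc.U_rel {c : SL(2, ℤ) → X → ℤ} (hc : P.IsCoc c) :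
    op P.tau (op P.tau (c U)) + op P.tau (c U) + c U = 0 := by
  have h1 := hc U U
  have h2 := hc (U * U) U
  rw [U_mul_U_mul_U, hc.map_neg_one, h1, P.act_mul] at h2
  rw [h2]
  show _ = c U + op P.tau (c U) + op P.tau (op P.tau (c U))
  abel

section Dec

variable [DecidableEq X]

variable (P)

theorem exists_cv (v : X → ℤ) :
    ∃ c : SL(2, ℤ) → X → ℤ, P.IsCoc c ∧ c S = 0 ∧ c U = op P.tau v - v := by
  apply P.exists_isCoc
  · simp
  · simp only [map_sub]
    rw [P.isDessin.U_U_U]; abel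

/-- the cocycle `c_v`: `c_v S = 0`, `c_v U = τ v - v` -/
noncomputable def cv (v : X → ℤ) : SL(2, ℤ) → X → ℤ := Classical.choose (P.exists_cv v)

theorem isCoc_cv (v : X → ℤ) : P.IsCoc (P.cv v) := (Classical.choose_spec (P.exists_cv v)).1

@[simp] theorem cv_S (v : X → ℤ) : P.cv v S = 0 := (Classical.choose_spec (P.exists_cv v)).2.1

@[simp] theorem cv_U (v : X → ℤ) : P.cv v U = op P.tau v - v :=
  (Classical.choose_spec (P.exists_cv v)).2.2

theorem cv_unique {c : SL(2, ℤ) → X → ℤ} (hc : P.IsCoc c) (v : X → ℤ) (hS : c S = 0)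
    (hU : c U = op P.tau v - v) : c = P.cv v :=
  hc.ext (P.isCoc_cv v) (by rw [hS, cv_S]) (by rw [hU, cv_U])

theorem cv_add (v v' : X → ℤ) : P.cv (v + v') = P.cv v + P.cv v' := by
  symm
  apply P.cv_unique ((P.isCoc_cv v).add (P.isCoc_cv v'))
  · simp
  · simp only [Pi.add_apply, cv_U, map_add]; abel

theorem cv_zero : P.cv 0 = 0 := by
  symm
  apply P.cv_unique IsCoc.zero
  · rfl
  · simp

/-- `c_{a + b}` is the coboundary of `a` when `σ a = a`, `τ b = b` -/
theorem cv_eq_cob (a b : X → ℤ) (ha : op P.sig a = a) (hb : op P.tau b = b) :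
    P.cv (a + b) = P.cob a := by
  symm
  apply P.cv_unique (P.isCoc_cob a)
  · show P.act S a - a = 0
    rw [P.act_S, ha, sub_self]
  · show P.act U a - a = _
    rw [P.act_U, map_add, hb]; abel

variable {P}

/-- **normalisation**: every cocycle is `c_v + δ y'` -/
theorem IsCoc.exists_eq_cv_add_cob {c : SL(2, ℤ) → X → ℤ} (hc : P.IsCoc c) :
    ∃ v y' : X → ℤ, c = P.cv v + P.cob y' := by
  obtain ⟨y', hy'⟩ := P.isDessin.exists_S_sub (c S) hc.S_rel
  have hc' : P.IsCoc (c - P.cob y') := hc.sub (P.isCoc_cob y')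
  obtain ⟨v, hv⟩ := P.isDessin.exists_U_sub ((c - P.cob y') U) hc'.U_rel
  refine ⟨v, y', ?_⟩
  have h := P.cv_unique hc' v (by
    show c S - (P.act S y' - y') = 0
    rw [P.act_S, ← hy', sub_self]) hv
  rw [← h]; abel

variable (P)

/-- **The Shapiro map** `V → Hom(Γ, ℤ)`, `v ↦ (γ ↦ c_v(γ)(base))`. -/
noncomputable def Psi : (X → ℤ) →+ (Additive Γ →+ ℤ) where
  toFun v := (P.isCoc_cv v).res
  map_zero' := by
    rw [IsCoc.res_congr (P.isCoc_cv 0) IsCoc.zero P.cv_zero]
    rfl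
  map_add' v v' := by
    rw [IsCoc.res_congr (P.isCoc_cv (v + v')) ((P.isCoc_cv v).add (P.isCoc_cv v')) (P.cv_add v v'),
      IsCoc.res_add]

theorem Psi_apply (v : X → ℤ) (γ : Γ) : P.Psi v (Additive.ofMul γ) = P.cv v γ.1 P.base := rfl

theorem Psi_eq_res (v : X → ℤ) : P.Psi v = (P.isCoc_cv v).res := rfl

/-- `ker Psi = V^σ + V^τ` -/
theorem Psi_eq_zero_iff (v : X → ℤ) : P.Psi v = 0 ↔ v ∈ W P.sig P.tau := by
  constructor
  · intro h
    obtain ⟨w, hw⟩ := (P.isCoc_cv v).exists_cob_of_res_eq_zero h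
    have hS := congrFun hw S
    have hU := congrFun hw U
    rw [cv_S] at hS
    rw [cv_U] at hU
    rw [mem_W]
    refine ⟨w, v - w, ?_, ?_, by abel⟩
    · have : P.act S w - w = 0 := hS.symm
      rw [P.act_S, sub_eq_zero] at this
      exact this
    · have : op P.tau v - v = op P.tau w - w := hU
      rw [map_sub]
      have h2 : op P.tau v - op P.tau w - (v - w) = (op P.tau v - v) - (op P.tau w - w) := by abel
      exact sub_eq_zero.1 (by rw [h2, this, sub_self])
  · intro h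
    obtain ⟨a, b, ha, hb, rfl⟩ := (mem_W _ _).1 h
    rw [Psi_eq_res, IsCoc.res_congr (P.isCoc_cv (a + b)) (P.isCoc_cob a) (P.cv_eq_cob a b ha hb),
      res_cob]

theorem Psi_surjective : Function.Surjective P.Psi := by
  intro φ
  obtain ⟨c, hc, hres⟩ := exists_isCoc_res_eq (P := P) φ
  obtain ⟨v, y', hvy⟩ := hc.exists_eq_cv_add_cob
  refine ⟨v, ?_⟩
  rw [← hres, IsCoc.res_congr hc ((P.isCoc_cv v).add (P.isCoc_cob y')) hvy,
    IsCoc.res_add (P.isCoc_cv v) (P.isCoc_cob y'), res_cob, add_zero]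
  rfl

theorem Psi_eq_iff (v v' : X → ℤ) : P.Psi v = P.Psi v' ↔ v - v' ∈ W P.sig P.tau := by
  rw [← Psi_eq_zero_iff, map_sub, sub_eq_zero]

end Dec

end GSet

/-! ### Traces -/

theorem trace_conj (g h : SL(2, ℤ)) :
    ((g * h * g⁻¹ : SL(2, ℤ)) : Matrix (Fin 2) (Fin 2) ℤ).trace
      = (h : Matrix (Fin 2) (Fin 2) ℤ).trace := by
  rw [Matrix.SpecialLinearGroup.coe_mul, Matrix.SpecialLinearGroup.coe_mul,
    Matrix.trace_mul_cycle, ← Matrix.SpecialLinearGroup.coe_mul, inv_mul_cancel,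
    Matrix.SpecialLinearGroup.coe_one, Matrix.one_mul]

theorem trace_T_pow (n : ℕ) : ((T ^ n : SL(2, ℤ)) : Matrix (Fin 2) (Fin 2) ℤ).trace = 2 := by
  rw [← zpow_natCast, ModularGroup.coe_T_zpow, Matrix.trace_fin_two]
  simp

namespace GSet

variable {Γ : Subgroup SL(2, ℤ)} {X : Type*} {P : GSet Γ X} [Fintype X]

theorem perm_pow (h : SL(2, ℤ)) (n : ℕ) : P.perm (h ^ n) = (P.perm h) ^ n := by
  induction n with
  | zero => rw [pow_zero, pow_zero, P.perm_one]
  | succ n ih => rw [pow_succ, P.perm_mul, ih, pow_succ']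

/-- `c (g h g⁻¹) (base) = c h (base · g)` when `h` fixes `base · g` -/
theorem IsCoc.conj_eval {c : SL(2, ℤ) → X → ℤ} (hc : P.IsCoc c) (g h : SL(2, ℤ))
    (hx : P.perm h (P.perm g P.base) = P.perm g P.base) :
    c (g * h * g⁻¹) P.base = c h (P.perm g P.base) := by
  have h1 := congrFun (hc (g * h) g⁻¹) P.base
  have h2 := congrFun (hc g h) P.base
  have h3 := congrFun (hc g g⁻¹) P.base
  rw [mul_inv_cancel, hc.map_one] at h3
  simp only [Pi.add_apply, act_apply, Pi.zero_apply] at h1 h2 h3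
  rw [P.perm_mul_apply, hx] at h1
  rw [h1, h2]
  linarith

theorem IsCoc.map_pow {c : SL(2, ℤ) → X → ℤ} (hc : P.IsCoc c) (h : SL(2, ℤ)) (n : ℕ) :
    c (h ^ n) = ∑ k ∈ Finset.range n, P.act (h ^ k) (c h) := by
  induction n with
  | zero => rw [pow_zero, hc.map_one, Finset.range_zero, Finset.sum_empty]
  | succ n ih => rw [pow_succ, hc, ih, Finset.sum_range_succ]

/-- if `c h = h • w - w` then `c (h ^ m) = h ^ m • w - w` for all `m : ℤ` -/
theorem IsCoc.map_zpow_of_eq {c : SL(2, ℤ) → X → ℤ} (hc : P.IsCoc c) (h : SL(2, ℤ)) (w : X → ℤ)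
    (hw : c h = P.act h w - w) (m : ℤ) : c (h ^ m) = P.act (h ^ m) w - w := by
  have hc' : P.IsCoc (c - P.cob w) := hc.sub (P.isCoc_cob w)
  have hmem : h ∈ hc'.zeroSubgroup := by
    show (c - P.cob w) h = 0
    rw [Pi.sub_apply, hw]
    show P.act h w - w - (P.act h w - w) = 0
    rw [sub_self]
  have := Subgroup.zpow_mem _ hmem m
  have h2 : (c - P.cob w) (h ^ m) = 0 := this
  rw [Pi.sub_apply, sub_eq_zero] at h2
  exact h2

section Dec

variable [DecidableEq X] (P)

/-- the value of `c_v` at `T` -/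
theorem cv_T (v : X → ℤ) : P.cv v T = op P.sig (op P.tau v - v) := by
  have hc := P.isCoc_cv v
  have hS : S⁻¹ ∈ hc.zeroSubgroup := Subgroup.inv_mem _ (P.cv_S v)
  have hS' : P.cv v S⁻¹ = 0 := hS
  rw [T_eq_S_inv_mul_U, hc, hS', zero_add, cv_U]
  show op (P.perm S⁻¹) _ = _
  rw [P.perm_inv]
  show op P.sig⁻¹ _ = _
  rw [P.sig_inv]

theorem act_T (w : X → ℤ) : P.act T w = op P.sig (op P.tau w) := by
  show op (P.perm T) w = _
  rw [P.perm_T, op_op]

/-- `v` is parabolic iff `c_v T` is a `T`-coboundary -/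
theorem mem_Npar_iff (v : X → ℤ) :
    v ∈ Npar P.sig P.tau ↔ ∃ y : X → ℤ, P.cv v T = P.act T y - y := by
  have hD := P.isDessin
  rw [mem_Npar, cv_T]
  constructor
  · rintro ⟨w, hw⟩
    refine ⟨op P.sig w, ?_⟩
    rw [act_T, hw, map_sub]
  · rintro ⟨y, hy⟩
    refine ⟨op P.sig y, ?_⟩
    rw [act_T] at hy
    have h2 := congrArg (op P.sig) hy
    rw [hD.S_S, map_sub, hD.S_S] at h2
    rw [hD.S_S, h2]

/-- **(⇐)** parabolic representatives give parabolic homomorphisms -/
theorem isParabolicHom_Psi_of_mem_Npar (v : X → ℤ) (hv : v ∈ Npar P.sig P.tau) :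
    IsParabolicHom Γ (P.Psi v) := by
  obtain ⟨y, hy⟩ := (P.mem_Npar_iff v).1 hv
  have hc := P.isCoc_cv v
  -- conjugates of powers of `T` in `Γ`
  have key : ∀ (δ : SL(2, ℤ)) (m : ℤ), δ * T ^ m * δ⁻¹ ∈ Γ →
      P.cv v (δ * T ^ m * δ⁻¹) P.base = 0 := by
    intro δ m hmem
    have hfix : P.perm (T ^ m) (P.perm δ P.base) = P.perm δ P.base := by
      have h1 := perm_base_of_mem (P := P) hmem
      rw [P.perm_mul_apply, P.perm_mul_apply, P.perm_inv, Equiv.Perm.inv_eq_iff_eq] at h1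
      exact h1
    rw [hc.conj_eval δ (T ^ m) hfix, hc.map_zpow_of_eq T y hy m]
    show y (P.perm (T ^ m) (P.perm δ P.base)) - y (P.perm δ P.base) = 0
    rw [hfix, sub_self]
  intro γ hγ
  obtain ⟨δ, m, h | h⟩ := Fermat.Agent.M2.ES.Parabolic.exists_conj_T_zpow γ.1 hγ
  · show P.cv v γ.1 P.base = 0
    rw [h]
    exact key δ m (h ▸ γ.2)
  · show P.cv v γ.1 P.base = 0
    have hmem : δ * T ^ m * δ⁻¹ ∈ Γ := by
      have : δ * T ^ m * δ⁻¹ = -1 * γ.1 := by rw [h]; simp
      rw [this]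
      exact Γ.mul_mem P.neg_one_mem γ.2
    rw [h, hc.map_neg]
    exact key δ m hmem

/-- **(⇒)** a parabolic homomorphism has a parabolic representative -/
theorem mem_Npar_of_isParabolicHom_Psi (v : X → ℤ) (hφ : IsParabolicHom Γ (P.Psi v)) :
    v ∈ Npar P.sig P.tau := by
  classical
  have hc := P.isCoc_cv v
  rw [mem_Npar_iff]
  set π : Equiv.Perm X := P.perm T with hπ
  set n := orderOf π with hn
  have hnpos : 0 < n := orderOf_pos π
  have hπn : π ^ n = 1 := pow_orderOf_eq_one π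
  set z : X → ℤ := P.cv v T with hz
  -- the norm of `z` vanishes
  have hnorm : ∑ k ∈ Finset.range n, P.act (T ^ k) z = 0 := by
    rw [← hc.map_pow]
    ext x
    obtain ⟨g, rfl⟩ := P.trans x
    have hfix : P.perm (T ^ n) (P.perm g P.base) = P.perm g P.base := by
      rw [perm_pow, ← hπ, hπn]; rfl
    rw [← hc.conj_eval g (T ^ n) hfix]
    have hmem : g * T ^ n * g⁻¹ ∈ Γ := by
      rw [← P.stab, P.perm_mul_apply, P.perm_mul_apply, hfix, P.perm_inv_apply_perm]
    have := hφ ⟨_, hmem⟩ (by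
      show ((g * T ^ n * g⁻¹ : SL(2, ℤ)) : Matrix (Fin 2) (Fin 2) ℤ).trace ^ 2 = 4
      rw [trace_conj, trace_T_pow]; norm_num)
    exact this
  have hact : ∀ w : X → ℤ, P.act T w = op π w := fun w => rfl
  have hperp : ∀ e : X → ℤ, op π e = e → z ⬝ᵥ e = 0 := by
    intro e he
    have hek : ∀ k : ℕ, P.act (T ^ k) e = e := by
      intro k
      induction k with
      | zero => rw [pow_zero, P.act_one]
      | succ k ih => rw [pow_succ, P.act_mul, hact, he, ih]
    have h1 : (∑ k ∈ Finset.range n, P.act (T ^ k) z) ⬝ᵥ e = (n : ℤ) * (z ⬝ᵥ e) := by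
      rw [sum_dotProduct]
      have : ∀ k ∈ Finset.range n, P.act (T ^ k) z ⬝ᵥ e = z ⬝ᵥ e := by
        intro k _
        conv_lhs => rw [← hek k]
        exact dot_op_op _ _ _
      rw [Finset.sum_congr rfl this, Finset.sum_const, Finset.card_range, nsmul_eq_mul]
    rw [hnorm, zero_dotProduct] at h1
    have hn0 : (n : ℤ) ≠ 0 := by exact_mod_cast hnpos.ne'
    exact (mul_eq_zero.1 h1.symm).resolve_left hn0
  obtain ⟨y, hy⟩ := exists_eq_op_sub π z hperp
  exact ⟨y, hy⟩

/-- **The dictionary**: `Psi v` is parabolic iff `v ∈ Npar`. -/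
theorem isParabolicHom_Psi_iff (v : X → ℤ) :
    IsParabolicHom Γ (P.Psi v) ↔ v ∈ Npar P.sig P.tau :=
  ⟨P.mem_Npar_of_isParabolicHom_Psi v, P.isParabolicHom_Psi_of_mem_Npar v⟩

end Dec

end GSet

namespace GSet

variable {Γ : Subgroup SL(2, ℤ)} {X : Type*} (P : GSet Γ X) [Fintype X] [DecidableEq X]

/-! ### The isomorphisms -/

/-- `Psi` as a `ℤ`-linear map -/
noncomputable def PsiLin : (X → ℤ) →ₗ[ℤ] (Additive Γ →+ ℤ) := P.Psi.toIntLinearMap

@[simp] theorem PsiLin_apply (v : X → ℤ) : P.PsiLin v = P.Psi v := rfl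

theorem ker_PsiLin : LinearMap.ker P.PsiLin = W P.sig P.tau := by
  ext v
  rw [LinearMap.mem_ker, PsiLin_apply, Psi_eq_zero_iff]

theorem PsiLin_surjective : Function.Surjective P.PsiLin := P.Psi_surjective

/-- `V / (V^σ + V^τ) ≃ Hom(Γ, ℤ)` -/
noncomputable def thetaInv : ((X → ℤ) ⧸ W P.sig P.tau) ≃ₗ[ℤ] (Additive Γ →+ ℤ) :=
  (Submodule.quotEquivOfEq _ _ P.ker_PsiLin.symm).trans
    (P.PsiLin.quotKerEquivOfSurjective P.PsiLin_surjective)

@[simp] theorem thetaInv_mk (v : X → ℤ) :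
    P.thetaInv (Submodule.Quotient.mk v) = P.Psi v := rfl

/-- **`Θ : Hom(Γ, ℤ) ≃ V / (V^σ + V^τ)`** -/
noncomputable def theta : (Additive Γ →+ ℤ) ≃ₗ[ℤ] ((X → ℤ) ⧸ W P.sig P.tau) := P.thetaInv.symm

@[simp] theorem theta_Psi (v : X → ℤ) : P.theta (P.Psi v) = Submodule.Quotient.mk v := by
  rw [← thetaInv_mk]
  exact P.thetaInv.symm_apply_apply _

/-- relational form of `Θ` -/
theorem theta_eq_mk_iff (φ : Additive Γ →+ ℤ) (v : X → ℤ) :
    P.theta φ = Submodule.Quotient.mk v ↔ P.Psi v = φ := by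
  constructor
  · intro h
    rw [← thetaInv_mk, ← h]
    exact P.thetaInv.apply_symm_apply _
  · rintro rfl
    exact P.theta_Psi v

/-- `Psi` restricted to parabolic representatives -/
noncomputable def PsiPar : Npar P.sig P.tau →ₗ[ℤ] parabolicHoms ℤ Γ ℤ where
  toFun v := ⟨P.Psi v, P.isParabolicHom_Psi_of_mem_Npar v v.2⟩
  map_add' v v' := Subtype.ext (map_add P.Psi (v : X → ℤ) (v' : X → ℤ))
  map_smul' c v := Subtype.ext (map_zsmul P.Psi c (v : X → ℤ))

@[simp] theorem coe_PsiPar (v : Npar P.sig P.tau) :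
    ((P.PsiPar v : parabolicHoms ℤ Γ ℤ) : Additive Γ →+ ℤ) = P.Psi v := rfl

theorem PsiPar_surjective : Function.Surjective P.PsiPar := by
  rintro ⟨φ, hφ⟩
  obtain ⟨v, rfl⟩ := P.Psi_surjective φ
  exact ⟨⟨v, P.mem_Npar_of_isParabolicHom_Psi v hφ⟩, rfl⟩

theorem ker_PsiPar :
    LinearMap.ker P.PsiPar = (W P.sig P.tau).comap (Npar P.sig P.tau).subtype := by
  ext v
  rw [LinearMap.mem_ker, Submodule.mem_comap, Submodule.subtype_apply, ← Psi_eq_zero_iff]
  constructor
  · intro h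
    exact congrArg Subtype.val h
  · intro h
    exact Subtype.ext h

/-- **`Npar / W ≃ Hom_par(Γ, ℤ)`** (the left side is helper3's `LamQ`) -/
noncomputable def thetaParInv :
    (Npar P.sig P.tau ⧸ (W P.sig P.tau).comap (Npar P.sig P.tau).subtype) ≃ₗ[ℤ]
      parabolicHoms ℤ Γ ℤ :=
  (Submodule.quotEquivOfEq _ _ P.ker_PsiPar.symm).trans
    (P.PsiPar.quotKerEquivOfSurjective P.PsiPar_surjective)

@[simp] theorem thetaParInv_mk (v : Npar P.sig P.tau) :
    P.thetaParInv (Submodule.Quotient.mk v) = P.PsiPar v := rfl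

/-- **`Θ` on parabolic homomorphisms** -/
noncomputable def thetaPar :
    parabolicHoms ℤ Γ ℤ ≃ₗ[ℤ]
      (Npar P.sig P.tau ⧸ (W P.sig P.tau).comap (Npar P.sig P.tau).subtype) :=
  P.thetaParInv.symm

@[simp] theorem thetaPar_PsiPar (v : Npar P.sig P.tau) :
    P.thetaPar (P.PsiPar v) = Submodule.Quotient.mk v := by
  rw [← thetaParInv_mk]
  exact P.thetaParInv.symm_apply_apply _

theorem exists_Npar_rep (φ : Additive Γ →+ ℤ) (hφ : IsParabolicHom Γ φ) :
    ∃ v : Npar P.sig P.tau, P.Psi v = φ := by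
  obtain ⟨v, hv⟩ := P.PsiPar_surjective ⟨φ, hφ⟩
  exact ⟨v, congrArg Subtype.val hv⟩

end GSet

/-! ### Naturality: equivariant maps of `G`-sets -/

section Naturality

variable {Γ Γ' : Subgroup SL(2, ℤ)} {X X' : Type*} [Fintype X] [DecidableEq X] [Fintype X']
  [DecidableEq X'] (P : GSet Γ X) (P' : GSet Γ' X') (pr : X' → X)

/-- `pr : X' → X` is a map of pointed `G`-sets -/
structure IsEquivariant : Prop where
  map_perm : ∀ (g : SL(2, ℤ)) (x' : X'), pr (P'.perm g x') = P.perm g (pr x')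
  map_base : pr P'.base = P.base

variable {P P' pr}

namespace IsEquivariant

variable (hpr : IsEquivariant P P' pr)
include hpr

theorem le : Γ' ≤ Γ := by
  intro γ hγ
  rw [← P.stab, ← hpr.map_base, ← hpr.map_perm, (P'.stab γ).2 hγ]

theorem map_sig (x' : X') : pr (P'.sig x') = P.sig (pr x') := hpr.map_perm S x'

theorem map_tau (x' : X') : pr (P'.tau x') = P.tau (pr x') := hpr.map_perm U x'

/-- pull-back of the cocycle `c_v` -/
theorem cv_pull (v : X → ℤ) (g : SL(2, ℤ)) : P'.cv (pull pr v) g = pull pr (P.cv v g) := by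
  have hc : P'.IsCoc (fun g => pull pr (P.cv v g)) := by
    intro g h
    show pull pr (P.cv v (g * h)) = pull pr (P.cv v g) + op (P'.perm g) (pull pr (P.cv v h))
    rw [P.isCoc_cv v g h, map_add, op_pull pr (P.perm g) (P'.perm g) (hpr.map_perm g)]
    rfl
  have := P'.cv_unique hc (pull pr v) (by
    show pull pr (P.cv v S) = 0
    rw [GSet.cv_S, map_zero]) (by
    show pull pr (P.cv v U) = _
    rw [GSet.cv_U, map_sub, op_pull pr P.tau P'.tau hpr.map_tau])
  exact (congrFun this g).symm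

/-- push-forward of the cocycle `c_{v'}` -/
theorem cv_push (v' : X' → ℤ) (g : SL(2, ℤ)) : P.cv (push pr v') g = push pr (P'.cv v' g) := by
  have hc : P.IsCoc (fun g => push pr (P'.cv v' g)) := by
    intro g h
    show push pr (P'.cv v' (g * h)) = push pr (P'.cv v' g) + op (P.perm g) (push pr (P'.cv v' h))
    rw [P'.isCoc_cv v' g h, map_add, op_push pr (P.perm g) (P'.perm g) (hpr.map_perm g)]
    rfl
  have := P.cv_unique hc (push pr v') (by
    show push pr (P'.cv v' S) = 0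
    rw [GSet.cv_S, map_zero]) (by
    show push pr (P'.cv v' U) = _
    rw [GSet.cv_U, map_sub, op_push pr P.tau P'.tau hpr.map_tau])
  exact (congrFun this g).symm

/-- **restriction is pull-back**: `Θ'(φ|Γ') = pr^* Θ(φ)` -/
theorem Psi_pull (v : X → ℤ) (γ' : Γ') :
    P'.Psi (pull pr v) (Additive.ofMul γ') = P.Psi v (Additive.ofMul (Subgroup.inclusion hpr.le γ')) := by
  rw [GSet.Psi_apply, GSet.Psi_apply, hpr.cv_pull, pull_apply, hpr.map_base]
  rfl

/-- **push-forward is the sum over the fibre of the base point** (the model form of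
corestriction) -/
theorem Psi_push_apply (v' : X' → ℤ) (γ : Γ) :
    P.Psi (push pr v') (Additive.ofMul γ)
      = ∑ x', if pr x' = P.base then P'.cv v' γ.1 x' else 0 := by
  rw [GSet.Psi_apply, hpr.cv_push, push_apply]

end IsEquivariant

end Naturality

/-! ### The coset `G`-set of a subgroup -/

section OfSubgroup

/-- the coset `G`-set `SL(2, ℤ) ⧸ Γ` (left cosets `h Γ`, right action `h Γ · g = g⁻¹ h Γ`) -/
def GSet.ofSubgroup (Γ : Subgroup SL(2, ℤ)) (hneg : -1 ∈ Γ) : GSet Γ (SL(2, ℤ) ⧸ Γ) where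
  perm g := MulAction.toPerm g⁻¹
  perm_mul g h := by
    ext x
    simp [mul_smul]
  base := QuotientGroup.mk 1
  stab g := by
    show g⁻¹ • (QuotientGroup.mk 1 : SL(2, ℤ) ⧸ Γ) = QuotientGroup.mk 1 ↔ g ∈ Γ
    rw [MulAction.Quotient.smul_mk, smul_eq_mul, mul_one, QuotientGroup.eq, inv_inv, mul_one]
  trans x := by
    induction x using QuotientGroup.induction_on with
    | H h =>
      refine ⟨h⁻¹, ?_⟩
      show (h⁻¹)⁻¹ • (QuotientGroup.mk 1 : SL(2, ℤ) ⧸ Γ) = QuotientGroup.mk h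
      rw [MulAction.Quotient.smul_mk, smul_eq_mul, mul_one, inv_inv]
  neg_one_mem := hneg

@[simp] theorem GSet.ofSubgroup_perm_mk (Γ : Subgroup SL(2, ℤ)) (hneg : -1 ∈ Γ)
    (g h : SL(2, ℤ)) :
    (GSet.ofSubgroup Γ hneg).perm g (QuotientGroup.mk h) = QuotientGroup.mk (g⁻¹ * h) := rfl

@[simp] theorem GSet.ofSubgroup_base (Γ : Subgroup SL(2, ℤ)) (hneg : -1 ∈ Γ) :
    (GSet.ofSubgroup Γ hneg).base = QuotientGroup.mk 1 := rfl

theorem isEquivariant_quotientMapOfLE {Γ Γ' : Subgroup SL(2, ℤ)} (hle : Γ' ≤ Γ)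
    (hneg' : -1 ∈ Γ') :
    IsEquivariant (GSet.ofSubgroup Γ (hle hneg')) (GSet.ofSubgroup Γ' hneg')
      (Subgroup.quotientMapOfLE hle) where
  map_perm g x' := by
    induction x' using QuotientGroup.induction_on with
    | H h => rfl
  map_base := rfl

end OfSubgroup

end Fermat.Agent.S41.PD.Shapiro
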