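/-
S41 (level raising), block [PD] (helper29): **the parabolic dictionary**.

For `φ : Γ₀(M) → ℤ` and a representative `v` of `Θ φ` in the dessin model of level `M`
(`Adjoint.IsRep (SM M) sg tg φ v`, `sg = S`, `tg = S⁻¹ T`):

  `φ ∈ parHomAdd M ℤ ↔ v ∈ Npar (sigmaM M) (tauM M)`.

Generic ingredients (any full coset system, any torsion-free coefficient group):
* `forall_conj_pow_iff` : `ψ` kills the `Del`-elements which are `Gam`-conjugates of powers
  of `P` iff `ψ (coc (P ^ n) i) = 0` whenever `P ^ n` fixes `i`;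
* `forall_coc_pow_iff` : it is enough to test a common period `N`;
* `exists_eq_op_sub_iff` : `z ∈ (g - 1) V` iff the full-period orbit sums of `z` vanish.
-/
import Mathlib
import Fermat.Agent.S41.PD.ShapiroLevel
import Fermat.Agent.S41.PD.Adjoint
import Fermat.Agent.M2.ES.Parabolic

set_option autoImplicit false

namespace Fermat.Agent.S41.PD.ShapiroDict

open Fermat.Agent.P3LR.A.Transfer2 Fermat.Agent.S41.PD.ShapiroGen Fermat.Agent.S41.PD.Dessin
open Fermat.Agent.S41.PD.ShapiroLevel Fermat.Agent.S41.PD.Adjoint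
open Fermat.Agent.N4F.Tors.HeckeHom
open Matrix.SpecialLinearGroup CongruenceSubgroup ModularGroup
open scoped MatrixGroups

/-! ### Generic: conjugates of powers and closed orbit segments -/

section Generic

variable {G Gam Del : Type*} [Group G] [Group Gam] [Group Del]
variable {jΓ : Gam →* G} {jΔ : Del →* G} {ι : Type*} {A : Type*} [AddCommGroup A]
variable {S : CosetSys₂ jΓ jΔ ι} {f : Del →* Gam} {t : ι → Gam} {i₀ : ι}

theorem t_base_of_isFull (H : IsFull S f t i₀) : t i₀ = 1 := by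
  apply H.hΓ
  rw [H.ht, H.h0, map_one]

/-- every `a : Gam` is `f e * t i` with `i` the coset of `a` -/
theorem eq_f_mul_t_of_isFull (H : IsFull S f t i₀) (a : Gam) :
    a = f (S.coc a i₀) * t (S.perm a i₀) := by
  have h := H.t_mul a i₀
  rwa [t_base_of_isFull H, one_mul] at h

/-- additive characters are invariant under conjugation -/
theorem map_conj_eq (ψ : Additive Del →+ A) (e d : Del) :
    ψ (Additive.ofMul (e * d * e⁻¹)) = ψ (Additive.ofMul d) := by
  rw [ofMul_mul, ofMul_mul, map_add, map_add, ofMul_inv, map_neg]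
  abel

/-- **`ψ` kills the conjugates of powers of `P` lying in `Del` iff the Shapiro cocycle of `ψ`
vanishes on every closed `P`-orbit segment.** -/
theorem forall_conj_pow_iff (H : IsFull S f t i₀) (ψ : Additive Del →+ A) (P : Gam) :
    (∀ (a : Gam) (n : ℕ) (d : Del), f d = a * P ^ n * a⁻¹ → ψ (Additive.ofMul d) = 0) ↔
      ∀ (i : ι) (n : ℕ), S.perm (P ^ n) i = i → ψ (Additive.ofMul (S.coc (P ^ n) i)) = 0 := by
  constructor
  · intro h i n hi
    exact h (t i) n _ (H.f_coc_of_perm_eq hi)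
  · intro h a n d hd
    set e := S.coc a i₀ with he
    set i := S.perm a i₀ with hi
    have ha : a = f e * t i := eq_f_mul_t_of_isFull H a
    have hd' : f (e⁻¹ * d * e) = t i * P ^ n * (t i)⁻¹ := by
      rw [map_mul, map_mul, map_inv, hd]
      conv_lhs => rw [ha]
      group
    have hfix : S.perm (P ^ n) i = i := H.perm_eq_of_conj hd'
    have hcoc : S.coc (P ^ n) i = e⁻¹ * d * e := H.coc_eq_of_conj hfix hd'
    have h0 := h i n hfix
    rw [hcoc] at h0
    have h1 := map_conj_eq ψ e⁻¹ d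
    rw [inv_inv] at h1
    rw [← h1, h0]

/-- **A common period suffices** (torsion-free coefficients): if `P ^ N` acts trivially, `N ≠ 0`,
then `ψ ∘ coc (P ^ N) = 0` implies `ψ (coc (P ^ n) i) = 0` for every closed segment. -/
theorem forall_coc_pow_iff (S : CosetSys₂ jΓ jΔ ι) (hA : ∀ (n : ℕ) (a : A), n ≠ 0 → n • a = 0 → a = 0)
    (ψ : Additive Del →+ A) (P : Gam) (N : ℕ) (hN : N ≠ 0) (hPN : ∀ i, S.perm (P ^ N) i = i) :
    (∀ (i : ι) (n : ℕ), S.perm (P ^ n) i = i → ψ (Additive.ofMul (S.coc (P ^ n) i)) = 0) ↔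
      ∀ i : ι, ψ (Additive.ofMul (S.coc (P ^ N) i)) = 0 := by
  constructor
  · intro h i
    exact h i N (hPN i)
  · intro h i n hi
    have hc := isCocycle_sh S ψ
    -- `sh ψ ((P ^ n) ^ N) i = N • sh ψ (P ^ n) i`
    have h1 : sh S ψ ((P ^ n) ^ N) i = N • sh S ψ (P ^ n) i := by
      rw [hc.map_pow_apply]
      have hfix : ∀ k : ℕ, ((S.permEquiv (P ^ n)) ^ k) i = i := by
        intro k
        induction k with
        | zero => rfl
        | succ k ih => rw [pow_succ, Equiv.Perm.mul_apply, CosetSys₂.permEquiv_apply, hi, ih]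
      simp only [hfix, Finset.sum_const, Finset.card_range]
    -- `sh ψ ((P ^ N) ^ n) i = 0`
    have h2 : sh S ψ ((P ^ N) ^ n) i = 0 := by
      rw [hc.map_pow_apply]
      refine Finset.sum_eq_zero fun k _ => ?_
      exact h _
    have h3 : (P ^ n) ^ N = (P ^ N) ^ n := by rw [← pow_mul, ← pow_mul, mul_comm]
    rw [h3, h2] at h1
    exact hA N _ hN h1.symm

/-- the full-period orbit sums of `c P` for a cocycle `c = sh ψ - cob y'` -/
theorem sum_orbit_sh_sub_cob (S : CosetSys₂ jΓ jΔ ι) (ψ : Additive Del →+ A) (y' : ι → A) (P : Gam)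
    (N : ℕ) (i : ι) (hi : S.perm (P ^ N) i = i) :
    ∑ k ∈ Finset.range N, (sh S ψ P - cob S y' P) (((S.permEquiv P) ^ k) i) =
      ψ (Additive.ofMul (S.coc (P ^ N) i)) := by
  have hc : IsCocycle S (fun g => sh S ψ g - cob S y' g) :=
    (isCocycle_sh S ψ).sub (isCocycle_cob S y')
  have h := hc.map_pow_apply P N i
  rw [← h, Pi.sub_apply, sh_apply, cob_apply, hi, sub_self, sub_zero]

end Generic

/-! ### Dessin level: `(g - 1) V` and full-period orbit sums -/

section Orbit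

variable {X : Type*} [Fintype X] [DecidableEq X]

theorem op_pow_of_op_eq (g : Equiv.Perm X) (e : X → ℤ) (he : op g e = e) (k : ℕ) :
    op (g ^ k) e = e := by
  induction k with
  | zero => rw [pow_zero, op_one]
  | succ k ih => rw [pow_succ, ← op_op, ih, he]

/-- **`z ∈ (g - 1) V` iff all full-period orbit sums of `z` vanish.** -/
theorem exists_eq_op_sub_iff (g : Equiv.Perm X) (N : ℕ) (hN : N ≠ 0) (hgN : g ^ N = 1)
    (z : X → ℤ) :
    (∃ y : X → ℤ, z = op g y - y) ↔ ∀ x, ∑ k ∈ Finset.range N, z ((g ^ k) x) = 0 := by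
  constructor
  · rintro ⟨y, rfl⟩ x
    have h1 : ∀ k : ℕ, (op g y - y) ((g ^ k) x) = y ((g ^ (k + 1)) x) - y ((g ^ k) x) := by
      intro k
      rw [Pi.sub_apply, op_apply, pow_succ', Equiv.Perm.mul_apply]
    simp only [h1]
    rw [Finset.sum_range_sub (fun k => y ((g ^ k) x)), hgN, pow_zero, sub_self]
  · intro h
    refine exists_eq_op_sub g z fun e he => ?_
    have h1 : ∀ k : ℕ, op (g ^ k) z ⬝ᵥ e = z ⬝ᵥ e := by
      intro k
      conv_lhs => rw [← op_pow_of_op_eq g e he k]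
      exact dot_op_op (g ^ k) z e
    have h2 : (∑ k ∈ Finset.range N, op (g ^ k) z) = 0 := by
      funext x
      rw [Finset.sum_apply]
      exact h x
    have h3 : (∑ k ∈ Finset.range N, op (g ^ k) z) ⬝ᵥ e = (N : ℤ) * (z ⬝ᵥ e) := by
      rw [sum_dotProduct]
      simp only [h1, Finset.sum_const, Finset.card_range, nsmul_eq_mul]
    rw [h2, zero_dotProduct] at h3
    rcases mul_eq_zero.mp h3.symm with h4 | h4
    · exact absurd (by exact_mod_cast h4) hN
    · exact h4

end Orbit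

/-! ### Level `M`: parabolic homomorphisms and conjugates of powers of `T` -/

section Level

variable (M : ℕ)

/-- the parabolic element `P = tg * sg = S⁻¹ T S`; `σ * τ` is `x ↦ x · P` -/
def Pg : SL(2, ℤ) := tg * sg

theorem Pg_pow (n : ℕ) : Pg ^ n = S⁻¹ * T ^ n * S := by
  induction n with
  | zero => simp
  | succ n ih =>
    rw [pow_succ, ih, pow_succ, Pg, tg, sg]
    group

theorem trace_conj_T_pow (a : SL(2, ℤ)) (n : ℕ) :
    ((a * T ^ n * a⁻¹ : SL(2, ℤ)) : Matrix (Fin 2) (Fin 2) ℤ).trace = 2 := by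
  have h1 : ((a * T ^ n * a⁻¹ : SL(2, ℤ)) : Matrix (Fin 2) (Fin 2) ℤ) =
      (a : Matrix (Fin 2) (Fin 2) ℤ) * ((T ^ n : SL(2, ℤ)) : Matrix (Fin 2) (Fin 2) ℤ) *
        ((a⁻¹ : SL(2, ℤ)) : Matrix (Fin 2) (Fin 2) ℤ) := by
    rw [Matrix.SpecialLinearGroup.coe_mul, Matrix.SpecialLinearGroup.coe_mul]
  have h2 : ((a⁻¹ : SL(2, ℤ)) : Matrix (Fin 2) (Fin 2) ℤ) * (a : Matrix (Fin 2) (Fin 2) ℤ) = 1 := by
    rw [← Matrix.SpecialLinearGroup.coe_mul, inv_mul_cancel, Matrix.SpecialLinearGroup.coe_one]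
  rw [h1, Matrix.trace_mul_comm, ← Matrix.mul_assoc, h2, Matrix.one_mul]
  have h3 : ((T ^ n : SL(2, ℤ)) : Matrix (Fin 2) (Fin 2) ℤ) = !![1, (n : ℤ); 0, 1] := by
    have := ModularGroup.coe_T_zpow (n : ℤ)
    rw [zpow_natCast] at this
    exact this
  rw [h3, Matrix.trace_fin_two]
  simp

theorem map_eq_zero_of_isOfFinOrder (φ : Additive ↥(Gamma0 M) →+ ℤ) (g : ↥(Gamma0 M))
    (hg : IsOfFinOrder g) : φ (Additive.ofMul g) = 0 := by
  obtain ⟨n, hn, hgn⟩ := isOfFinOrder_iff_pow_eq_one.mp hg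
  have h1 : (n : ℤ) * φ (Additive.ofMul g) = 0 := by
    have h2 : φ (Additive.ofMul (g ^ n)) = n • φ (Additive.ofMul g) := by
      rw [ofMul_pow, map_nsmul]
    rw [hgn, ofMul_one, map_zero] at h2
    rw [← nsmul_eq_mul]
    exact h2.symm
  rcases mul_eq_zero.mp h1 with h | h
  · exact absurd (by exact_mod_cast h) hn.ne'
  · exact h

/-- **`φ` is parabolic iff it kills the conjugates of powers of `T` lying in `Γ₀(M)`.** -/
theorem mem_parHomAdd_iff_T (φ : Additive ↥(Gamma0 M) →+ ℤ) :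
    φ ∈ parHomAdd M ℤ ↔ ∀ (a : SL(2, ℤ)) (n : ℕ) (d : ↥(Gamma0 M)),
      (d : SL(2, ℤ)) = a * T ^ n * a⁻¹ → φ (Additive.ofMul d) = 0 := by
  constructor
  · intro hφ a n d hd
    refine hφ d (Or.inl ?_)
    rw [hd, trace_conj_T_pow]
    norm_num
  · intro h g hg
    -- the element `-1` of `Γ₀(M)`
    set m1 : ↥(Gamma0 M) := ⟨-1, neg_one_mem_Gamma0 M⟩ with hm1
    have hm1' : φ (Additive.ofMul m1) = 0 := by
      refine map_eq_zero_of_isOfFinOrder M φ m1 (isOfFinOrder_iff_pow_eq_one.mpr ⟨2, by norm_num, ?_⟩)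
      apply Subtype.ext
      show (-1 : SL(2, ℤ)) ^ 2 = 1
      rw [neg_one_sq]
    -- reduce to `g = δ T^n δ⁻¹`, `n : ℕ`
    have key : ∀ (g : ↥(Gamma0 M)) (δ : SL(2, ℤ)) (m : ℤ), (g : SL(2, ℤ)) = δ * T ^ m * δ⁻¹ →
        φ (Additive.ofMul g) = 0 := by
      intro g δ m hgm
      rcases Int.eq_nat_or_neg m with ⟨n, rfl | rfl⟩
      · rw [zpow_natCast] at hgm
        exact h δ n g hgm
      · have h1 : ((g⁻¹ : ↥(Gamma0 M)) : SL(2, ℤ)) = δ * T ^ n * δ⁻¹ := by
          rw [Subgroup.coe_inv, hgm, zpow_neg, zpow_natCast]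
          group
        have h2 := h δ n g⁻¹ h1
        rw [ofMul_inv, map_neg, neg_eq_zero] at h2
        exact h2
    rcases hg with hg | hg
    · obtain ⟨δ, m, hδ | hδ⟩ := Fermat.Agent.M2.ES.Parabolic.exists_conj_T_zpow (g : SL(2, ℤ)) hg
      · exact key g δ m hδ
      · have h1 : ((m1 * g : ↥(Gamma0 M)) : SL(2, ℤ)) = δ * T ^ m * δ⁻¹ := by
          rw [Subgroup.coe_mul, hδ]
          show (-1 : SL(2, ℤ)) * -(δ * T ^ m * δ⁻¹) = _
          rw [neg_mul, one_mul, neg_neg]
        have h2 := key (m1 * g) δ m h1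
        rw [ofMul_mul, map_add, hm1', zero_add] at h2
        exact h2
    · exact map_eq_zero_of_isOfFinOrder M φ g (by
        obtain ⟨n, hn, hgn⟩ := isOfFinOrder_iff_pow_eq_one.mp hg
        exact isOfFinOrder_iff_pow_eq_one.mpr ⟨n, hn, Subtype.ext (by
          rw [Subgroup.coe_pow, hgn]; rfl)⟩)

/-- the same with `P = S⁻¹ T S` -/
theorem mem_parHomAdd_iff_Pg (φ : Additive ↥(Gamma0 M) →+ ℤ) :
    φ ∈ parHomAdd M ℤ ↔ ∀ (a : SL(2, ℤ)) (n : ℕ) (d : ↥(Gamma0 M)),
      (Gamma0 M).subtype d = a * Pg ^ n * a⁻¹ → φ (Additive.ofMul d) = 0 := by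
  rw [mem_parHomAdd_iff_T]
  constructor
  · intro h a n d hd
    refine h (a * S⁻¹) n d ?_
    rw [Subgroup.coe_subtype, Pg_pow] at hd
    rw [hd]
    group
  · intro h a n d hd
    refine h (a * S) n d ?_
    rw [Subgroup.coe_subtype, Pg_pow, hd]
    group

end Level

/-! ### The dictionary -/

section Dict

variable (M : ℕ) [NeZero M]

theorem sigmaM_mul_tauM_eq : sigmaM M * tauM M = (SM M).permEquiv Pg := sigmaM_mul_tauM M

/-- **The parabolic dictionary**: for a representative `v` of `Θ φ`,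
`φ` is parabolic iff `v` is a parabolic class of the dessin. -/
theorem mem_parHomAdd_iff_mem_Npar (φ : Additive ↥(Gamma0 M) →+ ℤ) (v : XM M → ℤ)
    (hv : IsRep (SM M) sg tg φ v) :
    φ ∈ parHomAdd M ℤ ↔ v ∈ Npar (sigmaM M) (tauM M) := by
  obtain ⟨y, y', hy, hy', hw⟩ := hv
  have hD := isDessin_M M
  -- reduce to `y - y'`
  have hvN : v ∈ Npar (sigmaM M) (tauM M) ↔ (y - y') ∈ Npar (sigmaM M) (tauM M) := by
    have hw' : v - (y - y') ∈ Npar (sigmaM M) (tauM M) := hD.W_le_Npar hw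
    constructor
    · intro h
      have := Submodule.sub_mem _ h hw'
      rwa [sub_sub_cancel] at this
    · intro h
      have := Submodule.add_mem _ hw' h
      rwa [sub_add_cancel] at this
  rw [hvN]
  -- the cocycle `c' = sh φ - cob y'`
  set z : XM M → ℤ := op (tauM M) (y - y') - (y - y') with hz
  have hzP : z = sh (SM M) φ Pg - cob (SM M) y' Pg := by
    have hc : IsCocycle (SM M) (fun g => sh (SM M) φ g - cob (SM M) y' g) :=
      (isCocycle_sh (SM M) φ).sub (isCocycle_cob (SM M) y')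
    have h1 := hc tg sg
    simp only at h1
    have hs0 : sh (SM M) φ sg - cob (SM M) y' sg = 0 := by
      funext x
      have := congrFun hy' x
      simp only [Pi.sub_apply, op_apply, shp_apply] at this
      simp only [Pi.sub_apply, sh_apply, cob_apply, Pi.zero_apply]
      rw [← this]
      simp [CosetSys₂.permEquiv_apply]
    have ht0 : sh (SM M) φ tg - cob (SM M) y' tg = z := by
      funext x
      have := congrFun hy x
      simp only [Pi.sub_apply, op_apply, shp_apply] at this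
      simp only [hz, Pi.sub_apply, sh_apply, cob_apply, op_apply, tauM_apply]
      rw [← this]
      simp only [CosetSys₂.permEquiv_apply]
      ring
    rw [show Pg = tg * sg from rfl, h1, hs0, map_zero, add_zero, ht0]
  -- period
  set N := orderOf ((SM M).permEquiv Pg) with hNdef
  have hN : N ≠ 0 := (orderOf_pos _).ne'
  have hgN : ((SM M).permEquiv Pg) ^ N = 1 := pow_orderOf_eq_one _
  have hPN : ∀ x, (SM M).perm (Pg ^ N) x = x := by
    intro x
    rw [(SM M).perm_pow, hgN]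
    rfl
  have step1 : (y - y') ∈ Npar (sigmaM M) (tauM M) ↔
      ∀ x, ∑ k ∈ Finset.range N, z ((((SM M).permEquiv Pg) ^ k) x) = 0 := by
    rw [mem_Npar, ← exists_eq_op_sub_iff ((SM M).permEquiv Pg) N hN hgN z]
    constructor
    · rintro ⟨w, hw⟩
      exact ⟨w, by rw [hz, hw, op_op, sigmaM_mul_tauM_eq]⟩
    · rintro ⟨w, hw⟩
      exact ⟨w, by rw [← hz, hw, op_op, sigmaM_mul_tauM_eq]⟩
  have step2 : (∀ x, ∑ k ∈ Finset.range N, z ((((SM M).permEquiv Pg) ^ k) x) = 0) ↔
      ∀ x, φ (Additive.ofMul ((SM M).coc (Pg ^ N) x)) = 0 := by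
    refine forall_congr' fun x => ?_
    rw [hzP, sum_orbit_sh_sub_cob (SM M) φ y' Pg N x (hPN x)]
  have hA : ∀ (n : ℕ) (a : ℤ), n ≠ 0 → n • a = 0 → a = 0 := by
    intro n a hn h
    rw [nsmul_eq_mul] at h
    rcases mul_eq_zero.mp h with h | h
    · exact absurd (by exact_mod_cast h) hn
    · exact h
  rw [step1, step2, ← forall_coc_pow_iff (SM M) hA φ Pg N hN hPN,
    ← forall_conj_pow_iff (SM_isFull M) φ Pg, mem_parHomAdd_iff_Pg]

end Dict

end Fermat.Agent.S41.PD.ShapiroDict
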