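/-
S41 / block [PD] (helper5): **surjectivity of `Θ` at level `M`** in the vocabulary of
`PD/ShapiroLevel.lean` (helper29) and `PD/Adjoint.lean` (helper11):

  `exists_isRep_of_fun : ∀ v : XM M → ℤ, ∃ φ : Additive ↥(Gamma0 M) →+ ℤ, IsRep (SM M) sg tg φ v`.

Adapter from `PD/Shapiro.lean`: the canonical Shapiro system `SM M` is a `GSet (Gamma0 M) (XM M)`
(`gsetM M`), its `sig`, `tau` are `sigmaM M`, `tauM M`, and `φ := Psi v` works: the Shapiro
cochain `shp (SM M) φ` and the cocycle `cv v` have the same restriction to `Γ₀(M)`, hence differ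
by a coboundary `δ w`; then `y' := w`, `y := v + w` are the witnesses of `IsRep`.
Also: `isRep_Psi`, `Psi_eq_of_isRep` (`IsRep (SM M) sg tg φ v ↔ Psi v = φ`).
-/
import Mathlib
import Fermat.Agent.S41.PD.Shapiro
import Fermat.Agent.S41.PD.ShapiroLevel
import Fermat.Agent.S41.PD.Adjoint

set_option autoImplicit false
set_option linter.unusedSectionVars false
set_option linter.unusedVariables false

namespace Fermat.Agent.S41.PD.ShapiroSurj

open Fermat.Agent.P3LR.A.Transfer2 Fermat.Agent.S41.PD.ShapiroGen Fermat.Agent.S41.PD.Dessin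
open Fermat.Agent.S41.PD.ShapiroLevel Fermat.Agent.S41.PD.Adjoint
open Fermat.Agent.S41.PD.Shapiro
open Fermat.Agent.N4F.Tors.HeckeHom
open CongruenceSubgroup ModularGroup
open scoped MatrixGroups

variable (M : ℕ)

/-- the canonical Shapiro system of level `M` as a `GSet` -/
noncomputable def gsetM : GSet (Gamma0 M) (XM M) where
  perm g := (SM M).permEquiv g
  perm_mul g h := permEquiv_mul (SM M) g h
  base := rmk (Gamma0 M) 1
  stab g := by
    show (SM M).perm g (rmk (Gamma0 M) 1) = rmk (Gamma0 M) 1 ↔ g ∈ Gamma0 M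
    rw [SM_perm_rmk, one_mul, rmk_eq_rmk, one_mul]
    exact ⟨fun h => by simpa using (Gamma0 M).inv_mem h, fun h => (Gamma0 M).inv_mem h⟩
  trans x := by
    obtain ⟨a, rfl⟩ := rmk_surjective (Gamma0 M) x
    refine ⟨a, ?_⟩
    show (SM M).perm a (rmk (Gamma0 M) 1) = rmk (Gamma0 M) a
    rw [SM_perm_rmk, one_mul]
  neg_one_mem := neg_one_mem_Gamma0 M

theorem gsetM_perm (g : SL(2, ℤ)) : (gsetM M).perm g = (SM M).permEquiv g := rfl

theorem gsetM_base : (gsetM M).base = rmk (Gamma0 M) 1 := rfl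

theorem gsetM_sig : (gsetM M).sig = sigmaM M := rfl

theorem gsetM_tau : (gsetM M).tau = tauM M := by
  show (gsetM M).perm FreeProduct.U = (gsetM M).perm tg
  rw [tg_eq, GSet.perm_neg]
  rfl

section Main

variable [NeZero M]

/-- the Shapiro cochain of `φ` is a cocycle of the `GSet` -/
theorem isCoc_shp (φ : Additive ↥(Gamma0 M) →+ ℤ) : (gsetM M).IsCoc (shp (SM M) φ) :=
  fun g h => sh_mul (SM M) φ g h

/-- its restriction to `Γ₀(M)` is `φ` -/
theorem res_shp (φ : Additive ↥(Gamma0 M) →+ ℤ) : (isCoc_shp M φ).res = φ := by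
  refine AddMonoidHom.ext fun γ => ?_
  obtain ⟨γ, rfl⟩ := Additive.ofMul.surjective γ
  rw [GSet.IsCoc.res_apply]
  show φ (Additive.ofMul ((SM M).coc ((Gamma0 M).subtype γ) (rmk (Gamma0 M) 1))) = _
  rw [(SM_isFull M).coc_f]

/-- `shp φ = cv v + δ w` when `Psi v = φ` -/
theorem exists_shp_eq (v : XM M → ℤ) (φ : Additive ↥(Gamma0 M) →+ ℤ) (h : (gsetM M).Psi v = φ) :
    ∃ w : XM M → ℤ, shp (SM M) φ = (gsetM M).cv v + (gsetM M).cob w := by
  have hc := (isCoc_shp M φ).sub ((gsetM M).isCoc_cv v)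
  have hres : hc.res = 0 := by
    rw [GSet.IsCoc.res_sub (isCoc_shp M φ) ((gsetM M).isCoc_cv v), res_shp, ← h]
    exact sub_self _
  obtain ⟨w, hw⟩ := hc.exists_cob_of_res_eq_zero hres
  exact ⟨w, by rw [← hw]; abel⟩

/-- **`Psi v` is represented by `v`.** -/
theorem isRep_Psi (v : XM M → ℤ) : IsRep (SM M) sg tg ((gsetM M).Psi v) v := by
  obtain ⟨w, hw⟩ := exists_shp_eq M v _ rfl
  have hS := congrFun hw sg
  have hT := congrFun hw tg
  have hcvT : (gsetM M).cv v tg = op (tauM M) v - v := by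
    rw [tg_eq, ((gsetM M).isCoc_cv v).map_neg]
    show (gsetM M).cv v FreeProduct.U = _
    rw [GSet.cv_U, gsetM_tau]
  rw [Pi.add_apply, GSet.cv_S, zero_add] at hS
  rw [Pi.add_apply, hcvT] at hT
  refine ⟨v + w, w, ?_, ?_, ?_⟩
  · rw [hT]
    show op (tauM M) (v + w) - (v + w) = op (tauM M) v - v + (op ((gsetM M).perm tg) w - w)
    rw [map_add]
    show _ = op (tauM M) v - v + (op (tauM M) w - w)
    abel
  · rw [hS]
    rfl
  · have : v - (v + w - w) = 0 := by abel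
    rw [this]
    exact Submodule.zero_mem _

/-- **(Surj)** every `v` represents a homomorphism. -/
theorem exists_isRep_of_fun (v : XM M → ℤ) :
    ∃ φ : Additive ↥(Gamma0 M) →+ ℤ, IsRep (SM M) sg tg φ v :=
  ⟨(gsetM M).Psi v, isRep_Psi M v⟩

/-- conversely `IsRep φ v` forces `φ = Psi v` -/
theorem Psi_eq_of_isRep {φ : Additive ↥(Gamma0 M) →+ ℤ} {v : XM M → ℤ}
    (h : IsRep (SM M) sg tg φ v) : (gsetM M).Psi v = φ := by
  obtain ⟨v', rfl⟩ := (gsetM M).Psi_surjective φ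
  have h2 := isRep_Psi M v'
  have hW := h.sub_mem_W h2
  rw [GSet.Psi_eq_iff, gsetM_sig, gsetM_tau]
  exact hW

theorem isRep_iff (φ : Additive ↥(Gamma0 M) →+ ℤ) (v : XM M → ℤ) :
    IsRep (SM M) sg tg φ v ↔ (gsetM M).Psi v = φ :=
  ⟨Psi_eq_of_isRep M, fun h => h ▸ isRep_Psi M v⟩

end Main

end Fermat.Agent.S41.PD.ShapiroSurj
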